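import Mathlib
import Fermat.Agent.S21
import Fermat.Agent.S16.helper26_HeckeInd

/-!
# P3 [AN6-L] (helper16): the period lattice of `periodHomPair` and its characters

`V = S₂(Γ₀(N)) × S₂(Γ₀(N))`.  The period functionals `perZ γ : x ↦ periodHomPair N x γ`
(`γ ∈ Γ₀(N)`) form a finitely generated free abelian group `perLat N` inside `V →ₗ[ℂ] ℂ`, which
separates the points of `V` (S21) and is stable under `λ ↦ λ ∘ P` for every Hecke polynomial `P`.
The characters `ε ∘ perZ : Γ₀(N) → A` (`ε : perLat N →+ A`) are parabolic, and the Hecke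
operators `heckeHom N ℓ` of S16-[B1] act on them through the transpose action on `perLat N`.
-/

set_option autoImplicit false

open ModularCurve CuspForm CongruenceSubgroup ModularCurve.Period
open scoped MatrixGroups

noncomputable section

namespace Fermat.Agent.P3.helper16

open Fermat.Agent.S16
open scoped Fermat.Agent.S16.helper26

variable (N : ℕ) [NeZero N]

/-- pairs of cusp forms of weight `2` -/
abbrev V2 : Type := CuspForm (Gamma0 N) 2 × CuspForm (Gamma0 N) 2

/-- `heckeEvalForms N 2 P` acting on pairs, as a linear map. -/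
def evalPairLin (P : HeckeAlg) : V2 N →ₗ[ℂ] V2 N :=
  LinearMap.prodMap (heckeEvalForms N 2 P : Module.End ℂ (CuspForm (Gamma0 N) 2))
    (heckeEvalForms N 2 P : Module.End ℂ (CuspForm (Gamma0 N) 2))

theorem evalPairLin_apply (P : HeckeAlg) (x : V2 N) :
    evalPairLin N P x = helper26.evalPair N P x := rfl

theorem evalPairLin_add (P Q : HeckeAlg) :
    evalPairLin N (P + Q) = evalPairLin N P + evalPairLin N Q := by
  refine LinearMap.ext fun x => ?_
  rw [evalPairLin_apply, helper26.evalPair_add]
  rfl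

theorem evalPairLin_mul (P Q : HeckeAlg) :
    evalPairLin N (P * Q) = evalPairLin N P ∘ₗ evalPairLin N Q := by
  refine LinearMap.ext fun x => ?_
  simp only [evalPairLin, map_mul, LinearMap.prodMap_apply, LinearMap.comp_apply]
  rfl

theorem evalPairLin_one : evalPairLin N 1 = LinearMap.id := by
  refine LinearMap.ext fun x => ?_
  simp only [evalPairLin, map_one, LinearMap.prodMap_apply]
  rfl

theorem evalPairLin_zero : evalPairLin N 0 = 0 := by
  refine LinearMap.ext fun x => ?_
  simp only [evalPairLin, map_zero, LinearMap.prodMap_apply]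
  rfl

theorem evalPairLin_C (a : ℤ) : evalPairLin N (MvPolynomial.C a) = (a : ℂ) • LinearMap.id := by
  refine LinearMap.ext fun x => ?_
  rw [evalPairLin_apply, helper26.evalPair_C]
  rfl

theorem evalPairLin_X (ℓ : Nat.Primes) (x : V2 N) :
    evalPairLin N (MvPolynomial.X ℓ) x = helper26.heckePair N ℓ x := by
  have h := helper26.evalPair_mul_X N 1 ℓ x
  rw [one_mul] at h
  rw [evalPairLin_apply, h, ← evalPairLin_apply, evalPairLin_one]
  rfl

/-- The period functional of `γ`: `x ↦ periodHomPair N x γ`. -/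
def perZ : Additive (Gamma0 N) →+ (V2 N →ₗ[ℂ] ℂ) where
  toFun γ :=
    { toFun := fun x => periodHomPair N x γ
      map_add' := fun x y => by rw [map_add]; rfl
      map_smul' := fun c x => by rw [map_smul]; rfl }
  map_zero' := LinearMap.ext fun x => map_zero (periodHomPair N x)
  map_add' γ δ := LinearMap.ext fun x => map_add (periodHomPair N x) γ δ

omit [NeZero N] in
@[simp]
theorem perZ_apply (γ : Additive (Gamma0 N)) (x : V2 N) :
    perZ N γ x = periodHomPair N x γ := rfl

/-- The period lattice: the (additive) group of all period functionals. -/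
def perLat : AddSubgroup (V2 N →ₗ[ℂ] ℂ) := (perZ N).range

omit [NeZero N] in
theorem mem_perLat {lam : V2 N →ₗ[ℂ] ℂ} :
    lam ∈ perLat N ↔ ∃ γ : Additive (Gamma0 N), perZ N γ = lam := Iff.rfl

omit [NeZero N] in
theorem perZ_mem_perLat (γ : Additive (Gamma0 N)) : perZ N γ ∈ perLat N := ⟨γ, rfl⟩

/-- `perZ` with values in the lattice. -/
def perZ' : Additive (Gamma0 N) →+ perLat N := (perZ N).rangeRestrict

omit [NeZero N] in
@[simp]
theorem coe_perZ' (γ : Additive (Gamma0 N)) : ((perZ' N γ : perLat N) : V2 N →ₗ[ℂ] ℂ) = perZ N γ :=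
  rfl

omit [NeZero N] in
theorem perZ'_surjective : Function.Surjective (perZ' N) :=
  (perZ N).rangeRestrict_surjective

/-- `SL(2, ℤ)` is finitely generated. -/
theorem fg_SL2Z : Group.FG SL(2, ℤ) := by
  refine (Group.fg_iff).mpr ⟨{ModularGroup.S, ModularGroup.T}, ?_, Set.toFinite _⟩
  exact SpecialLinearGroup.SL2Z_generators

/-- `Γ₀(N)` is finitely generated. -/
theorem fg_Gamma0 : Group.FG (Gamma0 N) := by
  have := fg_SL2Z
  exact Subgroup.fg_of_index_ne_zero (Gamma0 N)

instance finite_perLat : Module.Finite ℤ (perLat N) := by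
  have h1 : Group.FG (Gamma0 N) := fg_Gamma0 N
  have h2 : AddGroup.FG (Additive (Gamma0 N)) := AddGroup.fg_iff_mul_fg.mpr
    (Group.fg_of_surjective (f := (MulEquiv.refl (Gamma0 N)).toMonoidHom)
      (MulEquiv.refl (Gamma0 N)).surjective)
  have h3 : AddGroup.FG (perZ N).range := AddGroup.fg_range (perZ N)
  exact Module.Finite.iff_addGroup_fg.mpr h3

omit [NeZero N] in
theorem isAddTorsionFree_dual : IsAddTorsionFree (V2 N →ₗ[ℂ] ℂ) :=
  .of_isTorsionFree ℂ _

instance isAddTorsionFree_perLat : IsAddTorsionFree (perLat N) where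
  nsmul_right_injective n hn a b hab := by
    have := isAddTorsionFree_dual N
    apply Subtype.ext
    have h : n • (a : V2 N →ₗ[ℂ] ℂ) = n • (b : V2 N →ₗ[ℂ] ℂ) := congrArg Subtype.val hab
    exact nsmul_right_injective hn h

instance free_perLat : Module.Free ℤ (perLat N) :=
  Module.free_of_finite_type_torsion_free'

/-- Periods of parabolic elements vanish. -/
theorem perZ_parabolic (γ : Gamma0 N)
    (hγ : ((γ : SL(2, ℤ)) : Matrix (Fin 2) (Fin 2) ℤ).trace ^ 2 = 4) :
    perZ N (Additive.ofMul γ) = 0 := by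
  refine LinearMap.ext fun x => ?_
  have hx : periodHomPair N x ∈ parabolicHoms ℂ (Gamma0 N) ℂ := by
    rw [← (Fermat.Agent.S21.result N).2]
    exact ⟨x, rfl⟩
  exact hx γ hγ

/-- The period lattice separates the points of `V`. -/
theorem perLat_separates (x : V2 N) (h : ∀ lam ∈ perLat N, lam x = 0) : x = 0 := by
  apply (Fermat.Agent.S21.result N).1
  rw [map_zero]
  refine AddMonoidHom.ext fun γ => ?_
  exact h _ (perZ_mem_perLat N γ)

/-- One Hecke step on period functionals, in terms of the coset systems of S16-[B1]. -/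
theorem perZ_comp_heckePair (ℓ : Nat.Primes) (γ : Gamma0 N) (x : V2 N) :
    perZ N (Additive.ofMul γ) (helper26.heckePair N ℓ x) =
      if h : (ℓ : ℕ) ∣ N then
        ∑ j : ZMod ℓ, perZ N (Additive.ofMul ((helper26.systemU N ℓ h).step γ j)) x
      else
        ∑ j : OnePoint (ZMod ℓ),
          perZ N (Additive.ofMul ((helper26.systemT N ℓ h).step γ j)) x := by
  rw [perZ_apply, helper26.periodHomPair_heckePair]
  split_ifs with h
  · rw [helper26.heckeHom_apply_of_dvd N h]
    rfl
  · rw [helper26.heckeHom_apply_of_not_dvd N h]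
    rfl

theorem perZ_comp_heckePair_mem (ℓ : Nat.Primes) (γ : Additive (Gamma0 N)) :
    ∃ lam ∈ perLat N, ∀ x : V2 N, perZ N γ (helper26.heckePair N ℓ x) = lam x := by
  classical
  by_cases h : (ℓ : ℕ) ∣ N
  · refine ⟨∑ j : ZMod ℓ,
      perZ N (Additive.ofMul ((helper26.systemU N ℓ h).step (Additive.toMul γ) j)),
      sum_mem fun j _ => perZ_mem_perLat N _, fun x => ?_⟩
    have := perZ_comp_heckePair N ℓ (Additive.toMul γ) x
    rw [dif_pos h] at this
    rw [LinearMap.sum_apply]
    exact this
  · refine ⟨∑ j : OnePoint (ZMod ℓ),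
      perZ N (Additive.ofMul ((helper26.systemT N ℓ h).step (Additive.toMul γ) j)),
      sum_mem fun j _ => perZ_mem_perLat N _, fun x => ?_⟩
    have := perZ_comp_heckePair N ℓ (Additive.toMul γ) x
    rw [dif_neg h] at this
    rw [LinearMap.sum_apply]
    exact this

/-- The period lattice is stable under the transpose Hecke action. -/
theorem comp_evalPairLin_mem_perLat (P : HeckeAlg) :
    ∀ lam ∈ perLat N, lam ∘ₗ evalPairLin N P ∈ perLat N := by
  induction P using MvPolynomial.induction_on with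
  | C a =>
    intro lam hlam
    rw [evalPairLin_C]
    have : lam ∘ₗ ((a : ℂ) • LinearMap.id) = a • lam := by
      refine LinearMap.ext fun x => ?_
      simp only [LinearMap.comp_apply, LinearMap.smul_apply, LinearMap.id_apply, map_smul,
        smul_eq_mul]
      rw [← Int.cast_smul_eq_zsmul ℂ a (lam x), smul_eq_mul]
    rw [this]
    exact (perLat N).zsmul_mem hlam a
  | add P Q hP hQ =>
    intro lam hlam
    rw [evalPairLin_add, LinearMap.comp_add]
    exact (perLat N).add_mem (hP lam hlam) (hQ lam hlam)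
  | mul_X P ℓ hP =>
    intro lam hlam
    obtain ⟨γ, hγ⟩ := hP lam hlam
    obtain ⟨mu, hmu, hmux⟩ := perZ_comp_heckePair_mem N ℓ γ
    have : lam ∘ₗ evalPairLin N (P * MvPolynomial.X ℓ) = mu := by
      refine LinearMap.ext fun x => ?_
      rw [evalPairLin_mul, LinearMap.comp_apply, LinearMap.comp_apply, evalPairLin_X,
        ← LinearMap.comp_apply lam, ← hγ]
      exact hmux x
    rw [this]
    exact hmu

/-- The transpose action of a Hecke polynomial on the period lattice. -/
def hTr (P : HeckeAlg) : perLat N →+ perLat N where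
  toFun lam := ⟨(lam : V2 N →ₗ[ℂ] ℂ) ∘ₗ evalPairLin N P, comp_evalPairLin_mem_perLat N P _ lam.2⟩
  map_zero' := Subtype.ext (LinearMap.zero_comp _)
  map_add' _ _ := Subtype.ext (LinearMap.add_comp _ _ _)

@[simp]
theorem coe_hTr (P : HeckeAlg) (lam : perLat N) :
    ((hTr N P lam : perLat N) : V2 N →ₗ[ℂ] ℂ) = (lam : V2 N →ₗ[ℂ] ℂ) ∘ₗ evalPairLin N P := rfl

theorem hTr_apply_apply (P : HeckeAlg) (lam : perLat N) (x : V2 N) :
    (hTr N P lam : V2 N →ₗ[ℂ] ℂ) x = (lam : V2 N →ₗ[ℂ] ℂ) (helper26.evalPair N P x) := rfl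

theorem hTr_one : hTr N 1 = AddMonoidHom.id _ := by
  refine AddMonoidHom.ext fun lam => Subtype.ext ?_
  rw [coe_hTr, evalPairLin_one]
  rfl

theorem hTr_zero : hTr N 0 = 0 := by
  refine AddMonoidHom.ext fun lam => Subtype.ext ?_
  rw [coe_hTr, evalPairLin_zero]
  simp

theorem hTr_add (P Q : HeckeAlg) : hTr N (P + Q) = hTr N P + hTr N Q := by
  refine AddMonoidHom.ext fun lam => Subtype.ext ?_
  rw [coe_hTr, evalPairLin_add, LinearMap.comp_add]
  rfl

/-- `hTr` is multiplicative (the Hecke ring acting on `V` is commutative). -/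
theorem hTr_mul (P Q : HeckeAlg) : hTr N (P * Q) = (hTr N P).comp (hTr N Q) := by
  refine AddMonoidHom.ext fun lam => Subtype.ext ?_
  rw [mul_comm, coe_hTr, evalPairLin_mul]
  rfl

theorem hTr_C (a : ℤ) (lam : perLat N) : hTr N (MvPolynomial.C a) lam = a • lam := by
  refine Subtype.ext ?_
  rw [coe_hTr, evalPairLin_C]
  refine LinearMap.ext fun x => ?_
  simp only [LinearMap.comp_apply, LinearMap.smul_apply, LinearMap.id_apply, map_smul,
    smul_eq_mul, AddSubgroup.coe_zsmul]
  rw [← Int.cast_smul_eq_zsmul ℂ a, smul_eq_mul]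

variable {A : Type*} [AddCommGroup A]

/-- Characters `ε ∘ per` are parabolic. -/
theorem isParabolicHom_comp_perZ' (ε : perLat N →+ A) :
    IsParabolicHom (Gamma0 N) (ε.comp (perZ' N)) := by
  intro γ hγ
  have h0 : perZ' N (Additive.ofMul γ) = 0 := Subtype.ext (perZ_parabolic N γ hγ)
  rw [AddMonoidHom.comp_apply, h0, map_zero]

theorem comp_perZ'_mem_parabolicHoms (R : Type*) [Semiring R] [Module R A] (ε : perLat N →+ A) :
    ε.comp (perZ' N) ∈ parabolicHoms R (Gamma0 N) A :=
  isParabolicHom_comp_perZ' N ε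

/-- One Hecke step on the lattice, in terms of the coset systems of S16-[B1]. -/
theorem hTr_X_perZ' (ℓ : Nat.Primes) (γ : Gamma0 N) :
    hTr N (MvPolynomial.X ℓ) (perZ' N (Additive.ofMul γ)) =
      if h : (ℓ : ℕ) ∣ N then
        ∑ j : ZMod ℓ, perZ' N (Additive.ofMul ((helper26.systemU N ℓ h).step γ j))
      else
        ∑ j : OnePoint (ZMod ℓ), perZ' N (Additive.ofMul ((helper26.systemT N ℓ h).step γ j)) := by
  classical
  apply Subtype.ext
  refine LinearMap.ext fun x => ?_
  rw [hTr_apply_apply, ← evalPairLin_apply, evalPairLin_X, coe_perZ', perZ_comp_heckePair]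
  split_ifs with h
  · simp only [AddSubgroup.val_finsetSum, coe_perZ', LinearMap.coe_sum, Finset.sum_apply]
  · simp only [AddSubgroup.val_finsetSum, coe_perZ', LinearMap.coe_sum, Finset.sum_apply]

/-- **Hecke equivariance of the characters `ε ∘ per`**: the operator `heckeHom N ℓ` of
S16-[B1] acts on them through the transpose action of `X ℓ` on the period lattice. -/
theorem heckeHom_comp_perZ' (ℓ : Nat.Primes) (ε : perLat N →+ A) :
    helper26.heckeHom N ℓ (ε.comp (perZ' N)) =
      (ε.comp (hTr N (MvPolynomial.X ℓ))).comp (perZ' N) := by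
  classical
  refine AddMonoidHom.ext fun γ' => ?_
  set γ : Gamma0 N := Additive.toMul γ' with hγ
  change helper26.heckeHom N ℓ (ε.comp (perZ' N)) (Additive.ofMul γ) =
    ε (hTr N (MvPolynomial.X ℓ) (perZ' N (Additive.ofMul γ)))
  rw [hTr_X_perZ']
  split_ifs with h
  · rw [helper26.heckeHom_apply_of_dvd N h, map_sum]
    rfl
  · rw [helper26.heckeHom_apply_of_not_dvd N h, map_sum]
    rfl

end Fermat.Agent.P3.helper16
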