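import Fermat.Agent.P3.Interface2
import Fermat.Agent.P3.helper16_PerLattice

/-!
# P3 [AN]/[DESC] -> [KAPPA]: interface of the analytic module (helper16, sub-coordinator [AN])

The analytic packages [AN0]-[AN6] deliver ONE statement, `AnKappaStatement M p`
(the analytic Kummer map on the characters of the period lattice, with values in
`Pic⁰(F_ℂ)`), the descent module [DESC] delivers `DescStatement M`, and
`KappaStatement` (Interface2) follows by pure algebra (`helper16_Kappa.lean`).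
-/

set_option autoImplicit false

noncomputable section

namespace Fermat.Agent.P3.helper16

open CongruenceSubgroup ModularCurve AlgebraicCurve

/-- The function field of `X₀(M)` over `ℂ` (inside `ℂ((q))`). -/
abbrev FC (M : ℕ) : IntermediateField ℂ (LaurentSeries ℂ) :=
  laurentBaseChange ℂ (modularFunctionFieldFull M)

/-- `Pic⁰` of the function field of `X₀(M)` over `ℂ`. -/
abbrev JC (M : ℕ) : Type := Pic0 ℂ (FC M)

/-- The Hecke correspondence at the prime `ℓ` on `Pic⁰(F_ℂ)` (the Prelude's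
`heckeOperatorAlong ℂ M ℓ`; same convention as `heckeOperatorBar`). -/
def heckeOperatorC (M : ℕ) [NeZero M] (ℓ : Nat.Primes) : JC M →+ JC M :=
  haveI : NeZero (ℓ : ℕ) := ⟨ℓ.2.ne_zero⟩
  heckeOperatorAlong ℂ M ℓ

/-- The lattice characters: `X = Hom(perLat M, ℤ)`. -/
abbrev LatChar (M : ℕ) [NeZero M] : Type := perLat M →+ ℤ

/-- The transpose Hecke operator on lattice characters: `ε ↦ ε ∘ hTr (X ℓ)`. -/
def latCharT (M : ℕ) [NeZero M] (ℓ : Nat.Primes) : LatChar M →+ LatChar M where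
  toFun ε := ε.comp (hTr M (MvPolynomial.X ℓ))
  map_zero' := AddMonoidHom.zero_comp _
  map_add' _ _ := AddMonoidHom.add_comp _ _ _

/-- **[AN-KAPPA]** (output of [AN0]-[AN6]): the analytic Kummer map.  For `ε : perLat M →+ ℤ`
and `n`, let `ψ = exp(2πi (ε ∘ per) / p^n) : Γ₀(M) → μ_{p^n}` (a parabolic character, by
`isParabolicHom_comp_perZ'`), `u` a nonzero meromorphic function on `ℍ` with multiplier
`ψ`, meromorphic at the cusps ([AN4]), `h = u^(p^n) ∈ F_ℂ` ([AN1]); then
`κC n ε = class of (1/p^n) div h` ([AN2]).  Required: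
* `κC n` is additive with values in the `p^n`-torsion,
* `κC n ε = 0` only if `ψ = 1`, i.e. `p^n ∣ ε lam` for all `lam`,
* `p • κC (n+1) ε = κC n ε`,
* one-step Hecke equivariance at the primes `ℓ ∤ M` ([AN6-K]; on characters
  `heckeHom M ℓ (ε ∘ per) = (ε ∘ hTr (X ℓ)) ∘ per` by `heckeHom_comp_perZ'`). -/
def AnKappaStatement (M p : ℕ) [NeZero M] : Prop :=
  ∃ κC : ℕ → LatChar M →+ JC M,
    (∀ (n : ℕ) (ε : LatChar M), p ^ n • κC n ε = 0) ∧
    (∀ (n : ℕ) (ε : LatChar M), κC n ε = 0 →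
      ∀ lam : perLat M, ((p ^ n : ℕ) : ℤ) ∣ ε lam) ∧
    (∀ (n : ℕ) (ε : LatChar M), p • κC (n + 1) ε = κC n ε) ∧
    (∀ (n : ℕ) (ℓ : Nat.Primes), ¬ (ℓ : ℕ) ∣ M → ∀ ε : LatChar M,
      κC n (latCharT M ℓ ε) = heckeOperatorC M ℓ (κC n ε))

/-- **[DESC]** (output of the descent module): the constant field extension
`con : J₀(M) = Pic⁰(F_ℚ̄) → Pic⁰(F_ℂ)` is injective, commutes with the Hecke correspondences at
the primes `ℓ ∤ M`, and every torsion class of `Pic⁰(F_ℂ)` is in its image. -/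
def DescStatement (M : ℕ) [NeZero M] : Prop :=
  ∃ con : JZero M →+ JC M, Function.Injective con ∧
    (∀ ℓ : Nat.Primes, ¬ (ℓ : ℕ) ∣ M → ∀ x : JZero M,
      con (heckeOperatorBar M ℓ x) = heckeOperatorC M ℓ (con x)) ∧
    (∀ y : JC M, (∃ m : ℕ, 0 < m ∧ m • y = 0) → ∃ x : JZero M, con x = y)

/-- **[FIN-C]** (output of [AN5], monodromy): the `p`-torsion of `Pic⁰(F_ℂ)` is finite. -/
def FiniteTorsionCStatement (M p : ℕ) : Prop :=
  Finite (nsmulAddMonoidHom (α := JC M) p).ker

end Fermat.Agent.P3.helper16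

end
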