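import Mathlib
import Fermat.Agent.S24.helper24_Chart
import Fermat.Agent.S24.helper17_Bridge

/-!
# P3 [AN0] (helper80): charts for the function field of `X₀(N)` over `ℂ`

`FC N = laurentBaseChange ℂ (modularFunctionFieldFull N)` is the function field of `X₀(N)` over
`ℂ`, as a subfield of `ℂ((q))` generated by the `j(q^d)`, `d ∣ N`.

For every chart `C : helper24.Chart N` (interior point or cusp, from the landed S24 files) and
every `g ∈ SL(2,ℤ)` we construct the field embedding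
`sigmaC C g : FC N →+* MeroGerm C.z₀`, `f ↦ (f ∘ g⁻¹ in the local coordinate)`.
This is the `ℂ`-analogue of `helper24.Chart.sigma` (which is over `ℚ̄`).
-/

set_option autoImplicit false

noncomputable section

open UpperHalfPlane ModularForm Filter Topology CongruenceSubgroup ModularCurve
open scoped MatrixGroups Manifold

namespace Fermat.Agent.P3.helper80

open Fermat.Agent.S24 Fermat.Agent.S24.helper24 Fermat.Agent.S24.helper99

/-- The function field of `X₀(N)` over `ℂ`, as an intermediate field of `ℂ((q))`. -/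
abbrev FCfield (N : ℕ) : IntermediateField ℂ (LaurentSeries ℂ) :=
  laurentBaseChange ℂ (modularFunctionFieldFull N)

/-- The function field of `X₀(N)` over `ℂ` (as a type). -/
abbrev FC (N : ℕ) : Type := ↥(FCfield N)

/-- The generators `j(q^d)`, `d ∣ N`, with complex coefficients. -/
def genJC (N : ℕ) (d : N.divisors) : LaurentSeries ℂ := helper17.JdTC d.1

theorem JdTC_eq_coeffEmb (d : ℕ) [NeZero d] :
    helper17.JdTC d = coeffEmb ℂ (qExpand ℚ d jq) := by
  unfold helper17.JdTC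
  rw [dif_neg (NeZero.ne d)]

theorem coeffEmbC_algebraMap_rat (c : ℚ) :
    coeffEmb ℂ (algebraMap ℚ (LaurentSeries ℚ) c)
      = algebraMap ℂ (LaurentSeries ℂ) (algebraMap ℚ ℂ c) := by
  rw [ModularCurve.algebraMap_apply_eq_single, ModularCurve.algebraMap_laurentSeries_eq_single]
  exact coeffMap_single _ _ _

theorem coeffEmbC_mem_adjoin_genJC (N : ℕ) [NeZero N] (y : LaurentSeries ℚ)
    (hy : y ∈ IntermediateField.adjoin ℚ (divisorExpansions N)) :
    coeffEmb ℂ y ∈ IntermediateField.adjoin ℂ (Set.range (genJC N)) := by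
  induction hy using IntermediateField.adjoin_induction with
  | mem x hx =>
    obtain ⟨d, hne, hd, rfl⟩ := hx
    have := hne
    refine IntermediateField.subset_adjoin ℂ _ ⟨⟨d, ?_⟩, ?_⟩
    · exact Nat.mem_divisors.mpr ⟨hd, NeZero.ne N⟩
    · show helper17.JdTC d = _
      exact JdTC_eq_coeffEmb d
  | algebraMap c =>
    rw [coeffEmbC_algebraMap_rat]
    exact IntermediateField.algebraMap_mem _ _
  | add x y _ _ hx hy =>
    rw [map_add]
    exact add_mem hx hy
  | inv x _ hx =>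
    rw [map_inv₀]
    exact inv_mem hx
  | mul x y _ _ hx hy =>
    rw [map_mul]
    exact mul_mem hx hy

theorem genJC_mem (N : ℕ) [NeZero N] (d : N.divisors) : genJC N d ∈ FCfield N := by
  obtain ⟨d, hd⟩ := d
  have hd' := Nat.mem_divisors.mp hd
  have hd0 : d ≠ 0 := fun h => by
    rw [h] at hd'
    exact hd'.2 (Nat.eq_zero_of_zero_dvd hd'.1)
  have : NeZero d := ⟨hd0⟩
  show helper17.JdTC d ∈ _
  rw [JdTC_eq_coeffEmb]
  exact coeffEmb_mem_laurentBaseChange ℂ (jqd_mem_full N hd'.1)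

theorem FCfield_eq_adjoin (N : ℕ) [NeZero N] :
    FCfield N = IntermediateField.adjoin ℂ (Set.range (genJC N)) := by
  apply le_antisymm
  · unfold FCfield laurentBaseChange
    rw [IntermediateField.adjoin_le_iff]
    rintro _ ⟨y, hy, rfl⟩
    exact coeffEmbC_mem_adjoin_genJC N y hy
  · rw [IntermediateField.adjoin_le_iff]
    rintro _ ⟨d, rfl⟩
    exact genJC_mem N d

/-- The generator `j(q^d)` as an element of `FC N`. -/
def genFC (N : ℕ) [NeZero N] (d : N.divisors) : FC N := ⟨genJC N d, genJC_mem N d⟩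

@[simp] theorem coe_genFC (N : ℕ) [NeZero N] (d : N.divisors) :
    ((genFC N d : FC N) : LaurentSeries ℂ) = genJC N d := rfl

/-- The `j`-function as an element of `FC N`. -/
def xJC (N : ℕ) [NeZero N] : FC N :=
  genFC N ⟨1, Nat.mem_divisors.mpr ⟨one_dvd N, NeZero.ne N⟩⟩

/-! ### Evaluation of polynomials -/

/-- Evaluation of a polynomial with complex coefficients at the functions `j_d`, `d ∣ N`. -/
def evPC0 (N : ℕ) (P : MvPolynomial N.divisors ℂ) (τ : ℍ) : ℂ :=
  MvPolynomial.eval (fun d : N.divisors => jfunDT d.1 τ) P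

/-- Evaluation of a polynomial at the conjugates `j_d ∘ g⁻¹`. -/
def evPC (N : ℕ) (g : SL(2, ℤ)) (P : MvPolynomial N.divisors ℂ) (τ : ℍ) : ℂ :=
  evPC0 N P (g⁻¹ • τ)

@[simp] theorem evPC0_C (N : ℕ) (c : ℂ) (τ : ℍ) : evPC0 N (MvPolynomial.C c) τ = c := by
  simp [evPC0]

@[simp] theorem evPC0_X (N : ℕ) (d : N.divisors) (τ : ℍ) :
    evPC0 N (MvPolynomial.X d) τ = jfunDT d.1 τ := by
  simp [evPC0]

@[simp] theorem evPC0_add (N : ℕ) (P Q : MvPolynomial N.divisors ℂ) (τ : ℍ) :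
    evPC0 N (P + Q) τ = evPC0 N P τ + evPC0 N Q τ := by
  simp [evPC0]

@[simp] theorem evPC0_mul (N : ℕ) (P Q : MvPolynomial N.divisors ℂ) (τ : ℍ) :
    evPC0 N (P * Q) τ = evPC0 N P τ * evPC0 N Q τ := by
  simp [evPC0]

theorem mdiff_evPC0 (N : ℕ) (P : MvPolynomial N.divisors ℂ) : MDiff (evPC0 N P) := by
  induction P using MvPolynomial.induction_on with
  | C c =>
    have : evPC0 N (MvPolynomial.C c) = fun _ => c := funext fun τ => evPC0_C N c τ
    rw [this]
    exact mdifferentiable_const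
  | add P Q hP hQ =>
    have : evPC0 N (P + Q) = fun τ => evPC0 N P τ + evPC0 N Q τ :=
      funext fun τ => evPC0_add N P Q τ
    rw [this]
    exact hP.add hQ
  | mul_X P d hP =>
    have : evPC0 N (P * MvPolynomial.X d) = fun τ => evPC0 N P τ * jfunDT d.1 τ :=
      funext fun τ => by rw [evPC0_mul, evPC0_X]
    rw [this]
    exact hP.mul (mdiff_jfunDT d.1)

theorem mdiff_evPC (N : ℕ) (g : SL(2, ℤ)) (P : MvPolynomial N.divisors ℂ) :
    MDiff (evPC N g P) :=
  mdiff_smul_comp (mdiff_evPC0 N P) g⁻¹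

theorem evPC_eq_zero_iff (N : ℕ) (g : SL(2, ℤ)) (P : MvPolynomial N.divisors ℂ) :
    (∀ τ, evPC N g P τ = 0) ↔ ∀ τ, evPC0 N P τ = 0 := by
  constructor
  · intro h τ
    have := h (g • τ)
    unfold evPC at this
    rwa [inv_smul_smul] at this
  · intro h τ
    exact h _

/-- The bridge over `ℂ`: a polynomial relation among the `q`-expansions `j(q^d)` holds iff it
holds among the analytic functions `j_d`. -/
theorem bridgeC (N : ℕ) (P : MvPolynomial N.divisors ℂ) :
    MvPolynomial.aeval (genJC N) P = 0 ↔ ∀ τ : ℍ, evPC0 N P τ = 0 :=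
  helper17.bridge_complex (fun d : N.divisors => d.1) P

end Fermat.Agent.P3.helper80

/-! ### The embeddings attached to a chart -/

namespace Fermat.Agent.P3.helper80

open Fermat.Agent.S24 Fermat.Agent.S24.helper24 Fermat.Agent.S24.helper99

variable {N : ℕ} (C : Chart N)

/-- The ring homomorphism from polynomials with complex coefficients to germs. -/
def ΘC (g : SL(2, ℤ)) : MvPolynomial N.divisors ℂ →+* MeroGerm C.z₀ :=
  MvPolynomial.eval₂Hom (MeroGerm.constHom C.z₀)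
    (fun d => MeroGerm.mk (C.H g d) (C.H_mero g d))

theorem ΘC_C (g : SL(2, ℤ)) (c : ℂ) :
    ΘC C g (MvPolynomial.C c) = MeroGerm.const C.z₀ c := by
  simp [ΘC]

theorem ΘC_X (g : SL(2, ℤ)) (d : N.divisors) :
    ΘC C g (MvPolynomial.X d) = MeroGerm.mk (C.H g d) (C.H_mero g d) := by
  simp [ΘC]

/-- Every value of `ΘC` is represented by a function which on the image of the chart is given
by the evaluation of the polynomial at the conjugates. -/
theorem ΘC_spec (g : SL(2, ℤ)) (P : MvPolynomial N.divisors ℂ) :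
    ∃ (F : ℂ → ℂ) (hF : MeromorphicAt F C.z₀), ΘC C g P = MeroGerm.mk F hF ∧
      ∀ τ, F (C.u τ) = evPC N g P τ := by
  induction P using MvPolynomial.induction_on with
  | C c =>
    refine ⟨fun _ => c, MeromorphicAt.const _ _, ?_, fun τ => ?_⟩
    · rw [ΘC_C]
      rfl
    · simp [evPC]
  | add P Q hP hQ =>
    obtain ⟨F, hF, h1, h2⟩ := hP
    obtain ⟨G, hG, h3, h4⟩ := hQ
    refine ⟨F + G, hF.add hG, ?_, fun τ => ?_⟩
    · rw [map_add, h1, h3, MeroGerm.mk_add]
    · simp only [Pi.add_apply, evPC, evPC0_add]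
      rw [h2, h4]
      rfl
  | mul_X P d hP =>
    obtain ⟨F, hF, h1, h2⟩ := hP
    refine ⟨F * C.H g d, hF.mul (C.H_mero g d), ?_, fun τ => ?_⟩
    · rw [map_mul, h1, ΘC_X, MeroGerm.mk_mul]
    · simp only [Pi.mul_apply, evPC, evPC0_mul, evPC0_X]
      rw [h2, C.H_spec]
      rfl

theorem ΘC_eq_zero_iff (g : SL(2, ℤ)) (P : MvPolynomial N.divisors ℂ) :
    ΘC C g P = 0 ↔ ∀ τ, evPC0 N P τ = 0 := by
  obtain ⟨F, hF, h1, h2⟩ := ΘC_spec C g P
  rw [h1, C.mk_eq_zero_iff_forall hF (mdiff_evPC N g P) h2, evPC_eq_zero_iff]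

theorem hkerC (g : SL(2, ℤ)) (P : MvPolynomial N.divisors ℂ) :
    MvPolynomial.aeval (genJC N) P = 0 ↔ ΘC C g P = 0 := by
  rw [bridgeC N P, ΘC_eq_zero_iff C]

/-- The field embedding `FC N → MeroGerm z₀` attached to `g ∈ SL(2,ℤ)`: `f ↦ f ∘ g⁻¹` in the
local coordinate. -/
def sigmaC [NeZero N] (g : SL(2, ℤ)) : FC N →+* MeroGerm C.z₀ :=
  liftOfEqAdjoin (genJC N) (FCfield_eq_adjoin N) (ΘC C g) (hkerC C g)

variable [NeZero N]

theorem sigmaC_of_eq (g : SL(2, ℤ)) (x : FC N) (P : MvPolynomial N.divisors ℂ)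
    (hx : (x : LaurentSeries ℂ) = MvPolynomial.aeval (genJC N) P) :
    sigmaC C g x = ΘC C g P :=
  liftOfEqAdjoin_apply (genJC N) (FCfield_eq_adjoin N) (ΘC C g) (hkerC C g) x P hx

theorem sigmaC_algebraMap (g : SL(2, ℤ)) (c : ℂ) :
    sigmaC C g (algebraMap ℂ (FC N) c) = MeroGerm.const C.z₀ c := by
  rw [sigmaC_of_eq C g _ (MvPolynomial.C c) (by simp), ΘC_C]

theorem sigmaC_gen (g : SL(2, ℤ)) (d : N.divisors) :
    sigmaC C g (genFC N d) = MeroGerm.mk (C.H g d) (C.H_mero g d) := by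
  rw [sigmaC_of_eq C g _ (MvPolynomial.X d) (by simp), ΘC_X]

/-- Every value of `sigmaC` is represented by a quotient of two functions which on the image of
the chart are polynomial expressions in the conjugates `j_d ∘ g⁻¹`. -/
theorem exists_poly_repr (x : FC N) :
    ∃ P Q : MvPolynomial N.divisors ℂ, MvPolynomial.aeval (genJC N) Q ≠ 0 ∧
      (x : LaurentSeries ℂ) = MvPolynomial.aeval (genJC N) P / MvPolynomial.aeval (genJC N) Q := by
  obtain ⟨x, hx⟩ := x
  have hx' : x ∈ IntermediateField.adjoin ℂ (Set.range (genJC N)) := by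
    rw [← FCfield_eq_adjoin]
    exact hx
  rw [IntermediateField.mem_adjoin_range_iff] at hx'
  obtain ⟨P, Q, hx'⟩ := hx'
  by_cases hQ : MvPolynomial.aeval (genJC N) Q = 0
  · refine ⟨0, 1, by simp, ?_⟩
    show x = _
    rw [hx', hQ]
    simp
  · exact ⟨P, Q, hQ, hx'⟩

end Fermat.Agent.P3.helper80

/-- Two ring homomorphisms out of `FC N` agreeing on polynomials in the generators are equal. -/
theorem Fermat.Agent.P3.helper80.ringHom_ext_FC {N : ℕ} [NeZero N] {L : Type*} [Field L]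
    {σ σ' : Fermat.Agent.P3.helper80.FC N →+* L}
    (h : ∀ (x : Fermat.Agent.P3.helper80.FC N) (P : MvPolynomial N.divisors ℂ),
      (x : LaurentSeries ℂ) = MvPolynomial.aeval (Fermat.Agent.P3.helper80.genJC N) P →
        σ x = σ' x) : σ = σ' :=
  Fermat.Agent.S24.helper24.ringHom_ext_of_eq_adjoin (Fermat.Agent.P3.helper80.genJC N)
    (Fermat.Agent.P3.helper80.FCfield_eq_adjoin N) h

namespace Fermat.Agent.P3.helper80

open Fermat.Agent.S24 Fermat.Agent.S24.helper24 Fermat.Agent.S24.helper99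

variable {N : ℕ} (C : Chart N) [NeZero N]

/-- `sigmaC g` only depends on the functions `j_d ∘ g⁻¹`. -/
theorem sigmaC_eq_of_forall (g g' : SL(2, ℤ))
    (h : ∀ (d : N.divisors) (τ : ℍ), jfunDT d.1 (g⁻¹ • τ) = jfunDT d.1 (g'⁻¹ • τ)) :
    sigmaC C g = sigmaC C g' := by
  apply ringHom_ext_FC
  intro x P hx
  rw [sigmaC_of_eq C g x P hx, sigmaC_of_eq C g' x P hx]
  obtain ⟨F, hF, h1, h2⟩ := ΘC_spec C g P
  obtain ⟨G, hG, h3, h4⟩ := ΘC_spec C g' P
  rw [h1, h3, C.mk_eq_mk_iff_forall hF hG (mdiff_evPC N g P) (mdiff_evPC N g' P) h2 h4]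
  intro τ
  have hfun : (fun d : N.divisors => jfunDT d.1 (g⁻¹ • τ))
      = (fun d : N.divisors => jfunDT d.1 (g'⁻¹ • τ)) := funext fun d => h d τ
  show MvPolynomial.eval (fun d : N.divisors => jfunDT d.1 (g⁻¹ • τ)) _
    = MvPolynomial.eval (fun d : N.divisors => jfunDT d.1 (g'⁻¹ • τ)) _
  rw [hfun]

/-- `sigmaC g` only depends on the coset `g Γ₀(N)`. -/
theorem sigmaC_eq_of_mem (g g' : SL(2, ℤ)) (h : g⁻¹ * g' ∈ Gamma0 N) :
    sigmaC C g = sigmaC C g' := by
  apply sigmaC_eq_of_forall C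
  rintro ⟨d, hd⟩ τ
  have hd' := Nat.mem_divisors.mp hd
  have : NeZero d := ⟨fun h0 => hd'.2 (by rw [h0] at hd'; exact Nat.eq_zero_of_zero_dvd hd'.1)⟩
  show jfunDT d (g⁻¹ • τ) = jfunDT d (g'⁻¹ • τ)
  rw [jfunDT_smul_eq_jfunDg, jfunDT_smul_eq_jfunDg]
  exact (jfunDg_eq_of_inv_mul_mem N d hd'.1 g g' h τ).symm

/-- Distinct cosets give distinct embeddings. -/
theorem mem_of_sigmaC_eq (g g' : SL(2, ℤ)) (h : sigmaC C g = sigmaC C g') :
    g⁻¹ * g' ∈ Gamma0 N := by
  have hN : N ∈ N.divisors := Nat.mem_divisors.mpr ⟨dvd_rfl, NeZero.ne N⟩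
  have h1 := sigmaC_gen C g ⟨N, hN⟩
  have h2 := sigmaC_gen C g' ⟨N, hN⟩
  rw [h] at h1
  have h3 := h1.symm.trans h2
  rw [C.mk_eq_mk_iff_forall (C.H_mero g ⟨N, hN⟩) (C.H_mero g' ⟨N, hN⟩)
    (f := jfunDg N g) (g := jfunDg N g') (mdiff_jfunDg N g) (mdiff_jfunDg N g')
    (fun τ => by rw [C.H_spec]; exact jfunDT_smul_eq_jfunDg N g τ)
    (fun τ => by rw [C.H_spec]; exact jfunDT_smul_eq_jfunDg N g' τ)] at h3
  exact inv_mul_mem_Gamma0_of_jfunDg_eq N g g' h3

theorem sigmaC_eq_iff (g g' : SL(2, ℤ)) :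
    sigmaC C g = sigmaC C g' ↔ g⁻¹ * g' ∈ Gamma0 N :=
  ⟨mem_of_sigmaC_eq C g g', sigmaC_eq_of_mem C g g'⟩

theorem sigmaC_ne_zero (g : SL(2, ℤ)) {f : FC N} (hf : f ≠ 0) : sigmaC C g f ≠ 0 :=
  (map_ne_zero_iff _ (sigmaC C g).injective).mpr hf

theorem sigmaC_rot (h g : SL(2, ℤ)) (φ : ℂ → ℂ) (hR : C.IsRot h φ) :
    sigmaC C (h * g) = (precomp φ hR.an hR.fix hR.deriv_ne).comp (sigmaC C g) := by
  apply ringHom_ext_FC
  intro x P hx
  rw [RingHom.comp_apply, sigmaC_of_eq C (h * g) x P hx, sigmaC_of_eq C g x P hx]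
  obtain ⟨F, hF, h1, h2⟩ := ΘC_spec C (h * g) P
  obtain ⟨G, hG, h3, h4⟩ := ΘC_spec C g P
  rw [h1, h3, precomp_mk]
  rw [C.mk_eq_mk_iff_forall hF _ (f := evPC N (h * g) P) (g := evPC N (h * g) P)
    (mdiff_evPC N (h * g) P) (mdiff_evPC N (h * g) P) h2]
  · intro τ
    rfl
  · intro τ
    rw [Function.comp_apply, ← hR.spec, h4]
    unfold evPC
    rw [mul_inv_rev, mul_smul]

/-- The embedding attached to a coset. -/
def sigmaCQ (c : X0 N) : FC N →+* MeroGerm C.z₀ := sigmaC C (Quotient.out c)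

theorem sigmaCQ_mk (g : SL(2, ℤ)) : sigmaCQ C (QuotientGroup.mk g : X0 N) = sigmaC C g := by
  unfold sigmaCQ
  apply sigmaC_eq_of_mem C
  have h : (QuotientGroup.mk (Quotient.out (QuotientGroup.mk g : X0 N)) : X0 N)
      = QuotientGroup.mk g := Quotient.out_eq _
  exact QuotientGroup.eq.mp h

theorem sigmaCQ_injective : Function.Injective (sigmaCQ C) := by
  intro c c' h
  induction c using QuotientGroup.induction_on with
  | H g =>
  induction c' using QuotientGroup.induction_on with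
  | H g' =>
  rw [sigmaCQ_mk, sigmaCQ_mk] at h
  exact QuotientGroup.eq.mpr (mem_of_sigmaC_eq C g g' h)

theorem sigmaCQ_smul (h : SL(2, ℤ)) (c : X0 N) (φ : ℂ → ℂ) (hR : C.IsRot h φ) :
    sigmaCQ C (h • c) = (precomp φ hR.an hR.fix hR.deriv_ne).comp (sigmaCQ C c) := by
  induction c using QuotientGroup.induction_on with
  | H g =>
  have : h • (QuotientGroup.mk g : X0 N) = QuotientGroup.mk (h * g) := rfl
  rw [this, sigmaCQ_mk, sigmaCQ_mk]
  exact sigmaC_rot C h g φ hR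

end Fermat.Agent.P3.helper80
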