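import Mathlib
import Fermat.Agent.P3.helper80_ChartC
import Fermat.Agent.S24.helper77_Degree
import Fermat.Agent.S24.helper80_DegreeLB
import Fermat.Agent.S24.helper24_Interior

/-!
# P3 [AN0] (helper80): the degree `[F_ℂ : ℂ(j)] = [SL(2,ℤ) : Γ₀(N)]`

The `ℂ`-analogue of the landed S24 degree computation (`helper77.an_finrank`).
-/

set_option autoImplicit false

noncomputable section

open UpperHalfPlane ModularForm Filter Topology CongruenceSubgroup ModularCurve
  IntermediateField Polynomial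
open scoped MatrixGroups Manifold

namespace Fermat.Agent.P3.helper80

open Fermat.Agent.S24 Fermat.Agent.S24.helper24 Fermat.Agent.S24.helper99

/-- The index of the divisor `1`. -/
def idxOneC (N : ℕ) [NeZero N] : N.divisors :=
  ⟨1, Nat.mem_divisors.mpr ⟨one_dvd N, NeZero.ne N⟩⟩

theorem xJC_eq (N : ℕ) [NeZero N] : xJC N = genFC N (idxOneC N) := rfl

theorem JdTC_one : helper17.JdTC 1 = coeffEmb ℂ jq := by
  rw [JdTC_eq_coeffEmb 1, qExpand_one_apply]

@[simp] theorem coe_xJC (N : ℕ) [NeZero N] :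
    ((xJC N : FC N) : LaurentSeries ℂ) = coeffEmb ℂ jq := by
  show helper17.JdTC 1 = _
  exact JdTC_one

/-- `j` is transcendental over `ℂ`. -/
theorem xJC_transcendental (N : ℕ) [NeZero N] : Transcendental ℂ (xJC N) := by
  intro halg
  have h1 : IsAlgebraic ℂ ((xJC N : FC N) : LaurentSeries ℂ) := by
    have := halg.algebraMap (A := LaurentSeries ℂ)
    simpa using this
  have h2 := helper77.coeff_eq_zero_of_isAlgebraic h1 (k := -1) (by norm_num)
  rw [coe_xJC, coeffEmb_coeff, coeff_jq_neg_one, map_one] at h2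
  exact one_ne_zero h2

theorem adjoin_genFC_eq_top (N : ℕ) [NeZero N] :
    IntermediateField.adjoin ℂ (Set.range (genFC N)) = ⊤ := by
  apply IntermediateField.lift_injective (FCfield N)
  rw [lift_adjoin, IntermediateField.lift_top]
  have : (Subtype.val '' Set.range (genFC N) : Set (LaurentSeries ℂ)) = Set.range (genJC N) := by
    rw [← Set.range_comp]
    rfl
  rw [this]
  exact (FCfield_eq_adjoin N).symm

/-- The formal relation of degree `n = [SL(2,ℤ) : Γ₀(N)]` over `ℂ[j]`. -/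
theorem formal_relation_FC (N : ℕ) [NeZero N] (P : MvPolynomial N.divisors ℂ) :
    ∃ p : ℕ → Polynomial ℂ, p (Nat.card (X0 N)) = 1 ∧
      ∑ k ∈ Finset.range (Nat.card (X0 N) + 1),
        Polynomial.aeval (coeffEmb ℂ jq) (p k) * (MvPolynomial.aeval (genJC N) P) ^ k = 0 := by
  obtain ⟨p, hp1, hp⟩ := helper77.exists_relation_thetaP (N := N) (fun i : N.divisors => i.1)
    (fun i => Nat.dvd_of_mem_divisors i.2) P
  refine ⟨p, hp1, ?_⟩
  set Q : MvPolynomial N.divisors ℂ := ∑ k ∈ Finset.range (Nat.card (X0 N) + 1),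
    Polynomial.aeval (MvPolynomial.X (idxOneC N) : MvPolynomial N.divisors ℂ) (p k) * P ^ k
    with hQ
  have hQ0 : ∀ τ : ℍ, MvPolynomial.eval (fun i : N.divisors => jfunDT i.1 τ) Q = 0 := by
    intro τ
    rw [hQ, map_sum, ← hp τ]
    refine Finset.sum_congr rfl fun k _ => ?_
    rw [map_mul, map_pow]
    congr 1
    rw [Polynomial.aeval_def, Polynomial.hom_eval₂, MvPolynomial.eval_X]
    show Polynomial.eval₂ _ (jfunDT 1 τ) (p k) = _
    rw [helper77.jfunDT_one]
    have : (MvPolynomial.eval fun i : N.divisors => jfunDT i.1 τ).comp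
        (algebraMap ℂ (MvPolynomial N.divisors ℂ)) = RingHom.id ℂ := by
      ext c; simp
    rw [this]
    rfl
  have hb := (helper17.bridge_complex (fun i : N.divisors => i.1) Q).mpr hQ0
  rw [hQ, map_sum] at hb
  rw [← hb]
  refine Finset.sum_congr rfl fun k _ => ?_
  rw [map_mul, map_pow, ← Polynomial.aeval_algHom_apply, MvPolynomial.aeval_X]
  have e1 : helper17.JdTC (idxOneC N).1 = coeffEmb ℂ jq := JdTC_one
  rw [e1]
  rfl

/-- The relation of `formal_relation_FC`, inside the function field. -/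
theorem relation_in_FC (N : ℕ) [NeZero N] (P : MvPolynomial N.divisors ℂ) :
    ∃ q : ℕ → Polynomial ℂ, q (Nat.card (X0 N)) = 1 ∧
      ∑ k ∈ Finset.range (Nat.card (X0 N) + 1),
        aeval (xJC N) (q k) * (MvPolynomial.aeval (genFC N) P) ^ k = 0 := by
  obtain ⟨q, hq1, hq⟩ := formal_relation_FC N P
  refine ⟨q, hq1, ?_⟩
  obtain ⟨v, hv⟩ : ∃ v : FC N →ₐ[ℂ] LaurentSeries ℂ, ∀ y, v y = (y : LaurentSeries ℂ) :=
    ⟨(FCfield N).val, fun _ => rfl⟩
  have hvinj : Function.Injective v := fun a b h => Subtype.ext (by rw [← hv, ← hv, h])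
  apply hvinj
  rw [map_sum, map_zero, ← hq]
  refine Finset.sum_congr rfl fun k _ => ?_
  rw [map_mul, map_pow, ← Polynomial.aeval_algHom_apply, MvPolynomial.comp_aeval_apply]
  have h1 : v (xJC N) = coeffEmb ℂ jq := (hv _).trans (coe_xJC N)
  have h2 : (fun i => v (genFC N i)) = genJC N := funext fun i => hv _
  rw [h1, h2]

theorem exists_poly_over_adjoin_FC (N : ℕ) [NeZero N] (P : MvPolynomial N.divisors ℂ) :
    ∃ Q : Polynomial ℂ⟮xJC N⟯, Q ≠ 0 ∧ Q.natDegree ≤ Nat.card (X0 N) ∧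
      aeval (MvPolynomial.aeval (genFC N) P) Q = 0 := by
  obtain ⟨q, hq1, hq⟩ := relation_in_FC N P
  exact helper77.exists_poly_of_relation _ _ _ q hq1 hq

/-- **Upper bound**: `F_ℂ` is finite over `ℂ(j)`, of degree at most `[SL(2,ℤ) : Γ₀(N)]`. -/
theorem finiteDimensional_and_finrank_le_FC (N : ℕ) [NeZero N] :
    FiniteDimensional ℂ⟮xJC N⟯ (FC N) ∧
      Module.finrank ℂ⟮xJC N⟯ (FC N) ≤ Nat.card (X0 N) :=
  helper77.finrank_le_of_forall_aeval (xJC N) (xJC_transcendental N) (genFC N)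
    (adjoin_genFC_eq_top N)
    (by rw [xJC_eq]; exact Algebra.subset_adjoin ⟨_, rfl⟩) _
    (exists_poly_over_adjoin_FC N)

instance finiteDimensional_FC (N : ℕ) [NeZero N] : FiniteDimensional ℂ⟮xJC N⟯ (FC N) :=
  (finiteDimensional_and_finrank_le_FC N).1

theorem finrank_FC_le (N : ℕ) [NeZero N] :
    Module.finrank ℂ⟮xJC N⟯ (FC N) ≤ Nat.card (X0 N) :=
  (finiteDimensional_and_finrank_le_FC N).2

/-- the germ of `j` in any interior chart -/
theorem sigmaC_interior_xJC (N : ℕ) [NeZero N] (τ₀ : ℍ) (g : SL(2, ℤ)) :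
    sigmaC (interiorChart N τ₀) g (xJC N)
      = MeroGerm.mk (fun z => jfun (ofComplex z)) (analyticAt_jfun τ₀).meromorphicAt := by
  rw [xJC_eq, sigmaC_gen (interiorChart N τ₀) g (idxOneC N)]
  apply MeroGerm.mk_eq_mk_iff.mpr
  refine Eventually.of_forall fun z => ?_
  show jfunDT 1 (g⁻¹ • ofComplex z) = jfun (ofComplex z)
  exact jfunDT_one_smul g⁻¹ _

/-- **Lower bound**. -/
theorem finrank_FC_ge (N : ℕ) [NeZero N] :
    Nat.card (X0 N) ≤ Module.finrank ℂ⟮xJC N⟯ (FC N) := by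
  have : Finite (X0 N) := helper37.finite_quotient_Gamma0 N
  refine helper80.card_le_finrank_of_embeddings (xJC N)
    (sigmaCQ (interiorChart N UpperHalfPlane.I))
    (sigmaCQ_injective (interiorChart N UpperHalfPlane.I)) ?_ ?_
  · intro c c' k
    unfold sigmaCQ
    rw [sigmaC_algebraMap, sigmaC_algebraMap]
  · intro c c'
    unfold sigmaCQ
    rw [sigmaC_interior_xJC, sigmaC_interior_xJC]

/-- **The degree of `F_ℂ` over `ℂ(j)`.** -/
theorem finrank_FC (N : ℕ) [NeZero N] :
    Module.finrank ℂ⟮xJC N⟯ (FC N) = Nat.card (X0 N) :=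
  le_antisymm (finrank_FC_le N) (finrank_FC_ge N)

end Fermat.Agent.P3.helper80
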