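import Mathlib

/-!
# Valuation of a norm in a finite extension of a local Dedekind domain (helper58)
-/

set_option autoImplicit false

open IsDedekindDomain HeightOneSpectrum Ideal
open scoped nonZeroDivisors

namespace Fermat.Agent.P3.helper58

section RelNormCount

variable {A B : Type*} [CommRing A] [CommRing B] [IsDedekindDomain A] [IsDedekindDomain B]
  [Algebra A B] [Module.Finite A B] [Module.IsTorsionFree A B]

/-- the multiplicity of a height one prime in a nonzero ideal -/
noncomputable def cnt (Q : HeightOneSpectrum B) (I : Ideal B) : ℕ :=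
  (Associates.mk Q.asIdeal).count (Associates.mk I).factors

theorem cnt_top (Q : HeightOneSpectrum B) : cnt Q (⊤ : Ideal B) = 0 := by
  unfold cnt
  rw [← Ideal.one_eq_top, Associates.mk_one, Associates.factors_one]
  exact Associates.count_zero Q.associates_irreducible

theorem cnt_mul (Q : HeightOneSpectrum B) {I J : Ideal B} (hI : I ≠ ⊥) (hJ : J ≠ ⊥) :
    cnt Q (I * J) = cnt Q I + cnt Q J := by
  unfold cnt
  rw [← Associates.mk_mul_mk]
  exact Associates.count_mul (Associates.mk_ne_zero.mpr hI) (Associates.mk_ne_zero.mpr hJ)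
    Q.associates_irreducible

theorem cnt_self (Q : HeightOneSpectrum B) : cnt Q Q.asIdeal = 1 := by
  unfold cnt
  exact Associates.count_self Q.associates_irreducible

theorem cnt_of_ne {Q Q' : HeightOneSpectrum B} (h : Q ≠ Q') : cnt Q Q'.asIdeal = 0 := by
  unfold cnt
  refine Associates.count_eq_zero_of_ne Q.associates_irreducible Q'.associates_irreducible ?_
  intro h2
  apply h
  have := Associates.mk_injective h2
  exact HeightOneSpectrum.ext this

theorem cnt_pow (Q : HeightOneSpectrum B) (I : Ideal B) (hI : I ≠ ⊥) (n : ℕ) :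
    cnt Q (I ^ n) = n * cnt Q I := by
  induction n with
  | zero => rw [pow_zero, Ideal.one_eq_top, cnt_top, zero_mul]
  | succ n ih =>
    rw [pow_succ, cnt_mul Q (pow_ne_zero n hI) hI, ih]
    ring

variable (A) in
theorem cnt_relNorm [Fintype (HeightOneSpectrum B)] (p : HeightOneSpectrum A)
    (fdeg : HeightOneSpectrum B → ℕ)
    (hQ : ∀ Q : HeightOneSpectrum B, relNorm A Q.asIdeal = p.asIdeal ^ fdeg Q)
    (I : Ideal B) (hI : I ≠ ⊥) :
    cnt p (relNorm A I) = ∑ Q : HeightOneSpectrum B, fdeg Q * cnt Q I := by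
  classical
  induction I using UniqueFactorizationMonoid.induction_on_prime with
  | h₁ => exact absurd rfl hI
  | h₂ x hx =>
    have hx' : x = ⊤ := by rwa [Ideal.isUnit_iff] at hx
    subst hx'
    rw [relNorm_top, cnt_top]
    simp [cnt_top]
  | h₃ J P hJ hP ih =>
    have hP0 : P ≠ ⊥ := hP.ne_zero
    let Q₀ : HeightOneSpectrum B := ⟨P, Ideal.isPrime_of_prime hP, hP0⟩
    have hPQ : P = Q₀.asIdeal := rfl
    have hrJ : relNorm A J ≠ ⊥ := by rwa [ne_eq, relNorm_eq_bot_iff]
    have hp0 : p.asIdeal ≠ ⊥ := p.ne_bot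
    rw [map_mul, hPQ, hQ Q₀, cnt_mul p (pow_ne_zero _ hp0) hrJ, cnt_pow p _ hp0, cnt_self,
      mul_one, ih hJ]
    have : ∀ Q : HeightOneSpectrum B, fdeg Q * cnt Q (Q₀.asIdeal * J) =
        (if Q = Q₀ then fdeg Q₀ else 0) + fdeg Q * cnt Q J := by
      intro Q
      rw [cnt_mul Q Q₀.ne_bot hJ, mul_add]
      congr 1
      split_ifs with h
      · subst h
        rw [cnt_self, mul_one]
      · rw [cnt_of_ne h, mul_zero]
    simp_rw [this]
    rw [Finset.sum_add_distrib, Finset.sum_ite_eq' Finset.univ Q₀]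
    simp

theorem intValuation_eq_exp_cnt (Q : HeightOneSpectrum B) {b : B} (hb : b ≠ 0) :
    Q.intValuation b = WithZero.exp (-(cnt Q (Ideal.span {b}) : ℤ)) := by
  classical
  rw [intValuation_if_neg Q hb]
  rfl

variable (A) in
theorem log_intValuation_intNorm [Fintype (HeightOneSpectrum B)] (p : HeightOneSpectrum A)
    (fdeg : HeightOneSpectrum B → ℕ)
    (hQ : ∀ Q : HeightOneSpectrum B, relNorm A Q.asIdeal = p.asIdeal ^ fdeg Q)
    {b : B} (hb : b ≠ 0) :
    WithZero.log (p.intValuation (Algebra.intNorm A B b)) =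
      ∑ Q : HeightOneSpectrum B, (fdeg Q : ℤ) * WithZero.log (Q.intValuation b) := by
  have hN : Algebra.intNorm A B b ≠ 0 := Algebra.intNorm_ne_zero.mpr hb
  have hI : Ideal.span {b} ≠ ⊥ := by
    rwa [ne_eq, Ideal.span_singleton_eq_bot]
  rw [intValuation_eq_exp_cnt p hN, WithZero.log_exp, ← relNorm_singleton,
    cnt_relNorm A p fdeg hQ _ hI]
  push_cast
  rw [← Finset.sum_neg_distrib]
  refine Finset.sum_congr rfl fun Q _ => ?_
  rw [intValuation_eq_exp_cnt Q hb, WithZero.log_exp]
  ring

end RelNormCount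

section AKLB

variable {A B : Type*} [CommRing A] [CommRing B] [IsDedekindDomain A] [IsDedekindDomain B]
  [Algebra A B] [Module.Finite A B] [Module.IsTorsionFree A B]
  (K L : Type*) [Field K] [Field L] [Algebra A K] [IsFractionRing A K] [Algebra B L]
  [IsFractionRing B L] [Algebra K L] [Algebra A L] [IsScalarTower A B L] [IsScalarTower A K L]
  [FiniteDimensional K L]

/-- **Valuation of a norm.** -/
theorem log_valuation_norm [Fintype (HeightOneSpectrum B)] (p : HeightOneSpectrum A)
    (fdeg : HeightOneSpectrum B → ℕ)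
    (hQ : ∀ Q : HeightOneSpectrum B, relNorm A Q.asIdeal = p.asIdeal ^ fdeg Q)
    {f : L} (hf : f ≠ 0) :
    WithZero.log (p.valuation K (Algebra.norm K f)) =
      ∑ Q : HeightOneSpectrum B, (fdeg Q : ℤ) * WithZero.log (Q.valuation L f) := by
  have : Algebra.IsIntegral A B := Algebra.IsIntegral.of_finite A B
  have : IsIntegralClosure B A L := IsIntegralClosure.of_isIntegrallyClosed B A L
  obtain ⟨b, b', hb', hfb⟩ := IsFractionRing.div_surjective (A := B) f
  have hb'0 : b' ≠ 0 := nonZeroDivisors.ne_zero hb'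
  have hb'L : algebraMap B L b' ≠ 0 := by
    simpa using hb'0
  have hmul : f * algebraMap B L b' = algebraMap B L b := by
    rw [← hfb, div_mul_cancel₀ _ hb'L]
  have hbL : algebraMap B L b ≠ 0 := by
    rw [← hmul]
    exact mul_ne_zero hf hb'L
  have hb0 : b ≠ 0 := by
    rintro rfl
    simp at hbL
  have key : ∀ c : B, c ≠ 0 → WithZero.log (p.valuation K (Algebra.norm K (algebraMap B L c))) =
      ∑ Q : HeightOneSpectrum B, (fdeg Q : ℤ) * WithZero.log (Q.valuation L (algebraMap B L c)) := by
    intro c hc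
    rw [← Algebra.algebraMap_intNorm (A := A) (K := K) (L := L) (B := B), valuation_of_algebraMap,
      log_intValuation_intNorm A p fdeg hQ hc]
    refine Finset.sum_congr rfl fun Q _ => ?_
    rw [valuation_of_algebraMap]
  have hn : Algebra.norm K f ≠ 0 := Algebra.norm_ne_zero_iff.mpr hf
  have hn' : Algebra.norm K (algebraMap B L b') ≠ 0 := Algebra.norm_ne_zero_iff.mpr hb'L
  have h1 := key b hb0
  rw [← hmul, map_mul, map_mul, WithZero.log_mul ((Valuation.ne_zero_iff _).mpr hn)
    ((Valuation.ne_zero_iff _).mpr hn'), key b' hb'0] at h1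
  have h2 : ∀ Q : HeightOneSpectrum B,
      (fdeg Q : ℤ) * WithZero.log (Q.valuation L (f * algebraMap B L b')) =
      (fdeg Q : ℤ) * WithZero.log (Q.valuation L f) +
        (fdeg Q : ℤ) * WithZero.log (Q.valuation L (algebraMap B L b')) := by
    intro Q
    rw [map_mul, WithZero.log_mul ((Valuation.ne_zero_iff _).mpr hf)
      ((Valuation.ne_zero_iff _).mpr hb'L)]
    ring
  simp_rw [h2] at h1
  rw [Finset.sum_add_distrib] at h1
  linarith

end AKLB

end Fermat.Agent.P3.helper58
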