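import Mathlib
import Fermat.Prelude.Def_AlgebraicCurve_Correspondence
import Fermat.Agent.P3.helper58_NormVal
import Fermat.Agent.S24.helper75_FFCore

/-!
# P3 [GAL-HI] (helper58, task 436): finite extensions of function fields in the Prelude `Place`
language - fundamental identity and norm formula

For a finite extension `F'/F` of fields over an algebraically closed field `K` of characteristic
zero, all of whose places have residue field `K`:

* `sum_fiber_ord_eq` : `∑_{w | v} ord_w f = ord_v (N_{F'/F} f)`;
* `pushforwardNormFormula_of_surjective` : `Divisor.PushforwardNormFormula K F F'`;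
* `fundamentalIdentity_of_surjective` : `FundamentalIdentity K F F'`.

Route: `A = O_v`, `B` = integral closure of `A` in `F'` (`BV`), dictionary
`HeightOneSpectrum B ↔ places over v` (`restrict_ofHeightOneSpectrum`,
`exists_ofHeightOneSpectrum_eq`, `ofHeightOneSpectrum_injective`), and the valuation of a norm
(`helper58_NormVal.log_valuation_norm`).
-/

set_option autoImplicit false
set_option linter.unusedSectionVars false
set_option linter.style.haveILetI false
open AlgebraicCurve IsDedekindDomain Ideal

namespace Fermat.Agent.P3.helper58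

section InertiaOne

variable {k R S : Type*} [Field k] [IsAlgClosed k] [CommRing R] [CommRing S] [Algebra R S]
  [Algebra.IsIntegral R S]

/-- If the residue field of `p` is a quotient of an algebraically closed field, every maximal
ideal over `p` has inertia degree one. -/
theorem inertiaDeg_eq_one_of_surjective (p : Ideal R) (q : Ideal S) [q.LiesOver p]
    [p.IsMaximal] [q.IsMaximal] (g : k →+* R ⧸ p) (hg : Function.Surjective g) :
    q.inertiaDeg R = 1 := by
  rw [inertiaDeg_eq_of_isMaximal p q]
  letI : Field (R ⧸ p) := Quotient.field p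
  letI : Field (S ⧸ q) := Quotient.field q
  have hint : (algebraMap (R ⧸ p) (S ⧸ q)).IsIntegral :=
    (Algebra.IsIntegral.isIntegral (R := R ⧸ p) (A := S ⧸ q))
  have hgi : g.IsIntegral := g.isIntegral_of_surjective hg
  have hcomp : ((algebraMap (R ⧸ p) (S ⧸ q)).comp g).IsIntegral := hgi.trans _ _ hint
  have hbij := IsAlgClosed.ringHom_bijective_of_isIntegral _ hcomp
  have hsurj : Function.Surjective (algebraMap (R ⧸ p) (S ⧸ q)) := by
    intro y
    obtain ⟨a, ha⟩ := hbij.2 y
    exact ⟨g a, ha⟩
  have hbij' : Function.Bijective (Algebra.linearMap (R ⧸ p) (S ⧸ q)) :=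
    ⟨(algebraMap (R ⧸ p) (S ⧸ q)).injective, hsurj⟩
  rw [← (LinearEquiv.ofBijective _ hbij').finrank_eq, Module.finrank_self]

end InertiaOne

section GenDict

open WithZero

variable {K F : Type*} [Field K] [Field F] [Algebra K F]
variable {R : Type*} [CommRing R] [IsDedekindDomain R] [Algebra R F] [IsFractionRing R F]
  [Algebra K R] [IsScalarTower K R F]

/-- The inclusion of a Dedekind domain into the valuation ring of a place containing it. -/
def inclOf (w : Place K F) (hR : ∀ r : R, algebraMap R F r ∈ w.toValuationSubring) :
    R →+* w.toValuationSubring :=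
  (algebraMap R F).codRestrict w.toValuationSubring.toSubring hR

@[simp]
theorem coe_inclOf (w : Place K F) (hR : ∀ r : R, algebraMap R F r ∈ w.toValuationSubring)
    (r : R) : ((inclOf w hR r : w.toValuationSubring) : F) = algebraMap R F r := rfl

/-- The prime of `R` cut out by a place whose valuation ring contains `R`. -/
def idealOf (w : Place K F) (hR : ∀ r : R, algebraMap R F r ∈ w.toValuationSubring) :
    Ideal R :=
  Ideal.comap (inclOf w hR) (IsLocalRing.maximalIdeal w.toValuationSubring)

instance idealOf_isPrime (w : Place K F)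
    (hR : ∀ r : R, algebraMap R F r ∈ w.toValuationSubring) : (idealOf w hR).IsPrime :=
  Ideal.comap_isPrime _ _

theorem mem_idealOf (w : Place K F) (hR : ∀ r : R, algebraMap R F r ∈ w.toValuationSubring)
    (s : R) : s ∈ idealOf w hR ↔ s = 0 ∨ 0 < w.ord (algebraMap R F s) := by
  rw [idealOf, Ideal.mem_comap, Fermat.Agent.S24.helper75.place_mem_maximalIdeal_iff]
  constructor
  · rintro (h | h)
    · left
      have h2 := congrArg Subtype.val h
      exact FaithfulSMul.algebraMap_injective R F (by simpa using h2)
    · exact Or.inr h
  · rintro (h | h)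
    · left
      rw [h, map_zero]
    · exact Or.inr h

theorem idealOf_ne_bot (w : Place K F)
    (hR : ∀ r : R, algebraMap R F r ∈ w.toValuationSubring) : idealOf w hR ≠ ⊥ := by
  obtain ⟨ϖ, hϖ⟩ := IsDiscreteValuationRing.exists_irreducible w.toValuationSubring
  have hϖ0 : (ϖ : F) ≠ 0 := by
    simpa [ne_eq, ZeroMemClass.coe_eq_zero] using hϖ.ne_zero
  have hord : w.ord (ϖ : F) = 1 := w.ord_coe_irreducible hϖ
  obtain ⟨a, b, hb, hab⟩ := IsFractionRing.div_surjective (A := R) (ϖ : F)
  have hb0 : algebraMap R F b ≠ 0 := by
    have := nonZeroDivisors.ne_zero hb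
    simpa using this
  have hab' : algebraMap R F a = (ϖ : F) * algebraMap R F b := by
    rw [← hab]
    field_simp
  have ha0 : algebraMap R F a ≠ 0 := by
    rw [hab']
    exact mul_ne_zero hϖ0 hb0
  have hb_ord : 0 ≤ w.ord (algebraMap R F b) :=
    Fermat.Agent.S24.helper75.place_ord_nonneg_of_mem w (hR b)
  have ha_ord : 0 < w.ord (algebraMap R F a) := by
    rw [hab', w.ord_mul hϖ0 hb0, hord]
    omega
  intro hbot
  have hmem : a ∈ idealOf w hR := (mem_idealOf w hR a).mpr (Or.inr ha_ord)
  rw [hbot, Ideal.mem_bot] at hmem
  exact ha0 (by rw [hmem, map_zero])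

/-- The height one prime of `R` cut out by a place whose valuation ring contains `R`. -/
def primeOf (w : Place K F) (hR : ∀ r : R, algebraMap R F r ∈ w.toValuationSubring) :
    HeightOneSpectrum R :=
  ⟨idealOf w hR, idealOf_isPrime w hR, idealOf_ne_bot w hR⟩

theorem ofHeightOneSpectrum_primeOf (w : Place K F)
    (hR : ∀ r : R, algebraMap R F r ∈ w.toValuationSubring) :
    Place.ofHeightOneSpectrum (K := K) (primeOf w hR) = w := by
  apply Place.ext
  rw [Place.ofHeightOneSpectrum_toValuationSubring,
    ← HeightOneSpectrum.valuationSubringAtPrime_eq_valuationSubring]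
  refine ValuationSubring.eq_of_le_of_ne_top _ ?_ w.ne_top'
  intro f hf
  rw [HeightOneSpectrum.valuationSubringAtPrime_eq_valuationSubring,
    Valuation.mem_valuationSubring_iff] at hf
  obtain ⟨n, d, hnd⟩ := (primeOf w hR).exists_primeCompl_mul_eq_of_integer f hf
  have hd : (d : R) ∉ idealOf w hR := d.2
  rw [mem_idealOf, not_or, not_lt] at hd
  have hd0 : algebraMap R F (d : R) ≠ 0 := by
    intro h
    exact hd.1 (FaithfulSMul.algebraMap_injective R F (by simpa using h))
  have hdord : w.ord (algebraMap R F (d : R)) = 0 :=
    le_antisymm hd.2 (Fermat.Agent.S24.helper75.place_ord_nonneg_of_mem w (hR d))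
  have hn : 0 ≤ w.ord (algebraMap R F n) :=
    Fermat.Agent.S24.helper75.place_ord_nonneg_of_mem w (hR n)
  have hf' : f = algebraMap R F n * (algebraMap R F (d : R))⁻¹ := by
    have : f * algebraMap R F (d : R) = algebraMap R F n := hnd
    rw [← this]
    field_simp
  rcases eq_or_ne (algebraMap R F n) 0 with hn0 | hn0
  · rw [hf', hn0, zero_mul]
    exact zero_mem _
  apply Fermat.Agent.S24.helper75.place_mem_of_ord_nonneg w
  rw [hf', w.ord_mul hn0 (inv_ne_zero hd0), w.ord_inv, hdord]
  omega

theorem algebraMap_mem_ofHeightOneSpectrum (P : HeightOneSpectrum R) (r : R) :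
    algebraMap R F r ∈ (Place.ofHeightOneSpectrum (K := K) (F := F) P).toValuationSubring := by
  rw [Place.ofHeightOneSpectrum_toValuationSubring, Valuation.mem_valuationSubring_iff]
  exact P.valuation_le_one r

theorem ofHeightOneSpectrum_injective :
    Function.Injective (Place.ofHeightOneSpectrum (K := K) (F := F) (R := R)) := by
  intro P P' h
  have hv : (P.valuation F).valuationSubring = (P'.valuation F).valuationSubring := by
    have := congrArg Place.toValuationSubring h
    simpa using this
  apply HeightOneSpectrum.ext
  -- `P = {r | valuation r < 1}`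
  have key : ∀ (P₁ P₂ : HeightOneSpectrum R),
      (P₁.valuation F).valuationSubring = (P₂.valuation F).valuationSubring →
      P₁.asIdeal ≤ P₂.asIdeal := by
    intro P₁ P₂ h12 r hr
    by_contra hr2
    have h1 : P₁.valuation F (algebraMap R F r) < 1 :=
      (HeightOneSpectrum.valuation_lt_one_iff_mem (K := F) P₁ r).mpr hr
    have h2 : ¬ P₂.valuation F (algebraMap R F r) < 1 := fun h =>
      hr2 ((HeightOneSpectrum.valuation_lt_one_iff_mem (K := F) P₂ r).mp h)
    have h2' : P₂.valuation F (algebraMap R F r) = 1 :=
      le_antisymm (P₂.valuation_le_one r) (not_lt.mp h2)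
    have hr0 : algebraMap R F r ≠ 0 := by
      intro h0
      rw [h0, map_zero] at h2'
      exact zero_ne_one h2'
    have hinv2 : (algebraMap R F r)⁻¹ ∈ (P₂.valuation F).valuationSubring := by
      rw [Valuation.mem_valuationSubring_iff, map_inv₀, h2', inv_one]
    rw [← h12, Valuation.mem_valuationSubring_iff, map_inv₀] at hinv2
    have hne : P₁.valuation F (algebraMap R F r) ≠ 0 := (Valuation.ne_zero_iff _).mpr hr0
    have h3 : 1 ≤ P₁.valuation F (algebraMap R F r) :=
      (inv_le_one₀ (zero_lt_iff.mpr hne)).mp hinv2
    exact absurd h1 (not_lt.mpr h3)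
  exact le_antisymm (key P P' hv) (key P' P hv.symm)

end GenDict

section Local

open WithZero

variable {K F : Type*} (F' : Type*) [Field K] [Field F] [Field F'] [Algebra K F] [Algebra K F']
  [Algebra F F'] [IsScalarTower K F F'] [FiniteDimensional F F'] [CharZero F]

variable (v : Place K F)

/-- the integral closure of the valuation ring of `v` in `F'` -/
abbrev BV : Subalgebra v.toValuationSubring F' := integralClosure v.toValuationSubring F'

local instance : IsDedekindDomain (BV F' v) :=
  integralClosure.isDedekindDomain v.toValuationSubring F F'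

local instance : IsFractionRing (BV F' v) F' :=
  integralClosure.isFractionRing_of_finite_extension F F'

local instance : Module.Finite v.toValuationSubring (BV F' v) :=
  IsIntegralClosure.finite v.toValuationSubring F F' (BV F' v)

local instance isScalarTower_OV : IsScalarTower K v.toValuationSubring F' :=
  IsScalarTower.of_algebraMap_eq fun a => by
    rw [IsScalarTower.algebraMap_apply K F F']
    rfl

theorem algebraMap_OV_injective : Function.Injective (algebraMap v.toValuationSubring F') := by
  intro a b h
  have h1 : algebraMap F F' (a : F) = algebraMap F F' (b : F) := h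
  exact Subtype.ext ((algebraMap F F').injective h1)

local instance isTorsionFree_OV : Module.IsTorsionFree v.toValuationSubring F' :=
  Module.isTorsionFree_iff_algebraMap_injective.mpr (algebraMap_OV_injective F' v)

local instance isTorsionFree_BV : Module.IsTorsionFree v.toValuationSubring (BV F' v) :=
  Subalgebra.instIsTorsionFree (BV F' v)

/-- every height one prime of `BV` lies over the maximal ideal of the valuation ring -/
theorem liesOver_maximalIdeal (Q : HeightOneSpectrum (BV F' v)) :
    Q.asIdeal.LiesOver (IsLocalRing.maximalIdeal v.toValuationSubring) := by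
  have hprime : (Q.asIdeal.under v.toValuationSubring).IsPrime := inferInstance
  have hne : Q.asIdeal.under v.toValuationSubring ≠ ⊥ := by
    intro h
    exact Q.ne_bot (Ideal.eq_bot_of_comap_eq_bot h)
  have hmax : (Q.asIdeal.under v.toValuationSubring).IsMaximal := hprime.isMaximal hne
  exact ⟨(IsLocalRing.eq_maximalIdeal hmax).symm⟩

theorem restrict_ofHeightOneSpectrum (Q : HeightOneSpectrum (BV F' v)) :
    (Place.ofHeightOneSpectrum (K := K) (F := F') Q).restrict F = v := by
  symm
  apply Place.ext
  refine ValuationSubring.eq_of_le_of_ne_top _ ?_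
    ((Place.ofHeightOneSpectrum (K := K) (F := F') Q).restrict F).ne_top'
  intro a ha
  rw [Place.restrict_toValuationSubring, ValuationSubring.mem_comap,
    Place.ofHeightOneSpectrum_toValuationSubring, Valuation.mem_valuationSubring_iff]
  have h1 : algebraMap F F' a = algebraMap (BV F' v) F'
      (algebraMap v.toValuationSubring (BV F' v) ⟨a, ha⟩) := rfl
  rw [h1]
  exact Q.valuation_le_one _

theorem BV_mem_of_restrict_eq (w : Place K F') (hw : w.restrict F = v) (b : BV F' v) :
    algebraMap (BV F' v) F' b ∈ w.toValuationSubring := by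
  have hA : ∀ a : v.toValuationSubring, algebraMap v.toValuationSubring F' a
      ∈ w.toValuationSubring.toSubring := by
    intro a
    have ha : (a : F) ∈ (w.restrict F).toValuationSubring := by
      rw [hw]
      exact a.2
    exact w.mem_restrict_iff.mp ha
  let _ : Algebra v.toValuationSubring w.toValuationSubring :=
    ((algebraMap v.toValuationSubring F').codRestrict w.toValuationSubring.toSubring hA).toAlgebra
  have : IsScalarTower v.toValuationSubring w.toValuationSubring F' :=
    IsScalarTower.of_algebraMap_eq fun f => rfl
  have hs : IsIntegral w.toValuationSubring (b : F') := (b.2 : IsIntegral _ (b : F')).tower_top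
  obtain ⟨y, hy⟩ := IsIntegrallyClosed.isIntegral_iff.mp hs
  have : algebraMap (BV F' v) F' b = (b : F') := rfl
  rw [this, ← hy]
  exact y.2

theorem exists_ofHeightOneSpectrum_eq (w : Place K F') (hw : w.restrict F = v) :
    ∃ Q : HeightOneSpectrum (BV F' v), Place.ofHeightOneSpectrum (K := K) (F := F') Q = w :=
  ⟨primeOf w (BV_mem_of_restrict_eq F' v w hw),
    ofHeightOneSpectrum_primeOf w (BV_mem_of_restrict_eq F' v w hw)⟩

section AlgClosed

variable [IsAlgClosed K]

theorem relNorm_prime_eq (hsurj : Function.Surjective (algebraMap K v.ResidueField))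
    (Q : HeightOneSpectrum (BV F' v)) :
    relNorm v.toValuationSubring Q.asIdeal = v.heightOneSpectrum.asIdeal ^ 1 := by
  haveI := liesOver_maximalIdeal F' v Q
  haveI : Q.asIdeal.IsMaximal := Q.isMaximal
  have hg : ∃ g : K →+* v.toValuationSubring ⧸ IsLocalRing.maximalIdeal v.toValuationSubring,
      Function.Surjective g := ⟨algebraMap K v.ResidueField, hsurj⟩
  obtain ⟨g, hg⟩ := hg
  rw [Place.heightOneSpectrum_asIdeal,
    relNorm_eq_pow_of_isMaximal Q.asIdeal (IsLocalRing.maximalIdeal v.toValuationSubring),
    inertiaDeg_eq_one_of_surjective (IsLocalRing.maximalIdeal v.toValuationSubring) Q.asIdeal g hg]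

/-- **Valuation of a norm**, local form at a place `v`. -/
theorem ord_norm_eq_sum [Fintype (HeightOneSpectrum (BV F' v))]
    (hsurj : Function.Surjective (algebraMap K v.ResidueField)) {f : F'} (hf : f ≠ 0) :
    v.ord (Algebra.norm F f) =
      ∑ Q : HeightOneSpectrum (BV F' v),
        (Place.ofHeightOneSpectrum (K := K) (F := F') Q).ord f := by
  have h := log_valuation_norm F F' v.heightOneSpectrum (fun _ => 1)
    (relNorm_prime_eq F' v hsurj) hf
  unfold Place.ord Place.adicValuation
  rw [h, ← Finset.sum_neg_distrib]
  refine Finset.sum_congr rfl fun Q _ => ?_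
  rw [Nat.cast_one, one_mul]
  have := Fermat.Agent.S24.helper75.ofHeightOneSpectrum_ord (K := K) Q f
  unfold Place.ord Place.adicValuation at this
  rw [this]

end AlgClosed

section Final

variable [IsAlgClosed K] [HasPrincipalDivisors K F']

theorem finite_heightOneSpectrum_BV : Finite (HeightOneSpectrum (BV F' v)) := by
  have hfin := Place.restrict_fiber_finite (F := F) (F' := F') v
  haveI := hfin.to_subtype
  exact Finite.of_injective
    (fun Q => (⟨Place.ofHeightOneSpectrum (K := K) (F := F') Q,
      restrict_ofHeightOneSpectrum F' v Q⟩ : {w : Place K F' | w.restrict F = v}))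
    (fun Q Q' h => ofHeightOneSpectrum_injective (congrArg Subtype.val h))

/-- `ord_v (N f) = ∑_{w | v} ord_w f`. -/
theorem sum_fiber_ord_eq (hsurj : Function.Surjective (algebraMap K v.ResidueField))
    {f : F'} (hf : f ≠ 0) :
    ∑ w ∈ v.fiber F', w.ord f = v.ord (Algebra.norm F f) := by
  classical
  haveI := finite_heightOneSpectrum_BV F' v
  letI := Fintype.ofFinite (HeightOneSpectrum (BV F' v))
  rw [ord_norm_eq_sum F' v hsurj hf]
  have himg : v.fiber F' = Finset.univ.image
      (fun Q : HeightOneSpectrum (BV F' v) => Place.ofHeightOneSpectrum (K := K) (F := F') Q) := by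
    ext w
    rw [Place.mem_fiber, Finset.mem_image]
    constructor
    · intro hw
      obtain ⟨Q, hQ⟩ := exists_ofHeightOneSpectrum_eq F' v w hw
      exact ⟨Q, Finset.mem_univ _, hQ⟩
    · rintro ⟨Q, -, rfl⟩
      exact restrict_ofHeightOneSpectrum F' v Q
  rw [himg, Finset.sum_image]
  intro Q _ Q' _ h
  exact ofHeightOneSpectrum_injective h

end Final

end Local

section Global

variable {K F F' : Type*} [Field K] [Field F] [Field F'] [Algebra K F] [Algebra K F']
  [Algebra F F'] [IsScalarTower K F F'] [FiniteDimensional F F'] [CharZero F]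
  [IsAlgClosed K] [HasPrincipalDivisors K F']

theorem deg_eq_one_of_surjective (v : Place K F)
    (hsurj : Function.Surjective (algebraMap K v.ResidueField)) : v.deg = 1 := by
  have hbij : Function.Bijective (Algebra.linearMap K v.ResidueField) :=
    ⟨(algebraMap K v.ResidueField).injective, hsurj⟩
  unfold Place.deg
  rw [← (LinearEquiv.ofBijective _ hbij).finrank_eq, Module.finrank_self]

theorem inertiaDeg_eq_one (hdeg : ∀ v : Place K F, v.deg = 1) (hdeg' : ∀ w : Place K F', w.deg = 1)
    (w : Place K F') : w.inertiaDeg F = 1 := by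
  have h := w.deg_restrict_mul_inertiaDeg (F := F)
  rw [hdeg, hdeg', one_mul] at h
  exact h

/-- **Norm formula** for a finite extension of function fields with residue fields `K`. -/
theorem pushforwardNormFormula_of_surjective
    (hsurj : ∀ v : Place K F, Function.Surjective (algebraMap K v.ResidueField))
    (hdeg' : ∀ w : Place K F', w.deg = 1) :
    Divisor.PushforwardNormFormula K F F' := by
  classical
  intro f hf D hD v
  rw [Divisor.pushforward_apply, ← sum_fiber_ord_eq F' v (hsurj v) hf]
  have hin := inertiaDeg_eq_one (F := F) (fun v => deg_eq_one_of_surjective v (hsurj v)) hdeg'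
  simp only [hin, Nat.cast_one, mul_one]
  rw [← Finset.sum_filter]
  have hsub : D.support.filter (fun w => w.restrict F = v) ⊆ v.fiber F' := by
    intro w hw
    rw [Finset.mem_filter] at hw
    exact Place.mem_fiber.mpr hw.2
  rw [Finset.sum_subset hsub]
  · exact Finset.sum_congr rfl fun w _ => hD w
  · intro w hw hw2
    rw [Finset.mem_filter, not_and] at hw2
    have h3 : w ∉ D.support := fun h => hw2 h (Place.mem_fiber.mp hw)
    rw [Finsupp.notMem_support_iff] at h3
    exact h3

/-- **Fundamental identity** for a finite extension of function fields with residue fields `K`. -/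
theorem fundamentalIdentity_of_surjective
    (hsurj : ∀ v : Place K F, Function.Surjective (algebraMap K v.ResidueField))
    (hdeg' : ∀ w : Place K F', w.deg = 1) :
    FundamentalIdentity K F F' where
  sum_ramificationIndex_mul_deg v := by
    obtain ⟨π, hπ⟩ := IsDiscreteValuationRing.exists_irreducible v.toValuationSubring
    have hπ0 : (π : F) ≠ 0 := by
      simpa [ne_eq, ZeroMemClass.coe_eq_zero] using hπ.ne_zero
    have hord : v.ord (π : F) = 1 := v.ord_coe_irreducible hπ
    have hπ' : algebraMap F F' (π : F) ≠ 0 := by simpa using hπ0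
    have h := sum_fiber_ord_eq F' v (hsurj v) hπ'
    rw [Algebra.norm_algebraMap, ← zpow_natCast, v.ord_zpow, hord, mul_one] at h
    rw [deg_eq_one_of_surjective v (hsurj v), Nat.cast_one, mul_one, ← h]
    refine Finset.sum_congr rfl fun w hw => ?_
    rw [hdeg' w, Nat.cast_one, mul_one, w.ord_restrict, Place.mem_fiber.mp hw, hord, mul_one]

end Global

end Fermat.Agent.P3.helper58
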