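import Mathlib
import Fermat.Prelude.Def_ModularCurve_HeckeModule
import Fermat.Agent.P3.helper58_FFExt
import Fermat.Agent.S24.helper75_FFCore2
import Fermat.Agent.S24.helper82_FFBasic
import Fermat.Agent.S24.helper77_Degree

set_option autoImplicit false
set_option linter.unusedSectionVars false
set_option linter.style.haveILetI false

open AlgebraicCurve IntermediateField

namespace Fermat.Agent.P3.helper58

section Abstract

variable {K F F' : Type*} [Field K] [Field F] [Field F'] [Algebra K F] [Algebra K F']
  [IsAlgClosed K] [CharZero K]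

/-- A `K`-algebra homomorphism between function fields of one variable is finite. -/
theorem finiteAlong_of_ff (φ : F →ₐ[K] F') (x : F) (hx : Transcendental K x)
    (x' : F') (hx' : Transcendental K x') [FiniteDimensional K⟮x'⟯ F'] :
    FiniteAlong K φ := by
  have h1 : φ x ∉ Set.range (algebraMap K F') := by
    rintro ⟨c, hc⟩
    have h2 : φ x = φ (algebraMap K F c) := by rw [← hc, AlgHom.commutes]
    have h3 : x = algebraMap K F c := φ.toRingHom.injective h2
    exact hx (h3 ▸ isAlgebraic_algebraMap c)
  haveI := (Fermat.Agent.S24.helper82.ff_transcendental x' hx' (φ x) h1).2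
  have hle : K⟮φ x⟯ ≤ φ.fieldRange := by
    rw [adjoin_simple_le_iff]
    exact ⟨x, rfl⟩
  letI : Algebra K⟮φ x⟯ φ.fieldRange := (IntermediateField.inclusion hle).toRingHom.toAlgebra
  haveI : IsScalarTower K⟮φ x⟯ φ.fieldRange F' := IsScalarTower.of_algebraMap_eq fun _ => rfl
  haveI : Module.Finite φ.fieldRange F' := Module.Finite.of_restrictScalars_finite K⟮φ x⟯ _ _
  letI := algebraAlong φ
  show Module.Finite F F'
  let e : F ≃ₐ[K] φ.fieldRange := AlgEquiv.ofInjectiveField φ
  refine Module.Finite.of_equiv_equiv (A₁ := φ.fieldRange) (B₁ := F') e.symm.toRingEquiv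
    (RingEquiv.refl F') ?_
  ext y
  obtain ⟨z, rfl⟩ := e.surjective y
  simp only [RingHom.comp_apply]
  show φ (e.symm (e z)) = (e z : F')
  rw [AlgEquiv.symm_apply_apply]
  rfl

theorem isIntegral_of_finiteAlong (φ : F →ₐ[K] F') (h : FiniteAlong K φ) :
    φ.toRingHom.IsIntegral := by
  letI := algebraAlong φ
  haveI : Module.Finite F F' := h
  exact fun y => Algebra.IsIntegral.isIntegral (R := F) y

/-- **Hecke inputs**, abstract form: for two `K`-algebra homomorphisms `φ, ψ` between function
fields of one variable over an algebraically closed field of characteristic zero. -/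
theorem heckeInputs_of_ff (φ ψ : F →ₐ[K] F') (x : F) (hx : Transcendental K x)
    [FiniteDimensional K⟮x⟯ F] (x' : F') (hx' : Transcendental K x') [FiniteDimensional K⟮x'⟯ F'] :
    ∃ (_ : ψ.toRingHom.IsIntegral) (hφ : φ.toRingHom.IsIntegral)
      (_ : HasPrincipalDivisors K F') (hfin : FiniteAlong K ψ),
      FundamentalIdentityAlong K φ hφ ∧ NormFormulaAlong K ψ hfin := by
  have hfinφ := finiteAlong_of_ff φ x hx x' hx'
  have hfinψ := finiteAlong_of_ff ψ x hx x' hx'
  have hpd : HasPrincipalDivisors K F' :=
    Fermat.Agent.S24.helper75.ff_hasPrincipalDivisors x' hx'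
  haveI : CharZero F := charZero_of_injective_algebraMap (algebraMap K F).injective
  have hsurj : ∀ v : Place K F, Function.Surjective (algebraMap K v.ResidueField) :=
    fun v => Fermat.Agent.S24.helper82.algebraMap_residueField_surjective x v
  have hdeg' : ∀ w : Place K F', w.deg = 1 :=
    fun w => Fermat.Agent.S24.helper82.ff_deg_eq_one x' hx' w
  refine ⟨isIntegral_of_finiteAlong ψ hfinψ, isIntegral_of_finiteAlong φ hfinφ, hpd, hfinψ, ?_, ?_⟩
  · letI := algebraAlong φ
    haveI := isScalarTower_along φ
    haveI : Module.Finite F F' := hfinφ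
    exact fundamentalIdentity_of_surjective hsurj hdeg'
  · letI := algebraAlong ψ
    haveI := isScalarTower_along ψ
    haveI : Module.Finite F F' := hfinψ
    exact pushforwardNormFormula_of_surjective hsurj hdeg'

end Abstract

section Modular

open ModularCurve Fermat.Agent.S24

/-- **[GAL-HI]** The Hecke inputs hold over `ℚ̄` for every level `N` and every `ℓ`. -/
theorem heckeInputsAlong_bar (N ℓ : ℕ) [NeZero N] [NeZero ℓ] :
    ModularCurve.HeckeInputsAlong (AlgebraicClosure ℚ) N ℓ := by
  haveI : NeZero (N * ℓ) := ⟨Nat.mul_ne_zero (NeZero.ne N) (NeZero.ne ℓ)⟩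
  haveI := helper77.an_finiteDimensional N
  haveI := helper77.an_finiteDimensional (N * ℓ)
  exact heckeInputs_of_ff (heckeBetaBar (AlgebraicClosure ℚ) N ℓ)
    (heckeAlphaBar (AlgebraicClosure ℚ) N ℓ) (xJ N) (helper77.an_transcendental N)
    (xJ (N * ℓ)) (helper77.an_transcendental (N * ℓ))

end Modular

end Fermat.Agent.P3.helper58
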