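import Mathlib

/-!
# P3 [AN3]: `m`-th roots of meromorphic functions on the upper half plane (helper34, task 389)

Mathlib only.  `H = {z : ℂ | 0 < z.im}` (`= UpperHalfPlane.upperHalfPlaneSet`, an `abbrev`).

* `exists_log_on_ball` : a holomorphic nowhere vanishing function on an open ball is `exp ∘ v`.
* `exists_root_on_ball` : local existence of roots on balls.
* `eq_const_mul_of_pow_eq` : uniqueness of roots up to a root of unity on a preconnected open set.
* `exists_root_of_exhaustion` : patching along an exhaustion.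
* `exists_meromorphic_root` : **main theorem** on `H`.
* `meromorphic_root_unique` : uniqueness on `H`.
* `exists_meromorphicNF_root`, `exists_analytic_root` : normal form and holomorphic versions.
-/

set_option autoImplicit false

open Filter Topology Set Metric

namespace Fermat.Agent.P3.helper34

/-- A holomorphic function without zeros on an open ball has a holomorphic logarithm. -/
theorem exists_log_on_ball {c : ℂ} {r : ℝ} {h : ℂ → ℂ} (hd : DifferentiableOn ℂ h (ball c r))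
    (hne : ∀ z ∈ ball c r, h z ≠ 0) :
    ∃ v : ℂ → ℂ, DifferentiableOn ℂ v (ball c r) ∧ ∀ z ∈ ball c r, Complex.exp (v z) = h z := by
  by_cases hr : 0 < r
  swap
  · refine ⟨fun _ => 0, differentiableOn_const _, fun z hz => ?_⟩
    rw [ball_eq_empty.mpr (not_lt.mp hr)] at hz
    exact absurd hz (Set.notMem_empty z)
  have hopen : IsOpen (ball c r) := isOpen_ball
  have hc : c ∈ ball c r := mem_ball_self hr
  -- the logarithmic derivative is holomorphic, hence has a primitive
  have hd' : DifferentiableOn ℂ (deriv h) (ball c r) := hd.deriv hopen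
  have hq : DifferentiableOn ℂ (fun z => deriv h z / h z) (ball c r) := hd'.div hd hne
  obtain ⟨F, hF⟩ := hq.isExactOn_ball
  -- `h * exp (-F)` has zero derivative
  set G : ℂ → ℂ := fun z => h z * Complex.exp (-F z) with hG
  have hGd : ∀ z ∈ ball c r, HasDerivAt G 0 z := by
    intro z hz
    have h1 : HasDerivAt h (deriv h z) z :=
      ((hd z hz).differentiableAt (hopen.mem_nhds hz)).hasDerivAt
    have h2 : HasDerivAt (fun z => Complex.exp (-F z))
        (Complex.exp (-F z) * (-(deriv h z / h z))) z := ((hF z hz).neg).cexp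
    have h3 := h1.mul h2
    have h4 : deriv h z * Complex.exp (-F z) +
        h z * (Complex.exp (-F z) * (-(deriv h z / h z))) = 0 := by
      have := hne z hz
      field_simp
      ring
    rw [h4] at h3
    exact h3
  have hGdiff : DifferentiableOn ℂ G (ball c r) := fun z hz =>
    (hGd z hz).differentiableAt.differentiableWithinAt
  have hGderiv : (ball c r).EqOn (deriv G) 0 := fun z hz => (hGd z hz).deriv
  have hconst : ∀ z ∈ ball c r, G z = G c := fun z hz =>
    hopen.is_const_of_deriv_eq_zero (convex_ball c r).isPreconnected hGdiff hGderiv hz hc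
  have hGc : G c ≠ 0 := mul_ne_zero (hne c hc) (Complex.exp_ne_zero _)
  refine ⟨fun z => F z + Complex.log (G c), ?_, fun z hz => ?_⟩
  · exact fun z hz =>
      ((hF z hz).differentiableAt.add (differentiableAt_const _)).differentiableWithinAt
  · rw [Complex.exp_add, Complex.exp_log hGc, ← hconst z hz, hG]
    simp only
    rw [mul_comm, mul_assoc, ← Complex.exp_add, neg_add_cancel, Complex.exp_zero, mul_one]

/-- **Local existence**: a meromorphic function on a closed ball, nowhere locally zero, all of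
whose orders are divisible by `m`, is an `m`-th power of a meromorphic function on the open
ball (modulo equality on a codiscrete set). -/
theorem exists_root_on_ball {m : ℕ} (hm : 0 < m) {c : ℂ} {r : ℝ} {f : ℂ → ℂ}
    (hf : MeromorphicOn f (closedBall c r))
    (hfin : ∀ z ∈ closedBall c r, meromorphicOrderAt f z ≠ ⊤)
    (hdvd : ∀ z ∈ closedBall c r, (m : ℤ) ∣ (meromorphicOrderAt f z).untop₀) :
    ∃ g : ℂ → ℂ, MeromorphicOn g (ball c r) ∧
      (fun w => g w ^ m) =ᶠ[codiscreteWithin (ball c r)] f := by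
  classical
  have hDfin : (MeromorphicOn.divisor f (closedBall c r)).support.Finite :=
    (MeromorphicOn.divisor f (closedBall c r)).finiteSupport (isCompact_closedBall c r)
  obtain ⟨h, hAn, hne, hEq⟩ := hf.extract_zeros_poles (fun u => hfin u u.2) hDfin
  have hsub : ball c r ⊆ closedBall c r := ball_subset_closedBall
  -- logarithm of the analytic part
  have hd : DifferentiableOn ℂ h (ball c r) := fun z hz =>
    (hAn z (hsub hz)).differentiableAt.differentiableWithinAt
  obtain ⟨v, hv, hexp⟩ := exists_log_on_ball hd (fun z hz => hne ⟨z, hsub hz⟩)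
  -- the exponents
  set D : ℂ → ℤ := fun u => MeromorphicOn.divisor f (closedBall c r) u with hD
  set E : ℂ → ℤ := fun u => D u / (m : ℤ) with hE
  have hDE : ∀ u, D u = E u * (m : ℤ) := by
    intro u
    have hdv : (m : ℤ) ∣ D u := by
      by_cases hu : u ∈ closedBall c r
      · simp only [hD]
        rw [MeromorphicOn.divisor_apply hf hu]
        exact hdvd u hu
      · simp only [hD]
        rw [Function.locallyFinsuppWithin.apply_eq_zero_of_notMem _ hu]
        exact dvd_zero _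
    simp only [hE]
    exact (Int.ediv_mul_cancel hdv).symm
  have hEsupp : E.support ⊆ D.support := by
    intro u hu
    rw [Function.mem_support] at hu ⊢
    intro h0
    apply hu
    simp only [hE, h0, Int.zero_ediv]
  have hEfin : E.support.Finite := hDfin.subset hEsupp
  have hψm : ∀ w : ℂ, ((∏ᶠ u, (· - u) ^ E u : ℂ → ℂ) w) ^ m =
      (∏ᶠ u, (· - u) ^ D u : ℂ → ℂ) w := by
    intro w
    rw [Function.FactorizedRational.finprod_eq_fun hEfin,
      Function.FactorizedRational.finprod_eq_fun hDfin]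
    simp only
    have hms : (Function.mulSupport fun u => (w - u) ^ E u).Finite := by
      refine hEfin.subset fun u hu => ?_
      rw [Function.mem_mulSupport] at hu
      rw [Function.mem_support]
      intro h0
      apply hu
      rw [h0, zpow_zero]
    rw [finprod_pow hms]
    refine finprod_congr fun u => ?_
    have hu := hDE u
    simp only [hD] at hu
    rw [hu, zpow_mul, zpow_natCast]
  refine ⟨fun w => (∏ᶠ u, (· - u) ^ E u : ℂ → ℂ) w * Complex.exp (v w / m), ?_, ?_⟩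
  · have h1 : MeromorphicOn (∏ᶠ u, (· - u) ^ E u : ℂ → ℂ) (ball c r) := fun z _ =>
      (Function.FactorizedRational.meromorphicNFOn_univ E).meromorphicOn z (mem_univ z)
    have h2 : AnalyticOnNhd ℂ (fun w => Complex.exp (v w / m)) (ball c r) := by
      apply DifferentiableOn.analyticOnNhd _ isOpen_ball
      exact (hv.div_const _).cexp
    exact h1.mul h2.meromorphicOn
  · filter_upwards [Filter.codiscreteWithin_mono hsub hEq, self_mem_codiscreteWithin (ball c r)]
      with w hw hwB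
    rw [hw, mul_pow, hψm w, ← Complex.exp_nat_mul, mul_div_cancel₀ _
      (Nat.cast_ne_zero.mpr hm.ne'), hexp w hwB]
    rfl


/-! ### Codiscrete versus punctured neighbourhoods -/

/-- On an open set, "codiscretely within `B`" means "on a punctured neighbourhood of every point
of `B`". -/
theorem mem_codiscreteWithin_iff_of_isOpen {B : Set ℂ} (hB : IsOpen B) {s : Set ℂ} :
    s ∈ codiscreteWithin B ↔ ∀ z ∈ B, s ∈ 𝓝[≠] z := by
  rw [mem_codiscreteWithin_iff_forall_mem_nhdsNE]
  refine forall₂_congr fun z hz => ?_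
  constructor
  · intro h
    have hBz : B ∈ 𝓝[≠] z := mem_nhdsWithin_of_mem_nhds (hB.mem_nhds hz)
    filter_upwards [h, hBz] with w hw hwB
    rcases hw with hw | hw
    · exact hw
    · exact absurd hwB hw
  · intro h
    exact mem_of_superset h subset_union_left

theorem eventuallyEq_codiscreteWithin_iff_of_isOpen {B : Set ℂ} (hB : IsOpen B) {f g : ℂ → ℂ} :
    f =ᶠ[codiscreteWithin B] g ↔ ∀ z ∈ B, f =ᶠ[𝓝[≠] z] g :=
  mem_codiscreteWithin_iff_of_isOpen hB

/-- `n * a = 0` in `WithTop ℤ` with `0 < n` forces `a = 0`. -/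
theorem withTop_eq_zero_of_natCast_mul_eq_zero {n : ℕ} (hn : 0 < n) {a : WithTop ℤ}
    (h : (n : WithTop ℤ) * a = 0) : a = 0 := by
  induction a using WithTop.recTopCoe with
  | top =>
    exfalso
    rw [WithTop.mul_top (by exact_mod_cast hn.ne')] at h
    exact WithTop.top_ne_zero h
  | coe k =>
    have h' : ((n : ℤ) * k : ℤ) = 0 := by exact_mod_cast h
    rcases mul_eq_zero.mp h' with h0 | h0
    · exact absurd (by exact_mod_cast h0) hn.ne'
    · rw [h0]; rfl

/-! ### Uniqueness of roots up to a root of unity -/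

/-- **Uniqueness**: on a preconnected open set, two meromorphic functions with the same `m`-th
power (on punctured neighbourhoods) differ by a constant `m`-th root of unity. -/
theorem eq_const_mul_of_pow_eq {m : ℕ} (hm : 0 < m) {B : Set ℂ} (hBo : IsOpen B)
    (hBc : IsPreconnected B) {g₁ g₂ : ℂ → ℂ} (h₁ : MeromorphicOn g₁ B) (h₂ : MeromorphicOn g₂ B)
    (hfin : ∀ z ∈ B, meromorphicOrderAt g₂ z ≠ ⊤)
    (hpow : ∀ z ∈ B, (fun w => g₁ w ^ m) =ᶠ[𝓝[≠] z] fun w => g₂ w ^ m) :
    ∃ ζ : ℂ, ζ ^ m = 1 ∧ ∀ z ∈ B, g₁ =ᶠ[𝓝[≠] z] fun w => ζ * g₂ w := by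
  classical
  rcases B.eq_empty_or_nonempty with hBe | ⟨z₀, hz₀⟩
  · exact ⟨1, one_pow m, fun z hz => by rw [hBe] at hz; exact absurd hz (Set.notMem_empty z)⟩
  -- the quotient and its normal form
  set q : ℂ → ℂ := fun w => g₁ w * (g₂ w)⁻¹ with hq
  have hqm : MeromorphicOn q B := fun z hz => (h₁ z hz).mul (h₂ z hz).inv
  set Q : ℂ → ℂ := toMeromorphicNFOn q B with hQ
  have hQNF : MeromorphicNFOn Q B := meromorphicNFOn_toMeromorphicNFOn q B
  have hQq : ∀ z ∈ B, Q =ᶠ[𝓝[≠] z] q := fun z hz => hqm.toMeromorphicNFOn_eq_self_on_nhdsNE hz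
  have hg₂ : ∀ z ∈ B, ∀ᶠ w in 𝓝[≠] z, g₂ w ≠ 0 := fun z hz =>
    (meromorphicOrderAt_ne_top_iff_eventually_ne_zero (h₂ z hz)).1 (hfin z hz)
  -- `Q ^ m = 1` on punctured neighbourhoods
  have hQpow : ∀ z ∈ B, (fun w => Q w ^ m) =ᶠ[𝓝[≠] z] fun _ => (1 : ℂ) := by
    intro z hz
    filter_upwards [hQq z hz, hg₂ z hz, hpow z hz] with w hw1 hw2 hw3
    rw [hw1, hq]
    simp only
    rw [mul_pow, hw3, inv_pow, mul_inv_cancel₀ (pow_ne_zero m hw2)]
  -- hence `Q` has order `0`, is analytic, and `Q ^ m = 1` everywhere on `B`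
  have hQord : ∀ z ∈ B, meromorphicOrderAt Q z = 0 := by
    intro z hz
    have e1 : meromorphicOrderAt (Q ^ m) z = meromorphicOrderAt (fun _ : ℂ => (1 : ℂ)) z :=
      meromorphicOrderAt_congr (hQpow z hz)
    rw [meromorphicOrderAt_pow (hQNF hz).meromorphicAt, meromorphicOrderAt_const,
      if_neg one_ne_zero] at e1
    exact withTop_eq_zero_of_natCast_mul_eq_zero hm e1
  have hQan : ∀ z ∈ B, AnalyticAt ℂ Q z := fun z hz =>
    (hQNF hz).meromorphicOrderAt_nonneg_iff_analyticAt.1 (hQord z hz).ge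
  have hQone : ∀ z ∈ B, Q z ^ m = 1 := by
    intro z hz
    have hc1 : ContinuousAt (fun w => Q w ^ m) z := (hQan z hz).continuousAt.pow m
    have hc2 : ContinuousAt (fun _ : ℂ => (1 : ℂ)) z := continuousAt_const
    exact ((hc1.eventuallyEq_nhds_iff_eventuallyEq_nhdsNE hc2).1 (hQpow z hz)).eq_of_nhds
  -- `Q` is constant
  have hQconst : ∀ z ∈ B, Q z = Q z₀ := by
    intro z hz
    have hTfin : ((Polynomial.nthRootsFinset m (1 : ℂ) : Finset ℂ) : Set ℂ).Finite :=
      Finset.finite_toSet _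
    refine hBc.constant_of_mapsTo (T := ((Polynomial.nthRootsFinset m (1 : ℂ) : Finset ℂ) : Set ℂ))
      hTfin.isDiscrete
      (fun w hw => (hQan w hw).continuousAt.continuousWithinAt) (fun w hw => ?_) hz hz₀
    rw [Finset.mem_coe, Polynomial.mem_nthRootsFinset hm]
    exact hQone w hw
  refine ⟨Q z₀, hQone z₀ hz₀, fun z hz => ?_⟩
  filter_upwards [hQq z hz, hg₂ z hz, mem_nhdsWithin_of_mem_nhds (hBo.mem_nhds hz)]
    with w hw1 hw2 hwB
  rw [← hQconst w hwB, hw1, hq]
  simp only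
  rw [mul_assoc, inv_mul_cancel₀ hw2, mul_one]


/-! ### Orders of roots -/

/-- If `g ^ m = f` on a punctured neighbourhood of `z` (`0 < m`) and `f` has finite order at `z`,
then so has `g`. -/
theorem meromorphicOrderAt_ne_top_of_pow_eq {m : ℕ} (hm : 0 < m) {f g : ℂ → ℂ} {z : ℂ}
    (hpow : (fun w => g w ^ m) =ᶠ[𝓝[≠] z] f)
    (hfin : meromorphicOrderAt f z ≠ ⊤) : meromorphicOrderAt g z ≠ ⊤ := by
  intro htop
  apply hfin
  rw [meromorphicOrderAt_eq_top_iff] at htop ⊢
  filter_upwards [htop, hpow] with w hw1 hw2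
  rw [← hw2]
  simp only [hw1]
  exact zero_pow hm.ne'

/-- If `g ^ m = f` on a punctured neighbourhood of `z`, with `g` meromorphic at `z`, then
`ord_z f = m * ord_z g`. -/
theorem meromorphicOrderAt_eq_mul_of_pow_eq {m : ℕ} {f g : ℂ → ℂ} {z : ℂ}
    (hg : MeromorphicAt g z) (hpow : (fun w => g w ^ m) =ᶠ[𝓝[≠] z] f) :
    meromorphicOrderAt f z = (m : WithTop ℤ) * meromorphicOrderAt g z := by
  have e1 : meromorphicOrderAt (g ^ m) z = meromorphicOrderAt f z := meromorphicOrderAt_congr hpow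
  rw [← e1, meromorphicOrderAt_pow hg]

theorem untop₀_meromorphicOrderAt_eq_mul_of_pow_eq {m : ℕ} (hm : 0 < m) {f g : ℂ → ℂ} {z : ℂ}
    (hg : MeromorphicAt g z) (hpow : (fun w => g w ^ m) =ᶠ[𝓝[≠] z] f)
    (hfin : meromorphicOrderAt f z ≠ ⊤) :
    (meromorphicOrderAt f z).untop₀ = (m : ℤ) * (meromorphicOrderAt g z).untop₀ := by
  have h1 := meromorphicOrderAt_eq_mul_of_pow_eq hg hpow
  have h2 := meromorphicOrderAt_ne_top_of_pow_eq hm hpow hfin
  obtain ⟨k, hk⟩ := WithTop.ne_top_iff_exists.1 h2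
  rw [h1, ← hk]
  have : ((m : WithTop ℤ) * ((k : ℤ) : WithTop ℤ)) = (((m : ℤ) * k : ℤ) : WithTop ℤ) := by
    push_cast
    rfl
  rw [this, WithTop.untop₀_coe, WithTop.untop₀_coe]

/-! ### Patching along an exhaustion -/

/-- **Patching**: if `U` is exhausted by open sets `B n ⊆ K n ⊆ W n ⊆ U` (`K n` closed and
increasing, `W n` open, preconnected and increasing) and `f` has a meromorphic `m`-th root on
every `W n`, then `f` has a meromorphic `m`-th root on `U`. -/
theorem exists_root_of_exhaustion {m : ℕ} (hm : 0 < m) {U : Set ℂ} {f : ℂ → ℂ}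
    (hfin : ∀ z ∈ U, meromorphicOrderAt f z ≠ ⊤)
    (B K W : ℕ → Set ℂ) (hBK : ∀ n, B n ⊆ K n) (hKW : ∀ n, K n ⊆ W n) (hWU : ∀ n, W n ⊆ U)
    (hBo : ∀ n, IsOpen (B n)) (hKc : ∀ n, IsClosed (K n)) (hWo : ∀ n, IsOpen (W n))
    (hWc : ∀ n, IsPreconnected (W n))
    (hKmono : ∀ n, K n ⊆ K (n + 1)) (hWmono : ∀ n, W n ⊆ W (n + 1)) (hcov : U ⊆ ⋃ n, B n)
    (hroot : ∀ n, ∃ g : ℂ → ℂ, MeromorphicOn g (W n) ∧
      ∀ z ∈ W n, (fun w => g w ^ m) =ᶠ[𝓝[≠] z] f) :
    ∃ g : ℂ → ℂ, MeromorphicOn g U ∧ ∀ z ∈ U, (fun w => g w ^ m) =ᶠ[𝓝[≠] z] f := by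
  classical
  choose r hr_mero hr_pow using hroot
  -- consecutive roots differ by roots of unity
  have hstep : ∀ n, ∃ ζ : ℂ, ζ ^ m = 1 ∧
      ∀ z ∈ W n, r (n + 1) =ᶠ[𝓝[≠] z] fun w => ζ * r n w := by
    intro n
    refine eq_const_mul_of_pow_eq hm (hWo n) (hWc n)
      (fun z hz => hr_mero (n + 1) z (hWmono n hz)) (hr_mero n)
      (fun z hz => meromorphicOrderAt_ne_top_of_pow_eq hm (hr_pow n z hz) (hfin z (hWU n hz)))
      (fun z hz => ?_)
    exact (hr_pow (n + 1) z (hWmono n hz)).trans (hr_pow n z hz).symm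
  choose ζ hζ1 hζ2 using hstep
  have hζ0 : ∀ n, ζ n ≠ 0 := by
    intro n h0
    have := hζ1 n
    rw [h0, zero_pow hm.ne'] at this
    exact zero_ne_one this
  -- the corrected sequence
  set c : ℕ → ℂ := fun n => ∏ i ∈ Finset.range n, ζ i with hc
  have hc0 : ∀ n, c n ≠ 0 := fun n => Finset.prod_ne_zero_iff.2 fun i _ => hζ0 i
  have hcm : ∀ n, c n ^ m = 1 := by
    intro n
    simp only [hc]
    rw [← Finset.prod_pow]
    exact Finset.prod_eq_one fun i _ => hζ1 i
  have hcs : ∀ n, c (n + 1) = c n * ζ n := fun n => Finset.prod_range_succ _ _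
  set G : ℕ → ℂ → ℂ := fun n w => (c n)⁻¹ * r n w with hG
  have hG_mero : ∀ n, MeromorphicOn (G n) (W n) := fun n z hz =>
    (MeromorphicAt.const (c n)⁻¹ z).mul (hr_mero n z hz)
  have hG_pow : ∀ n, ∀ z ∈ W n, (fun w => G n w ^ m) =ᶠ[𝓝[≠] z] f := by
    intro n z hz
    filter_upwards [hr_pow n z hz] with w hw
    simp only [hG]
    rw [mul_pow, inv_pow, hcm n, inv_one, one_mul]
    exact hw
  have hG_compat : ∀ n, ∀ z ∈ W n, G (n + 1) =ᶠ[𝓝[≠] z] G n := by
    intro n z hz
    filter_upwards [hζ2 n z hz] with w hw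
    simp only [hG]
    rw [hw, hcs n, mul_inv, mul_assoc, ← mul_assoc (ζ n)⁻¹, inv_mul_cancel₀ (hζ0 n), one_mul]
  -- the sets where consecutive functions agree are punctured neighbourhoods of every point
  have hgood : ∀ i, ∀ z : ℂ, ∀ᶠ w in 𝓝[≠] z, w ∈ K i → G (i + 1) w = G i w := by
    intro i z
    by_cases hz : z ∈ W i
    · filter_upwards [hG_compat i z hz] with w hw _ using hw
    · have hzK : z ∈ (K i)ᶜ := fun h => hz (hKW i h)
      filter_upwards [mem_nhdsWithin_of_mem_nhds ((hKc i).isOpen_compl.mem_nhds hzK)] with w hw hwK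
      exact absurd hwK hw
  have hKle : ∀ {a b : ℕ}, a ≤ b → K a ⊆ K b := fun {a b} hab =>
    monotone_nat_of_le_succ (f := K) hKmono hab
  -- the glued function
  set idx : ℂ → ℕ := fun z => if h : ∃ n, z ∈ B n then Nat.find h else 0 with hidx
  refine ⟨fun z => G (idx z) z, ?_⟩
  have key : ∀ n, ∀ z ∈ B n, (fun z => G (idx z) z) =ᶠ[𝓝[≠] z] G n := by
    intro n z hz
    have h1 : ∀ᶠ w in 𝓝[≠] z, ∀ i ∈ Finset.range n, w ∈ K i → G (i + 1) w = G i w :=
      (Filter.eventually_all_finset _).2 fun i _ => hgood i z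
    filter_upwards [h1, mem_nhdsWithin_of_mem_nhds ((hBo n).mem_nhds hz)] with w hw hwB
    have hex : ∃ k, w ∈ B k := ⟨n, hwB⟩
    have hidxw : idx w = Nat.find hex := by simp only [hidx, dif_pos hex]
    have hle : idx w ≤ n := by rw [hidxw]; exact Nat.find_min' hex hwB
    have hmem : w ∈ B (idx w) := by rw [hidxw]; exact Nat.find_spec hex
    have hind : ∀ k, idx w ≤ k → k ≤ n → G k w = G (idx w) w := by
      intro k hk
      induction k, hk using Nat.le_induction with
      | base => intro _; rfl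
      | succ k hk ih =>
        intro hkn
        have hk' : k < n := Nat.lt_of_succ_le hkn
        rw [hw k (Finset.mem_range.2 hk') (hKle hk (hBK _ hmem)), ih hk'.le]
    exact (hind n hle le_rfl).symm
  constructor
  · intro z hz
    obtain ⟨n, hn⟩ := mem_iUnion.1 (hcov hz)
    exact (hG_mero n z (hKW n (hBK n hn))).congr (key n z hn).symm
  · intro z hz
    obtain ⟨n, hn⟩ := mem_iUnion.1 (hcov hz)
    filter_upwards [key n z hn, hG_pow n z (hKW n (hBK n hn))] with w hw1 hw2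
    rw [← hw2, ← hw1]


/-! ### The exhaustion of the upper half plane by balls -/

/-- Centre of the `n`-th exhausting ball of the upper half plane. -/
noncomputable def uhpCen (n : ℕ) : ℂ := ⟨0, (n : ℝ) + 2⟩

/-- Radius of the `n`-th exhausting ball of the upper half plane. -/
noncomputable def uhpRad (n : ℕ) : ℝ := ((n : ℝ) + 2) - 1 / ((n : ℝ) + 2)

theorem uhpRad_pos (n : ℕ) : 0 < uhpRad n := by
  have h2 : (2 : ℝ) ≤ (n : ℝ) + 2 := by linarith [(Nat.cast_nonneg n : (0 : ℝ) ≤ n)]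
  have h3 : 1 / ((n : ℝ) + 2) ≤ 1 / 2 := one_div_le_one_div_of_le (by norm_num) h2
  unfold uhpRad
  linarith

theorem closedBall_uhp_subset (n : ℕ) :
    closedBall (uhpCen n) (uhpRad n) ⊆ {z : ℂ | 0 < z.im} := by
  intro z hz
  rw [mem_closedBall, Complex.dist_eq] at hz
  have h1 : |(z - uhpCen n).im| ≤ ‖z - uhpCen n‖ := Complex.abs_im_le_norm _
  have h2 : (z - uhpCen n).im = z.im - ((n : ℝ) + 2) := by simp [uhpCen]
  have h3 := (abs_le.1 (h1.trans hz)).1
  rw [h2] at h3
  have h4 : (0 : ℝ) < 1 / ((n : ℝ) + 2) := by positivity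
  change 0 < z.im
  unfold uhpRad at h3
  linarith

theorem closedBall_uhp_subset_ball_succ (n : ℕ) :
    closedBall (uhpCen n) (uhpRad n) ⊆ ball (uhpCen (n + 1)) (uhpRad (n + 1)) := by
  apply closedBall_subset_ball'
  have hd : dist (uhpCen n) (uhpCen (n + 1)) = 1 := by
    rw [Complex.dist_eq]
    have : uhpCen n - uhpCen (n + 1) = -Complex.I := by
      apply Complex.ext <;> simp [uhpCen]
    rw [this, norm_neg, Complex.norm_I]
  rw [hd]
  have h0 : (0 : ℝ) < (n : ℝ) + 2 := by positivity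
  have h1 : 1 / (((n + 1 : ℕ) : ℝ) + 2) < 1 / ((n : ℝ) + 2) := by
    apply one_div_lt_one_div_of_lt h0
    push_cast
    linarith
  unfold uhpRad
  push_cast at h1 ⊢
  linarith

theorem uhp_subset_iUnion_ball : {z : ℂ | 0 < z.im} ⊆ ⋃ n, ball (uhpCen n) (uhpRad n) := by
  intro z hz
  change 0 < z.im at hz
  obtain ⟨n, hn⟩ := exists_nat_gt ((z.re ^ 2 + z.im ^ 2 + 2) / (2 * z.im))
  refine mem_iUnion.2 ⟨n, ?_⟩
  rw [mem_ball, Complex.dist_eq]
  have ht0 : (0 : ℝ) < (n : ℝ) + 2 := by positivity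
  have hn' : z.re ^ 2 + z.im ^ 2 + 2 < ((n : ℝ) + 2) * (2 * z.im) := by
    rw [div_lt_iff₀ (by positivity)] at hn
    nlinarith
  apply lt_of_pow_lt_pow_left₀ 2 (uhpRad_pos n).le
  rw [Complex.sq_norm, Complex.normSq_apply]
  have e1 : (z - uhpCen n).re = z.re := by simp [uhpCen]
  have e2 : (z - uhpCen n).im = z.im - ((n : ℝ) + 2) := by simp [uhpCen]
  rw [e1, e2]
  have e3 : uhpRad n ^ 2 = ((n : ℝ) + 2) ^ 2 - 2 + (1 / ((n : ℝ) + 2)) ^ 2 := by
    unfold uhpRad
    field_simp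
    ring
  rw [e3]
  nlinarith [sq_nonneg (1 / ((n : ℝ) + 2))]

/-! ### The main theorems -/

/-- **[AN3] `m`-th roots of meromorphic functions on the upper half plane.**
If `f` is meromorphic on the upper half plane, nowhere locally zero, and all its orders are
divisible by `m > 0`, then `f = g ^ m` (on a punctured neighbourhood of every point) for some
meromorphic `g`; moreover `ord_z f = m * ord_z g`. -/
theorem exists_meromorphic_root (m : ℕ) (hm : 0 < m) (f : ℂ → ℂ)
    (hf : MeromorphicOn f {z : ℂ | 0 < z.im})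
    (hfin : ∀ z ∈ {z : ℂ | 0 < z.im}, meromorphicOrderAt f z ≠ ⊤)
    (hdvd : ∀ z ∈ {z : ℂ | 0 < z.im}, (m : ℤ) ∣ (meromorphicOrderAt f z).untop₀) :
    ∃ g : ℂ → ℂ, MeromorphicOn g {z : ℂ | 0 < z.im} ∧
      (∀ z ∈ {z : ℂ | 0 < z.im}, (fun w => g w ^ m) =ᶠ[𝓝[≠] z] f) ∧
      (∀ z ∈ {z : ℂ | 0 < z.im}, meromorphicOrderAt g z ≠ ⊤) ∧
      (∀ z ∈ {z : ℂ | 0 < z.im},
        (meromorphicOrderAt f z).untop₀ = (m : ℤ) * (meromorphicOrderAt g z).untop₀) := by
  have hsub : ∀ n, ball (uhpCen (n + 1)) (uhpRad (n + 1)) ⊆ {z : ℂ | 0 < z.im} := fun n =>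
    ball_subset_closedBall.trans (closedBall_uhp_subset (n + 1))
  obtain ⟨g, hg, hpow⟩ := exists_root_of_exhaustion hm (U := {z : ℂ | 0 < z.im}) (f := f) hfin
    (fun n => ball (uhpCen n) (uhpRad n)) (fun n => closedBall (uhpCen n) (uhpRad n))
    (fun n => ball (uhpCen (n + 1)) (uhpRad (n + 1)))
    (fun n => ball_subset_closedBall) closedBall_uhp_subset_ball_succ hsub
    (fun n => isOpen_ball) (fun n => isClosed_closedBall) (fun n => isOpen_ball)
    (fun n => (convex_ball _ _).isPreconnected)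
    (fun n => (closedBall_uhp_subset_ball_succ n).trans ball_subset_closedBall)
    (fun n => ball_subset_closedBall.trans (closedBall_uhp_subset_ball_succ (n + 1)))
    uhp_subset_iUnion_ball
    (fun n => by
      obtain ⟨g, hg, hgf⟩ := exists_root_on_ball hm
        (c := uhpCen (n + 1)) (r := uhpRad (n + 1)) (f := f)
        (fun z hz => hf z (closedBall_uhp_subset (n + 1) hz))
        (fun z hz => hfin z (closedBall_uhp_subset (n + 1) hz))
        (fun z hz => hdvd z (closedBall_uhp_subset (n + 1) hz))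
      exact ⟨g, hg, (eventuallyEq_codiscreteWithin_iff_of_isOpen isOpen_ball).1 hgf⟩)
  exact ⟨g, hg, hpow,
    fun z hz => meromorphicOrderAt_ne_top_of_pow_eq hm (hpow z hz) (hfin z hz),
    fun z hz => untop₀_meromorphicOrderAt_eq_mul_of_pow_eq hm (hg z hz) (hpow z hz) (hfin z hz)⟩

/-- **Uniqueness of roots on the upper half plane**: two meromorphic `m`-th roots of the same
function differ by a constant `m`-th root of unity. -/
theorem meromorphic_root_unique (m : ℕ) (hm : 0 < m) (g₁ g₂ : ℂ → ℂ)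
    (h₁ : MeromorphicOn g₁ {z : ℂ | 0 < z.im}) (h₂ : MeromorphicOn g₂ {z : ℂ | 0 < z.im})
    (hfin : ∀ z ∈ {z : ℂ | 0 < z.im}, meromorphicOrderAt g₂ z ≠ ⊤)
    (hpow : ∀ z ∈ {z : ℂ | 0 < z.im}, (fun w => g₁ w ^ m) =ᶠ[𝓝[≠] z] fun w => g₂ w ^ m) :
    ∃ ζ : ℂ, ζ ^ m = 1 ∧ ∀ z ∈ {z : ℂ | 0 < z.im}, g₁ =ᶠ[𝓝[≠] z] fun w => ζ * g₂ w :=
  eq_const_mul_of_pow_eq hm UpperHalfPlane.isOpen_upperHalfPlaneSet
    (convex_halfSpace_im_gt 0).isPreconnected h₁ h₂ hfin hpow


/-- **Normal form version of [AN3]**: the root can be chosen in normal form on the upper half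
plane; then `g z ^ m = f z` holds at every point where `f` itself is in normal form (for
instance at every point where `f` is analytic). -/
theorem exists_meromorphicNF_root (m : ℕ) (hm : 0 < m) (f : ℂ → ℂ)
    (hf : MeromorphicOn f {z : ℂ | 0 < z.im})
    (hfin : ∀ z ∈ {z : ℂ | 0 < z.im}, meromorphicOrderAt f z ≠ ⊤)
    (hdvd : ∀ z ∈ {z : ℂ | 0 < z.im}, (m : ℤ) ∣ (meromorphicOrderAt f z).untop₀) :
    ∃ g : ℂ → ℂ, MeromorphicNFOn g {z : ℂ | 0 < z.im} ∧
      (∀ z ∈ {z : ℂ | 0 < z.im}, (fun w => g w ^ m) =ᶠ[𝓝[≠] z] f) ∧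
      (∀ z ∈ {z : ℂ | 0 < z.im}, meromorphicOrderAt g z ≠ ⊤) ∧
      (∀ z ∈ {z : ℂ | 0 < z.im},
        (meromorphicOrderAt f z).untop₀ = (m : ℤ) * (meromorphicOrderAt g z).untop₀) ∧
      (∀ z ∈ {z : ℂ | 0 < z.im}, MeromorphicNFAt f z → g z ^ m = f z) := by
  obtain ⟨g, hg, hpow, -, -⟩ := exists_meromorphic_root m hm f hf hfin hdvd
  set G : ℂ → ℂ := toMeromorphicNFOn g {z : ℂ | 0 < z.im} with hG
  have hGNF : MeromorphicNFOn G {z : ℂ | 0 < z.im} := meromorphicNFOn_toMeromorphicNFOn g _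
  have hGg : ∀ z ∈ {z : ℂ | 0 < z.im}, G =ᶠ[𝓝[≠] z] g := fun z hz =>
    hg.toMeromorphicNFOn_eq_self_on_nhdsNE hz
  have hGpow : ∀ z ∈ {z : ℂ | 0 < z.im}, (fun w => G w ^ m) =ᶠ[𝓝[≠] z] f := by
    intro z hz
    filter_upwards [hGg z hz, hpow z hz] with w hw1 hw2
    rw [hw1, hw2]
  refine ⟨G, hGNF, hGpow,
    fun z hz => meromorphicOrderAt_ne_top_of_pow_eq hm (hGpow z hz) (hfin z hz),
    fun z hz => untop₀_meromorphicOrderAt_eq_mul_of_pow_eq hm (hGNF hz).meromorphicAt
      (hGpow z hz) (hfin z hz), fun z hz hfz => ?_⟩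
  have h1 : MeromorphicNFAt (G ^ (m : ℤ)) z := (hGNF hz).zpow
  have h2 : G ^ (m : ℤ) = fun w => G w ^ m := by
    funext w
    simp
  rw [h2] at h1
  exact ((h1.eventuallyEq_nhdsNE_iff_eventuallyEq_nhds hfz).1 (hGpow z hz)).eq_of_nhds

/-- **Holomorphic version of [AN3]**: a holomorphic function on the upper half plane, nowhere
locally zero, all of whose zeros have order divisible by `m > 0`, is the `m`-th power of a
holomorphic function. -/
theorem exists_analytic_root (m : ℕ) (hm : 0 < m) (f : ℂ → ℂ)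
    (hf : AnalyticOnNhd ℂ f {z : ℂ | 0 < z.im})
    (hfin : ∀ z ∈ {z : ℂ | 0 < z.im}, meromorphicOrderAt f z ≠ ⊤)
    (hdvd : ∀ z ∈ {z : ℂ | 0 < z.im}, (m : ℤ) ∣ (meromorphicOrderAt f z).untop₀) :
    ∃ g : ℂ → ℂ, AnalyticOnNhd ℂ g {z : ℂ | 0 < z.im} ∧
      ∀ z ∈ {z : ℂ | 0 < z.im}, g z ^ m = f z := by
  obtain ⟨g, hgNF, -, hgfin, hord, hval⟩ :=
    exists_meromorphicNF_root m hm f hf.meromorphicOn hfin hdvd
  refine ⟨g, fun z hz => ?_, fun z hz => hval z hz (hf z hz).meromorphicNFAt⟩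
  apply (hgNF hz).meromorphicOrderAt_nonneg_iff_analyticAt.1
  have h0 : 0 ≤ meromorphicOrderAt f z := (hf z hz).meromorphicOrderAt_nonneg
  obtain ⟨k, hk⟩ := WithTop.ne_top_iff_exists.1 (hgfin z hz)
  obtain ⟨j, hj⟩ := WithTop.ne_top_iff_exists.1 (hfin z hz)
  have h1 := hord z hz
  rw [← hk, ← hj, WithTop.untop₀_coe, WithTop.untop₀_coe] at h1
  rw [← hj] at h0
  have hj0 : 0 ≤ j := by exact_mod_cast h0
  rw [← hk]
  have hk0 : 0 ≤ k := by
    by_contra hneg
    have : (m : ℤ) * k < 0 := mul_neg_of_pos_of_neg (by exact_mod_cast hm) (not_le.1 hneg)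
    omega
  exact_mod_cast hk0

end Fermat.Agent.P3.helper34

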