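import Mathlib
import Fermat.Agent.P3.helper34_MeroRoot

/-!
# P3 [AN5-MULT]: the multiplier (Kummer) character of an `m`-th root (helper34, task 478)

`H = {z : ℂ | 0 < z.im}`, `Γ` a subgroup of `SL(2, ℤ)` acting on `ℍ` (Mathlib's action).

* `moebC γ : ℂ → ℂ` : the Möbius transformation, `moebC γ ↑z = ↑(γ • z)` for `z : ℍ`.
* `exists_multiplier` : a normal-form meromorphic function `g` on `H` with finite orders and
  `g (γ z) ^ m = g z ^ m` for `γ ∈ Γ` satisfies `g (γ z) = ψ γ * g z` for a character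
  `ψ : Γ →* ℂˣ` with `ψ ^ m = 1`.
* `exists_root_multiplier` : roots of `Γ`-invariant functions together with their multiplier.
-/

set_option autoImplicit false

open Filter Topology Set Metric
open scoped MatrixGroups UpperHalfPlane

namespace Fermat.Agent.P3.helper34

/-! ### Möbius transformations on `ℂ` -/

/-- The Möbius transformation of `ℂ` attached to `γ ∈ SL(2, ℤ)` (junk value where the
denominator vanishes). -/
noncomputable def moebC (γ : SL(2, ℤ)) (w : ℂ) : ℂ :=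
  ((γ 0 0 : ℂ) * w + (γ 0 1 : ℂ)) / ((γ 1 0 : ℂ) * w + (γ 1 1 : ℂ))

theorem moebC_coe (γ : SL(2, ℤ)) (z : ℍ) : moebC γ (z : ℂ) = ((γ • z : ℍ) : ℂ) := by
  rw [UpperHalfPlane.coe_specialLinearGroup_apply]
  simp [moebC]

theorem moebC_eq_coe (γ : SL(2, ℤ)) {w : ℂ} (hw : 0 < w.im) :
    moebC γ w = ((γ • (⟨w, hw⟩ : ℍ) : ℍ) : ℂ) :=
  moebC_coe γ ⟨w, hw⟩

theorem moebC_im_pos (γ : SL(2, ℤ)) {w : ℂ} (hw : 0 < w.im) : 0 < (moebC γ w).im := by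
  rw [moebC_eq_coe γ hw]
  exact (γ • (⟨w, hw⟩ : ℍ)).im_pos

theorem moebC_one {w : ℂ} (hw : 0 < w.im) : moebC 1 w = w := by
  rw [moebC_eq_coe 1 hw, one_smul]

theorem moebC_mul (γ γ' : SL(2, ℤ)) {w : ℂ} (hw : 0 < w.im) :
    moebC (γ * γ') w = moebC γ (moebC γ' w) := by
  rw [moebC_eq_coe (γ * γ') hw, mul_smul, ← moebC_coe γ, ← moebC_eq_coe γ' hw]

theorem moebC_injOn (γ : SL(2, ℤ)) : InjOn (moebC γ) {z : ℂ | 0 < z.im} := by
  intro w hw z hz h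
  have h1 := moebC_mul γ⁻¹ γ hw
  have h2 := moebC_mul γ⁻¹ γ hz
  rw [inv_mul_cancel, moebC_one hw] at h1
  rw [inv_mul_cancel, moebC_one hz] at h2
  rw [h1, h2, h]

theorem moebC_denom_ne_zero (γ : SL(2, ℤ)) {w : ℂ} (hw : 0 < w.im) :
    (γ 1 0 : ℂ) * w + (γ 1 1 : ℂ) ≠ 0 := by
  intro h
  have him := congrArg Complex.im h
  have hre := congrArg Complex.re h
  simp only [Complex.add_im, Complex.mul_im, Complex.intCast_re, Complex.intCast_im, zero_mul,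
    add_zero, Complex.zero_im, Complex.add_re, Complex.mul_re, sub_zero, Complex.zero_re] at him hre
  have hc : ((γ 1 0 : ℤ) : ℝ) = 0 := by
    rcases mul_eq_zero.1 him with h0 | h0
    · exact h0
    · exact absurd h0 hw.ne'
  rw [hc, zero_mul, zero_add] at hre
  have hc' : γ 1 0 = 0 := by exact_mod_cast hc
  have hd' : γ 1 1 = 0 := by exact_mod_cast hre
  have hdet := γ.det_coe
  rw [Matrix.det_fin_two, hc', hd'] at hdet
  simp at hdet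

theorem analyticAt_moebC (γ : SL(2, ℤ)) {w : ℂ} (hw : 0 < w.im) : AnalyticAt ℂ (moebC γ) w := by
  unfold moebC
  exact ((analyticAt_const.mul analyticAt_id).add analyticAt_const).div
    ((analyticAt_const.mul analyticAt_id).add analyticAt_const) (moebC_denom_ne_zero γ hw)

theorem tendsto_moebC_nhdsNE (γ : SL(2, ℤ)) {z : ℂ} (hz : 0 < z.im) :
    Tendsto (moebC γ) (𝓝[≠] z) (𝓝[≠] (moebC γ z)) := by
  rw [tendsto_nhdsWithin_iff]
  refine ⟨(analyticAt_moebC γ hz).continuousAt.tendsto.mono_left nhdsWithin_le_nhds, ?_⟩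
  have hH : {w : ℂ | 0 < w.im} ∈ 𝓝[≠] z :=
    mem_nhdsWithin_of_mem_nhds (UpperHalfPlane.isOpen_upperHalfPlaneSet.mem_nhds hz)
  filter_upwards [hH, self_mem_nhdsWithin] with w hw hwz
  intro h
  exact hwz (moebC_injOn γ hw hz h)

/-- Eventual equalities on punctured neighbourhoods can be pulled back along Möbius maps. -/
theorem eventuallyEq_comp_moebC (γ : SL(2, ℤ)) {z : ℂ} (hz : 0 < z.im) {f₁ f₂ : ℂ → ℂ}
    (h : f₁ =ᶠ[𝓝[≠] (moebC γ z)] f₂) :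
    (fun w => f₁ (moebC γ w)) =ᶠ[𝓝[≠] z] fun w => f₂ (moebC γ w) :=
  (tendsto_moebC_nhdsNE γ hz).eventually h

theorem meromorphicOn_comp_moebC (γ : SL(2, ℤ)) {g : ℂ → ℂ}
    (hg : MeromorphicOn g {z : ℂ | 0 < z.im}) :
    MeromorphicOn (fun w => g (moebC γ w)) {z : ℂ | 0 < z.im} := fun z hz =>
  (hg (moebC γ z) (moebC_im_pos γ hz)).comp_analyticAt (analyticAt_moebC γ hz)

theorem meromorphicNFOn_comp_moebC (γ : SL(2, ℤ)) {g : ℂ → ℂ}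
    (hg : MeromorphicNFOn g {z : ℂ | 0 < z.im}) :
    MeromorphicNFOn (fun w => g (moebC γ w)) {z : ℂ | 0 < z.im} := fun _ hz =>
  (hg (moebC_im_pos γ hz)).comp_analyticAt (analyticAt_moebC γ hz)

/-! ### Normal form helpers -/

theorem meromorphicNFAt_const_mul {g : ℂ → ℂ} {z : ℂ} (hg : MeromorphicNFAt g z) {c : ℂ}
    (hc : c ≠ 0) : MeromorphicNFAt (fun w => c * g w) z :=
  (meromorphicNFAt_mul_iff_right (g := fun _ => c) (f := g) analyticAt_const hc).2 hg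

theorem meromorphicNFAt_pow' {g : ℂ → ℂ} {z : ℂ} (hg : MeromorphicNFAt g z) (m : ℕ) :
    MeromorphicNFAt (fun w => g w ^ m) z := by
  have h1 : MeromorphicNFAt (g ^ (m : ℤ)) z := hg.zpow
  have h2 : g ^ (m : ℤ) = fun w => g w ^ m := by
    funext w
    simp
  rwa [h2] at h1

/-- Two functions in normal form at `z` that agree on a punctured neighbourhood agree at `z`. -/
theorem eq_of_meromorphicNFAt_of_eventuallyEq {g₁ g₂ : ℂ → ℂ} {z : ℂ}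
    (h₁ : MeromorphicNFAt g₁ z) (h₂ : MeromorphicNFAt g₂ z) (h : g₁ =ᶠ[𝓝[≠] z] g₂) :
    g₁ z = g₂ z :=
  ((h₁.eventuallyEq_nhdsNE_iff_eventuallyEq_nhds h₂).1 h).eq_of_nhds

/-- A function with finite orders on `H` is nonzero somewhere on `H`. -/
theorem exists_ne_zero_of_finite_order {g : ℂ → ℂ} (hg : MeromorphicOn g {z : ℂ | 0 < z.im})
    (hfin : ∀ z ∈ {z : ℂ | 0 < z.im}, meromorphicOrderAt g z ≠ ⊤) :
    ∃ z₀ : ℂ, 0 < z₀.im ∧ g z₀ ≠ 0 := by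
  have hI : (0 : ℝ) < Complex.I.im := by simp
  have h1 : ∀ᶠ w in 𝓝[≠] Complex.I, g w ≠ 0 :=
    (meromorphicOrderAt_ne_top_iff_eventually_ne_zero (hg _ hI)).1 (hfin _ hI)
  have h2 : ∀ᶠ w in 𝓝[≠] Complex.I, 0 < w.im :=
    mem_nhdsWithin_of_mem_nhds (UpperHalfPlane.isOpen_upperHalfPlaneSet.mem_nhds hI)
  obtain ⟨w, hw1, hw2⟩ := (h1.and h2).exists
  exact ⟨w, hw2, hw1⟩

/-! ### The multiplier character -/

/-- **Functional equation for one element**: if `g` is in normal form on `H` with finite orders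
and `(g ∘ γ) ^ m = g ^ m` on `H`, then `g ∘ γ = ζ g` on `H` for an `m`-th root of unity `ζ`. -/
theorem exists_const_of_pow_invariant {m : ℕ} (hm : 0 < m) (γ : SL(2, ℤ)) {g : ℂ → ℂ}
    (hg : MeromorphicNFOn g {z : ℂ | 0 < z.im})
    (hfin : ∀ z ∈ {z : ℂ | 0 < z.im}, meromorphicOrderAt g z ≠ ⊤)
    (hinv : ∀ z ∈ {z : ℂ | 0 < z.im}, g (moebC γ z) ^ m = g z ^ m) :
    ∃ ζ : ℂ, ζ ^ m = 1 ∧ ∀ z ∈ {z : ℂ | 0 < z.im}, g (moebC γ z) = ζ * g z := by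
  have hopen : IsOpen {z : ℂ | 0 < z.im} := UpperHalfPlane.isOpen_upperHalfPlaneSet
  obtain ⟨ζ, hζ, hζg⟩ := meromorphic_root_unique m hm (fun w => g (moebC γ w)) g
    (meromorphicOn_comp_moebC γ hg.meromorphicOn) hg.meromorphicOn hfin
    (fun z hz => by
      filter_upwards [mem_nhdsWithin_of_mem_nhds (hopen.mem_nhds hz)] with w hw
      exact hinv w hw)
  have hζ0 : ζ ≠ 0 := by
    intro h0
    rw [h0, zero_pow hm.ne'] at hζ
    exact zero_ne_one hζ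
  refine ⟨ζ, hζ, fun z hz => ?_⟩
  exact eq_of_meromorphicNFAt_of_eventuallyEq (meromorphicNFOn_comp_moebC γ hg hz)
    (meromorphicNFAt_const_mul (hg hz) hζ0) (hζg z hz)

/-- **[AN5-MULT] The multiplier character.**  Let `g` be meromorphic in normal form on the upper
half plane with finite orders, and let `Γ ≤ SL(2, ℤ)` be a subgroup such that
`g (γ z) ^ m = g z ^ m` for all `γ ∈ Γ`, `z ∈ ℍ`.  Then there is a character `ψ : Γ →* ℂˣ`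
with `ψ ^ m = 1` and `g (γ z) = ψ γ * g z`. -/
theorem exists_multiplier (m : ℕ) (hm : 0 < m) (Γ : Subgroup SL(2, ℤ)) (g : ℂ → ℂ)
    (hg : MeromorphicNFOn g {z : ℂ | 0 < z.im})
    (hfin : ∀ z ∈ {z : ℂ | 0 < z.im}, meromorphicOrderAt g z ≠ ⊤)
    (hinv : ∀ γ ∈ Γ, ∀ z : ℍ, g ((γ • z : ℍ) : ℂ) ^ m = g (z : ℂ) ^ m) :
    ∃ ψ : Γ →* ℂˣ, (∀ γ, ψ γ ^ m = 1) ∧
      ∀ (γ : Γ) (z : ℍ), g ((((γ : SL(2, ℤ)) • z : ℍ) : ℍ) : ℂ) = (ψ γ : ℂ) * g (z : ℂ) := by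
  classical
  obtain ⟨z₀, hz₀, hgz₀⟩ := exists_ne_zero_of_finite_order hg.meromorphicOn hfin
  -- the functional equation for every element
  have hFE : ∀ γ : Γ, ∃ ζ : ℂ, ζ ^ m = 1 ∧
      ∀ z ∈ {z : ℂ | 0 < z.im}, g (moebC (γ : SL(2, ℤ)) z) = ζ * g z := fun γ =>
    exists_const_of_pow_invariant hm (γ : SL(2, ℤ)) hg hfin (fun z hz => by
      have := hinv (γ : SL(2, ℤ)) γ.2 ⟨z, hz⟩
      rw [← moebC_coe] at this
      exact this)
  choose ζ hζ1 hζ2 using hFE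
  have hζ0 : ∀ γ, ζ γ ≠ 0 := by
    intro γ h0
    have := hζ1 γ
    rw [h0, zero_pow hm.ne'] at this
    exact zero_ne_one this
  have hmul : ∀ γ γ' : Γ, ζ (γ * γ') = ζ γ * ζ γ' := by
    intro γ γ'
    have h1 := hζ2 (γ * γ') z₀ hz₀
    rw [Subgroup.coe_mul, moebC_mul _ _ hz₀, hζ2 γ _ (moebC_im_pos _ hz₀), hζ2 γ' z₀ hz₀,
      ← mul_assoc] at h1
    exact (mul_right_cancel₀ hgz₀ h1).symm
  refine ⟨MonoidHom.mk' (fun γ => Units.mk0 (ζ γ) (hζ0 γ)) (fun γ γ' => ?_), fun γ => ?_,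
    fun γ z => ?_⟩
  · apply Units.ext
    simp only [Units.val_mk0, Units.val_mul]
    exact hmul γ γ'
  · apply Units.ext
    simp only [MonoidHom.mk'_apply, Units.val_pow_eq_pow_val, Units.val_mk0, Units.val_one]
    exact hζ1 γ
  · simp only [MonoidHom.mk'_apply, Units.val_mk0]
    rw [← moebC_coe]
    exact hζ2 γ z z.im_pos

/-- Uniqueness of the multiplier: the constant in `g ∘ γ = c g` is determined by `g`. -/
theorem multiplier_unique {g : ℂ → ℂ} (hg : MeromorphicOn g {z : ℂ | 0 < z.im})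
    (hfin : ∀ z ∈ {z : ℂ | 0 < z.im}, meromorphicOrderAt g z ≠ ⊤) (γ : SL(2, ℤ)) {c₁ c₂ : ℂ}
    (h₁ : ∀ z : ℍ, g ((γ • z : ℍ) : ℂ) = c₁ * g (z : ℂ))
    (h₂ : ∀ z : ℍ, g ((γ • z : ℍ) : ℂ) = c₂ * g (z : ℂ)) : c₁ = c₂ := by
  obtain ⟨z₀, hz₀, hgz₀⟩ := exists_ne_zero_of_finite_order hg hfin
  have e1 := h₁ ⟨z₀, hz₀⟩
  have e2 := h₂ ⟨z₀, hz₀⟩
  rw [e1] at e2
  exact mul_right_cancel₀ hgz₀ e2


/-- The multiplier is trivial on `γ` iff `g` is `γ`-invariant. -/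
theorem multiplier_eq_one_iff {g : ℂ → ℂ} (hg : MeromorphicOn g {z : ℂ | 0 < z.im})
    (hfin : ∀ z ∈ {z : ℂ | 0 < z.im}, meromorphicOrderAt g z ≠ ⊤) (γ : SL(2, ℤ)) {c : ℂ}
    (h : ∀ z : ℍ, g ((γ • z : ℍ) : ℂ) = c * g (z : ℂ)) :
    c = 1 ↔ ∀ z : ℍ, g ((γ • z : ℍ) : ℂ) = g (z : ℂ) := by
  constructor
  · intro hc z
    rw [h z, hc, one_mul]
  · intro hinv
    exact multiplier_unique hg hfin γ h (fun z => by rw [hinv z, one_mul])

/-- **Roots of invariant functions and their Kummer characters.**  Let `f` be meromorphic on the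
upper half plane, nowhere locally zero, with all orders divisible by `m > 0`, and invariant
under `Γ ≤ SL(2, ℤ)` (on punctured neighbourhoods).  Then `f` has a normal-form `m`-th root `g`
and there is a character `ψ : Γ →* ℂˣ`, `ψ ^ m = 1`, with `g (γ z) = ψ γ * g z`. -/
theorem exists_root_multiplier (m : ℕ) (hm : 0 < m) (Γ : Subgroup SL(2, ℤ)) (f : ℂ → ℂ)
    (hf : MeromorphicOn f {z : ℂ | 0 < z.im})
    (hfin : ∀ z ∈ {z : ℂ | 0 < z.im}, meromorphicOrderAt f z ≠ ⊤)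
    (hdvd : ∀ z ∈ {z : ℂ | 0 < z.im}, (m : ℤ) ∣ (meromorphicOrderAt f z).untop₀)
    (hinv : ∀ γ ∈ Γ, ∀ z ∈ {z : ℂ | 0 < z.im}, (fun w => f (moebC γ w)) =ᶠ[𝓝[≠] z] f) :
    ∃ (g : ℂ → ℂ) (ψ : Γ →* ℂˣ), MeromorphicNFOn g {z : ℂ | 0 < z.im} ∧
      (∀ z ∈ {z : ℂ | 0 < z.im}, (fun w => g w ^ m) =ᶠ[𝓝[≠] z] f) ∧
      (∀ z ∈ {z : ℂ | 0 < z.im}, meromorphicOrderAt g z ≠ ⊤) ∧
      (∀ z ∈ {z : ℂ | 0 < z.im},
        (meromorphicOrderAt f z).untop₀ = (m : ℤ) * (meromorphicOrderAt g z).untop₀) ∧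
      (∀ z ∈ {z : ℂ | 0 < z.im}, MeromorphicNFAt f z → g z ^ m = f z) ∧
      (∀ γ, ψ γ ^ m = 1) ∧
      ∀ (γ : Γ) (z : ℍ), g ((((γ : SL(2, ℤ)) • z : ℍ) : ℍ) : ℂ) = (ψ γ : ℂ) * g (z : ℂ) := by
  obtain ⟨g, hgNF, hpow, hgfin, hord, hval⟩ := exists_meromorphicNF_root m hm f hf hfin hdvd
  have hginv : ∀ γ ∈ Γ, ∀ z : ℍ, g ((γ • z : ℍ) : ℂ) ^ m = g (z : ℂ) ^ m := by
    intro γ hγ z
    have hz : (z : ℂ) ∈ {z : ℂ | 0 < z.im} := z.im_pos
    have h1 : MeromorphicNFAt (fun w => g (moebC γ w) ^ m) (z : ℂ) :=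
      meromorphicNFAt_pow' (meromorphicNFOn_comp_moebC γ hgNF hz) m
    have h2 : MeromorphicNFAt (fun w => g w ^ m) (z : ℂ) := meromorphicNFAt_pow' (hgNF hz) m
    have h3 : (fun w => g (moebC γ w) ^ m) =ᶠ[𝓝[≠] (z : ℂ)] fun w => g w ^ m := by
      have e1 := eventuallyEq_comp_moebC γ hz (hpow _ (moebC_im_pos γ hz))
      exact (e1.trans (hinv γ hγ _ hz)).trans (hpow _ hz).symm
    have := eq_of_meromorphicNFAt_of_eventuallyEq h1 h2 h3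
    rw [moebC_coe] at this
    exact this
  obtain ⟨ψ, hψ1, hψ2⟩ := exists_multiplier m hm Γ g hgNF hgfin hginv
  exact ⟨g, ψ, hgNF, hpow, hgfin, hord, hval, hψ1, hψ2⟩

/-- Version of `exists_root_multiplier` for a pointwise invariant function. -/
theorem exists_root_multiplier' (m : ℕ) (hm : 0 < m) (Γ : Subgroup SL(2, ℤ)) (f : ℂ → ℂ)
    (hf : MeromorphicOn f {z : ℂ | 0 < z.im})
    (hfin : ∀ z ∈ {z : ℂ | 0 < z.im}, meromorphicOrderAt f z ≠ ⊤)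
    (hdvd : ∀ z ∈ {z : ℂ | 0 < z.im}, (m : ℤ) ∣ (meromorphicOrderAt f z).untop₀)
    (hinv : ∀ γ ∈ Γ, ∀ z : ℍ, f ((γ • z : ℍ) : ℂ) = f (z : ℂ)) :
    ∃ (g : ℂ → ℂ) (ψ : Γ →* ℂˣ), MeromorphicNFOn g {z : ℂ | 0 < z.im} ∧
      (∀ z ∈ {z : ℂ | 0 < z.im}, (fun w => g w ^ m) =ᶠ[𝓝[≠] z] f) ∧
      (∀ z ∈ {z : ℂ | 0 < z.im}, meromorphicOrderAt g z ≠ ⊤) ∧
      (∀ z ∈ {z : ℂ | 0 < z.im},
        (meromorphicOrderAt f z).untop₀ = (m : ℤ) * (meromorphicOrderAt g z).untop₀) ∧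
      (∀ z ∈ {z : ℂ | 0 < z.im}, MeromorphicNFAt f z → g z ^ m = f z) ∧
      (∀ γ, ψ γ ^ m = 1) ∧
      ∀ (γ : Γ) (z : ℍ), g ((((γ : SL(2, ℤ)) • z : ℍ) : ℍ) : ℂ) = (ψ γ : ℂ) * g (z : ℂ) := by
  refine exists_root_multiplier m hm Γ f hf hfin hdvd (fun γ hγ z hz => ?_)
  filter_upwards [mem_nhdsWithin_of_mem_nhds
    (UpperHalfPlane.isOpen_upperHalfPlaneSet.mem_nhds hz)] with w hw
  have := hinv γ hγ ⟨w, hw⟩
  rw [← moebC_coe] at this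
  exact this

end Fermat.Agent.P3.helper34
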