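import Mathlib
import Fermat.Prelude.Def_AlgebraicCurve_DivisorClassGroup
import Fermat.Agent.P3.helper34_Multiplier

/-!
# P3 [AN5]: the monodromy map `Pic⁰(F)[m] → Hom(Γ, μ_m)` (abstract part)

Let `F` be a field over `ℂ` whose elements are realised as meromorphic functions on the upper
half plane `H`, invariant under a subgroup `Γ ≤ SL(2, ℤ)` (an `AnDict F Γ`).  For a class
`c ∈ Pic⁰(F)` with `m c = 0` write `c = [D]`, `m D = div h`; an `m`-th root `g` of the function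
of `h` has a multiplier `ψ : Γ →* ℂˣ`; `IsMonData m c ψ` records this situation.  We show that
`ψ` only depends on `c` (`IsMonData.unique`), is multiplicative in `c` (`IsMonData.add`),
determines `c` (`IsMonData.eq_zero`), and is compatible with change of `m`
(`IsMonData.nsmul`).  `exists_kappa` then produces the Kummer maps `κ n` on any family of
characters `Ψ n ε` which are monodromies.
-/

set_option autoImplicit false

noncomputable section

namespace Fermat.Agent.P3.helper20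

open Filter Topology Set AlgebraicCurve
open scoped MatrixGroups UpperHalfPlane
open Fermat.Agent.P3.helper34

/-! ## Equality on punctured neighbourhoods -/

/-- Equality of two functions on a punctured neighbourhood of every point of the upper half
plane. -/
def EqH (f g : ℂ → ℂ) : Prop := ∀ z ∈ {z : ℂ | 0 < z.im}, f =ᶠ[𝓝[≠] z] g

lemma EqH.refl (f : ℂ → ℂ) : EqH f f := fun _ _ ↦ EventuallyEq.rfl

lemma EqH.symm {f g : ℂ → ℂ} (h : EqH f g) : EqH g f := fun z hz ↦ (h z hz).symm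

lemma EqH.trans {f g k : ℂ → ℂ} (h : EqH f g) (h' : EqH g k) : EqH f k :=
  fun z hz ↦ (h z hz).trans (h' z hz)

lemma EqH.mul {f g f' g' : ℂ → ℂ} (h : EqH f g) (h' : EqH f' g') :
    EqH (fun w ↦ f w * f' w) (fun w ↦ g w * g' w) :=
  fun z hz ↦ (h z hz).mul (h' z hz)

lemma EqH.pow {f g : ℂ → ℂ} (h : EqH f g) (m : ℕ) :
    EqH (fun w ↦ f w ^ m) (fun w ↦ g w ^ m) :=
  fun z hz ↦ (h z hz).pow_const m

lemma EqH.const_mul {f g : ℂ → ℂ} (h : EqH f g) (c : ℂ) :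
    EqH (fun w ↦ c * f w) (fun w ↦ c * g w) :=
  fun z hz ↦ (h z hz).fun_comp (fun x ↦ c * x)

lemma EqH.comp_moebC {f g : ℂ → ℂ} (h : EqH f g) (γ : SL(2, ℤ)) :
    EqH (fun w ↦ f (moebC γ w)) (fun w ↦ g (moebC γ w)) :=
  fun _ hz ↦ eventuallyEq_comp_moebC γ hz (h _ (moebC_im_pos γ hz))

lemma EqH.meromorphicOrderAt_eq {f g : ℂ → ℂ} (h : EqH f g) {z : ℂ} (hz : z ∈ {z : ℂ | 0 < z.im}) :
    meromorphicOrderAt f z = meromorphicOrderAt g z :=
  meromorphicOrderAt_congr (h z hz)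

/-- Finiteness of all orders on the upper half plane. -/
def FinOrd (g : ℂ → ℂ) : Prop := ∀ z ∈ {z : ℂ | 0 < z.im}, meromorphicOrderAt g z ≠ ⊤

lemma FinOrd.congr {f g : ℂ → ℂ} (hf : FinOrd f) (h : EqH f g) : FinOrd g := fun z hz ↦ by
  rw [← h.meromorphicOrderAt_eq hz]
  exact hf z hz

lemma FinOrd.eventually_ne {g : ℂ → ℂ} (hg : MeromorphicOn g {z : ℂ | 0 < z.im})
    (hfin : FinOrd g) {z : ℂ} (hz : 0 < z.im) : ∀ᶠ w in 𝓝[≠] z, g w ≠ 0 :=
  (meromorphicOrderAt_ne_top_iff_eventually_ne_zero (hg z hz)).1 (hfin z hz)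

lemma finOrd_of_eventually_ne {g : ℂ → ℂ} (hg : MeromorphicOn g {z : ℂ | 0 < z.im})
    (h : ∀ z ∈ {z : ℂ | 0 < z.im}, ∀ᶠ w in 𝓝[≠] z, g w ≠ 0) : FinOrd g := fun z hz ↦
  (meromorphicOrderAt_ne_top_iff_eventually_ne_zero (hg z hz)).2 (h z hz)

lemma FinOrd.mul {f g : ℂ → ℂ} (hf : MeromorphicOn f {z : ℂ | 0 < z.im})
    (hg : MeromorphicOn g {z : ℂ | 0 < z.im}) (hff : FinOrd f) (hfg : FinOrd g) :
    FinOrd (fun w ↦ f w * g w) := by
  refine finOrd_of_eventually_ne (hf.fun_mul hg) fun z hz ↦ ?_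
  filter_upwards [hff.eventually_ne hf hz, hfg.eventually_ne hg hz] with w h1 h2
  exact mul_ne_zero h1 h2

lemma FinOrd.pow {f : ℂ → ℂ} (hf : MeromorphicOn f {z : ℂ | 0 < z.im}) (hff : FinOrd f)
    (m : ℕ) : FinOrd (fun w ↦ f w ^ m) := by
  refine finOrd_of_eventually_ne (hf.fun_pow m) fun z hz ↦ ?_
  filter_upwards [hff.eventually_ne hf hz] with w h1
  exact pow_ne_zero m h1

lemma FinOrd.const_mul {f : ℂ → ℂ} (hf : MeromorphicOn f {z : ℂ | 0 < z.im}) (hff : FinOrd f)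
    {c : ℂ} (hc : c ≠ 0) : FinOrd (fun w ↦ c * f w) := by
  refine finOrd_of_eventually_ne ((MeromorphicOn.const c).fun_mul hf) fun z hz ↦ ?_
  filter_upwards [hff.eventually_ne hf hz] with w h1
  exact mul_ne_zero hc h1

/-- A function with finite orders is not eventually zero. -/
lemma FinOrd.not_eqH_zero {g : ℂ → ℂ} (hg : MeromorphicOn g {z : ℂ | 0 < z.im})
    (hfin : FinOrd g) : ¬ EqH g (fun _ ↦ 0) := by
  intro h
  have hI : (0 : ℝ) < Complex.I.im := by simp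
  have h1 := hfin.eventually_ne hg hI
  have h2 := h Complex.I hI
  obtain ⟨w, hw1, hw2⟩ := (h1.and h2).exists
  exact hw1 hw2

/-! ## Multipliers (in eventual form) -/

variable {Γ : Subgroup SL(2, ℤ)}

/-- `g` has multiplier `ψ` under `Γ`: `g ∘ γ = ψ(γ) g` on punctured neighbourhoods. -/
def HasMultH (g : ℂ → ℂ) (ψ : Γ →* ℂˣ) : Prop :=
  ∀ γ : Γ, EqH (fun w ↦ g (moebC γ w)) (fun w ↦ ((ψ γ : ℂˣ) : ℂ) * g w)

lemma HasMultH.of_pointwise {g : ℂ → ℂ} {ψ : Γ →* ℂˣ}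
    (h : ∀ (γ : Γ) (z : ℍ), g ((((γ : SL(2, ℤ)) • z : ℍ) : ℍ) : ℂ) = (ψ γ : ℂ) * g (z : ℂ)) :
    HasMultH g ψ := by
  intro γ z hz
  filter_upwards [mem_nhdsWithin_of_mem_nhds
    (UpperHalfPlane.isOpen_upperHalfPlaneSet.mem_nhds hz)] with w hw
  have := h γ ⟨w, hw⟩
  rw [← moebC_coe] at this
  exact this

lemma HasMultH.congr {g g' : ℂ → ℂ} {ψ : Γ →* ℂˣ} (h : HasMultH g ψ) (e : EqH g g') :
    HasMultH g' ψ := fun γ ↦
  ((e.comp_moebC γ).symm.trans (h γ)).trans (e.const_mul _)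

lemma HasMultH.unique {g : ℂ → ℂ} {ψ ψ' : Γ →* ℂˣ} (hg : MeromorphicOn g {z : ℂ | 0 < z.im})
    (hfin : FinOrd g) (h : HasMultH g ψ) (h' : HasMultH g ψ') : ψ = ψ' := by
  ext γ
  have hI : (0 : ℝ) < Complex.I.im := by simp
  have h1 := hfin.eventually_ne hg hI
  have h2 := (h γ).symm.trans (h' γ) Complex.I hI
  obtain ⟨w, hw1, hw2⟩ := (h1.and h2).exists
  exact mul_right_cancel₀ hw1 hw2

lemma HasMultH.mul {g g' : ℂ → ℂ} {ψ ψ' : Γ →* ℂˣ} (h : HasMultH g ψ) (h' : HasMultH g' ψ') :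
    HasMultH (fun w ↦ g w * g' w) (ψ * ψ') := fun γ z hz ↦ by
  filter_upwards [h γ z hz, h' γ z hz] with w h1 h2
  simp only [MonoidHom.mul_apply, Units.val_mul]
  rw [h1, h2]
  ring

lemma HasMultH.pow {g : ℂ → ℂ} {ψ : Γ →* ℂˣ} (h : HasMultH g ψ) (m : ℕ) :
    HasMultH (fun w ↦ g w ^ m) (ψ ^ m) := fun γ z hz ↦ by
  filter_upwards [h γ z hz] with w h1
  simp only [MonoidHom.pow_apply, Units.val_pow_eq_pow_val]
  rw [h1, mul_pow]

lemma HasMultH.const_mul {g : ℂ → ℂ} {ψ : Γ →* ℂˣ} (h : HasMultH g ψ) (c : ℂ) :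
    HasMultH (fun w ↦ c * g w) ψ := fun γ z hz ↦ by
  filter_upwards [h γ z hz] with w h1
  rw [h1]
  ring

lemma hasMultH_one_iff {g : ℂ → ℂ} :
    HasMultH g (1 : Γ →* ℂˣ) ↔ ∀ γ : Γ, EqH (fun w ↦ g (moebC γ w)) g := by
  simp [HasMultH]

/-! ## Analytic dictionaries -/

/-- An *analytic dictionary* for a field `F` over `ℂ` and a subgroup `Γ ≤ SL(2, ℤ)`: every
element of `F` is realised as a `Γ`-invariant meromorphic function on the upper half plane,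
compatibly with the field operations (on punctured neighbourhoods), and
* (`const`) elements of `F` without zeros and poles are constants,
* (`t2`) if all orders of `h` at the places of `F` are divisible by `m`, so are the orders of its
  function at the points of the upper half plane,
* (`root_mem`) a `Γ`-invariant meromorphic root of the function of an element of `F` is the
  function of an element of `F`. -/
structure AnDict (F : Type*) [Field F] [Algebra ℂ F] (Γ : Subgroup SL(2, ℤ)) where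
  /-- the function on the upper half plane attached to an element of `F` -/
  ev : F → ℂ → ℂ
  mero : ∀ h : F, MeromorphicOn (ev h) {z : ℂ | 0 < z.im}
  ev_add : ∀ h k : F, EqH (ev (h + k)) (fun w ↦ ev h w + ev k w)
  ev_mul : ∀ h k : F, EqH (ev (h * k)) (fun w ↦ ev h w * ev k w)
  ev_algebraMap : ∀ a : ℂ, EqH (ev (algebraMap ℂ F a)) (fun _ ↦ a)
  fin : ∀ h : F, h ≠ 0 → FinOrd (ev h)
  inv : ∀ (h : F) (γ : Γ), EqH (fun w ↦ ev h (moebC γ w)) (ev h)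
  const : ∀ h : F, h ≠ 0 → (∀ w : Place ℂ F, w.ord h = 0) → ∃ a : ℂ, h = algebraMap ℂ F a
  t2 : ∀ (m : ℕ) (h : F), h ≠ 0 → (∀ w : Place ℂ F, (m : ℤ) ∣ w.ord h) →
    ∀ z ∈ {z : ℂ | 0 < z.im}, (m : ℤ) ∣ (meromorphicOrderAt (ev h) z).untop₀
  root_mem : ∀ (m : ℕ) (h : F) (g : ℂ → ℂ), 0 < m → h ≠ 0 →
    MeromorphicOn g {z : ℂ | 0 < z.im} → EqH (fun w ↦ g w ^ m) (ev h) →
    (∀ γ : Γ, EqH (fun w ↦ g (moebC γ w)) g) → ∃ k : F, EqH g (ev k)

namespace AnDict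

variable {F : Type*} [Field F] [Algebra ℂ F] (𝒟 : AnDict F Γ)

lemma ev_zero : EqH (𝒟.ev 0) (fun _ ↦ 0) := by
  have := 𝒟.ev_algebraMap 0
  rwa [map_zero] at this

lemma ev_one : EqH (𝒟.ev 1) (fun _ ↦ 1) := by
  have := 𝒟.ev_algebraMap 1
  rwa [map_one] at this

lemma ev_pow (h : F) (m : ℕ) : EqH (𝒟.ev (h ^ m)) (fun w ↦ 𝒟.ev h w ^ m) := by
  induction m with
  | zero => simpa using 𝒟.ev_one
  | succ n ih =>
    rw [pow_succ]
    refine (𝒟.ev_mul _ _).trans ?_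
    intro z hz
    filter_upwards [ih z hz] with w hw
    rw [hw, pow_succ]

lemma ev_neg (h : F) : EqH (𝒟.ev (-h)) (fun w ↦ -𝒟.ev h w) := by
  have h1 : -h = algebraMap ℂ F (-1) * h := by simp
  rw [h1]
  refine (𝒟.ev_mul _ _).trans ?_
  intro z hz
  filter_upwards [𝒟.ev_algebraMap (-1) z hz] with w hw
  rw [hw]
  ring

lemma ev_sub (h k : F) : EqH (𝒟.ev (h - k)) (fun w ↦ 𝒟.ev h w - 𝒟.ev k w) := by
  rw [sub_eq_add_neg]
  refine (𝒟.ev_add _ _).trans ?_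
  intro z hz
  filter_upwards [𝒟.ev_neg k z hz] with w hw
  rw [hw, sub_eq_add_neg]

/-- The evaluation map is injective. -/
lemma ev_injective {h k : F} (e : EqH (𝒟.ev h) (𝒟.ev k)) : h = k := by
  by_contra hne
  have h1 : h - k ≠ 0 := sub_ne_zero.mpr hne
  refine (𝒟.fin _ h1).not_eqH_zero (𝒟.mero _) ((𝒟.ev_sub h k).trans ?_)
  intro z hz
  filter_upwards [e z hz] with w hw
  rw [hw, sub_self]

lemma hasMultH_ev (h : F) : HasMultH (𝒟.ev h) (1 : Γ →* ℂˣ) :=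
  hasMultH_one_iff.mpr (𝒟.inv h)

end AnDict

/-! ## Monodromy data -/

section Mon

variable {F : Type*} [Field F] [Algebra ℂ F] (𝒟 : AnDict F Γ)

/-- `ψ` is the monodromy of the class `c` (killed by `m`): `c = [D]`, `m D = div h`, and the
function of `h` has an `m`-th root `g` with multiplier `ψ`. -/
def IsMonData (m : ℕ) (c : Pic0 ℂ F) (ψ : Γ →* ℂˣ) : Prop :=
  ∃ (D : Divisor.degZero (K := ℂ) (F := F)) (h : F) (g : ℂ → ℂ),
    Pic0.mk D = c ∧ h ≠ 0 ∧ (∀ w : Place ℂ F, (m : ℤ) * (D : Divisor ℂ F) w = w.ord h) ∧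
    MeromorphicOn g {z : ℂ | 0 < z.im} ∧ FinOrd g ∧
    EqH (fun w ↦ g w ^ m) (𝒟.ev h) ∧ HasMultH g ψ

lemma pic0_mk_eq_zero_iff (D : Divisor.degZero (K := ℂ) (F := F)) :
    Pic0.mk D = 0 ↔ Divisor.IsPrincipal (D : Divisor ℂ F) := by
  unfold Pic0.mk
  rw [QuotientAddGroup.eq_zero_iff, AddSubgroup.mem_addSubgroupOf, Divisor.mem_principal]

lemma pic0_mk_nsmul (m : ℕ) (D : Divisor.degZero (K := ℂ) (F := F)) :
    Pic0.mk (m • D) = m • Pic0.mk D := rfl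

/-- Existence of the monodromy. -/
theorem exists_isMonData {m : ℕ} (hm : 0 < m) {c : Pic0 ℂ F} (hc : m • c = 0) :
    ∃ ψ : Γ →* ℂˣ, IsMonData 𝒟 m c ψ := by
  obtain ⟨D, rfl⟩ := Pic0.mk_surjective c
  rw [← pic0_mk_nsmul, pic0_mk_eq_zero_iff] at hc
  obtain ⟨h, hh0, hh⟩ := hc
  have hdiv : ∀ w : Place ℂ F, (m : ℤ) * (D : Divisor ℂ F) w = w.ord h := fun w ↦ by
    rw [← hh w]
    simp
  have hdvd : ∀ w : Place ℂ F, (m : ℤ) ∣ w.ord h := fun w ↦ ⟨_, (hdiv w).symm⟩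
  obtain ⟨g, ψ, hgNF, hpow, hgfin, -, -, -, hmult⟩ :=
    exists_root_multiplier m hm Γ (𝒟.ev h) (𝒟.mero h) (𝒟.fin h hh0) (𝒟.t2 m h hh0 hdvd)
      (fun γ hγ z hz ↦ 𝒟.inv h ⟨γ, hγ⟩ z hz)
  exact ⟨ψ, D, h, g, rfl, hh0, hdiv, hgNF.meromorphicOn, hgfin, hpow,
    HasMultH.of_pointwise hmult⟩

variable {𝒟}

/-- A class with monodromy data for `m` is killed by `m`. -/
theorem IsMonData.nsmul_eq_zero {m : ℕ} {c : Pic0 ℂ F} {ψ : Γ →* ℂˣ}
    (h : IsMonData 𝒟 m c ψ) : m • c = 0 := by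
  obtain ⟨D, k, g, rfl, hk0, hdiv, -⟩ := h
  rw [← pic0_mk_nsmul, pic0_mk_eq_zero_iff]
  refine ⟨k, hk0, fun w ↦ ?_⟩
  rw [← hdiv w]
  simp

/-- The monodromy has order dividing `m`. -/
theorem IsMonData.pow_eq_one {m : ℕ} {c : Pic0 ℂ F} {ψ : Γ →* ℂˣ}
    (h : IsMonData 𝒟 m c ψ) : ψ ^ m = 1 := by
  obtain ⟨D, k, g, rfl, hk0, hdiv, hg, hgfin, hpow, hmult⟩ := h
  exact HasMultH.unique (hg.fun_pow m) (hgfin.pow hg m) (hmult.pow m)
    ((𝒟.hasMultH_ev k).congr hpow.symm)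

/-- The trivial class has trivial monodromy. -/
theorem isMonData_zero (m : ℕ) : IsMonData 𝒟 m (0 : Pic0 ℂ F) (1 : Γ →* ℂˣ) := by
  refine ⟨0, 1, fun _ ↦ 1, rfl, one_ne_zero, fun w ↦ by simp, MeromorphicOn.const 1,
    ?_, ?_, ?_⟩
  · exact finOrd_of_eventually_ne (MeromorphicOn.const 1)
      (fun z _ ↦ Eventually.of_forall fun _ ↦ one_ne_zero)
  · refine EqH.trans ?_ 𝒟.ev_one.symm
    intro z _
    exact Eventually.of_forall fun w ↦ by simp
  · intro γ z _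
    exact Eventually.of_forall fun w ↦ by simp

/-- The monodromy is multiplicative. -/
theorem IsMonData.add {m : ℕ} {c c' : Pic0 ℂ F} {ψ ψ' : Γ →* ℂˣ}
    (h : IsMonData 𝒟 m c ψ) (h' : IsMonData 𝒟 m c' ψ') : IsMonData 𝒟 m (c + c') (ψ * ψ') := by
  obtain ⟨D, k, g, rfl, hk0, hdiv, hg, hgfin, hpow, hmult⟩ := h
  obtain ⟨D', k', g', rfl, hk0', hdiv', hg', hgfin', hpow', hmult'⟩ := h'
  refine ⟨D + D', k * k', fun w ↦ g w * g' w, rfl, mul_ne_zero hk0 hk0', fun w ↦ ?_,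
    hg.fun_mul hg', hgfin.mul hg hg' hgfin', ?_, hmult.mul hmult'⟩
  · rw [AddSubgroup.coe_add, Finsupp.add_apply, mul_add, hdiv w, hdiv' w,
      Place.ord_mul w hk0 hk0']
  · refine EqH.trans ?_ (𝒟.ev_mul k k').symm
    intro z hz
    filter_upwards [hpow z hz, hpow' z hz] with w h1 h2
    rw [mul_pow, h1, h2]

/-- Compatibility with change of the exponent. -/
theorem IsMonData.nsmul {m p : ℕ} {c : Pic0 ℂ F} {ψ : Γ →* ℂˣ}
    (h : IsMonData 𝒟 (p * m) c ψ) : IsMonData 𝒟 m (p • c) (ψ ^ p) := by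
  obtain ⟨D, k, g, rfl, hk0, hdiv, hg, hgfin, hpow, hmult⟩ := h
  refine ⟨p • D, k, fun w ↦ g w ^ p, rfl, hk0, fun w ↦ ?_, hg.fun_pow p, hgfin.pow hg p, ?_,
    hmult.pow p⟩
  · rw [← hdiv w, AddSubgroup.coe_nsmul, Finsupp.smul_apply, nsmul_eq_mul]
    push_cast
    ring
  · refine EqH.trans ?_ hpow
    intro z _
    exact Eventually.of_forall fun w ↦ by simp only [← pow_mul]

/-- **The monodromy is well defined**: it only depends on the class. -/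
theorem IsMonData.unique {m : ℕ} (hm : 0 < m) {c : Pic0 ℂ F} {ψ ψ' : Γ →* ℂˣ}
    (h : IsMonData 𝒟 m c ψ) (h' : IsMonData 𝒟 m c ψ') : ψ = ψ' := by
  obtain ⟨D, k, g, rfl, hk0, hdiv, hg, hgfin, hpow, hmult⟩ := h
  obtain ⟨D', k', g', hDD', hk0', hdiv', hg', hgfin', hpow', hmult'⟩ := h'
  -- the difference of the two divisors is principal
  have hpr : Divisor.IsPrincipal ((D' - D : Divisor.degZero (K := ℂ) (F := F)) : Divisor ℂ F) := by
    rw [← pic0_mk_eq_zero_iff]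
    have : Pic0.mk (D' - D) = Pic0.mk D' - Pic0.mk D := rfl
    rw [this, hDD', sub_self]
  obtain ⟨t, ht0, ht⟩ := hpr
  have ht' : ∀ w : Place ℂ F, (D' : Divisor ℂ F) w - (D : Divisor ℂ F) w = w.ord t := fun w ↦ by
    rw [← ht w, AddSubgroup.coe_sub, Finsupp.sub_apply]
  -- `k' / (k t^m)` has trivial divisor, hence is a constant
  have htm0 : t ^ m ≠ 0 := pow_ne_zero m ht0
  have hx0 : k' * (k * t ^ m)⁻¹ ≠ 0 := mul_ne_zero hk0' (inv_ne_zero (mul_ne_zero hk0 htm0))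
  have hxord : ∀ w : Place ℂ F, w.ord (k' * (k * t ^ m)⁻¹) = 0 := fun w ↦ by
    rw [Place.ord_mul w hk0' (inv_ne_zero (mul_ne_zero hk0 htm0)), Place.ord_inv,
      Place.ord_mul w hk0 htm0, ← zpow_natCast, Place.ord_zpow, ← hdiv w, ← hdiv' w, ← ht' w]
    ring
  obtain ⟨a, ha⟩ := 𝒟.const _ hx0 hxord
  have ha0 : a ≠ 0 := by
    rintro rfl
    rw [map_zero] at ha
    exact hx0 ha
  have hk' : k' = algebraMap ℂ F a * (k * t ^ m) := by
    rw [← ha, mul_assoc, inv_mul_cancel₀ (mul_ne_zero hk0 htm0), mul_one]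
  obtain ⟨b, hb⟩ := IsAlgClosed.exists_pow_nat_eq a hm
  have hb0 : b ≠ 0 := by
    rintro rfl
    rw [zero_pow hm.ne'] at hb
    exact ha0 hb.symm
  -- the comparison function
  set G : ℂ → ℂ := fun w ↦ b * (g w * 𝒟.ev t w) with hG
  have hGm : MeromorphicOn G {z : ℂ | 0 < z.im} :=
    (MeromorphicOn.const b).fun_mul (hg.fun_mul (𝒟.mero t))
  have hGfin : FinOrd G :=
    (hgfin.mul hg (𝒟.mero t) (𝒟.fin t ht0)).const_mul (hg.fun_mul (𝒟.mero t)) hb0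
  have hGmult : HasMultH G ψ := by
    have e : ψ * (1 : Γ →* ℂˣ) = ψ := mul_one ψ
    have := (hmult.mul (𝒟.hasMultH_ev t)).const_mul b
    rwa [e] at this
  have hGpow : EqH (fun w ↦ g' w ^ m) (fun w ↦ G w ^ m) := by
    refine hpow'.trans ?_
    rw [hk']
    refine (𝒟.ev_mul _ _).trans ?_
    intro z hz
    filter_upwards [𝒟.ev_algebraMap a z hz, 𝒟.ev_mul k (t ^ m) z hz, 𝒟.ev_pow t m z hz,
      hpow z hz] with w h1 h2 h3 h4
    rw [h1, h2, h3, ← h4, hG]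
    simp only [mul_pow, hb]
  obtain ⟨ζ, -, hζ⟩ := meromorphic_root_unique m hm g' G hg' hGm hGfin hGpow
  have h1 : HasMultH g' ψ := (hGmult.const_mul ζ).congr (EqH.symm hζ)
  exact HasMultH.unique hg' hgfin' h1 hmult'

/-- **Injectivity of the monodromy**: a class with trivial monodromy is trivial. -/
theorem IsMonData.eq_zero {m : ℕ} (hm : 0 < m) {c : Pic0 ℂ F}
    (h : IsMonData 𝒟 m c (1 : Γ →* ℂˣ)) : c = 0 := by
  obtain ⟨D, k, g, rfl, hk0, hdiv, hg, hgfin, hpow, hmult⟩ := h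
  obtain ⟨t, ht⟩ := 𝒟.root_mem m k g hm hk0 hg hpow (hasMultH_one_iff.mp hmult)
  have hkt : t ^ m = k := by
    apply 𝒟.ev_injective
    refine (𝒟.ev_pow t m).trans (EqH.trans ?_ hpow)
    exact (ht.pow m).symm
  have ht0 : t ≠ 0 := by
    rintro rfl
    rw [zero_pow hm.ne'] at hkt
    exact hk0 hkt.symm
  rw [pic0_mk_eq_zero_iff]
  refine ⟨t, ht0, fun w ↦ ?_⟩
  have h1 := hdiv w
  rw [← hkt, ← zpow_natCast, Place.ord_zpow] at h1
  have hm' : (m : ℤ) ≠ 0 := by exact_mod_cast hm.ne'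
  exact mul_left_cancel₀ hm' h1

/-- Two classes killed by `m` with the same monodromy are equal. -/
theorem IsMonData.eq_of_eq {m : ℕ} (hm : 0 < m) {c c' : Pic0 ℂ F} {ψ : Γ →* ℂˣ}
    (h : IsMonData 𝒟 m c ψ) (h' : IsMonData 𝒟 m c' ψ) : c = c' := by
  have h1 : IsMonData 𝒟 m ((m - 1) • c') (ψ ^ (m - 1)) := by
    induction (m - 1) with
    | zero =>
      have e : ψ ^ 0 = (1 : Γ →* ℂˣ) := pow_zero ψ
      rw [zero_nsmul, e]
      exact isMonData_zero (𝒟 := 𝒟) m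
    | succ n ih =>
      have e : ψ ^ (n + 1) = ψ ^ n * ψ := pow_succ ψ n
      rw [succ_nsmul, e]
      exact ih.add h'
  have h2 := h.add h1
  have h3 : ψ * ψ ^ (m - 1) = 1 := by
    have e : ψ * ψ ^ (m - 1) = ψ ^ (m - 1 + 1) := (pow_succ' ψ (m - 1)).symm
    rw [e, Nat.sub_add_cancel hm]
    exact h.pow_eq_one
  rw [h3] at h2
  have h4 := h2.eq_zero hm
  have h5 : m • c' = 0 := h'.nsmul_eq_zero
  have h6 : (m - 1) • c' = -c' := by
    rw [eq_neg_iff_add_eq_zero, ← succ_nsmul, Nat.sub_add_cancel hm]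
    exact h5
  rw [h6, ← sub_eq_add_neg, sub_eq_zero] at h4
  exact h4

/-! ## The Kummer maps -/

/-- **The Kummer maps.**  Let `Ψ n : X → Hom(Γ, ℂˣ)` be multiplicative families of characters
with `Ψ (n+1) ^ p = Ψ n`, such that every `Ψ n ε` is the monodromy of a class killed by `p ^ n`.
Then these classes define additive maps `κ n : X → Pic⁰(F)` with values in the `p ^ n`-torsion,
injective modulo the kernel of `Ψ n`, and with `p • κ (n+1) = κ n`. -/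
theorem exists_kappa {X : Type*} [AddCommGroup X] {p : ℕ} (hp : 0 < p)
    (Ψ : ℕ → X → (Γ →* ℂˣ))
    (hΨadd : ∀ n ε ε', Ψ n (ε + ε') = Ψ n ε * Ψ n ε')
    (hΨp : ∀ n ε, Ψ (n + 1) ε ^ p = Ψ n ε)
    (hsurj : ∀ n ε, ∃ c : Pic0 ℂ F, IsMonData 𝒟 (p ^ n) c (Ψ n ε)) :
    ∃ κ : ℕ → X →+ Pic0 ℂ F,
      (∀ n ε, IsMonData 𝒟 (p ^ n) (κ n ε) (Ψ n ε)) ∧
      (∀ n ε, p ^ n • κ n ε = 0) ∧
      (∀ n ε, κ n ε = 0 → Ψ n ε = 1) ∧
      (∀ n ε, p • κ (n + 1) ε = κ n ε) := by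
  classical
  have hpn : ∀ n : ℕ, 0 < p ^ n := fun n ↦ pow_pos hp n
  choose κ₀ hκ₀ using hsurj
  have hadd : ∀ n ε ε', κ₀ n (ε + ε') = κ₀ n ε + κ₀ n ε' := fun n ε ε' ↦ by
    have h1 := (hκ₀ n ε).add (hκ₀ n ε')
    rw [← hΨadd] at h1
    exact (hκ₀ n (ε + ε')).eq_of_eq (hpn n) h1
  refine ⟨fun n ↦ AddMonoidHom.mk' (κ₀ n) (hadd n), fun n ε ↦ hκ₀ n ε,
    fun n ε ↦ (hκ₀ n ε).nsmul_eq_zero, fun n ε h0 ↦ ?_, fun n ε ↦ ?_⟩
  · have h1 : IsMonData 𝒟 (p ^ n) (0 : Pic0 ℂ F) (Ψ n ε) := by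
      have := hκ₀ n ε
      rwa [show κ₀ n ε = 0 from h0] at this
    exact h1.unique (hpn n) (isMonData_zero (p ^ n))
  · have h1 : IsMonData 𝒟 (p * p ^ n) (κ₀ (n + 1) ε) (Ψ (n + 1) ε) := by
      have := hκ₀ (n + 1) ε
      rwa [pow_succ'] at this
    have h2 := h1.nsmul
    rw [hΨp] at h2
    exact h2.eq_of_eq (hpn n) (hκ₀ n ε)

/-! ## Finiteness of the torsion -/

/-- The characters of order dividing `p` of a finitely generated group are finite in number. -/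
theorem finite_char_of_fg (G : Type*) [Group G] [Group.FG G] {p : ℕ} (hp : 0 < p) :
    Finite {ψ : G →* ℂˣ // ψ ^ p = 1} := by
  classical
  have : NeZero p := ⟨hp.ne'⟩
  obtain ⟨S, hS⟩ := Group.FG.out (G := G)
  let f : {ψ : G →* ℂˣ // ψ ^ p = 1} → (S → rootsOfUnity p ℂ) := fun ψ s ↦
    ⟨ψ.1 s, by
      rw [mem_rootsOfUnity]
      have := congrArg (fun χ : G →* ℂˣ ↦ χ s) ψ.2
      simpa using this⟩
  refine Finite.of_injective f fun ψ ψ' h ↦ ?_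
  apply Subtype.ext
  apply MonoidHom.eq_of_eqOn_dense hS
  intro s hs
  have := congrFun h ⟨s, hs⟩
  exact congrArg Subtype.val this

/-- **Finiteness of the torsion** of `Pic⁰(F)`, by injectivity of the monodromy. -/
theorem finite_torsion_of_fg [Group.FG Γ] (𝒟 : AnDict F Γ) {p : ℕ} (hp : 0 < p) :
    Finite (nsmulAddMonoidHom (α := Pic0 ℂ F) p).ker := by
  classical
  have := finite_char_of_fg Γ hp
  have hex : ∀ c : (nsmulAddMonoidHom (α := Pic0 ℂ F) p).ker,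
      ∃ ψ : Γ →* ℂˣ, IsMonData 𝒟 p c.1 ψ := fun c ↦
    exists_isMonData 𝒟 hp (by
      have := c.2
      rw [AddMonoidHom.mem_ker, nsmulAddMonoidHom_apply] at this
      exact this)
  choose mon hmon using hex
  let f : (nsmulAddMonoidHom (α := Pic0 ℂ F) p).ker → {ψ : Γ →* ℂˣ // ψ ^ p = 1} := fun c ↦
    ⟨mon c, (hmon c).pow_eq_one⟩
  refine Finite.of_injective f fun c c' h ↦ ?_
  have h1 : mon c = mon c' := congrArg Subtype.val h
  apply Subtype.ext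
  have h2 := hmon c
  rw [h1] at h2
  exact h2.eq_of_eq hp (hmon c')

end Mon

end Fermat.Agent.P3.helper20
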