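import Mathlib
import Fermat.Agent.S24.helper77_Finrank

/-! # P3 / [AN1], part 1 (helper48): holomorphic invariant functions lie in `F_ℂ`

`FC N = laurentBaseChange ℂ (modularFunctionFieldFull N) = ℂ(J_d : d ∣ N) ⊆ ℂ((q))`.

* `formal_relation_fam`: for a finite family of `Γ₀(N)`-invariant holomorphic functions on `ℍ`
  with exponential growth at all cusps, every polynomial in their `q`-expansions is a root of a
  monic polynomial of degree `n = [SL(2,ℤ) : Γ₀(N)]` with coefficients in `ℂ[j]`.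
-/

set_option autoImplicit false

noncomputable section

open ModularCurve UpperHalfPlane IntermediateField
open scoped MatrixGroups

namespace Fermat.Agent.P3.helper48

open Fermat.Agent.S24 Fermat.Agent.S24.helper17 Fermat.Agent.S24.helper24
  Fermat.Agent.S24.helper77

section Relation

variable {N : ℕ} [NeZero N] {ι : Type*} (fam : ι → (ℍ → ℂ))

/-- The function `P(fam)`. -/
def thetaFam (P : MvPolynomial ι ℂ) : ℍ → ℂ := MvPolynomial.aeval fam P

theorem thetaFam_apply (P : MvPolynomial ι ℂ) (τ : ℍ) :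
    thetaFam fam P τ = MvPolynomial.eval (fun i => fam i τ) P := by
  have := MvPolynomial.comp_aeval_apply (f := fam) (Pi.evalAlgHom ℂ (fun _ : ℍ => ℂ) τ) P
  rw [thetaFam]
  change (Pi.evalAlgHom ℂ (fun _ : ℍ => ℂ) τ) ((MvPolynomial.aeval fam) P) = _
  rw [this, MvPolynomial.aeval_eq_eval]
  rfl

theorem precomp_thetaFam (g : SL(2, ℤ)) (P : MvPolynomial ι ℂ) :
    precomp g (thetaFam fam P) = MvPolynomial.aeval (fun i => precomp g (fam i)) P := by
  rw [thetaFam, MvPolynomial.comp_aeval_apply]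

theorem precomp_thetaFam_mem_holoExp (hmem : ∀ i (g : SL(2, ℤ)), precomp g (fam i) ∈ holoExp)
    (g : SL(2, ℤ)) (P : MvPolynomial ι ℂ) :
    precomp g (thetaFam fam P) ∈ holoExp := by
  rw [precomp_thetaFam]
  have := MvPolynomial.comp_aeval_apply (f := fun i =>
    (⟨precomp g (fam i), hmem i g⟩ : holoExp)) holoExp.val P
  have e : (MvPolynomial.aeval fun i => precomp g (fam i)) P =
      ((MvPolynomial.aeval (fun i =>
        (⟨precomp g (fam i), hmem i g⟩ : holoExp)) P : holoExp) :
          ℍ → ℂ) := this.symm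
  rw [e]
  exact Subtype.prop _

omit [NeZero N] in
theorem precomp_thetaFam_of_mem_Gamma0
    (hinv : ∀ i, ∀ γ ∈ CongruenceSubgroup.Gamma0 N, precomp γ (fam i) = fam i) {γ : SL(2, ℤ)}
    (hγ : γ ∈ CongruenceSubgroup.Gamma0 N) (P : MvPolynomial ι ℂ) :
    precomp γ (thetaFam fam P) = thetaFam fam P := by
  rw [precomp_thetaFam, thetaFam]
  have : (fun i => precomp γ (fam i)) = fam := funext fun i => hinv i γ hγ
  rw [this]

/-- **Analytic relation** for polynomials in a family of invariant functions. -/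
theorem exists_relation_fam
    (hinv : ∀ i, ∀ γ ∈ CongruenceSubgroup.Gamma0 N, precomp γ (fam i) = fam i)
    (hmem : ∀ i (g : SL(2, ℤ)), precomp g (fam i) ∈ holoExp) (P : MvPolynomial ι ℂ) :
    ∃ p : ℕ → Polynomial ℂ, p (Nat.card (X0 N)) = 1 ∧
      ∀ τ, ∑ k ∈ Finset.range (Nat.card (X0 N) + 1),
        (p k).eval (jfun τ) * (MvPolynomial.eval (fun i => fam i τ) P) ^ k = 0 := by
  obtain ⟨p, hp1, hp⟩ := exists_relation (N := N) (θ := thetaFam fam P)
    (fun γ hγ => precomp_thetaFam_of_mem_Gamma0 fam hinv hγ P)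
    (fun g => precomp_thetaFam_mem_holoExp fam hmem g P)
  refine ⟨p, hp1, fun τ => ?_⟩
  have := hp τ
  simpa only [thetaFam_apply] using this

/-- **Formal relation**: every polynomial in the `q`-expansions `ser i` of the functions `fam i`
is a root of a monic polynomial of degree `n = [SL(2,ℤ) : Γ₀(N)]` with coefficients in `ℂ[j]`. -/
theorem formal_relation_fam (ser : ι → LaurentSeries ℂ) (hq : ∀ i, IsQExp (ser i) (fam i))
    (hinv : ∀ i, ∀ γ ∈ CongruenceSubgroup.Gamma0 N, precomp γ (fam i) = fam i)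
    (hmem : ∀ i (g : SL(2, ℤ)), precomp g (fam i) ∈ holoExp)
    (i₀ : ι) (hi₀ : fam i₀ = jfun) (P : MvPolynomial ι ℂ) :
    ∃ p : ℕ → Polynomial ℂ, p (Nat.card (X0 N)) = 1 ∧
      ∑ k ∈ Finset.range (Nat.card (X0 N) + 1),
        Polynomial.aeval (ser i₀) (p k) * (MvPolynomial.aeval ser P) ^ k = 0 := by
  obtain ⟨p, hp1, hp⟩ := exists_relation_fam (N := N) fam hinv hmem P
  refine ⟨p, hp1, ?_⟩
  set Q : MvPolynomial ι ℂ := ∑ k ∈ Finset.range (Nat.card (X0 N) + 1),
    Polynomial.aeval (MvPolynomial.X i₀ : MvPolynomial ι ℂ) (p k) * P ^ k with hQ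
  have hQ0 : ∀ τ : ℍ, MvPolynomial.eval (fun i => fam i τ) Q = 0 := by
    intro τ
    rw [hQ, map_sum, ← hp τ]
    refine Finset.sum_congr rfl fun k _ => ?_
    rw [map_mul, map_pow]
    congr 1
    rw [Polynomial.aeval_def, Polynomial.hom_eval₂, MvPolynomial.eval_X]
    show Polynomial.eval₂ _ (fam i₀ τ) (p k) = _
    rw [hi₀]
    have : (MvPolynomial.eval fun i => fam i τ).comp
        (algebraMap ℂ (MvPolynomial ι ℂ)) = RingHom.id ℂ := by
      ext c; simp
    rw [this]
    rfl
  have hb := (bridge_of_isQExp hq Q).mpr hQ0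
  rw [hQ, map_sum] at hb
  rw [← hb]
  refine Finset.sum_congr rfl fun k _ => ?_
  rw [map_mul, map_pow, ← Polynomial.aeval_algHom_apply, MvPolynomial.aeval_X]

end Relation

/-! ### The upper bound for the degree -/

section UpperBound

variable {ι : Type*} (ser : ι → LaurentSeries ℂ)

/-- The subfield of `ℂ((q))` generated by a family of series. -/
abbrev serField : IntermediateField ℂ (LaurentSeries ℂ) :=
  IntermediateField.adjoin ℂ (Set.range ser)

/-- The generators, as elements of `serField ser`. -/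
def serGen (i : ι) : serField ser := ⟨ser i, subset_adjoin ℂ _ ⟨i, rfl⟩⟩

@[simp] theorem coe_serGen (i : ι) : ((serGen ser i : serField ser) : LaurentSeries ℂ) = ser i :=
  rfl

theorem adjoin_serGen_eq_top :
    IntermediateField.adjoin ℂ (Set.range (serGen ser)) = ⊤ := by
  apply IntermediateField.lift_injective (serField ser)
  rw [lift_adjoin, lift_top]
  have : (Subtype.val '' Set.range (serGen ser) : Set (LaurentSeries ℂ)) = Set.range ser := by
    rw [← Set.range_comp]
    rfl
  rw [this]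

theorem coeff_jqModC_neg_one : (jqModC ℂ).coeff (-1) = 1 := by
  rw [← coeffEmb_jq ℂ, coeffEmb_coeff, coeff_jq_neg_one, map_one]

/-- A Laurent series with nonzero coefficient of index `-1` is transcendental over `ℂ`. -/
theorem transcendental_of_coeff_neg_one {x : LaurentSeries ℂ} (hx : x.coeff (-1) ≠ 0) :
    Transcendental ℂ x := by
  intro halg
  exact hx (coeff_eq_zero_of_isAlgebraic halg (k := -1) (by norm_num))

theorem transcendental_subtype {F : IntermediateField ℂ (LaurentSeries ℂ)} (x : F)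
    (hx : (x : LaurentSeries ℂ).coeff (-1) ≠ 0) : Transcendental ℂ x := by
  intro halg
  have h1 : IsAlgebraic ℂ ((x : F) : LaurentSeries ℂ) := by
    have := halg.algebraMap (A := LaurentSeries ℂ)
    simpa using this
  exact transcendental_of_coeff_neg_one hx h1

variable {N : ℕ} [NeZero N] (fam : ι → (ℍ → ℂ))

/-- The formal relation inside the field `serField ser`. -/
theorem relation_in_serField (hq : ∀ i, IsQExp (ser i) (fam i))
    (hinv : ∀ i, ∀ γ ∈ CongruenceSubgroup.Gamma0 N, precomp γ (fam i) = fam i)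
    (hmem : ∀ i (g : SL(2, ℤ)), precomp g (fam i) ∈ holoExp)
    (i₀ : ι) (hi₀ : fam i₀ = jfun) (P : MvPolynomial ι ℂ) :
    ∃ q : ℕ → Polynomial ℂ, q (Nat.card (X0 N)) = 1 ∧
      ∑ k ∈ Finset.range (Nat.card (X0 N) + 1),
        Polynomial.aeval (serGen ser i₀) (q k) * (MvPolynomial.aeval (serGen ser) P) ^ k = 0 := by
  obtain ⟨q, hq1, hq'⟩ := formal_relation_fam (N := N) fam ser hq hinv hmem i₀ hi₀ P
  refine ⟨q, hq1, ?_⟩
  obtain ⟨v, hv⟩ : ∃ v : serField ser →ₐ[ℂ] LaurentSeries ℂ,
      ∀ y, v y = (y : LaurentSeries ℂ) := ⟨(serField ser).val, fun _ => rfl⟩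
  have hvinj : Function.Injective v := fun a b h => Subtype.ext (by rw [← hv, ← hv, h])
  apply hvinj
  rw [map_sum, map_zero, ← hq']
  refine Finset.sum_congr rfl fun k _ => ?_
  rw [map_mul, map_pow, ← Polynomial.aeval_algHom_apply, MvPolynomial.comp_aeval_apply]
  have h1 : v (serGen ser i₀) = ser i₀ := hv _
  have h2 : (fun i => v (serGen ser i)) = ser := funext fun i => hv _
  rw [h1, h2]

/-- **Upper bound.** The field generated by the `q`-expansions of a finite family of
`Γ₀(N)`-invariant holomorphic functions with exponential growth at all cusps, containing `j`,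
has degree at most `[SL(2,ℤ) : Γ₀(N)]` over `ℂ(j)`. -/
theorem finrank_serField_le [Finite ι] (hq : ∀ i, IsQExp (ser i) (fam i))
    (hinv : ∀ i, ∀ γ ∈ CongruenceSubgroup.Gamma0 N, precomp γ (fam i) = fam i)
    (hmem : ∀ i (g : SL(2, ℤ)), precomp g (fam i) ∈ holoExp)
    (i₀ : ι) (hi₀ : fam i₀ = jfun) :
    FiniteDimensional ℂ⟮serGen ser i₀⟯ (serField ser) ∧
      Module.finrank ℂ⟮serGen ser i₀⟯ (serField ser) ≤ Nat.card (X0 N) := by
  have hser : ser i₀ = jqModC ℂ := (hi₀ ▸ hq i₀).left_unique isQExp_jfun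
  refine finrank_le_of_forall_aeval (serGen ser i₀) ?_ (serGen ser) (adjoin_serGen_eq_top ser)
    (Algebra.subset_adjoin ⟨_, rfl⟩) _ fun P => ?_
  · apply transcendental_subtype
    rw [coe_serGen, hser, coeff_jqModC_neg_one]
    exact one_ne_zero
  · obtain ⟨q, hq1, hq'⟩ := relation_in_serField (N := N) ser fam hq hinv hmem i₀ hi₀ P
    exact exists_poly_of_relation _ _ _ q hq1 hq'

end UpperBound

/-! ### The lower bound: descent of linear independence from `ℚ̄` to `ℂ` -/

section LowerBound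

open Polynomial

/-- A `ℚ̄`-linear functional on `ℂ` taking the value `1` at a given nonzero number. -/
theorem exists_functional_at {a : ℂ} (ha : a ≠ 0) : ∃ lam : ℂ →+ Kbar, lam a = 1 ∧
    ∀ (c : Kbar) (z : ℂ), lam (z * (iotaC : Kbar →+* ℂ) c) = lam z * c := by
  obtain ⟨lam₀, h1, h2⟩ := exists_functional (K := Kbar) (L := ℂ) (iotaC : Kbar →+* ℂ)
  refine ⟨lam₀.comp (AddMonoidHom.mulRight a⁻¹), ?_, fun c z => ?_⟩
  · show lam₀ (a * a⁻¹) = 1
    rw [mul_inv_cancel₀ ha, h1]
  · show lam₀ (z * (iotaC : Kbar →+* ℂ) c * a⁻¹) = lam₀ (z * a⁻¹) * c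
    rw [← h2 c (z * a⁻¹)]
    congr 1
    ring

/-- **Descent of linear independence.** If the `B i ∈ ℚ̄((q))` are linearly independent over
`ℚ̄[x]`, their images in `ℂ((q))` are linearly independent over `ℂ[x]`. -/
theorem poly_independent_toC {κ : Type*} [Fintype κ] (xK : LaurentSeries Kbar)
    (B : κ → LaurentSeries Kbar)
    (hB : ∀ c : κ → Polynomial Kbar, ∑ i, aeval xK (c i) * B i = 0 → ∀ i, c i = 0)
    (c : κ → Polynomial ℂ) (h : ∑ i, aeval (toC xK) (c i) * toC (B i) = 0) : ∀ i, c i = 0 := by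
  by_contra hne
  push Not at hne
  obtain ⟨i₁, hi₁⟩ := hne
  obtain ⟨j₁, hj₁⟩ : ∃ j, (c i₁).coeff j ≠ 0 := by
    by_contra h0
    push Not at h0
    exact hi₁ (Polynomial.ext fun j => by rw [h0 j, coeff_zero])
  obtain ⟨lam, hlam1, hlam⟩ := exists_functional_at hj₁
  set m := (Finset.univ : Finset κ).sup (fun i => (c i).natDegree) with hm
  have hdeg : ∀ i, (c i).natDegree < m + 1 := fun i =>
    Nat.lt_succ_of_le (Finset.le_sup (f := fun i => (c i).natDegree) (Finset.mem_univ i))
  have h1 : ∑ ij ∈ (Finset.univ : Finset κ) ×ˢ Finset.range (m + 1),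
      HahnSeries.C ((c ij.1).coeff ij.2) * coeffMap (iotaC : Kbar →+* ℂ) (xK ^ ij.2 * B ij.1)
        = 0 := by
    rw [Finset.sum_product, ← h]
    refine Finset.sum_congr rfl fun i _ => ?_
    rw [Polynomial.aeval_eq_sum_range' (hdeg i), Finset.sum_mul]
    refine Finset.sum_congr rfl fun j _ => ?_
    rw [map_mul, map_pow, Algebra.smul_def, algebraMap_eq_C, mul_assoc]
    rfl
  have h2 := descent_sum (iotaC : Kbar →+* ℂ) lam hlam _ _ _ h1
  rw [Finset.sum_product] at h2
  have h3 : ∑ i, aeval xK (∑ j ∈ Finset.range (m + 1),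
      Polynomial.monomial j (lam ((c i).coeff j))) * B i = 0 := by
    rw [← h2]
    refine Finset.sum_congr rfl fun i _ => ?_
    rw [map_sum, Finset.sum_mul]
    refine Finset.sum_congr rfl fun j _ => ?_
    rw [Polynomial.aeval_monomial, algebraMap_eq_C, mul_assoc]
  have h4 := hB _ h3 i₁
  have h5 := congrArg (fun Q : Polynomial Kbar => Q.coeff j₁) h4
  simp only [finsetSum_coeff, coeff_monomial, coeff_zero] at h5
  rw [Finset.sum_eq_single j₁] at h5
  · simp only [if_true] at h5
    rw [hlam1] at h5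
    exact one_ne_zero h5
  · intro j _ hj
    rw [if_neg hj]
  · intro h0
    have hlt : j₁ < m + 1 := by
      by_contra hge
      exact hj₁ (Polynomial.coeff_eq_zero_of_natDegree_lt
        (lt_of_lt_of_le (hdeg i₁) (not_lt.mp hge)))
    exact absurd (Finset.mem_range.mpr hlt) h0

end LowerBound

/-! ### The field `F_ℂ` -/

section FC

variable (N : ℕ) [NeZero N]

/-- `F_ℂ = ℂ(J_d : d ∣ N) ⊆ ℂ((q))`, the function field of `X₀(N)` over `ℂ`. -/
abbrev FC : IntermediateField ℂ (LaurentSeries ℂ) :=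
  laurentBaseChange ℂ (modularFunctionFieldFull N)

/-- The generators `J_d`, `d ∣ N`, of `F_ℂ`. -/
def genC (d : N.divisors) : LaurentSeries ℂ := JdTC d.1

omit [NeZero N] in
theorem JdTC_mem_FC {d : ℕ} (hd : d ∣ N) (hN : N ≠ 0) : JdTC d ∈ FC N := by
  have hd0 : d ≠ 0 := fun h => hN (by simpa [h] using hd)
  have : NeZero d := ⟨hd0⟩
  rw [JdTC, dif_neg hd0]
  exact coeffEmb_mem_laurentBaseChange ℂ (jqd_mem_full N hd)

theorem genC_mem_FC (d : N.divisors) : genC N d ∈ FC N :=
  JdTC_mem_FC N (Nat.dvd_of_mem_divisors d.2) (NeZero.ne N)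

theorem coeffEmbC_algebraMap_rat (c : ℚ) :
    coeffEmb ℂ (algebraMap ℚ (LaurentSeries ℚ) c)
      = algebraMap ℂ (LaurentSeries ℂ) (algebraMap ℚ ℂ c) := by
  rw [ModularCurve.algebraMap_apply_eq_single, ModularCurve.algebraMap_laurentSeries_eq_single]
  exact coeffMap_single _ _ _

theorem coeffEmbC_mem_adjoin_genC (y : LaurentSeries ℚ)
    (hy : y ∈ IntermediateField.adjoin ℚ (divisorExpansions N)) :
    coeffEmb ℂ y ∈ IntermediateField.adjoin ℂ (Set.range (genC N)) := by
  induction hy using IntermediateField.adjoin_induction with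
  | mem x hx =>
    obtain ⟨d, hne, hd, rfl⟩ := hx
    have := hne
    refine IntermediateField.subset_adjoin ℂ _ ⟨⟨d, ?_⟩, ?_⟩
    · exact Nat.mem_divisors.mpr ⟨hd, NeZero.ne N⟩
    · show JdTC d = _
      rw [JdTC, dif_neg (NeZero.ne d)]
  | algebraMap c =>
    rw [coeffEmbC_algebraMap_rat]
    exact IntermediateField.algebraMap_mem _ _
  | add x y _ _ hx hy =>
    rw [map_add]
    exact add_mem hx hy
  | inv x _ hx =>
    rw [map_inv₀]
    exact inv_mem hx
  | mul x y _ _ hx hy =>
    rw [map_mul]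
    exact mul_mem hx hy

/-- `F_ℂ = ℂ(J_d : d ∣ N)`. -/
theorem FC_eq_adjoin : FC N = IntermediateField.adjoin ℂ (Set.range (genC N)) := by
  apply le_antisymm
  · unfold FC laurentBaseChange
    rw [IntermediateField.adjoin_le_iff]
    rintro _ ⟨y, hy, rfl⟩
    exact coeffEmbC_mem_adjoin_genC N y hy
  · rw [IntermediateField.adjoin_le_iff]
    rintro _ ⟨d, rfl⟩
    exact genC_mem_FC N d

theorem toC_coeffEmb (y : LaurentSeries ℚ) : toC (coeffEmb Kbar y) = coeffEmb ℂ y := by
  rw [toC, coeffEmb, coeffMap_coeffMap]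
  exact coeffMap_congr (RingHom.ext fun c => by simp) y

omit [NeZero N] in
/-- The coefficientwise embedding `ℚ̄((q)) → ℂ((q))` maps `F_ℚ̄` into `F_ℂ`. -/
theorem toC_mem_FC {y : LaurentSeries Kbar} (hy : y ∈ modularFunctionFieldBar N) :
    toC y ∈ FC N := by
  unfold modularFunctionFieldBar laurentBaseChange at hy
  induction hy using IntermediateField.adjoin_induction with
  | mem x hx =>
    obtain ⟨y₀, hy₀, rfl⟩ := hx
    rw [toC_coeffEmb]
    exact coeffEmb_mem_laurentBaseChange ℂ hy₀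
  | algebraMap c =>
    rw [toC_algebraMap]
    exact IntermediateField.algebraMap_mem _ _
  | add x y _ _ hx hy =>
    rw [map_add]
    exact add_mem hx hy
  | inv x _ hx =>
    rw [map_inv₀]
    exact inv_mem hx
  | mul x y _ _ hx hy =>
    rw [map_mul]
    exact mul_mem hx hy

end FC

/-! ### Theorem A -/

section TheoremA

open Polynomial

variable (N : ℕ) [NeZero N]

/-- The basis of `F_ℚ̄` over `ℚ̄(j)` is linearly independent over `ℚ̄[j]` (inside `ℚ̄((q))`). -/
theorem exists_poly_independent_Kbar :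
    ∃ B : Fin (Nat.card (X0 N)) → LaurentSeries Kbar,
      (∀ i, B i ∈ modularFunctionFieldBar N) ∧
      ∀ c : Fin (Nat.card (X0 N)) → Polynomial Kbar,
        ∑ i, aeval (coeffEmb Kbar jq) (c i) * B i = 0 → ∀ i, c i = 0 := by
  have hfd := an_finiteDimensional N
  have : Module.Free Kbar⟮xJ N⟯ (FN N) := Module.Free.of_divisionRing _ _
  let Bas := Module.finBasisOfFinrankEq Kbar⟮xJ N⟯ (FN N) (an_finrank N)
  refine ⟨fun i => ((Bas i : FN N) : LaurentSeries Kbar), fun i => (Bas i).2, fun c hc i => ?_⟩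
  have h1 : ∑ i, (aeval (AdjoinSimple.gen Kbar (xJ N)) (c i) : Kbar⟮xJ N⟯) • Bas i = 0 := by
    apply Subtype.ext
    rw [ZeroMemClass.coe_zero, ← hc]
    have hcoe : ∀ y : FN N, ((modularFunctionFieldBar N).val y : LaurentSeries Kbar) = y :=
      fun _ => rfl
    rw [← hcoe, map_sum]
    refine Finset.sum_congr rfl fun i _ => ?_
    rw [Algebra.smul_def, map_mul, hcoe, hcoe]
    congr 1
    show ((algebraMap Kbar⟮xJ N⟯ (FN N) (aeval (AdjoinSimple.gen Kbar (xJ N)) (c i)) : FN N) :
      LaurentSeries Kbar) = _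
    rw [← Polynomial.aeval_algebraMap_apply, AdjoinSimple.algebraMap_gen, ← hcoe,
      ← Polynomial.aeval_algHom_apply, hcoe, coe_xJ]
  have h2 := Fintype.linearIndependent_iff.mp Bas.linearIndependent _ h1 i
  have h3 : aeval (xJ N) (c i) = 0 := by
    have := congrArg (algebraMap Kbar⟮xJ N⟯ (FN N)) h2
    rwa [← Polynomial.aeval_algebraMap_apply, AdjoinSimple.algebraMap_gen, map_zero] at this
  by_contra hne
  exact an_transcendental N ⟨c i, hne, h3⟩

theorem toC_coeffEmb_jq : toC (coeffEmb Kbar jq) = jqModC ℂ := by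
  rw [toC_coeffEmb, coeffEmb_jq]

/-- **Lower bound over `ℂ`** in elementary form: there are `n = [SL(2,ℤ) : Γ₀(N)]` elements of
`F_ℂ` which are linearly independent over `ℂ[j]`. -/
theorem exists_poly_independent_C :
    ∃ B : Fin (Nat.card (X0 N)) → LaurentSeries ℂ,
      (∀ i, B i ∈ FC N) ∧
      ∀ c : Fin (Nat.card (X0 N)) → Polynomial ℂ,
        ∑ i, aeval (jqModC ℂ) (c i) * B i = 0 → ∀ i, c i = 0 := by
  obtain ⟨B, hB1, hB2⟩ := exists_poly_independent_Kbar N
  refine ⟨fun i => toC (B i), fun i => toC_mem_FC N (hB1 i), fun c hc => ?_⟩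
  refine poly_independent_toC (coeffEmb Kbar jq) B hB2 c ?_
  rw [toC_coeffEmb_jq]
  exact hc

/-- The family of functions `s, j_d (d ∣ N)`. -/
def famA (s : ℍ → ℂ) : Option N.divisors → (ℍ → ℂ) := fun o => o.elim s (fun d => jfunDT d.1)

/-- The family of series `S, J_d (d ∣ N)`. -/
def serA (S : LaurentSeries ℂ) : Option N.divisors → LaurentSeries ℂ :=
  fun o => o.elim S (fun d => JdTC d.1)

theorem FC_le_serField (S : LaurentSeries ℂ) : FC N ≤ serField (serA N S) := by
  rw [FC_eq_adjoin, IntermediateField.adjoin_le_iff]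
  rintro _ ⟨d, rfl⟩
  exact IntermediateField.subset_adjoin ℂ _ ⟨some d, rfl⟩

open scoped IntermediateField.algebraAdjoinAdjoin in
/-- **Theorem A.** The `q`-expansion of a holomorphic `Γ₀(N)`-invariant function on `ℍ` with at
most exponential growth at all cusps lies in `F_ℂ = ℂ(J_d : d ∣ N)`. -/
theorem mem_FC_of_isQExp {s : ℍ → ℂ} {S : LaurentSeries ℂ} (hS : IsQExp S s)
    (hinv : ∀ γ ∈ CongruenceSubgroup.Gamma0 N, precomp γ s = s)
    (hmem : ∀ g : SL(2, ℤ), precomp g s ∈ holoExp) : S ∈ FC N := by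
  set ser := serA N S with hser
  set fam := famA N s with hfam
  have hq : ∀ i, IsQExp (ser i) (fam i) := by
    rintro (_ | d)
    · exact hS
    · exact isQExp_jfunDT d.1
  have hinv' : ∀ i, ∀ γ ∈ CongruenceSubgroup.Gamma0 N, precomp γ (fam i) = fam i := by
    rintro (_ | d) γ hγ
    · exact hinv γ hγ
    · exact precomp_jfam_of_mem_Gamma0 (fun i : N.divisors => i.1)
        (fun i => Nat.dvd_of_mem_divisors i.2) hγ d
  have hmem' : ∀ i (g : SL(2, ℤ)), precomp g (fam i) ∈ holoExp := by
    rintro (_ | d) g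
    · exact hmem g
    · exact precomp_jfam_mem_holoExp (fun i : N.divisors => i.1)
        (fun i h => NeZero.ne N (by
          have := Nat.dvd_of_mem_divisors i.2
          simpa [h] using this)) g d
  have hi₀ : fam (some (idxOne N)) = jfun := funext fun τ => jfunDT_one τ
  obtain ⟨hfd, hle⟩ := finrank_serField_le (N := N) ser fam hq hinv' hmem' (some (idxOne N)) hi₀
  obtain ⟨B, hB1, hB2⟩ := exists_poly_independent_C N
  set x := serGen ser (some (idxOne N)) with hx
  have hxcoe : (x : LaurentSeries ℂ) = jqModC ℂ := (hi₀ ▸ hq _).left_unique isQExp_jfun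
  have hcoe : ∀ y : serField ser, ((serField ser).val y : LaurentSeries ℂ) = y := fun _ => rfl
  let b : Fin (Nat.card (X0 N)) → serField ser := fun i => ⟨B i, FC_le_serField N S (hB1 i)⟩
  -- linear independence over `ℂ[x]`, hence over `ℂ(x)`
  have hli : LinearIndependent ℂ⟮x⟯ b := by
    rw [← LinearIndependent.iff_fractionRing (Algebra.adjoin ℂ {x}) ℂ⟮x⟯]
    rw [Fintype.linearIndependent_iff]
    intro g hg i
    have hgc : ∀ i, ∃ c : Polynomial ℂ, aeval x c = (g i : serField ser) := fun i => by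
      have h := (g i).2
      have h' : (g i : serField ser) ∈ (Polynomial.aeval (R := ℂ) x).range :=
        Algebra.adjoin_singleton_eq_range_aeval ℂ x ▸ h
      exact h'
    choose c hc using hgc
    have hc0 : ∀ i, c i = 0 := by
      refine hB2 c ?_
      have h1 := congrArg (serField ser).val hg
      rw [map_sum, map_zero] at h1
      rw [← h1]
      refine Finset.sum_congr rfl fun i _ => ?_
      have h2 : g i • b i = aeval x (c i) * b i := by
        rw [hc i]
        rfl
      rw [h2, map_mul, ← Polynomial.aeval_algHom_apply, hcoe, hcoe, hxcoe]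
    apply Subtype.ext
    rw [← hc i, hc0 i, map_zero]
    rfl
  -- the family `b` is a basis
  have hcard : Fintype.card (Fin (Nat.card (X0 N))) = Module.finrank ℂ⟮x⟯ (serField ser) := by
    apply le_antisymm
    · exact hli.fintype_card_le_finrank
    · rw [Fintype.card_fin]
      exact hle
  have hspan := hli.span_eq_top_of_card_eq_finrank' hcard
  -- elements of `ℂ(x)` lie in `F_ℂ`
  have hxFC : (x : LaurentSeries ℂ) ∈ FC N := genC_mem_FC N (idxOne N)
  have hE : ∀ e : ℂ⟮x⟯, (((e : serField ser)) : LaurentSeries ℂ) ∈ FC N := by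
    intro e
    obtain ⟨r, t, hrt⟩ := (mem_adjoin_simple_iff ℂ (e : serField ser)).mp e.2
    rw [hrt, ← hcoe, map_div₀, ← Polynomial.aeval_algHom_apply, ← Polynomial.aeval_algHom_apply,
      hcoe]
    have hpoly : ∀ r : Polynomial ℂ, aeval (x : LaurentSeries ℂ) r ∈ FC N := fun r =>
      (Algebra.adjoin_le (S := (FC N).toSubalgebra) (Set.singleton_subset_iff.mpr hxFC))
        (Polynomial.aeval_mem_adjoin_singleton ℂ _)
    exact div_mem (hpoly r) (hpoly t)
  have hall : ∀ y ∈ Submodule.span ℂ⟮x⟯ (Set.range b), ((y : serField ser) : LaurentSeries ℂ) ∈ FC N := by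
    intro y hy
    induction hy using Submodule.span_induction with
    | mem y hy =>
      obtain ⟨i, rfl⟩ := hy
      exact hB1 i
    | zero => exact zero_mem _
    | add y z _ _ hy hz => exact add_mem hy hz
    | smul e y _ hy => exact mul_mem (hE e) hy
  have hSmem : (serGen ser none) ∈ Submodule.span ℂ⟮x⟯ (Set.range b) := by
    rw [hspan]
    trivial
  exact hall _ hSmem

end TheoremA

end Fermat.Agent.P3.helper48
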