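import Mathlib
import Fermat.Agent.P3.helper48_AN1Core

/-! # P3 / [AN1], part 2 (helper48): ratios of modular forms and roots lie in `F_ℂ`

* `exists_isQExp`: a `1`-periodic holomorphic function of exponential growth has a `q`-expansion.
* `IsWeakForm N k f`: `f` is a weakly holomorphic modular form of weight `k` on `Γ₀(N)`.
* `ratio_mem_FC`: the ratio of the `q`-expansions of two weakly holomorphic modular forms of the
  same weight on `Γ₀(N)` lies in `F_ℂ`.
* `modularForm_ratio_mem_FC`: the same for Mathlib's `ModularForm`.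
* `root_mem_FC`: a holomorphic `Γ₀(N)`-invariant function one of whose powers has exponential
  growth at all cusps has its `q`-expansion in `F_ℂ`.
-/

set_option autoImplicit false

noncomputable section

open ModularCurve UpperHalfPlane ModularForm Filter Asymptotics
open scoped MatrixGroups Manifold Topology

namespace Fermat.Agent.P3.helper48

open Fermat.Agent.S24 Fermat.Agent.S24.helper17 Fermat.Agent.S24.helper77

local notation "Δ" => ModularForm.discriminant
local notation "𝕢" => Function.Periodic.qParam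

/-! ### Existence of `q`-expansions -/

theorem norm_qParam_pow (M : ℕ) (τ : ℍ) :
    ‖𝕢 1 τ ^ M‖ = Real.exp (-(2 * Real.pi * M * τ.im)) := by
  rw [norm_pow, Function.Periodic.norm_qParam, ← Real.exp_nat_mul]
  congr 1
  simp only [div_one, UpperHalfPlane.coe_im]
  ring

theorem isBounded_qParam_pow_mul {s : ℍ → ℂ} {M : ℕ}
    (h : s =O[atImInfty] fun τ => Real.exp (2 * Real.pi * M * τ.im)) :
    IsBoundedAtImInfty (fun τ => 𝕢 1 τ ^ M * s τ) := by
  have h1 : (fun τ : ℍ => 𝕢 1 τ ^ M) =O[atImInfty]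
      fun τ : ℍ => Real.exp (-(2 * Real.pi * M * τ.im)) := by
    refine IsBigO.of_bound 1 (Eventually.of_forall fun τ => ?_)
    rw [norm_qParam_pow, one_mul, Real.norm_of_nonneg (Real.exp_pos _).le]
  have h2 := h1.mul h
  refine h2.congr_right fun τ => ?_
  rw [← Real.exp_add]
  simp

theorem ofComplex_add_one {z : ℂ} (hz : 0 < z.im) :
    ofComplex (z + 1) = (1 : ℝ) +ᵥ ofComplex z := by
  have hz' : 0 < (z + 1).im := by simpa using hz
  apply UpperHalfPlane.ext
  rw [ofComplex_apply_of_im_pos hz', UpperHalfPlane.coe_vadd, ofComplex_apply_of_im_pos hz]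
  simp [add_comm]

theorem periodic_comp_ofComplex {s : ℍ → ℂ} (hper : ∀ τ : ℍ, s ((1 : ℝ) +ᵥ τ) = s τ) :
    Function.Periodic (s ∘ ofComplex) 1 := by
  intro z
  simp only [Function.comp_apply]
  by_cases hz : 0 < z.im
  · rw [ofComplex_add_one hz, hper]
  · have hz1 : z.im ≤ 0 := not_lt.mp hz
    have hz' : (z + 1).im ≤ 0 := by simpa using hz1
    rw [ofComplex_apply_eq_of_im_nonpos hz' hz1]

/-- A `1`-periodic holomorphic function on `ℍ` with at most exponential growth at `i∞` has a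
`q`-expansion. -/
theorem exists_isQExp {s : ℍ → ℂ} (hs : s ∈ holoExp) (hper : ∀ τ : ℍ, s ((1 : ℝ) +ᵥ τ) = s τ) :
    ∃ S : LaurentSeries ℂ, IsQExp S s := by
  obtain ⟨hmd, M, hM⟩ := hs
  have hnice : IsNice (fun τ => 𝕢 1 τ ^ M * s τ) :=
    { periodic := by
        have h1 := (isNice_qParam_pow M).periodic
        have h2 := periodic_comp_ofComplex hper
        intro z
        have e1 := h1 z
        have e2 := h2 z
        simp only [Function.comp_apply] at e1 e2 ⊢
        rw [e1, e2]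
      mdiff := (isNice_qParam_pow M).mdiff.mul hmd
      bdd := isBounded_qParam_pow_mul hM }
  refine ⟨HahnSeries.single (-(M : ℤ)) 1 *
    HahnSeries.ofPowerSeries ℤ ℂ (qExpansion 1 (fun τ => 𝕢 1 τ ^ M * s τ)), M, hnice, ?_⟩
  rw [← mul_assoc, HahnSeries.single_mul_single]
  simp

/-! ### Powers of the discriminant -/

theorem discriminant_mem_holoExp : (Δ : ℍ → ℂ) ∈ holoExp := by
  refine ⟨CuspForm.discriminant.holo', 0, ?_⟩
  have h : (Δ : ℍ → ℂ) =O[atImInfty] (1 : ℍ → ℝ) :=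
    ModularFormClass.bdd_at_infty CuspForm.discriminant
  refine h.congr_right fun τ => ?_
  simp

theorem inv_discriminant_mem_holoExp : (fun τ : ℍ => (Δ τ)⁻¹) ∈ holoExp := by
  refine ⟨?_, 1, ?_⟩
  · have hΔ : MDiff (Δ : ℍ → ℂ) := CuspForm.discriminant.holo'
    have := (mdifferentiable_const (c := (1 : ℂ))).div hΔ discriminant_ne_zero
    have e : (fun τ : ℍ => (Δ τ)⁻¹) = (fun _ : ℍ => (1 : ℂ)) / (Δ : ℍ → ℂ) := by
      funext τ
      simp
    rw [e]
    exact this
  · have hΔ : (fun τ => (Δ τ)⁻¹) =O[atImInfty]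
        fun τ : ℍ => (Real.exp (-2 * Real.pi * τ.im))⁻¹ :=
      exp_isBigO_discriminant.inv_rev
        (Eventually.of_forall fun τ h => absurd h (Real.exp_pos _).ne')
    refine hΔ.congr_right fun τ => ?_
    rw [← Real.exp_neg]
    congr 1
    push_cast
    ring

/-- The function `Δ ^ (-k)`, of weight `-12 k`. -/
def discPow (k : ℤ) (τ : ℍ) : ℂ := Δ τ ^ (-k)

theorem discPow_ne_zero (k : ℤ) (τ : ℍ) : discPow k τ ≠ 0 :=
  zpow_ne_zero _ (discriminant_ne_zero τ)

theorem discPow_mem_holoExp (k : ℤ) : discPow k ∈ holoExp := by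
  obtain ⟨n, hn | hn⟩ := Int.eq_nat_or_neg (-k)
  · have e : discPow k = (Δ : ℍ → ℂ) ^ n := by
      funext τ
      rw [discPow, hn, zpow_natCast]
      rfl
    rw [e]
    exact pow_mem discriminant_mem_holoExp n
  · have e : discPow k = (fun τ : ℍ => (Δ τ)⁻¹) ^ n := by
      funext τ
      rw [discPow, hn, zpow_neg, zpow_natCast, Pi.pow_apply, inv_pow]
    rw [e]
    exact pow_mem inv_discriminant_mem_holoExp n

theorem discPow_smul (k : ℤ) (γ : SL(2, ℤ)) (τ : ℍ) :
    discPow k (γ • τ) = (denom γ τ ^ (-k)) ^ 12 * discPow k τ := by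
  have h := discriminant_smul γ τ
  have e : (γ • τ : ℍ) = (γ : GL (Fin 2) ℝ) • τ := rfl
  rw [discPow, discPow, h, mul_zpow, ← zpow_mul, ← zpow_natCast, ← zpow_mul]
  congr 2
  ring

theorem denom_T (τ : ℍ) : denom (ModularGroup.T : SL(2, ℤ)) τ = 1 := by
  rw [ModularGroup.denom_apply]
  simp [ModularGroup.T]

theorem discPow_vadd (k : ℤ) (τ : ℍ) : discPow k ((1 : ℝ) +ᵥ τ) = discPow k τ := by
  have h := discPow_smul k ModularGroup.T τ
  rw [modular_T_smul] at h
  rw [h, denom_T]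
  simp

theorem exists_isQExp_discPow (k : ℤ) : ∃ D : LaurentSeries ℂ, IsQExp D (discPow k) :=
  exists_isQExp (discPow_mem_holoExp k) (discPow_vadd k)

/-! ### Weakly holomorphic modular forms -/

/-- `f` is a weakly holomorphic modular form of weight `k` on `Γ₀(N)`: it is slash-invariant
under `Γ₀(N)` and all its `SL(2,ℤ)`-slashes are holomorphic on `ℍ` with at most exponential
growth at `i∞`. -/
structure IsWeakForm (N : ℕ) (k : ℤ) (f : ℍ → ℂ) : Prop where
  slash_eq : ∀ γ ∈ CongruenceSubgroup.Gamma0 N, f ∣[k] γ = f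
  slash_mem : ∀ δ : SL(2, ℤ), f ∣[k] δ ∈ holoExp

/-- The weight zero function `f g¹¹ Δ^(-k)` attached to two functions of weight `k`. -/
def wtZero (k : ℤ) (f g : ℍ → ℂ) : ℍ → ℂ := fun τ => f τ * g τ ^ 11 * discPow k τ

theorem precomp_wtZero (k : ℤ) (f g : ℍ → ℂ) (δ : SL(2, ℤ)) :
    precomp δ (wtZero k f g) = wtZero k (f ∣[k] δ⁻¹) (g ∣[k] δ⁻¹) := by
  funext τ
  rw [precomp_apply, wtZero, wtZero, SL_slash_apply, SL_slash_apply, discPow_smul]
  ring

theorem T_mem_Gamma0 (N : ℕ) : ModularGroup.T ∈ CongruenceSubgroup.Gamma0 N := by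
  rw [CongruenceSubgroup.Gamma0_mem]
  simp [ModularGroup.T]

namespace IsWeakForm

variable {N : ℕ} {k : ℤ} {f g : ℍ → ℂ}

theorem mem (hf : IsWeakForm N k f) : f ∈ holoExp := by
  have := hf.slash_mem 1
  rwa [SlashAction.slash_one] at this

theorem vadd (hf : IsWeakForm N k f) (τ : ℍ) : f ((1 : ℝ) +ᵥ τ) = f τ := by
  have h := congrFun (hf.slash_eq _ (T_mem_Gamma0 N)) τ
  rw [SL_slash_apply, modular_T_smul, denom_T] at h
  simpa using h

theorem exists_isQExp (hf : IsWeakForm N k f) : ∃ F : LaurentSeries ℂ, IsQExp F f :=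
  helper48.exists_isQExp hf.mem hf.vadd

theorem precomp_wtZero_eq (hf : IsWeakForm N k f) (hg : IsWeakForm N k g) {γ : SL(2, ℤ)}
    (hγ : γ ∈ CongruenceSubgroup.Gamma0 N) : precomp γ (wtZero k f g) = wtZero k f g := by
  rw [precomp_wtZero, hf.slash_eq _ (inv_mem hγ), hg.slash_eq _ (inv_mem hγ)]

theorem precomp_wtZero_mem (hf : IsWeakForm N k f) (hg : IsWeakForm N k g) (δ : SL(2, ℤ)) :
    precomp δ (wtZero k f g) ∈ holoExp := by
  rw [precomp_wtZero]
  have e : wtZero k (f ∣[k] δ⁻¹) (g ∣[k] δ⁻¹) = (f ∣[k] δ⁻¹) * (g ∣[k] δ⁻¹) ^ 11 * discPow k := by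
    funext τ
    rfl
  rw [e]
  exact mul_mem (mul_mem (hf.slash_mem _) (pow_mem (hg.slash_mem _) 11)) (discPow_mem_holoExp k)

end IsWeakForm

theorem isQExp_wtZero {k : ℤ} {f g : ℍ → ℂ} {F G D : LaurentSeries ℂ} (hF : IsQExp F f)
    (hG : IsQExp G g) (hD : IsQExp D (discPow k)) : IsQExp (F * G ^ 11 * D) (wtZero k f g) :=
  ((hF.mul (hG.pow 11)).mul hD).congr_right fun _ => rfl

/-- **Theorem B.** The ratio of the `q`-expansions of two weakly holomorphic modular forms of
the same weight on `Γ₀(N)` lies in `F_ℂ`. -/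
theorem ratio_mem_FC (N : ℕ) [NeZero N] {k : ℤ} {f g : ℍ → ℂ} (hf : IsWeakForm N k f)
    (hg : IsWeakForm N k g) {Fq Gq : LaurentSeries ℂ} (hFq : IsQExp Fq f) (hGq : IsQExp Gq g) :
    Fq / Gq ∈ FC N := by
  by_cases hG0 : Gq = 0
  · rw [hG0, div_zero]
    exact zero_mem _
  obtain ⟨D, hD⟩ := exists_isQExp_discPow k
  have hD0 : D ≠ 0 := by
    intro h
    have := (hD.eq_zero_iff).mp h
    exact discPow_ne_zero k UpperHalfPlane.I (congrFun this _)
  have hA : Fq * Gq ^ 11 * D ∈ FC N :=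
    mem_FC_of_isQExp N (isQExp_wtZero hFq hGq hD)
      (fun γ hγ => IsWeakForm.precomp_wtZero_eq hf hg hγ)
      (fun δ => IsWeakForm.precomp_wtZero_mem hf hg δ)
  have hB : Gq * Gq ^ 11 * D ∈ FC N :=
    mem_FC_of_isQExp N (isQExp_wtZero hGq hGq hD)
      (fun γ hγ => IsWeakForm.precomp_wtZero_eq hg hg hγ)
      (fun δ => IsWeakForm.precomp_wtZero_mem hg hg δ)
  have e : Fq / Gq = (Fq * Gq ^ 11 * D) / (Gq * Gq ^ 11 * D) := by
    field_simp
  rw [e]
  exact div_mem hA hB

/-! ### Honest modular forms -/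

theorem isBounded_mem_holoExp {s : ℍ → ℂ} (hs : MDiff s) (hb : IsBoundedAtImInfty s) :
    s ∈ holoExp := by
  refine ⟨hs, 0, ?_⟩
  have h : s =O[atImInfty] (1 : ℍ → ℝ) := hb
  refine h.congr_right fun τ => ?_
  simp

/-- A holomorphic function which is slash-invariant of weight `k` under `Γ₀(N)` and bounded at
all cusps is a weakly holomorphic modular form. -/
theorem IsWeakForm.of_bdd {N : ℕ} {k : ℤ} {f : ℍ → ℂ}
    (hslash : ∀ γ ∈ CongruenceSubgroup.Gamma0 N, f ∣[k] γ = f) (hf : MDiff f)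
    (hbdd : ∀ δ : SL(2, ℤ), IsBoundedAtImInfty (f ∣[k] δ)) : IsWeakForm N k f where
  slash_eq := hslash
  slash_mem δ := isBounded_mem_holoExp (hf.slash k _) (hbdd δ)

theorem isWeakForm_of_modularForm {N : ℕ} [NeZero N] {k : ℤ}
    (f : ModularForm (CongruenceSubgroup.Gamma0 N) k) : IsWeakForm N k f :=
  IsWeakForm.of_bdd
    (fun γ hγ => by
      rw [SL_slash]
      exact SlashInvariantForm.slash_action_eqn f _ (Subgroup.mem_map_of_mem _ hγ))
    f.holo' (fun δ => ModularFormClass.bdd_at_infty_slash f δ)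

/-- A holomorphic function, slash-invariant under `Γ₀(N)` and bounded at `i∞`, is nice. -/
theorem isNice_of_slash {N : ℕ} {k : ℤ} {f : ℍ → ℂ}
    (hslash : ∀ γ ∈ CongruenceSubgroup.Gamma0 N, f ∣[k] γ = f) (hf : MDiff f)
    (hbdd : IsBoundedAtImInfty f) : IsNice f where
  periodic := periodic_comp_ofComplex fun τ => by
    have h := congrFun (hslash _ (T_mem_Gamma0 N)) τ
    rw [SL_slash_apply, modular_T_smul, denom_T] at h
    simpa using h
  mdiff := hf
  bdd := hbdd

theorem isQExp_of_modularForm {N : ℕ} [NeZero N] {k : ℤ}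
    (f : ModularForm (CongruenceSubgroup.Gamma0 N) k) :
    IsQExp (HahnSeries.ofPowerSeries ℤ ℂ (qExpansion 1 f)) f :=
  IsQExp.of_isNice (isNice_of_slash (isWeakForm_of_modularForm f).slash_eq f.holo'
    (by simpa using ModularFormClass.bdd_at_infty_slash f 1))

/-- **Theorem B for modular forms.** The ratio of the `q`-expansions of two modular forms of the
same weight on `Γ₀(N)` lies in `F_ℂ`. -/
theorem modularForm_ratio_mem_FC (N : ℕ) [NeZero N] {k : ℤ}
    (f g : ModularForm (CongruenceSubgroup.Gamma0 N) k) :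
    HahnSeries.ofPowerSeries ℤ ℂ (qExpansion 1 f) / HahnSeries.ofPowerSeries ℤ ℂ (qExpansion 1 g)
      ∈ FC N :=
  ratio_mem_FC N (isWeakForm_of_modularForm f) (isWeakForm_of_modularForm g)
    (isQExp_of_modularForm f) (isQExp_of_modularForm g)

/-! ### Theorem A with existence, and roots -/

theorem vadd_of_precomp {N : ℕ} {s : ℍ → ℂ}
    (hinv : ∀ γ ∈ CongruenceSubgroup.Gamma0 N, precomp γ s = s) (τ : ℍ) :
    s ((1 : ℝ) +ᵥ τ) = s τ := by
  have h := congrFun (hinv _ (inv_mem (T_mem_Gamma0 N))) τ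
  rw [precomp_apply, inv_inv, modular_T_smul] at h
  exact h

/-- **Theorem A**, with existence of the `q`-expansion. -/
theorem exists_mem_FC_isQExp (N : ℕ) [NeZero N] {s : ℍ → ℂ}
    (hinv : ∀ γ ∈ CongruenceSubgroup.Gamma0 N, precomp γ s = s)
    (hmem : ∀ g : SL(2, ℤ), precomp g s ∈ holoExp) : ∃ S ∈ FC N, IsQExp S s := by
  have h1 : s ∈ holoExp := by
    have := hmem 1
    rwa [precomp_one] at this
  obtain ⟨S, hS⟩ := exists_isQExp h1 (vadd_of_precomp hinv)
  exact ⟨S, mem_FC_of_isQExp N hS hinv hmem, hS⟩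

/-- If a power of a holomorphic function has at most exponential growth at `i∞`, so has the
function. -/
theorem mem_holoExp_of_pow_mem {s : ℍ → ℂ} {m : ℕ} (hm : 0 < m) (hs : MDiff s)
    (h : s ^ m ∈ holoExp) : s ∈ holoExp := by
  obtain ⟨-, M, hM⟩ := h
  refine ⟨hs, M, ?_⟩
  obtain ⟨C, hC⟩ := hM.bound
  refine IsBigO.of_bound (max C 0 + 1) (hC.mono fun τ hτ => ?_)
  have he : (1 : ℝ) ≤ Real.exp (2 * Real.pi * M * τ.im) := by
    apply Real.one_le_exp
    have := τ.im_pos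
    positivity
  rw [Real.norm_of_nonneg (Real.exp_pos _).le] at hτ ⊢
  rw [Pi.pow_apply, norm_pow] at hτ
  have hx : 0 ≤ ‖s τ‖ := norm_nonneg _
  by_cases h1 : ‖s τ‖ ≤ 1
  · calc ‖s τ‖ ≤ 1 := h1
      _ ≤ (max C 0 + 1) * Real.exp (2 * Real.pi * M * τ.im) := by
        have : (0 : ℝ) ≤ max C 0 := le_max_right _ _
        nlinarith
  · have h2 : 1 ≤ ‖s τ‖ := (not_le.mp h1).le
    have h3 : ‖s τ‖ ≤ ‖s τ‖ ^ m := le_self_pow₀ h2 hm.ne'
    calc ‖s τ‖ ≤ ‖s τ‖ ^ m := h3
      _ ≤ C * Real.exp (2 * Real.pi * M * τ.im) := hτ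
      _ ≤ (max C 0 + 1) * Real.exp (2 * Real.pi * M * τ.im) := by
        have : C ≤ max C 0 := le_max_left _ _
        nlinarith [Real.exp_pos (2 * Real.pi * M * τ.im)]

theorem mdiff_precomp {s : ℍ → ℂ} (hs : MDiff s) (g : SL(2, ℤ)) : MDiff (precomp g s) := by
  have : precomp g s = s ∘ (fun τ : ℍ => g⁻¹ • τ) := by
    funext τ
    rfl
  rw [this]
  exact hs.comp (mdifferentiable_SL_smul g⁻¹)

/-- **Theorem C (roots).** A holomorphic `Γ₀(N)`-invariant function `G` on `ℍ` such that some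
power `G ^ m` (`m ≥ 1`) has at most exponential growth at all cusps has a `q`-expansion, which
lies in `F_ℂ`. -/
theorem root_mem_FC (N : ℕ) [NeZero N] {m : ℕ} (hm : 0 < m) {G : ℍ → ℂ} (hG : MDiff G)
    (hinv : ∀ γ ∈ CongruenceSubgroup.Gamma0 N, precomp γ G = G)
    (hpow : ∀ g : SL(2, ℤ), precomp g (G ^ m) ∈ holoExp) : ∃ S ∈ FC N, IsQExp S G :=
  exists_mem_FC_isQExp N hinv fun g =>
    mem_holoExp_of_pow_mem hm (mdiff_precomp hG g) (by rw [← map_pow]; exact hpow g)

end Fermat.Agent.P3.helper48
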