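import Mathlib
import Fermat.Agent.P3.helper48_AN1Ratio
import Fermat.Agent.P3.helper20_Mon
import Fermat.Agent.P3.helper80_ChartC

/-! # P3 / [AN1], part 3 (helper48): roots of elements of `F_ℂ` (the field `root_mem` of
`helper20.AnDict`)

`root_glue`: if `g` is meromorphic on the upper half plane `H`, `Γ₀(N)`-invariant, and `g ^ m` is
(on punctured neighbourhoods) a quotient `P(j_d) / Q(j_d)` of polynomials in the functions
`j_d = j(d τ)`, `d ∣ N`, then `g` itself is such a quotient.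
-/

set_option autoImplicit false

noncomputable section

open ModularCurve UpperHalfPlane Filter Topology
open scoped MatrixGroups Manifold

namespace Fermat.Agent.P3.helper48

open Fermat.Agent.S24 Fermat.Agent.S24.helper17 Fermat.Agent.S24.helper77
open Fermat.Agent.P3.helper34 Fermat.Agent.P3.helper20 Fermat.Agent.P3.helper80

variable {N : ℕ}

/-- The function `P(j_d)` on `ℂ` (junk outside the upper half plane). -/
def evC (N : ℕ) (P : MvPolynomial N.divisors ℂ) (w : ℂ) : ℂ := evPC0 N P (ofComplex w)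

theorem evC_coe (P : MvPolynomial N.divisors ℂ) (τ : ℍ) : evC N P (τ : ℂ) = evPC0 N P τ := by
  rw [evC, ofComplex_apply]

theorem analyticOnNhd_evC (P : MvPolynomial N.divisors ℂ) : AnalyticOnNhd ℂ (evC N P) {z : ℂ | 0 < z.im} :=
  (UpperHalfPlane.mdifferentiable_iff.mp (mdiff_evPC0 N P)).analyticOnNhd
    UpperHalfPlane.isOpen_upperHalfPlaneSet

theorem evC_mul (P Q : MvPolynomial N.divisors ℂ) (w : ℂ) :
    evC N (P * Q) w = evC N P w * evC N Q w := evPC0_mul N P Q _

theorem evC_pow (P : MvPolynomial N.divisors ℂ) (n : ℕ) (w : ℂ) :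
    evC N (P ^ n) w = evC N P w ^ n := by
  induction n with
  | zero => simp [evC, evPC0]
  | succ n ih => rw [pow_succ, pow_succ, evC_mul, ih]

theorem evPC0_eq_thetaP (P : MvPolynomial N.divisors ℂ) :
    evPC0 N P = thetaP (fun i : N.divisors => i.1) P := by
  funext τ
  rw [thetaP_apply]
  rfl

theorem isPreconnected_uhp : IsPreconnected {z : ℂ | 0 < z.im} :=
  (convex_halfSpace_im_gt 0).isPreconnected

/-- A polynomial in the `j_d` which is nonzero as a `q`-series is nonzero on a punctured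
neighbourhood of every point of `H`. -/
theorem eventually_evC_ne_zero {Q : MvPolynomial N.divisors ℂ}
    (hQ : MvPolynomial.aeval (genJC N) Q ≠ 0) {z : ℂ} (hz : z ∈ {z : ℂ | 0 < z.im}) :
    ∀ᶠ w in 𝓝[≠] z, evC N Q w ≠ 0 := by
  by_contra hcon
  rw [Filter.not_eventually] at hcon
  have hfreq : ∃ᶠ w in 𝓝[≠] z, evC N Q w = 0 := hcon.mono fun w hw => not_not.mp hw
  have h0 := (analyticOnNhd_evC Q).eqOn_zero_of_preconnected_of_frequently_eq_zero
    isPreconnected_uhp hz hfreq
  apply hQ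
  rw [helper80.bridgeC]
  intro τ
  have := h0 τ.2
  rwa [evC_coe] at this

theorem evC_moebC {γ : SL(2, ℤ)} (hγ : γ ∈ CongruenceSubgroup.Gamma0 N) [NeZero N]
    (P : MvPolynomial N.divisors ℂ) {w : ℂ} (hw : w ∈ {z : ℂ | 0 < z.im}) :
    evC N P (moebC γ w) = evC N P w := by
  have h1 := congrFun (precomp_thetaP_of_mem_Gamma0 (N := N) (fun i : N.divisors => i.1)
    (fun i => Nat.dvd_of_mem_divisors i.2) (inv_mem hγ) P) ⟨w, hw⟩
  rw [precomp_apply, inv_inv, ← evPC0_eq_thetaP] at h1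
  rw [moebC_eq_coe γ hw, evC_coe]
  rw [h1]
  exact (evC_coe P ⟨w, hw⟩).symm

theorem isQExp_evPC0 (P : MvPolynomial N.divisors ℂ) :
    IsQExp (MvPolynomial.aeval (genJC N) P) (evPC0 N P) :=
  IsQExp.aeval (fun i : N.divisors => isQExp_jfunDT i.1) P

/-- **Analytic representative of a root.** If `g` is meromorphic on `H` and `g ^ m` agrees on
punctured neighbourhoods with a function `A` analytic on `H`, then `g` agrees on punctured
neighbourhoods with an analytic function `G`, and `G ^ m = A` on `H`. -/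
theorem exists_analytic_of_pow_eq {m : ℕ} (hm : 0 < m) {g A : ℂ → ℂ}
    (hg : MeromorphicOn g {z : ℂ | 0 < z.im}) (hA : AnalyticOnNhd ℂ A {z : ℂ | 0 < z.im})
    (hpow : EqH (fun w => g w ^ m) A) :
    ∃ G : ℂ → ℂ, AnalyticOnNhd ℂ G {z : ℂ | 0 < z.im} ∧ EqH g G ∧
      ∀ z ∈ {z : ℂ | 0 < z.im}, G z ^ m = A z := by
  set G := toMeromorphicNFOn g {z : ℂ | 0 < z.im} with hGdef
  have hGg : EqH G g := fun z hz => hg.toMeromorphicNFOn_eq_self_on_nhdsNE hz
  have hNF : MeromorphicNFOn G {z : ℂ | 0 < z.im} := meromorphicNFOn_toMeromorphicNFOn _ _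
  have hGpow : EqH (fun w => G w ^ m) A := (hGg.pow m).trans hpow
  have hGan : AnalyticOnNhd ℂ G {z : ℂ | 0 < z.im} := by
    intro z hz
    rw [← (hNF hz).meromorphicOrderAt_nonneg_iff_analyticAt]
    have h1 : meromorphicOrderAt A z = (m : WithTop ℤ) * meromorphicOrderAt G z :=
      meromorphicOrderAt_eq_mul_of_pow_eq (hNF hz).meromorphicAt (hGpow z hz)
    have h2 : 0 ≤ meromorphicOrderAt A z := (hA z hz).meromorphicOrderAt_nonneg
    rw [h1] at h2
    by_contra hneg
    rw [not_le] at hneg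
    -- the order of `G` is a negative integer
    obtain ⟨k, hk⟩ := WithTop.ne_top_iff_exists.1 (ne_top_of_lt hneg)
    rw [← hk] at hneg h2
    have hk0 : k < 0 := by exact_mod_cast hneg
    have : ((m : WithTop ℤ) * ((k : ℤ) : WithTop ℤ)) = (((m : ℤ) * k : ℤ) : WithTop ℤ) := by
      push_cast
      rfl
    rw [this] at h2
    have h3 : (0 : ℤ) ≤ (m : ℤ) * k := by exact_mod_cast h2
    have hm' : (0 : ℤ) < m := by exact_mod_cast hm
    nlinarith
  refine ⟨G, hGan, hGg.symm, fun z hz => ?_⟩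
  exact eq_of_meromorphicNFAt_of_eventuallyEq ((hGan z hz).pow m).meromorphicNFAt
    (hA z hz).meromorphicNFAt (hGpow z hz)

/-- **Roots of elements of `F_ℂ`.** If `g` is meromorphic on `H`, `Γ₀(N)`-invariant, and
`g ^ m` (`m ≥ 1`) is on punctured neighbourhoods the quotient `P(j_d) / Q(j_d)` of two
polynomials in the `j_d`, `d ∣ N`, then `g` is itself such a quotient. -/
theorem root_glue (N : ℕ) [NeZero N] {m : ℕ} (hm : 0 < m) (g : ℂ → ℂ)
    (hg : MeromorphicOn g {z : ℂ | 0 < z.im}) (P Q : MvPolynomial N.divisors ℂ)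
    (hQ : MvPolynomial.aeval (genJC N) Q ≠ 0)
    (hpow : EqH (fun w => g w ^ m) (fun w => evC N P w / evC N Q w))
    (hinv : ∀ γ : CongruenceSubgroup.Gamma0 N,
      EqH (fun w => g (moebC (γ : SL(2, ℤ)) w)) g) :
    ∃ P' Q' : MvPolynomial N.divisors ℂ, MvPolynomial.aeval (genJC N) Q' ≠ 0 ∧
      EqH g (fun w => evC N P' w / evC N Q' w) := by
  -- the function `g Q(j_d)` and its `m`-th power `P Q^(m-1)`
  set g₁ : ℂ → ℂ := fun w => g w * evC N Q w with hg₁
  have hQan := analyticOnNhd_evC (N := N) Q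
  have hg₁mero : MeromorphicOn g₁ {z : ℂ | 0 < z.im} :=
    hg.fun_mul fun z hz => (hQan z hz).meromorphicAt
  set R : MvPolynomial N.divisors ℂ := P * Q ^ (m - 1) with hR
  have hg₁pow : EqH (fun w => g₁ w ^ m) (evC N R) := by
    intro z hz
    filter_upwards [hpow z hz, eventually_evC_ne_zero hQ hz] with w hw hw0
    simp only [hg₁, hR]
    rw [mul_pow, hw, evC_mul, evC_pow]
    obtain ⟨n, rfl⟩ : ∃ n, m = n + 1 := ⟨m - 1, by omega⟩
    rw [Nat.add_sub_cancel, pow_succ]
    field_simp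
  obtain ⟨G, hGan, hg₁G, hGpow⟩ :=
    exists_analytic_of_pow_eq hm hg₁mero (analyticOnNhd_evC (N := N) R) hg₁pow
  -- invariance of `G`
  have hGinv : ∀ γ ∈ CongruenceSubgroup.Gamma0 N, ∀ z ∈ {z : ℂ | 0 < z.im},
      G (moebC γ z) = G z := by
    intro γ hγ z hz
    have h1 : EqH (fun w => g₁ (moebC γ w)) g₁ := by
      intro z hz
      have hH : {w : ℂ | 0 < w.im} ∈ 𝓝[≠] z :=
        mem_nhdsWithin_of_mem_nhds (UpperHalfPlane.isOpen_upperHalfPlaneSet.mem_nhds hz)
      filter_upwards [hinv ⟨γ, hγ⟩ z hz, hH] with w hw hwH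
      simp only [hg₁]
      rw [hw, evC_moebC hγ Q hwH]
    have h2 : EqH (fun w => G (moebC γ w)) G :=
      ((hg₁G.comp_moebC γ).symm.trans h1).trans hg₁G
    have ha : AnalyticAt ℂ (fun w => G (moebC γ w)) z :=
      (hGan _ (moebC_im_pos γ hz)).comp (analyticAt_moebC γ hz)
    exact eq_of_meromorphicNFAt_of_eventuallyEq ha.meromorphicNFAt
      (hGan z hz).meromorphicNFAt (h2 z hz)
  -- the function on `ℍ`
  set s : ℍ → ℂ := fun τ => G (τ : ℂ) with hs
  have hsmd : MDiff s := mdiff_of_complex G hGan.differentiableOn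
  have hsinv : ∀ γ ∈ CongruenceSubgroup.Gamma0 N, precomp γ s = s := by
    intro γ hγ
    funext τ
    rw [precomp_apply]
    simp only [hs]
    rw [← moebC_coe]
    exact hGinv γ⁻¹ (inv_mem hγ) τ τ.2
  have hspow : s ^ m = evPC0 N R := by
    funext τ
    rw [Pi.pow_apply]
    simp only [hs]
    rw [hGpow τ τ.2, evC_coe]
  have hsmem : ∀ δ : SL(2, ℤ), precomp δ (s ^ m) ∈ holoExp := by
    intro δ
    rw [hspow, evPC0_eq_thetaP]
    exact precomp_thetaP_mem_holoExp (fun i : N.divisors => i.1)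
      (fun i h => NeZero.ne N (by
        have := Nat.dvd_of_mem_divisors i.2
        simpa [h] using this)) δ R
  obtain ⟨S, hSmem, hSq⟩ := root_mem_FC N hm hsmd hsinv hsmem
  obtain ⟨P', Q', hQ', hS⟩ := exists_poly_repr (⟨S, hSmem⟩ : helper80.FC N)
  have hS' : S = MvPolynomial.aeval (genJC N) P' / MvPolynomial.aeval (genJC N) Q' := hS
  -- `s Q'(j_d) = P'(j_d)` as functions on `ℍ`
  have hfun : s * evPC0 N Q' = evPC0 N P' := by
    have h1 : IsQExp (S * MvPolynomial.aeval (genJC N) Q') (s * evPC0 N Q') :=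
      hSq.mul (isQExp_evPC0 Q')
    have h2 : S * MvPolynomial.aeval (genJC N) Q' = MvPolynomial.aeval (genJC N) P' := by
      rw [hS', div_mul_cancel₀ _ hQ']
    rw [h2] at h1
    exact h1.right_unique (isQExp_evPC0 P')
  refine ⟨P', Q' * Q, ?_, ?_⟩
  · rw [map_mul]
    exact mul_ne_zero hQ' hQ
  · intro z hz
    have hH : {w : ℂ | 0 < w.im} ∈ 𝓝[≠] z :=
      mem_nhdsWithin_of_mem_nhds (UpperHalfPlane.isOpen_upperHalfPlaneSet.mem_nhds hz)
    filter_upwards [hg₁G z hz, eventually_evC_ne_zero hQ hz, eventually_evC_ne_zero hQ' hz, hH]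
      with w hw hwQ hwQ' hwH
    have h3 : G w * evC N Q' w = evC N P' w := by
      have := congrFun hfun ⟨w, hwH⟩
      rw [Pi.mul_apply] at this
      simp only [hs] at this
      rw [← evC_coe, ← evC_coe] at this
      exact this
    have h4 : g w * evC N Q w = G w := hw
    rw [evC_mul]
    field_simp
    rw [← h3, ← h4]
    ring

end Fermat.Agent.P3.helper48
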