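import Mathlib
import Fermat.Agent.S24.helper43_LocalCount

/-!
# P3 [AN2] (helper80): the abstract local dictionary

Same setting as `helper43.local_count_of` (landed S24): a function field `F/K`, a nonconstant
`t ∈ F`, and `[F : K(t)]` pairwise distinct embeddings `σ i : F → L` into a valued field `(L, V)`
agreeing on `K(t)`, with `V (σ i t) = exp (-E)`, permuted by a "rotation" `π` of order dividing
`E`.  The landed theorem counts the zeros of `t`; here we export the dictionary itself:

every zero `w` of `t` is induced by some `σ i`, and `V ∘ σ i = exp (- d · ord_w)` where `d` is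
the order of the stabiliser of `i` in `⟨π⟩` (`d ∣ E`, `π ^ (E / d)` fixes `i`).
-/

set_option autoImplicit false

namespace Fermat.Agent.P3.helper80

open AlgebraicCurve IntermediateField WithZero Polynomial
open Fermat.Agent.S24.helper43

variable {K F : Type*} [Field K] [Field F] [Algebra K F] [CharZero K]

/-- **Abstract local dictionary.** -/
theorem local_dict_of {L : Type*} [Field L]
    (t : F) [FiniteDimensional K⟮t⟯ F]
    (hfin : {w : Place K F | 0 < w.ord t}.Finite)
    (hsum : ∑ w ∈ hfin.toFinset, w.ord t = (Module.finrank K⟮t⟯ F : ℤ))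
    (hsep : ∀ (w : Place K F) (s : Finset (Place K F)), w ∉ s →
      ∃ f : F, 0 < w.ord f ∧ ∀ v ∈ s, v.ord f = 0)
    (V : Valuation L ℤᵐ⁰)
    {I : Type*} [Fintype I] (σ : I → F →+* L) (hσ : Function.Injective σ)
    (hcard : Fintype.card I = Module.finrank K⟮t⟯ F)
    (hK : ∀ i (c : K), c ≠ 0 → V (σ i (algebraMap K F c)) = 1)
    (hKagree : ∀ i j (c : K), σ i (algebraMap K F c) = σ j (algebraMap K F c))
    (htagree : ∀ i j, σ i t = σ j t)
    (E : ℕ) (hE : 0 < E) (htE : ∀ i, V (σ i t) = exp (-(E : ℤ)))
    (π : Equiv.Perm I) (hπE : π ^ E = 1)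
    (hπ : ∀ i f, V (σ (π i) f) = V (σ i f))
    (hdiv : ∀ (i : I) (k : ℕ), k ∣ E → (π ^ (E / k)) i = i →
      ∀ f : F, f ≠ 0 → ∃ m : ℤ, V (σ i f) = exp (m * k))
    (w : Place K F) (hw : 0 < w.ord t) :
    ∃ (i : I) (d : ℕ), 0 < d ∧ d ∣ E ∧ (π ^ (E / d)) i = i ∧ (d : ℤ) * w.ord t = E ∧
      ∀ f : F, f ≠ 0 → V (σ i f) = exp (-((d : ℤ) * w.ord f)) := by
  classical
  have hn : 0 < Module.finrank K⟮t⟯ F := Module.finrank_pos
  have hI : Nonempty I := by
    rw [← Fintype.card_pos_iff, hcard]
    exact hn
  have hVt_lt : ∀ i, V (σ i t) < 1 := fun i => by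
    rw [htE, ← exp_zero, exp_lt_exp]
    omega
  have ht0 : t ≠ 0 := by
    rintro rfl
    obtain ⟨i⟩ := hI
    have := htE i
    rw [map_zero, map_zero] at this
    exact exp_ne_zero this.symm
  let v : I → Valuation F ℤᵐ⁰ := fun i => V.comap (σ i)
  have hvK : ∀ i (c : K), c ≠ 0 → v i (algebraMap K F c) = 1 := hK
  have hnt : ∀ i, ∃ x : F, v i x ≠ 0 ∧ v i x ≠ 1 := fun i =>
    ⟨t, (Valuation.ne_zero_iff _).mpr ht0, (hVt_lt i).ne⟩
  let W : I → Place K F := fun i => placeOf (v i) (hvK i) (hnt i)
  have hex := fun i => exists_val_eq_exp_ord (v i) (hvK i) (hnt i)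
  choose d hd hdπ hdord using hex
  have hEd : ∀ i, (E : ℤ) = d i * (W i).ord t := by
    intro i
    have h1 := hdord i t ht0
    have h2 : v i t = exp (-(E : ℤ)) := htE i
    rw [h2, exp_inj] at h1
    linarith
  have hWpos : ∀ i, 0 < (W i).ord t := by
    intro i
    have h1 : 0 < d i * (W i).ord t := by
      rw [← hEd i]
      exact_mod_cast hE
    exact (mul_pos_iff_of_pos_left (hd i)).mp h1
  -- every place over `t = 0` is one of the `W i`
  have hsurj : ∀ w : Place K F, 0 < w.ord t → ∃ i, W i = w := by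
    intro w hw
    by_contra hne
    push Not at hne
    have hws : w ∉ Finset.univ.image W := by
      simp only [Finset.mem_image, Finset.mem_univ, true_and, not_exists]
      exact hne
    obtain ⟨f, hf, hfs⟩ := hsep w _ hws
    have hf0 : f ≠ 0 := by
      rintro rfl
      simp at hf
    refine false_of_val_eq_one t V σ hσ hcard hK hKagree htagree hVt_lt ht0 w hw f hf ?_
    intro i
    have h1 := hdord i f hf0
    have h2 : (W i).ord f = 0 := hfs _ (Finset.mem_image_of_mem W (Finset.mem_univ i))
    rw [h2, mul_zero, neg_zero, exp_zero] at h1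
    exact h1
  -- invariance under `π`
  have hWπ : ∀ i, W (π i) = W i := by
    intro i
    apply Place.ext
    ext f
    change V (σ (π i) f) ≤ 1 ↔ V (σ i f) ≤ 1
    rw [hπ]
  have hWg : ∀ g ∈ Subgroup.zpowers π, ∀ i, W (g i) = W i := by
    let H : Subgroup (Equiv.Perm I) :=
      { carrier := {g | ∀ i, W (g i) = W i}
        mul_mem' := fun {a b} ha hb i => by
          rw [Equiv.Perm.mul_apply, ha, hb]
        one_mem' := fun i => rfl
        inv_mem' := fun {a} ha i => by
          have := ha (a⁻¹ i)
          have h' : a (a⁻¹ i) = i := by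
            change (a * a⁻¹) i = i
            rw [mul_inv_cancel]
            rfl
          rw [h'] at this
          exact this.symm }
    have hle : Subgroup.zpowers π ≤ H := Subgroup.zpowers_le.mpr hWπ
    exact fun g hg => hle hg
  -- the stabiliser data of `i`
  have hstab : ∀ i, ∃ k : ℕ, 0 < k ∧ k ∣ E ∧ (π ^ (E / k)) i = i ∧ (k : ℤ) ∣ d i ∧
      k * Fintype.card (MulAction.orbit (Subgroup.zpowers π) i) = E := by
    intro i
    have hper : Function.IsPeriodicPt (fun x => π • x) E i := by
      rw [Function.IsPeriodicPt, Function.IsFixedPt, smul_iterate, hπE]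
      exact one_smul _ i
    have hmE : Function.minimalPeriod (fun x => π • x) i ∣ E := hper.minimalPeriod_dvd
    have hmpos : 0 < Function.minimalPeriod (fun x => π • x) i :=
      Function.minimalPeriod_pos_of_mem_periodicPts
        (Function.mk_mem_periodicPts hE hper)
    have hmfix : (π ^ Function.minimalPeriod (fun x => π • x) i) i = i := by
      have := Function.isPeriodicPt_minimalPeriod (fun x => π • x) i
      rw [Function.IsPeriodicPt, Function.IsFixedPt, smul_iterate] at this
      exact this
    rw [← MulAction.minimalPeriod_eq_card π i]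
    set m := Function.minimalPeriod (fun x => π • x) i with hm
    set k := E / m with hk
    have hkE : k ∣ E := Nat.div_dvd_of_dvd hmE
    have hEk : E / k = m := Nat.div_div_self hmE hE.ne'
    have hkm : k * m = E := Nat.div_mul_cancel hmE
    have hkpos : 0 < k := Nat.div_pos (Nat.le_of_dvd hE hmE) hmpos
    obtain ⟨ϖ, hϖ0, hϖ⟩ := hdπ i
    obtain ⟨z, hz⟩ := hdiv i k hkE (by rw [hEk]; exact hmfix) ϖ hϖ0
    have hz' : -(d i) = z * k := by
      have : v i ϖ = V (σ i ϖ) := rfl
      rw [this, hz, exp_inj] at hϖ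
      exact hϖ.symm
    have hdvd : (k : ℤ) ∣ d i := ⟨-z, by linarith⟩
    exact ⟨k, hkpos, hkE, by rw [hEk]; exact hmfix, hdvd, hkm⟩
  -- the orbit bound
  have hbound : ∀ i, (W i).ord t ≤
      (Fintype.card (MulAction.orbit (Subgroup.zpowers π) i) : ℤ) := by
    intro i
    obtain ⟨k, hkpos, -, -, hdvd, hkm⟩ := hstab i
    have hkd : (k : ℤ) ≤ d i := Int.le_of_dvd (hd i) hdvd
    have h2 := hWpos i
    have h3 : (k : ℤ) * (W i).ord t ≤
        (k : ℤ) * (Fintype.card (MulAction.orbit (Subgroup.zpowers π) i) : ℤ) := by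
      calc (k : ℤ) * (W i).ord t ≤ d i * (W i).ord t := by gcongr
        _ = E := (hEd i).symm
        _ = (k : ℤ) * _ := by exact_mod_cast hkm.symm
    exact le_of_mul_le_mul_left h3 (by exact_mod_cast hkpos)
  -- the counting
  let _ : Fintype {w : Place K F // 0 < w.ord t} := hfin.fintype
  let Q := MulAction.orbitRel.Quotient (Subgroup.zpowers π) I
  let Wbar : Q → {w : Place K F // 0 < w.ord t} :=
    Quotient.lift (fun i => (⟨W i, hWpos i⟩ : {w : Place K F // 0 < w.ord t}))
      (fun a b hab => by
        apply Subtype.ext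
        change W a = W b
        obtain ⟨g, rfl⟩ := hab
        exact hWg g.1 g.2 b)
  have hWbar_surj : Function.Surjective Wbar := by
    rintro ⟨w, hw⟩
    obtain ⟨i, rfl⟩ := hsurj w hw
    exact ⟨Quotient.mk'' i, rfl⟩
  let g : Q → ℕ := fun o => Fintype.card o.orbit
  let h : {w : Place K F // 0 < w.ord t} → ℕ := fun w => (w.1.ord t).toNat
  have hgpos : ∀ o, 0 < g o := by
    intro o
    induction o using Quotient.inductionOn' with
    | h i =>
      apply Fintype.card_pos_iff.mpr
      exact ⟨⟨i, MulAction.orbitRel.Quotient.mem_orbit.mpr rfl⟩⟩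
  have hcardorb : ∀ i, Fintype.card (MulAction.orbitRel.Quotient.orbit
      (Quotient.mk'' i : Q)) = Fintype.card (MulAction.orbit (Subgroup.zpowers π) i) := by
    intro i
    apply Fintype.card_congr
    rw [MulAction.orbitRel.Quotient.orbit_mk]
  have hle : ∀ o, h (Wbar o) ≤ g o := by
    intro o
    induction o using Quotient.inductionOn' with
    | h i =>
      have h1 := hbound i
      change ((W i).ord t).toNat ≤ Fintype.card (MulAction.orbitRel.Quotient.orbit
          (Quotient.mk'' i : Q))
      rw [hcardorb]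
      omega
  have hsumg : ∑ o, g o = Fintype.card I := by
    rw [Fintype.card_congr (MulAction.selfEquivSigmaOrbits' (Subgroup.zpowers π) I),
      Fintype.card_sigma]
  have hsumh : ∑ w, h w = Fintype.card I := by
    have h1 : ∑ w ∈ hfin.toFinset, w.ord t =
        ∑ w : {w : Place K F // 0 < w.ord t}, w.1.ord t := by
      apply Finset.sum_subtype
      intro x
      simp
    have h2 : ((∑ w, h w : ℕ) : ℤ) = ∑ w : {w : Place K F // 0 < w.ord t}, w.1.ord t := by
      push_cast
      apply Finset.sum_congr rfl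
      intro w _
      exact Int.toNat_of_nonneg w.2.le
    have h3 : ((∑ w, h w : ℕ) : ℤ) = (Fintype.card I : ℤ) := by
      rw [h2, ← h1, hsum, hcard]
    exact_mod_cast h3
  have hbij := bijective_of_sum_eq Wbar hWbar_surj g h hgpos hle (hsumg.trans hsumh.symm)
  -- equality in the orbit bound
  have heq : ∀ o, h (Wbar o) = g o := by
    have hsum' : ∑ o, h (Wbar o) = ∑ o, g o := by
      rw [hsumg, ← hsumh]
      exact Function.Bijective.sum_comp hbij h
    intro o
    have := (Finset.sum_eq_sum_iff_of_le (fun o _ => hle o)).mp hsum'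
    exact this o (Finset.mem_univ o)
  -- conclusion
  obtain ⟨i, rfl⟩ := hsurj w hw
  obtain ⟨k, hkpos, hkE, hfix, hdvd, hkm⟩ := hstab i
  have h1 : ((W i).ord t).toNat = Fintype.card (MulAction.orbit (Subgroup.zpowers π) i) := by
    have := heq (Quotient.mk'' i)
    change ((W i).ord t).toNat = Fintype.card (MulAction.orbitRel.Quotient.orbit
          (Quotient.mk'' i : Q)) at this
    rw [hcardorb] at this
    exact this
  have h2 : (W i).ord t = (Fintype.card (MulAction.orbit (Subgroup.zpowers π) i) : ℤ) := by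
    rw [← h1]
    exact (Int.toNat_of_nonneg (hWpos i).le).symm
  have h3 : (k : ℤ) * (W i).ord t = E := by
    rw [h2]
    exact_mod_cast hkm
  have h4 : d i = k := by
    have h5 := hEd i
    rw [← h3] at h5
    exact (mul_right_cancel₀ (hWpos i).ne' h5).symm
  refine ⟨i, k, hkpos, hkE, hfix, h3, fun f hf => ?_⟩
  rw [← h4]
  exact hdord i f hf

end Fermat.Agent.P3.helper80
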