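import Mathlib
import Fermat.Agent.P3.helper80_DegreeC
import Fermat.Agent.P3.helper80_LocalDict
import Fermat.Agent.S24.helper24_Interior
import Fermat.Agent.S24.helper24_Cusp

/-!
# P3 [AN2] (helper80): the places ↔ points dictionary for `F_ℂ`

* `dict_of_chart` : the dictionary for the zeros of `t` from a chart.
* `dict_interior` : every place `w` of `F_ℂ` with `ord_w(j) ≥ 0` is induced by an interior
  point `τ₀` and a coset `g`: `V_{τ₀} (sigmaC g f) = exp (- d · ord_w f)`, where `d ∈ {1, 2, 3}`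
  is the order of a rotation `h` fixing `τ₀` with `g⁻¹ h g ∈ Γ₀(N)`.
* `dict_cusp` : every pole `w` of `j` is induced by the cusp chart and a coset `g`:
  `V_0 (sigmaC g f) = exp (- d · ord_w f)` with `d ∣ N` and `g⁻¹ T^(N/d) g ∈ Γ₀(N)`.
-/

set_option autoImplicit false

noncomputable section

open UpperHalfPlane ModularForm Filter Topology CongruenceSubgroup ModularCurve
  IntermediateField AlgebraicCurve WithZero
open scoped MatrixGroups Manifold

namespace Fermat.Agent.P3.helper80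

open Fermat.Agent.S24 Fermat.Agent.S24.helper24 Fermat.Agent.S24.helper99

variable {N : ℕ} [NeZero N]

/-- **Dictionary from a chart.** -/
theorem dict_of_chart (C : Chart N)
    (t : FC N) (ht : Transcendental ℂ t) [FiniteDimensional ℂ⟮t⟯ (FC N)]
    (hcard : Nat.card (X0 N) = Module.finrank ℂ⟮t⟯ (FC N))
    (htagree : ∀ g g', sigmaC C g t = sigmaC C g' t)
    (E : ℕ) (hE : 0 < E) (htE : ∀ g, MeroGerm.V C.z₀ (sigmaC C g t) = exp (-(E : ℤ)))
    (g₀ : SL(2, ℤ)) (hg₀ : ∀ c : X0 N, g₀ ^ E • c = c)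
    (hrot : ∀ k : ℕ, k ∣ E → 1 < k →
      ∃ φ, C.IsRot (g₀ ^ (E / k)) φ ∧ IsPrimitiveRoot (deriv φ C.z₀) k)
    (w : Place ℂ (FC N)) (hw : 0 < w.ord t) :
    ∃ (g : SL(2, ℤ)) (d : ℕ), 0 < d ∧ d ∣ E ∧ g⁻¹ * g₀ ^ (E / d) * g ∈ Gamma0 N ∧
      (d : ℤ) * w.ord t = E ∧
      ∀ f : FC N, f ≠ 0 → MeroGerm.V C.z₀ (sigmaC C g f) = exp (-((d : ℤ) * w.ord f)) := by
  classical
  have : Finite (X0 N) := helper37.finite_quotient_Gamma0 N
  let _ : Fintype (X0 N) := Fintype.ofFinite _
  have hpow : ∀ (n : ℕ) (c : X0 N),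
      ((MulAction.toPerm g₀ : Equiv.Perm (X0 N)) ^ n) c = g₀ ^ n • c := by
    intro n c
    have := helper80.toPerm_zpow_apply (X := X0 N) g₀ (n : ℤ) c
    simpa using this
  obtain ⟨i, d, hd, hdE, hfix, hdw, hdict⟩ := local_dict_of t
    (helper75.ff_finite_zeros t ht) (helper75.ff_sum_ord_zeros t ht)
    (fun w s hw => helper82.ff_exists_separating t ht w s hw)
    (MeroGerm.V C.z₀) (sigmaCQ C) (sigmaCQ_injective C)
    (by rw [← Nat.card_eq_fintype_card]; exact hcard)
    (fun i c hc => by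
      unfold sigmaCQ
      rw [sigmaC_algebraMap C]
      exact MeroGerm.V_const hc)
    (fun i j c => by
      unfold sigmaCQ
      rw [sigmaC_algebraMap C, sigmaC_algebraMap C])
    (fun i j => htagree _ _)
    E hE (fun i => htE _)
    (MulAction.toPerm g₀)
    (by
      ext c
      rw [hpow, hg₀]
      rfl)
    (by
      intro i f
      by_cases hE1 : E = 1
      · have : (MulAction.toPerm g₀ : Equiv.Perm (X0 N)) i = i := by
          have := hg₀ i
          rw [hE1, pow_one] at this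
          exact this
        rw [this]
      · obtain ⟨φ, hR, -⟩ := hrot E dvd_rfl (by omega)
        rw [Nat.div_self hE, pow_one] at hR
        have : (MulAction.toPerm g₀ : Equiv.Perm (X0 N)) i = g₀ • i := rfl
        rw [this, sigmaCQ_smul C g₀ i φ hR, RingHom.comp_apply, V_precomp])
    (by
      intro i k hk hfix f hf
      have hne : sigmaCQ C i f ≠ 0 := sigmaC_ne_zero C _ hf
      by_cases hk1 : k = 1
      · obtain ⟨n, hn⟩ := MeroGerm.exists_int_V_eq hne
        exact ⟨n, by rw [hn, hk1]; simp⟩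
      · have hk0 : 0 < k := Nat.pos_of_dvd_of_pos hk hE
        obtain ⟨φ, hR, hprim⟩ := hrot k hk (by omega)
        rw [hpow] at hfix
        have h1 := sigmaCQ_smul C (g₀ ^ (E / k)) i φ hR
        rw [hfix] at h1
        have h2 : precomp φ hR.an hR.fix hR.deriv_ne (sigmaCQ C i f) = sigmaCQ C i f := by
          conv_rhs => rw [h1]
          rfl
        exact exists_V_eq_of_precomp_eq φ hR.an hR.fix hR.deriv_ne hk0 hprim _ hne h2)
    w hw
  induction i using QuotientGroup.induction_on with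
  | H g =>
  refine ⟨g, d, hd, hdE, ?_, hdw, fun f hf => ?_⟩
  · rw [hpow] at hfix
    have h1 : (QuotientGroup.mk (g₀ ^ (E / d) * g) : X0 N) = QuotientGroup.mk g := hfix
    have h2 := QuotientGroup.eq.mp h1
    have h3 : g⁻¹ * g₀ ^ (E / d) * g = ((g₀ ^ (E / d) * g)⁻¹ * g)⁻¹ := by group
    rw [h3]
    exact inv_mem h2
  · have := hdict f hf
    rwa [sigmaCQ_mk] at this

/-! ### Interior points -/

theorem sigmaC_interior_sub (τ₀ : ℍ) (g : SL(2, ℤ)) (a : ℂ) :
    sigmaC (interiorChart N τ₀) g (xJC N - algebraMap ℂ (FC N) a)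
      = MeroGerm.mk (fun z => jfun (ofComplex z) - a)
          ((analyticAt_jfun τ₀).sub analyticAt_const).meromorphicAt := by
  rw [map_sub, sigmaC_interior_xJC, sigmaC_algebraMap]
  unfold MeroGerm.const
  rw [← MeroGerm.mk_sub]
  rfl

/-- The dictionary over an interior point. -/
theorem dict_interior_of (a : ℂ) (τ₀ : ℍ) (E : ℕ) (hE : 0 < E)
    (hord : meromorphicOrderAt (fun z => jfun (ofComplex z) - a) (τ₀ : ℂ) = (E : ℤ))
    (g₀ : SL(2, ℤ)) (hg₀ : ∀ c : X0 N, g₀ ^ E • c = c)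
    (hrot : ∀ k : ℕ, k ∣ E → 1 < k → (g₀ ^ (E / k))⁻¹ • τ₀ = τ₀ ∧
      IsPrimitiveRoot (deriv (helper48.chartSL (g₀ ^ (E / k))⁻¹) (τ₀ : ℂ)) k)
    (w : Place ℂ (FC N)) (hw : 0 < w.ord (xJC N - algebraMap ℂ (FC N) a)) :
    ∃ (g : SL(2, ℤ)) (d : ℕ), 0 < d ∧ d ∣ E ∧ g⁻¹ * g₀ ^ (E / d) * g ∈ Gamma0 N ∧
      (d : ℤ) * w.ord (xJC N - algebraMap ℂ (FC N) a) = E ∧
      ∀ f : FC N, f ≠ 0 →
        MeroGerm.V (τ₀ : ℂ) (sigmaC (interiorChart N τ₀) g f) = exp (-((d : ℤ) * w.ord f)) := by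
  have hadj : ℂ⟮xJC N - algebraMap ℂ (FC N) a⟯ = ℂ⟮xJC N⟯ :=
    helper55.adjoin_sub_algebraMap_eq (xJC N) a
  have : FiniteDimensional ℂ⟮xJC N - algebraMap ℂ (FC N) a⟯ (FC N) := by
    rw [hadj]
    exact finiteDimensional_FC N
  have hcard : Nat.card (X0 N)
      = Module.finrank ℂ⟮xJC N - algebraMap ℂ (FC N) a⟯ (FC N) := by
    rw [hadj]
    exact (finrank_FC N).symm
  exact dict_of_chart (interiorChart N τ₀)
    (xJC N - algebraMap ℂ (FC N) a)
    (helper55.transcendental_sub_algebraMap (xJC_transcendental N) a)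
    hcard
    (fun g g' => by rw [sigmaC_interior_sub, sigmaC_interior_sub])
    E hE
    (fun g => by
      rw [sigmaC_interior_sub]
      exact MeroGerm.V_mk_of_order_eq _ hord)
    g₀ hg₀
    (fun k hk hk1 => ⟨_, isRot_interior N τ₀ _ (hrot k hk hk1).1, (hrot k hk hk1).2⟩)
    w hw

/-- **The dictionary at interior points.**  For every place `w` of `F_ℂ` which is not a pole of
`j` there are a point `τ₀`, a rotation `h ∈ SL(2,ℤ)` of order `d` around `τ₀` (`h⁻¹ τ₀ = τ₀`, and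
the derivative of `z ↦ h⁻¹ z` at `τ₀` is a primitive `d`-th root of unity, if `d > 1`; `h = 1` if
`d = 1`), and a coset `g` with `g⁻¹ h g ∈ Γ₀(N)`, such that
`V_{τ₀} (f ∘ g⁻¹) = exp (- d · ord_w f)` for all `f ≠ 0`. -/
theorem dict_interior (w : Place ℂ (FC N)) (hw : 0 ≤ w.ord (xJC N)) :
    ∃ (τ₀ : ℍ) (g h : SL(2, ℤ)) (d : ℕ), 0 < d ∧ g⁻¹ * h * g ∈ Gamma0 N ∧
      (d = 1 → h = 1) ∧
      (1 < d → h⁻¹ • τ₀ = τ₀ ∧ IsPrimitiveRoot (deriv (helper48.chartSL h⁻¹) (τ₀ : ℂ)) d) ∧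
      ∀ f : FC N, f ≠ 0 →
        MeroGerm.V (τ₀ : ℂ) (sigmaC (interiorChart N τ₀) g f) = exp (-((d : ℤ) * w.ord f)) := by
  obtain ⟨a, ha⟩ := helper82.ff_exists_residue (xJC N) (xJC_transcendental N) w (xJC N) hw
  have hw' : 0 < w.ord (xJC N - algebraMap ℂ (FC N) a) := by
    rcases ha with ha | ha
    · exact absurd ⟨a, ha.symm⟩ (helper55.not_mem_range_of_transcendental (xJC_transcendental N))
    · exact ha
  by_cases h0 : a = 0
  · -- the point `ρ`
    subst h0
    have hord := helper48.meromorphicOrderAt_jan_sub_zero_rho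
    obtain ⟨g, d, hd, hdE, hmem, -, hdict⟩ := dict_interior_of (N := N) 0 helper48.rho 3
      (by norm_num) (by exact_mod_cast hord)
      (ModularGroup.S * ModularGroup.T) (fun c => helper27.ST_cube_smul N c)
      (fun k hk hk1 => by
        have hk3 : k = 3 := by
          have h3 : Nat.Prime 3 := by norm_num
          rcases (Nat.dvd_prime h3).mp hk with h | h
          · omega
          · exact h
        subst hk3
        rw [Nat.div_self (by norm_num), pow_one]
        exact ⟨helper48.STinv_smul_rho, helper48.isPrimitiveRoot_deriv_chartSL_STinv_rho⟩)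
      w hw'
    have h3 : Nat.Prime 3 := by norm_num
    rcases (Nat.dvd_prime h3).mp hdE with h | h
    · subst h
      refine ⟨helper48.rho, g, 1, 1, one_pos, by simp, fun _ => rfl, fun h => absurd h (by norm_num),
        hdict⟩
    · subst h
      rw [Nat.div_self (by norm_num), pow_one] at hmem
      exact ⟨helper48.rho, g, _, 3, by norm_num, hmem, fun h => absurd h (by norm_num),
        fun _ => ⟨helper48.STinv_smul_rho, helper48.isPrimitiveRoot_deriv_chartSL_STinv_rho⟩,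
        hdict⟩
  by_cases h1 : a = 1728
  · -- the point `i`
    subst h1
    have hord := helper48.meromorphicOrderAt_jan_sub_1728_I
    obtain ⟨g, d, hd, hdE, hmem, -, hdict⟩ := dict_interior_of (N := N) 1728 UpperHalfPlane.I 2
      two_pos (by exact_mod_cast hord)
      ModularGroup.S (fun c => helper27.S_sq_smul N c)
      (fun k hk hk1 => by
        have hk2 : k = 2 := by
          have := Nat.le_of_dvd two_pos hk
          omega
        subst hk2
        rw [Nat.div_self two_pos, pow_one]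
        exact ⟨helper48.Sinv_smul_I, helper48.isPrimitiveRoot_deriv_chartSL_Sinv_I⟩)
      w hw'
    have h2 : Nat.Prime 2 := Nat.prime_two
    rcases (Nat.dvd_prime h2).mp hdE with h | h
    · subst h
      refine ⟨UpperHalfPlane.I, g, 1, 1, one_pos, by simp, fun _ => rfl,
        fun h => absurd h (by norm_num), hdict⟩
    · subst h
      rw [Nat.div_self two_pos, pow_one] at hmem
      exact ⟨UpperHalfPlane.I, g, _, 2, two_pos, hmem, fun h => absurd h (by norm_num),
        fun _ => ⟨helper48.Sinv_smul_I, helper48.isPrimitiveRoot_deriv_chartSL_Sinv_I⟩, hdict⟩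
  · -- a generic point
    obtain ⟨τ₀, hτ₀⟩ := helper48.jan_surjective a
    have h0' : helper48.jan τ₀ ≠ 0 := by rw [hτ₀]; exact h0
    have h1' : helper48.jan τ₀ ≠ 1728 := by rw [hτ₀]; exact h1
    have hord := helper48.meromorphicOrderAt_jan_sub τ₀ h0' h1'
    rw [hτ₀] at hord
    obtain ⟨g, d, hd, hdE, hmem, -, hdict⟩ := dict_interior_of (N := N) a τ₀ 1 one_pos
      (by exact_mod_cast hord) 1
      (fun c => by simp) (fun k hk hk1 => by
        have := Nat.le_of_dvd one_pos hk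
        omega)
      w hw'
    have hd1 : d = 1 := Nat.dvd_one.mp hdE
    subst hd1
    exact ⟨τ₀, g, 1, 1, one_pos, by simp, fun _ => rfl, fun h => absurd h (by norm_num), hdict⟩

/-! ### The cusps -/

theorem sigmaC_cusp_xJC (g : SL(2, ℤ)) :
    sigmaC (cuspChart N) g (xJC N)
      = MeroGerm.mk (fun q : ℂ => Jc (q ^ N)) (meromorphicAt_Jc_pow N) := by
  rw [xJC_eq, sigmaC_gen (cuspChart N) g (idxOneC N)]
  rw [(cuspChart N).mk_eq_mk_iff_forall _ _ (f := jfun) (g := jfun) helper24.mdiff_jfun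
    helper24.mdiff_jfun]
  · intro τ
    rfl
  · intro τ
    show Jc (cuspZ N g (idxOneC N) * (Function.Periodic.qParam N τ) ^ cuspM N g (idxOneC N))
      = jfun τ
    rw [cusp_spec]
    exact jfunDT_one_smul g⁻¹ τ
  · intro τ
    show Jc ((Function.Periodic.qParam N τ) ^ N) = jfun τ
    rw [qParam_pow_eq, Jc_qParam]

theorem V_sigmaC_cusp_inv (g : SL(2, ℤ)) :
    MeroGerm.V 0 (sigmaC (cuspChart N) g (xJC N)⁻¹) = exp (-(N : ℤ)) := by
  rw [map_inv₀, map_inv₀, sigmaC_cusp_xJC,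
    MeroGerm.V_mk_of_order_eq _ (meromorphicOrderAt_Jc_pow N), neg_neg, exp_neg]

/-- **The dictionary at the cusps.**  For every pole `w` of `j` there are a coset `g` and a
divisor `d` of `N` with `g⁻¹ T^(N/d) g ∈ Γ₀(N)` such that, in the cusp chart `q_N`,
`V_0 (f ∘ g⁻¹) = exp (- d · ord_w f)` for all `f ≠ 0`. -/
theorem dict_cusp (w : Place ℂ (FC N)) (hw : w.ord (xJC N) < 0) :
    ∃ (g : SL(2, ℤ)) (d : ℕ), 0 < d ∧ d ∣ N ∧ g⁻¹ * ModularGroup.T ^ (N / d) * g ∈ Gamma0 N ∧
      ∀ f : FC N, f ≠ 0 →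
        MeroGerm.V 0 (sigmaC (cuspChart N) g f) = exp (-((d : ℤ) * w.ord f)) := by
  have hadj : ℂ⟮(xJC N)⁻¹⟯ = ℂ⟮xJC N⟯ := helper55.adjoin_inv_eq (xJC N)
  have hfd' : FiniteDimensional ℂ⟮(xJC N)⁻¹⟯ (FC N) := by
    rw [hadj]
    exact finiteDimensional_FC N
  have hcard : Nat.card (X0 N) = Module.finrank ℂ⟮(xJC N)⁻¹⟯ (FC N) := by
    rw [hadj]
    exact (finrank_FC N).symm
  have hN : 0 < N := Nat.pos_of_ne_zero (NeZero.ne N)
  have hset : {w : Place ℂ (FC N) | w.ord (xJC N) < 0}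
      = {w : Place ℂ (FC N) | 0 < w.ord (xJC N)⁻¹} := helper75.poles_eq_zeros_inv (xJC N)
  have hw' : 0 < w.ord (xJC N)⁻¹ := by
    have : w ∈ {w : Place ℂ (FC N) | w.ord (xJC N) < 0} := hw
    rw [hset] at this
    exact this
  obtain ⟨g, d, hd, hdN, hmem, -, hdict⟩ := dict_of_chart (cuspChart N)
    (xJC N)⁻¹ (helper55.transcendental_inv (xJC_transcendental N))
    hcard
    (fun g g' => by rw [map_inv₀, map_inv₀, sigmaC_cusp_xJC, sigmaC_cusp_xJC])
    N hN (fun g => V_sigmaC_cusp_inv g)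
    ModularGroup.T (fun c => helper83.T_pow_N_smul N c)
    (fun k hk hk1 => ⟨_, isRot_cusp N (N / k), isPrimitiveRoot_rotC N k hk hk1⟩)
    w hw'
  exact ⟨g, d, hd, hdN, hmem, hdict⟩

end Fermat.Agent.P3.helper80
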