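import Mathlib
import Fermat.Agent.P3.helper80_DictC

/-!
# P3 [AN0] (helper80): functions on the upper half plane representing elements of `F_ℂ`

`Represents N h f` : the function `f : ℂ → ℂ` (only its restriction to the upper half plane
matters, and only up to a discrete set) is the analytic function attached to `h ∈ F_ℂ`, i.e.
at every `τ₀ ∈ ℍ` the germ of `f` is the image of `h` under the chart embedding
`sigmaC (interiorChart N τ₀) 1`.

* `represents_genFC`, `represents_xJC`, `represents_algebraMap`, `Represents.add`, `.mul`, `.neg`,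
  `.sub`, `.inv`, `.div`, `.pow`: the dictionary is a field homomorphism;
* `Represents.unique`, `Represents.eq_of_represents`: `h` is determined by `f`, and `f` by `h` up
  to a discrete set;
* `exists_represents`: every `h` is represented by a `Γ₀(N)`-invariant function, meromorphic on
  the upper half plane.
-/

set_option autoImplicit false

noncomputable section

open UpperHalfPlane ModularForm Filter Topology CongruenceSubgroup ModularCurve
  IntermediateField AlgebraicCurve WithZero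
open scoped MatrixGroups Manifold

namespace Fermat.Agent.P3.helper80

open Fermat.Agent.S24 Fermat.Agent.S24.helper24 Fermat.Agent.S24.helper99

variable {N : ℕ} [NeZero N]

/-- The germ of `h ∈ F_ℂ` at the interior point `τ₀`. -/
def germAt (N : ℕ) [NeZero N] (τ₀ : ℍ) : FC N →+* MeroGerm (τ₀ : ℂ) :=
  sigmaC (interiorChart N τ₀) 1

/-- `f` represents `h ∈ F_ℂ`: at every point of the upper half plane, the germ of `f` is the
germ of `h`. -/
def Represents (N : ℕ) [NeZero N] (h : FC N) (f : ℂ → ℂ) : Prop :=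
  ∀ τ₀ : ℍ, ∃ hf : MeromorphicAt f (τ₀ : ℂ), germAt N τ₀ h = MeroGerm.mk f hf

theorem Represents.meromorphicAt {h : FC N} {f : ℂ → ℂ} (H : Represents N h f) (τ₀ : ℍ) :
    MeromorphicAt f (τ₀ : ℂ) := (H τ₀).choose

theorem Represents.germAt_eq {h : FC N} {f : ℂ → ℂ} (H : Represents N h f) (τ₀ : ℍ) :
    germAt N τ₀ h = MeroGerm.mk f (H.meromorphicAt τ₀) := (H τ₀).choose_spec

theorem Represents.meromorphicOn {h : FC N} {f : ℂ → ℂ} (H : Represents N h f) :
    MeromorphicOn f {z : ℂ | 0 < z.im} := fun z hz => H.meromorphicAt ⟨z, hz⟩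

theorem represents_algebraMap (c : ℂ) : Represents N (algebraMap ℂ (FC N) c) (fun _ => c) :=
  fun τ₀ => ⟨MeromorphicAt.const c _, sigmaC_algebraMap (interiorChart N τ₀) 1 c⟩

theorem represents_zero : Represents N (0 : FC N) (fun _ => 0) := by
  have := represents_algebraMap (N := N) 0
  rwa [map_zero] at this

theorem represents_one : Represents N (1 : FC N) (fun _ => 1) := by
  have := represents_algebraMap (N := N) 1
  rwa [map_one] at this

theorem represents_genFC (d : N.divisors) :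
    Represents N (genFC N d) (fun z => jfunDT d.1 (ofComplex z)) := by
  intro τ₀
  refine ⟨(interiorChart N τ₀).H_mero 1 d |>.congr (Eventually.of_forall fun z => ?_), ?_⟩
  · show jfunDT d.1 ((1 : SL(2, ℤ))⁻¹ • ofComplex z) = jfunDT d.1 (ofComplex z)
    rw [inv_one, one_smul]
  · unfold germAt
    rw [sigmaC_gen]
    apply MeroGerm.mk_eq_mk_iff.mpr
    refine Eventually.of_forall fun z => ?_
    show jfunDT d.1 ((1 : SL(2, ℤ))⁻¹ • ofComplex z) = jfunDT d.1 (ofComplex z)
    rw [inv_one, one_smul]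

theorem represents_xJC : Represents N (xJC N) (fun z => jfun (ofComplex z)) := by
  have h := represents_genFC (N := N) (idxOneC N)
  intro τ₀
  obtain ⟨hf, h1⟩ := h τ₀
  have e : (fun z => jfunDT (idxOneC N).1 (ofComplex z)) = fun z => jfun (ofComplex z) := by
    funext z
    exact helper77.jfunDT_one _
  refine ⟨e ▸ hf, ?_⟩
  rw [xJC_eq, h1]
  apply MeroGerm.mk_eq_mk_iff.mpr
  exact Eventually.of_forall fun z => congrFun e z

theorem Represents.add {h h' : FC N} {f f' : ℂ → ℂ} (H : Represents N h f)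
    (H' : Represents N h' f') : Represents N (h + h') (f + f') :=
  fun τ₀ => ⟨(H.meromorphicAt τ₀).add (H'.meromorphicAt τ₀), by
    rw [map_add, H.germAt_eq, H'.germAt_eq, MeroGerm.mk_add]⟩

theorem Represents.mul {h h' : FC N} {f f' : ℂ → ℂ} (H : Represents N h f)
    (H' : Represents N h' f') : Represents N (h * h') (f * f') :=
  fun τ₀ => ⟨(H.meromorphicAt τ₀).mul (H'.meromorphicAt τ₀), by
    rw [map_mul, H.germAt_eq, H'.germAt_eq, MeroGerm.mk_mul]⟩

theorem Represents.neg {h : FC N} {f : ℂ → ℂ} (H : Represents N h f) :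
    Represents N (-h) (-f) :=
  fun τ₀ => ⟨(H.meromorphicAt τ₀).neg, by rw [map_neg, H.germAt_eq, MeroGerm.mk_neg]⟩

theorem Represents.sub {h h' : FC N} {f f' : ℂ → ℂ} (H : Represents N h f)
    (H' : Represents N h' f') : Represents N (h - h') (f - f') :=
  fun τ₀ => ⟨(H.meromorphicAt τ₀).sub (H'.meromorphicAt τ₀), by
    rw [map_sub, H.germAt_eq, H'.germAt_eq, MeroGerm.mk_sub]⟩

theorem Represents.inv {h : FC N} {f : ℂ → ℂ} (H : Represents N h f) :
    Represents N h⁻¹ f⁻¹ :=
  fun τ₀ => ⟨(H.meromorphicAt τ₀).inv, by rw [map_inv₀, H.germAt_eq, MeroGerm.mk_inv]⟩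

theorem Represents.div {h h' : FC N} {f f' : ℂ → ℂ} (H : Represents N h f)
    (H' : Represents N h' f') : Represents N (h / h') (f / f') :=
  fun τ₀ => ⟨(H.meromorphicAt τ₀).div (H'.meromorphicAt τ₀), by
    rw [map_div₀, H.germAt_eq, H'.germAt_eq, MeroGerm.mk_div]⟩

theorem Represents.pow {h : FC N} {f : ℂ → ℂ} (H : Represents N h f) (n : ℕ) :
    Represents N (h ^ n) (f ^ n) :=
  fun τ₀ => ⟨(H.meromorphicAt τ₀).pow n, by rw [map_pow, H.germAt_eq, MeroGerm.mk_pow]⟩

/-- Changing `f` on a discrete set does not matter. -/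
theorem Represents.congr {h : FC N} {f f' : ℂ → ℂ} (H : Represents N h f)
    (hff' : ∀ τ₀ : ℍ, f =ᶠ[𝓝[≠] (τ₀ : ℂ)] f') : Represents N h f' :=
  fun τ₀ => ⟨(H.meromorphicAt τ₀).congr (hff' τ₀), by
    rw [H.germAt_eq]
    exact MeroGerm.mk_eq_mk_iff.mpr (hff' τ₀)⟩

/-- `h` is determined by any function representing it (it suffices to compare at one point). -/
theorem Represents.unique {h h' : FC N} {f : ℂ → ℂ} (H : Represents N h f)
    (H' : Represents N h' f) : h = h' := by
  apply (germAt N UpperHalfPlane.I).injective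
  rw [H.germAt_eq, H'.germAt_eq]

/-- Two functions representing the same `h` agree near every point of the upper half plane. -/
theorem Represents.eventuallyEq {h : FC N} {f f' : ℂ → ℂ} (H : Represents N h f)
    (H' : Represents N h f') (τ₀ : ℍ) : f =ᶠ[𝓝[≠] (τ₀ : ℂ)] f' := by
  have := (H.germAt_eq τ₀).symm.trans (H'.germAt_eq τ₀)
  exact MeroGerm.mk_eq_mk_iff.mp this

/-- If `f` represents `h ≠ 0` then `f` has finite order at every point. -/
theorem Represents.meromorphicOrderAt_ne_top {h : FC N} {f : ℂ → ℂ} (H : Represents N h f)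
    (hh : h ≠ 0) (τ₀ : ℍ) : meromorphicOrderAt f (τ₀ : ℂ) ≠ ⊤ := by
  intro htop
  have h1 : MeroGerm.mk f (H.meromorphicAt τ₀) = 0 := MeroGerm.mk_eq_zero_iff_order.mpr htop
  rw [← H.germAt_eq] at h1
  exact hh ((map_eq_zero_iff _ (germAt N τ₀).injective).mp h1)

/-! ### The canonical representative -/

omit [NeZero N] in
theorem jfunDT_smul_of_mem_Gamma0 (d : N.divisors) {γ : SL(2, ℤ)} (hγ : γ ∈ Gamma0 N) (τ : ℍ) :
    jfunDT d.1 (γ • τ) = jfunDT d.1 τ := by
  obtain ⟨d, hd⟩ := d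
  have hd' := Nat.mem_divisors.mp hd
  have : NeZero d := ⟨fun h0 => hd'.2 (by rw [h0] at hd'; exact Nat.eq_zero_of_zero_dvd hd'.1)⟩
  show jfunDT d (γ • τ) = jfunDT d τ
  rw [jfunDT_of_ne_zero, jfunDT_of_ne_zero]
  exact helper77.jfunD_smul_of_mem_Gamma0 hd'.1 hγ τ

omit [NeZero N] in
theorem evPC0_smul_of_mem_Gamma0 (P : MvPolynomial N.divisors ℂ) {γ : SL(2, ℤ)}
    (hγ : γ ∈ Gamma0 N) (τ : ℍ) : evPC0 N P (γ • τ) = evPC0 N P τ := by
  have hfun : (fun d : N.divisors => jfunDT d.1 (γ • τ))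
      = (fun d : N.divisors => jfunDT d.1 τ) :=
    funext fun d => jfunDT_smul_of_mem_Gamma0 d hγ τ
  show MvPolynomial.eval (fun d : N.divisors => jfunDT d.1 (γ • τ)) P
    = MvPolynomial.eval (fun d : N.divisors => jfunDT d.1 τ) P
  rw [hfun]

theorem represents_aeval (P : MvPolynomial N.divisors ℂ) (x : FC N)
    (hx : (x : LaurentSeries ℂ) = MvPolynomial.aeval (genJC N) P) :
    Represents N x (fun z => evPC0 N P (ofComplex z)) := by
  intro τ₀
  obtain ⟨F, hF, h1, h2⟩ := ΘC_spec (interiorChart N τ₀) 1 P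
  have hev : F =ᶠ[𝓝[≠] (τ₀ : ℂ)] fun z => evPC0 N P (ofComplex z) := by
    have hH : {z : ℂ | 0 < z.im} ∈ 𝓝 (τ₀ : ℂ) := isOpen_upperHalfPlaneSet.mem_nhds τ₀.im_pos
    filter_upwards [mem_nhdsWithin_of_mem_nhds hH] with z hz
    have := h2 ⟨z, hz⟩
    have e1 : (interiorChart N τ₀).u ⟨z, hz⟩ = z := rfl
    rw [e1] at this
    rw [this]
    show evPC0 N P ((1 : SL(2, ℤ))⁻¹ • (⟨z, hz⟩ : ℍ)) = evPC0 N P (ofComplex z)
    rw [inv_one, one_smul, ofComplex_apply_of_im_pos hz]
  refine ⟨hF.congr hev, ?_⟩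
  unfold germAt
  rw [sigmaC_of_eq (interiorChart N τ₀) 1 x P hx, h1]
  exact MeroGerm.mk_eq_mk_iff.mpr hev

/-- **Every element of `F_ℂ` is represented by a `Γ₀(N)`-invariant function.** -/
theorem exists_represents (h : FC N) :
    ∃ f : ℍ → ℂ, Represents N h (fun z => f (ofComplex z)) ∧
      ∀ γ ∈ Gamma0 N, ∀ τ : ℍ, f (γ • τ) = f τ := by
  obtain ⟨P, Q, hQ, hPQ⟩ := exists_poly_repr h
  have hP' : MvPolynomial.aeval (genJC N) P ∈ FCfield N := by
    rw [FCfield_eq_adjoin]
    exact helper24.aeval_mem_adjoin _ P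
  have hQ' : MvPolynomial.aeval (genJC N) Q ∈ FCfield N := by
    rw [FCfield_eq_adjoin]
    exact helper24.aeval_mem_adjoin _ Q
  have e : h = (⟨_, hP'⟩ : FC N) / ⟨_, hQ'⟩ := by
    apply Subtype.ext
    rw [hPQ]
    rfl
  refine ⟨fun τ => evPC0 N P τ / evPC0 N Q τ, ?_, fun γ hγ τ => ?_⟩
  · rw [e]
    exact (represents_aeval P ⟨_, hP'⟩ rfl).div (represents_aeval Q ⟨_, hQ'⟩ rfl)
  · show evPC0 N P (γ • τ) / evPC0 N Q (γ • τ) = _
    rw [evPC0_smul_of_mem_Gamma0 P hγ, evPC0_smul_of_mem_Gamma0 Q hγ]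

end Fermat.Agent.P3.helper80
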