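import Mathlib
import Fermat.Agent.P3.helper80_Represents
import Fermat.Agent.P3.helper20_Mon
import Fermat.Agent.S24.helper75_FFCore2

/-!
# P3 [AN0]/[AN2] (helper80): the analytic dictionary of `F_ℂ` in the shape of `helper20.AnDict`

* `evH N h : ℍ → ℂ`, `evC N h : ℂ → ℂ`: a canonical `Γ₀(N)`-invariant meromorphic function
  attached to `h ∈ F_ℂ` (`represents_evC`, `evC_smul`);
* `exists_place_of_point`: every point `τ₀` of the upper half plane defines a place `w` of `F_ℂ`,
  with `V_{τ₀}(germ of f) = exp(-(d · ord_w f))`;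
* `Represents.dvd_order` (**T2**): if all `ord_w h` are divisible by `m` then so are the orders of
  the function of `h` at all points of the upper half plane;
* `exists_eq_algebraMap_of_ord_eq_zero`: an element of `F_ℂ` without zeros and poles is constant;
* `hasPrincipalDivisors_FC`: principal divisors of `F_ℂ` exist and have degree `0`;
* `anDict`: the `helper20.AnDict (FC N) (Gamma0 N)` (given the `root_mem` clause, which is [AN1]).
-/

set_option autoImplicit false

noncomputable section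

open UpperHalfPlane ModularForm Filter Topology CongruenceSubgroup ModularCurve
  IntermediateField AlgebraicCurve WithZero
open scoped MatrixGroups Manifold

namespace Fermat.Agent.P3.helper80

open Fermat.Agent.S24 Fermat.Agent.S24.helper24 Fermat.Agent.S24.helper99

variable {N : ℕ} [NeZero N]

/-! ### The canonical function of an element of `F_ℂ` -/

/-- A `Γ₀(N)`-invariant function on the upper half plane representing `h ∈ F_ℂ`. -/
def evH (N : ℕ) [NeZero N] (h : FC N) : ℍ → ℂ := (exists_represents h).choose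

/-- The function `evH N h`, extended to `ℂ` (by `ofComplex`). -/
def evC (N : ℕ) [NeZero N] (h : FC N) : ℂ → ℂ := fun z => evH N h (ofComplex z)

theorem represents_evC (h : FC N) : Represents N h (evC N h) :=
  (exists_represents h).choose_spec.1

theorem evH_smul (h : FC N) {γ : SL(2, ℤ)} (hγ : γ ∈ Gamma0 N) (τ : ℍ) :
    evH N h (γ • τ) = evH N h τ :=
  (exists_represents h).choose_spec.2 γ hγ τ

theorem evC_coe (h : FC N) (τ : ℍ) : evC N h (τ : ℂ) = evH N h τ := by
  unfold evC
  rw [ofComplex_apply]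

theorem evC_smul (h : FC N) {γ : SL(2, ℤ)} (hγ : γ ∈ Gamma0 N) (τ : ℍ) :
    evC N h ((γ • τ : ℍ) : ℂ) = evC N h (τ : ℂ) := by
  rw [evC_coe, evC_coe, evH_smul h hγ]

theorem meromorphicOn_evC (h : FC N) : MeromorphicOn (evC N h) {z : ℂ | 0 < z.im} :=
  (represents_evC h).meromorphicOn

/-- `f` represents `h` iff `f` agrees with `evC N h` near every point of the upper half plane. -/
theorem represents_iff_eventuallyEq_evC {h : FC N} {f : ℂ → ℂ} :
    Represents N h f ↔ ∀ τ₀ : ℍ, f =ᶠ[𝓝[≠] (τ₀ : ℂ)] evC N h :=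
  ⟨fun H τ₀ => H.eventuallyEq (represents_evC h) τ₀,
    fun H => (represents_evC h).congr fun τ₀ => (H τ₀).symm⟩

/-! ### The place attached to a point of the upper half plane -/

/-- The valuation of `F_ℂ` attached to the point `τ₀`. -/
def valAt (N : ℕ) [NeZero N] (τ₀ : ℍ) : Valuation (FC N) ℤᵐ⁰ :=
  (MeroGerm.V (τ₀ : ℂ)).comap (germAt N τ₀)

theorem valAt_apply (τ₀ : ℍ) (f : FC N) :
    valAt N τ₀ f = MeroGerm.V (τ₀ : ℂ) (germAt N τ₀ f) := rfl

theorem valAt_algebraMap (τ₀ : ℍ) (c : ℂ) (hc : c ≠ 0) :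
    valAt N τ₀ (algebraMap ℂ (FC N) c) = 1 := by
  rw [valAt_apply]
  unfold germAt
  rw [sigmaC_algebraMap]
  exact MeroGerm.V_const hc

theorem valAt_nontrivial (τ₀ : ℍ) : ∃ x : FC N, valAt N τ₀ x ≠ 0 ∧ valAt N τ₀ x ≠ 1 := by
  refine ⟨xJC N - algebraMap ℂ (FC N) (jfun τ₀), ?_, ?_⟩
  · rw [Valuation.ne_zero_iff]
    intro h0
    apply helper55.transcendental_sub_algebraMap (xJC_transcendental N) (jfun τ₀)
    rw [h0]
    exact isAlgebraic_zero
  · intro h1
    rw [valAt_apply] at h1
    unfold germAt at h1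
    rw [sigmaC_interior_sub] at h1
    have han : AnalyticAt ℂ (fun z => jfun (ofComplex z) - jfun τ₀) (τ₀ : ℂ) :=
      (analyticAt_jfun τ₀).sub analyticAt_const
    have hne : MeroGerm.mk (fun z => jfun (ofComplex z) - jfun τ₀) han.meromorphicAt ≠ 0 := by
      intro h0
      rw [h0, map_zero] at h1
      exact zero_ne_one h1
    have htop : meromorphicOrderAt (fun z => jfun (ofComplex z) - jfun τ₀) (τ₀ : ℂ) ≠ ⊤ :=
      fun h => hne (MeroGerm.mk_eq_zero_iff_order.mpr h)
    obtain ⟨n, hn⟩ := WithTop.ne_top_iff_exists.mp htop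
    rw [MeroGerm.V_mk_of_order_eq _ hn.symm] at h1
    have hn0 : n = 0 := by
      have : exp (-n) = exp (0 : ℤ) := by rw [h1]; rfl
      have := exp_injective this
      omega
    rw [hn0] at hn
    have h2 := han.meromorphicOrderAt_eq
    rw [← hn] at h2
    have h3 : analyticOrderAt (fun z => jfun (ofComplex z) - jfun τ₀) (τ₀ : ℂ) = 0 := by
      cases hcase : analyticOrderAt (fun z => jfun (ofComplex z) - jfun τ₀) (τ₀ : ℂ) with
      | top =>
        rw [hcase] at h2
        simp at h2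
      | coe k =>
        rw [hcase] at h2
        simp only [ENat.map_natCast] at h2
        have : (k : ℤ) = 0 := by exact_mod_cast h2.symm
        have : k = 0 := by exact_mod_cast this
        rw [this]
        rfl
    rw [han.analyticOrderAt_eq_zero] at h3
    apply h3
    show jfun (ofComplex (τ₀ : ℂ)) - jfun τ₀ = 0
    rw [ofComplex_apply, sub_self]

/-- The place of `F_ℂ` attached to the point `τ₀` of the upper half plane. -/
def placeAt (N : ℕ) [NeZero N] (τ₀ : ℍ) : Place ℂ (FC N) :=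
  helper43.placeOf (valAt N τ₀) (valAt_algebraMap τ₀) (valAt_nontrivial τ₀)

/-- **The place of a point.** -/
theorem exists_valAt_eq (τ₀ : ℍ) : ∃ d : ℤ, 0 < d ∧
    ∀ f : FC N, f ≠ 0 →
      MeroGerm.V (τ₀ : ℂ) (germAt N τ₀ f) = exp (-(d * (placeAt N τ₀).ord f)) := by
  obtain ⟨d, hd, -, h⟩ :=
    helper43.exists_val_eq_exp_ord (valAt N τ₀) (valAt_algebraMap τ₀) (valAt_nontrivial τ₀)
  exact ⟨d, hd, h⟩

/-- The order of a function representing `h` at `τ₀` is a positive multiple (by a factor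
depending only on `τ₀`) of the order of `h` at the place of `τ₀`. -/
theorem exists_order_eq (N : ℕ) [NeZero N] (τ₀ : ℍ) :
    ∃ d : ℤ, 0 < d ∧ ∀ (h' : FC N) (f' : ℂ → ℂ), Represents N h' f' → h' ≠ 0 →
      meromorphicOrderAt f' (τ₀ : ℂ) = ((d * (placeAt N τ₀).ord h' : ℤ) : WithTop ℤ) := by
  obtain ⟨d, hd, hV⟩ := exists_valAt_eq (N := N) τ₀
  refine ⟨d, hd, fun h' f' H' hh' => ?_⟩
  have htop := H'.meromorphicOrderAt_ne_top hh' τ₀
  obtain ⟨n, hn⟩ := WithTop.ne_top_iff_exists.mp htop
  have h1 := hV h' hh'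
  rw [H'.germAt_eq, MeroGerm.V_mk_of_order_eq _ hn.symm] at h1
  have h2 := exp_injective h1
  rw [← hn]
  congr 1
  omega

/-- **T2.** If all orders of `h ≠ 0` at the places of `F_ℂ` are divisible by `m`, then so are
the orders of any function representing `h` at the points of the upper half plane. -/
theorem Represents.dvd_order {h : FC N} {f : ℂ → ℂ} (H : Represents N h f) (hh : h ≠ 0)
    (m : ℕ) (hdvd : ∀ w : Place ℂ (FC N), (m : ℤ) ∣ w.ord h) :
    ∀ z ∈ {z : ℂ | 0 < z.im}, (m : ℤ) ∣ (meromorphicOrderAt f z).untop₀ := by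
  intro z hz
  obtain ⟨d, -, hd⟩ := exists_order_eq N ⟨z, hz⟩
  have h1 := hd h f H hh
  have e : ((⟨z, hz⟩ : ℍ) : ℂ) = z := rfl
  rw [e] at h1
  rw [h1, WithTop.untop₀_coe]
  exact Dvd.dvd.mul_left (hdvd _) d

/-! ### Constants and principal divisors -/

/-- Principal divisors of `F_ℂ` exist and have degree zero. -/
theorem hasPrincipalDivisors_FC (N : ℕ) [NeZero N] : HasPrincipalDivisors ℂ (FC N) :=
  helper75.ff_hasPrincipalDivisors (xJC N) (xJC_transcendental N)

/-- An element of `F_ℂ` without zeros is constant. -/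
theorem exists_eq_algebraMap_of_ord_le_zero (h : FC N)
    (h0 : ∀ w : Place ℂ (FC N), w.ord h ≤ 0) : ∃ a : ℂ, h = algebraMap ℂ (FC N) a := by
  by_contra hcon
  have hnot : h ∉ Set.range (algebraMap ℂ (FC N)) := by
    rintro ⟨a, ha⟩
    exact hcon ⟨a, ha.symm⟩
  obtain ⟨htr, hfd⟩ := helper82.ff_transcendental (xJC N) (xJC_transcendental N) h hnot
  have hsum := helper75.ff_sum_ord_zeros h htr
  have hempty : (helper75.ff_finite_zeros h htr).toFinset = ∅ := by
    ext w
    simp only [Set.Finite.mem_toFinset, Set.mem_ofPred_eq, Finset.notMem_empty, iff_false,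
      not_lt]
    exact h0 w
  rw [hempty, Finset.sum_empty] at hsum
  have hpos : 0 < Module.finrank ℂ⟮h⟯ (FC N) := Module.finrank_pos
  have : (Module.finrank ℂ⟮h⟯ (FC N) : ℤ) = 0 := hsum.symm
  omega

/-- An element of `F_ℂ` without zeros and poles is constant. -/
theorem exists_eq_algebraMap_of_ord_eq_zero (h : FC N)
    (h0 : ∀ w : Place ℂ (FC N), w.ord h = 0) : ∃ a : ℂ, h = algebraMap ℂ (FC N) a :=
  exists_eq_algebraMap_of_ord_le_zero h fun w => (h0 w).le

/-! ### The analytic dictionary -/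

open Fermat.Agent.P3.helper20 Fermat.Agent.P3.helper34

theorem eqH_iff {f g : ℂ → ℂ} : EqH f g ↔ ∀ τ₀ : ℍ, f =ᶠ[𝓝[≠] (τ₀ : ℂ)] g :=
  ⟨fun h τ₀ => h _ τ₀.im_pos, fun h z hz => h ⟨z, hz⟩⟩

/-- `f` represents `h` iff `f` is `EqH` to `evC N h`. -/
theorem represents_iff_eqH {h : FC N} {f : ℂ → ℂ} : Represents N h f ↔ EqH f (evC N h) := by
  rw [eqH_iff]
  exact represents_iff_eventuallyEq_evC

/-- The `root_mem` clause of `helper20.AnDict` for `F_ℂ` (this is [AN1] (C)). -/
def RootMemStatement (N : ℕ) [NeZero N] : Prop :=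
  ∀ (m : ℕ) (h : FC N) (g : ℂ → ℂ), 0 < m → h ≠ 0 →
    MeromorphicOn g {z : ℂ | 0 < z.im} → EqH (fun w ↦ g w ^ m) (evC N h) →
    (∀ γ : Gamma0 N, EqH (fun w ↦ g (moebC γ w)) g) → ∃ k : FC N, EqH g (evC N k)

/-- **The analytic dictionary of `F_ℂ`**, given the `root_mem` clause. -/
def anDict (N : ℕ) [NeZero N] (hroot : RootMemStatement N) : AnDict (FC N) (Gamma0 N) where
  ev := evC N
  mero := meromorphicOn_evC
  ev_add h k := represents_iff_eqH.mp ((represents_evC h).add (represents_evC k)) |>.symm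
  ev_mul h k := represents_iff_eqH.mp ((represents_evC h).mul (represents_evC k)) |>.symm
  ev_algebraMap a := (represents_iff_eqH.mp (represents_algebraMap a)).symm
  fin h hh z hz := (represents_evC h).meromorphicOrderAt_ne_top hh ⟨z, hz⟩
  inv h γ z hz := by
    filter_upwards [mem_nhdsWithin_of_mem_nhds
      (UpperHalfPlane.isOpen_upperHalfPlaneSet.mem_nhds hz)] with w hw
    have := evC_smul h γ.2 ⟨w, hw⟩
    rw [← moebC_coe] at this
    exact this
  const h _ h0 := exists_eq_algebraMap_of_ord_eq_zero h h0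
  t2 m h hh hdvd := (represents_evC h).dvd_order hh m hdvd
  root_mem := hroot

@[simp] theorem anDict_ev (hroot : RootMemStatement N) : (anDict N hroot).ev = evC N := rfl

end Fermat.Agent.P3.helper80
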