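import Mathlib
import Fermat.Agent.P3.helper48_AN1Root
import Fermat.Agent.P3.helper80_AnDict

/-! # P3 / [AN1], part 4 (helper48): `RootMemStatement N` and the analytic dictionary of `F_ℂ`

`rootMemStatement N : helper80.RootMemStatement N` is the `root_mem` clause of
`helper20.AnDict` for `F_ℂ`: a meromorphic `Γ₀(N)`-invariant `m`-th root of (the function of) an
element of `F_ℂ` is (the function of) an element of `F_ℂ`.  Consequently
`anDictC N : helper20.AnDict (helper80.FC N) (Gamma0 N)` is unconditional.
-/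

set_option autoImplicit false

noncomputable section

open ModularCurve UpperHalfPlane Filter Topology
open scoped MatrixGroups Manifold

namespace Fermat.Agent.P3.helper48

open Fermat.Agent.S24
open Fermat.Agent.P3.helper34 Fermat.Agent.P3.helper20 Fermat.Agent.P3.helper80

variable {N : ℕ} [NeZero N]

theorem aeval_genJC_mem (P : MvPolynomial N.divisors ℂ) :
    MvPolynomial.aeval (genJC N) P ∈ FCfield N := by
  rw [FCfield_eq_adjoin]
  exact helper24.aeval_mem_adjoin _ P

/-- The element `P(J_d) / Q(J_d)` of `F_ℂ`. -/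
def ratFC (N : ℕ) [NeZero N] (P Q : MvPolynomial N.divisors ℂ) : helper80.FC N :=
  (⟨_, aeval_genJC_mem P⟩ : helper80.FC N) / ⟨_, aeval_genJC_mem Q⟩

theorem coe_ratFC (P Q : MvPolynomial N.divisors ℂ) :
    ((ratFC N P Q : helper80.FC N) : LaurentSeries ℂ)
      = MvPolynomial.aeval (genJC N) P / MvPolynomial.aeval (genJC N) Q := rfl

/-- The element `P(J_d) / Q(J_d)` is represented by the function `P(j_d) / Q(j_d)`. -/
theorem represents_ratFC (P Q : MvPolynomial N.divisors ℂ) :
    Represents N (ratFC N P Q) (fun w => evC N P w / evC N Q w) :=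
  (represents_aeval P ⟨_, aeval_genJC_mem P⟩ rfl).div
    (represents_aeval Q ⟨_, aeval_genJC_mem Q⟩ rfl)

theorem eqH_evC_ratFC (P Q : MvPolynomial N.divisors ℂ) :
    EqH (fun w => evC N P w / evC N Q w) (helper80.evC N (ratFC N P Q)) :=
  represents_iff_eqH.mp (represents_ratFC P Q)

/-- **The `root_mem` clause of the analytic dictionary of `F_ℂ`.** -/
theorem rootMemStatement (N : ℕ) [NeZero N] : RootMemStatement N := by
  intro m h g hm _ hg hpow hinv
  obtain ⟨P, Q, hQ, hPQ⟩ := exists_poly_repr h
  have hh : h = ratFC N P Q := Subtype.ext hPQ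
  have hpow' : EqH (fun w => g w ^ m) (fun w => evC N P w / evC N Q w) := by
    rw [hh] at hpow
    exact hpow.trans (eqH_evC_ratFC P Q).symm
  obtain ⟨P', Q', -, hg'⟩ := root_glue N hm g hg P Q hQ hpow' hinv
  exact ⟨ratFC N P' Q', hg'.trans (eqH_evC_ratFC P' Q')⟩

/-- **The analytic dictionary of `F_ℂ`** (unconditional). -/
def anDictC (N : ℕ) [NeZero N] : AnDict (helper80.FC N) (CongruenceSubgroup.Gamma0 N) :=
  anDict N (rootMemStatement N)

@[simp] theorem anDictC_ev (N : ℕ) [NeZero N] : (anDictC N).ev = helper80.evC N := rfl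

end Fermat.Agent.P3.helper48
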