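import Mathlib
import Fermat.Agent.P3.helper48_AN1RootMem
import Fermat.Agent.P3.helper16_ANInterface

/-! # P3 / [FIN-C] (helper48): the torsion of `Pic⁰(F_ℂ)` is finite

`finiteTorsionC M p : helper16.FiniteTorsionCStatement M p` for `p > 0`, from the injectivity of
the monodromy map (`helper20.finite_torsion_of_fg`) applied to the analytic dictionary
`anDictC M` of `F_ℂ`, and the finite generation of `Γ₀(M)` (`helper16.fg_Gamma0`).
-/

set_option autoImplicit false

noncomputable section

namespace Fermat.Agent.P3.helper48

open Fermat.Agent.P3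

/-- **[FIN-C]**: the `p`-torsion of `Pic⁰(F_ℂ)` is finite (`p > 0`). -/
theorem finiteTorsionC (M p : ℕ) [NeZero M] (hp : 0 < p) :
    helper16.FiniteTorsionCStatement M p := by
  have : Group.FG (CongruenceSubgroup.Gamma0 M) := helper16.fg_Gamma0 M
  exact helper20.finite_torsion_of_fg (anDictC M) hp

end Fermat.Agent.P3.helper48
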