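import Mathlib
import Fermat.Prelude.Def_ModularCurve_HeckeModule
import Fermat.Agent.P3.helper58_HeckeInputs

/-! # P3 / [GAL-HI], general coefficient field (helper58)

The Hecke inputs `ModularCurve.HeckeInputsAlong L N ℓ` for an arbitrary algebraically closed
field `L` of characteristic zero (in particular `L = ℂ`), for all levels `N` and all `ℓ`.

The function field `F_N(L) = laurentBaseChange L (modularFunctionFieldFull N)` is generated over
`L` by the finitely many series `j(q^d)`, `d ∣ N`; each of them is integral over `L[j]` because the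
modular relation over `ℚ̄` (S24, `helper77.formal_relation`) is transported by an embedding
`ℚ̄ → L`.  So `F_N(L)` is a function field of one variable over `L`, and the abstract theorem
`heckeInputs_of_ff` applies.
-/

set_option autoImplicit false
set_option linter.unusedSectionVars false
set_option linter.style.haveILetI false

noncomputable section

open AlgebraicCurve IntermediateField ModularCurve

namespace Fermat.Agent.P3.helper58

section CoeffMap

variable {K L : Type*} [Field K] [Field L]

theorem coeffMap_comp_algebraMap (f : K →+* L) :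
    (coeffMap f).comp (algebraMap K (LaurentSeries K)) =
      (algebraMap L (LaurentSeries L)).comp f := by
  ext c : 1
  show coeffMap f (algebraMap K (LaurentSeries K) c) = algebraMap L (LaurentSeries L) (f c)
  rw [algebraMap_laurentSeries_eq_single, algebraMap_laurentSeries_eq_single, coeffMap_single]

theorem coeffMap_aeval (f : K →+* L) (a : LaurentSeries K) (p : Polynomial K) :
    coeffMap f (Polynomial.aeval a p) = Polynomial.aeval (coeffMap f a) (p.map f) := by
  rw [Polynomial.aeval_def, Polynomial.hom_eval₂, Polynomial.aeval_def, Polynomial.eval₂_map,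
    coeffMap_comp_algebraMap]

end CoeffMap

section GeneralField

variable (L : Type*) [Field L] [Algebra ℚ L]

/-- The Laurent series `j(q^d)` with coefficients in `L`, for `d ∣ N`. -/
def genL (N : ℕ) (i : N.divisors) : LaurentSeries L :=
  haveI : NeZero i.1 := ⟨(Nat.pos_of_mem_divisors i.2).ne'⟩
  coeffEmb L (qExpand ℚ i.1 jq)

theorem genL_mem (N : ℕ) (i : N.divisors) :
    genL L N i ∈ laurentBaseChange L (modularFunctionFieldFull N) := by
  haveI : NeZero i.1 := ⟨(Nat.pos_of_mem_divisors i.2).ne'⟩
  exact coeffEmb_mem_laurentBaseChange L (jqd_mem_full N (Nat.dvd_of_mem_divisors i.2))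

theorem coeffEmb_algebraMap_rat' (c : ℚ) :
    coeffEmb L (algebraMap ℚ (LaurentSeries ℚ) c)
      = algebraMap L (LaurentSeries L) (algebraMap ℚ L c) := by
  rw [algebraMap_laurentSeries_eq_single, algebraMap_laurentSeries_eq_single]
  exact coeffMap_single _ _ _

theorem coeffEmb_mem_adjoin_genL (N : ℕ) [NeZero N] (y : LaurentSeries ℚ)
    (hy : y ∈ IntermediateField.adjoin ℚ (divisorExpansions N)) :
    coeffEmb L y ∈ IntermediateField.adjoin L (Set.range (genL L N)) := by
  induction hy using IntermediateField.adjoin_induction with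
  | mem x hx =>
    obtain ⟨d, hne, hd, rfl⟩ := hx
    exact IntermediateField.subset_adjoin L _
      ⟨⟨d, Nat.mem_divisors.mpr ⟨hd, NeZero.ne N⟩⟩, rfl⟩
  | algebraMap c =>
    rw [coeffEmb_algebraMap_rat']
    exact IntermediateField.algebraMap_mem _ _
  | add x y _ _ hx hy =>
    rw [map_add]
    exact add_mem hx hy
  | inv x _ hx =>
    rw [map_inv₀]
    exact inv_mem hx
  | mul x y _ _ hx hy =>
    rw [map_mul]
    exact mul_mem hx hy

/-- The function field over `L` is generated over `L` by the `j(q^d)`, `d ∣ N`. -/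
theorem laurentBaseChange_full_eq_adjoin (N : ℕ) [NeZero N] :
    laurentBaseChange L (modularFunctionFieldFull N) =
      IntermediateField.adjoin L (Set.range (genL L N)) := by
  apply le_antisymm
  · unfold laurentBaseChange
    rw [IntermediateField.adjoin_le_iff]
    rintro _ ⟨y, hy, rfl⟩
    exact coeffEmb_mem_adjoin_genL L N y hy
  · rw [IntermediateField.adjoin_le_iff]
    rintro _ ⟨i, rfl⟩
    exact genL_mem L N i

/-- The generators as elements of the function field. -/
def genLF (N : ℕ) (i : N.divisors) : laurentBaseChange L (modularFunctionFieldFull N) :=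
  ⟨genL L N i, genL_mem L N i⟩

theorem adjoin_genLF_eq_top (N : ℕ) [NeZero N] :
    IntermediateField.adjoin L (Set.range (genLF L N)) = ⊤ := by
  apply IntermediateField.lift_injective (laurentBaseChange L (modularFunctionFieldFull N))
  rw [lift_adjoin, lift_top]
  have : (Subtype.val '' Set.range (genLF L N) : Set (LaurentSeries L)) =
      Set.range (genL L N) := by
    rw [← Set.range_comp]
    rfl
  rw [this]
  exact (laurentBaseChange_full_eq_adjoin L N).symm

/-- The function `j` as an element of the function field over `L`. -/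
def jL (N : ℕ) : laurentBaseChange L (modularFunctionFieldFull N) :=
  ⟨coeffEmb L jq, coeffEmb_mem_laurentBaseChange _ (by
    have h := jqd_mem_full N (one_dvd N)
    rwa [qExpand_one_apply] at h)⟩

@[simp] theorem coe_jL (N : ℕ) :
    ((jL L N : laurentBaseChange L (modularFunctionFieldFull N)) : LaurentSeries L) =
      coeffEmb L jq := rfl

/-- `j` is transcendental over an algebraically closed field `L`. -/
theorem jL_transcendental [IsAlgClosed L] (N : ℕ) : Transcendental L (jL L N) := by
  intro halg
  have h1 : IsAlgebraic L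
      ((jL L N : laurentBaseChange L (modularFunctionFieldFull N)) : LaurentSeries L) := by
    have := halg.algebraMap (A := LaurentSeries L)
    simpa using this
  have h2 := Fermat.Agent.S24.helper77.coeff_eq_zero_of_isAlgebraic h1 (k := -1) (by norm_num)
  rw [coe_jL, coeffEmb_coeff, coeff_jq_neg_one, map_one] at h2
  exact one_ne_zero h2

end GeneralField

section Transfer

open Fermat.Agent.S24 Fermat.Agent.S24.helper24

variable (L : Type*) [Field L] [Algebra ℚ L] [IsAlgClosed L]

/-- A chosen embedding `ℚ̄ → L`. -/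
def iotaL : Kbar →ₐ[ℚ] L :=
  haveI : Algebra.IsAlgebraic ℚ (AlgebraicClosure ℚ) := AlgebraicClosure.isAlgebraic ℚ
  IsAlgClosed.lift

theorem coeffMap_iotaL_coeffEmb (x : LaurentSeries ℚ) :
    coeffMap (iotaL L : Kbar →+* L) (coeffEmb Kbar x) = coeffEmb L x := by
  rw [coeffEmb, coeffMap_coeffMap]
  exact coeffMap_congr (RingHom.ext fun c => (iotaL L).commutes c) x

theorem coeffMap_iotaL_genJ (N : ℕ) (i : N.divisors) :
    coeffMap (iotaL L : Kbar →+* L) (genJ N i) = genL L N i := by
  haveI : NeZero i.1 := ⟨(Nat.pos_of_mem_divisors i.2).ne'⟩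
  show coeffMap _ (JdT i.1) = _
  rw [JdT_eq_coeffEmb, coeffMap_iotaL_coeffEmb]
  rfl

/-- The modular relation for the generator `j(q^d)` over `L`. -/
theorem relation_genL (N : ℕ) [NeZero N] (i : N.divisors) :
    ∃ q : ℕ → Polynomial L, q (Nat.card (X0 N)) = 1 ∧
      ∑ k ∈ Finset.range (Nat.card (X0 N) + 1),
        Polynomial.aeval (coeffEmb L jq) (q k) * (genL L N i) ^ k = 0 := by
  obtain ⟨q, hq1, hq⟩ := helper77.formal_relation N (MvPolynomial.X i)
  refine ⟨fun k => (q k).map (iotaL L : Kbar →+* L), by simp [hq1], ?_⟩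
  have h := congrArg (coeffMap (iotaL L : Kbar →+* L)) hq
  rw [map_sum, map_zero] at h
  rw [← h]
  refine Finset.sum_congr rfl fun k _ => ?_
  rw [map_mul, map_pow, coeffMap_aeval, MvPolynomial.aeval_X, coeffMap_iotaL_genJ,
    coeffMap_iotaL_coeffEmb]

theorem relation_genLF (N : ℕ) [NeZero N] (i : N.divisors) :
    ∃ q : ℕ → Polynomial L, q (Nat.card (X0 N)) = 1 ∧
      ∑ k ∈ Finset.range (Nat.card (X0 N) + 1),
        Polynomial.aeval (jL L N) (q k) * (genLF L N i) ^ k = 0 := by
  obtain ⟨q, hq1, hq⟩ := relation_genL L N i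
  refine ⟨q, hq1, ?_⟩
  obtain ⟨v, hv⟩ : ∃ v : laurentBaseChange L (modularFunctionFieldFull N) →ₐ[L] LaurentSeries L,
      ∀ y, v y = (y : LaurentSeries L) :=
    ⟨(laurentBaseChange L (modularFunctionFieldFull N)).val, fun _ => rfl⟩
  have hvinj : Function.Injective v := fun a b h => Subtype.ext (by rw [← hv, ← hv, h])
  apply hvinj
  rw [map_sum, map_zero, ← hq]
  refine Finset.sum_congr rfl fun k _ => ?_
  rw [map_mul, map_pow, ← Polynomial.aeval_algHom_apply, hv, hv]
  rfl

theorem isIntegral_genLF (N : ℕ) [NeZero N] (i : N.divisors) :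
    IsIntegral L⟮jL L N⟯ (genLF L N i) := by
  obtain ⟨q, hq1, hq⟩ := relation_genLF L N i
  obtain ⟨Q, hQ0, -, hQ⟩ := helper77.exists_poly_of_relation _ _ _ q hq1 hq
  exact IsAlgebraic.isIntegral ⟨Q, hQ0, hQ⟩

/-- **Finiteness**: the function field `F_N(L)` is finite over `L(j)`. -/
theorem finiteDimensional_L (N : ℕ) [NeZero N] :
    FiniteDimensional L⟮jL L N⟯ (laurentBaseChange L (modularFunctionFieldFull N)) := by
  have htop : IntermediateField.adjoin L⟮jL L N⟯ (Set.range (genLF L N)) = ⊤ := by
    rw [eq_top_iff]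
    intro y _
    have hy : y ∈ IntermediateField.adjoin L (Set.range (genLF L N)) := by
      rw [adjoin_genLF_eq_top]; trivial
    induction hy using IntermediateField.adjoin_induction with
    | mem x hx => exact IntermediateField.subset_adjoin _ _ hx
    | algebraMap c =>
      exact IntermediateField.algebraMap_mem
        (IntermediateField.adjoin L⟮jL L N⟯ (Set.range (genLF L N)))
        (⟨algebraMap L _ c, IntermediateField.algebraMap_mem _ c⟩ : L⟮jL L N⟯)
    | add x y _ _ hx hy => exact add_mem (hx trivial) (hy trivial)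
    | inv x _ hx => exact inv_mem (hx trivial)
    | mul x y _ _ hx hy => exact mul_mem (hx trivial) (hy trivial)
  haveI : FiniteDimensional L⟮jL L N⟯
      (IntermediateField.adjoin L⟮jL L N⟯ (Set.range (genLF L N))) :=
    IntermediateField.finiteDimensional_adjoin fun x hx => by
      obtain ⟨i, rfl⟩ := hx
      exact isIntegral_genLF L N i
  rw [htop] at this
  exact Module.Finite.equiv (IntermediateField.topEquiv (F := L⟮jL L N⟯)
    (E := laurentBaseChange L (modularFunctionFieldFull N))).toLinearEquiv

end Transfer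

section HeckeInputs

variable (L : Type*) [Field L] [Algebra ℚ L] [IsAlgClosed L]

/-- `F_N(L)` has principal divisors (every nonzero function has a divisor of degree `0`). -/
theorem hasPrincipalDivisors_L (N : ℕ) [NeZero N] :
    HasPrincipalDivisors L (laurentBaseChange L (modularFunctionFieldFull N)) := by
  haveI : CharZero L := charZero_of_injective_algebraMap (algebraMap ℚ L).injective
  haveI := finiteDimensional_L L N
  exact Fermat.Agent.S24.helper75.ff_hasPrincipalDivisors (jL L N) (jL_transcendental L N)

/-- All places of `F_N(L)` have degree one. -/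
theorem place_deg_eq_one_L (N : ℕ) [NeZero N]
    (v : Place L (laurentBaseChange L (modularFunctionFieldFull N))) : v.deg = 1 := by
  haveI := finiteDimensional_L L N
  exact Fermat.Agent.S24.helper82.ff_deg_eq_one (jL L N) (jL_transcendental L N) v

/-- **[GAL-HI]** The Hecke inputs hold over every algebraically closed field of characteristic
zero (in particular over `ℂ`), for every level `N` and every `ℓ`. -/
theorem heckeInputsAlong_of_isAlgClosed (N ℓ : ℕ) [NeZero N] [NeZero ℓ] :
    ModularCurve.HeckeInputsAlong L N ℓ := by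
  haveI : CharZero L := charZero_of_injective_algebraMap (algebraMap ℚ L).injective
  haveI : NeZero (N * ℓ) := ⟨Nat.mul_ne_zero (NeZero.ne N) (NeZero.ne ℓ)⟩
  haveI := finiteDimensional_L L N
  haveI := finiteDimensional_L L (N * ℓ)
  exact heckeInputs_of_ff (heckeBetaBar L N ℓ) (heckeAlphaBar L N ℓ) (jL L N)
    (jL_transcendental L N) (jL L (N * ℓ)) (jL_transcendental L (N * ℓ))

/-- The transposed inputs (roles of `α` and `β` exchanged), as needed for the transpose
correspondence `heckePic0BarTranspose`. -/
theorem heckeInputsAlong_transpose_of_isAlgClosed (N ℓ : ℕ) [NeZero N] [NeZero ℓ] :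
    ∃ (hα : HeckeAlphaBarIntegral L N ℓ) (_ : HeckeBetaBarIntegral L N ℓ)
      (_ : HasPrincipalDivisors L (laurentBaseChange L (modularFunctionFieldFull (N * ℓ))))
      (hfin : FiniteAlong L (heckeBetaBar L N ℓ)),
      FundamentalIdentityAlong L (heckeAlphaBar L N ℓ) hα ∧
        NormFormulaAlong L (heckeBetaBar L N ℓ) hfin := by
  haveI : CharZero L := charZero_of_injective_algebraMap (algebraMap ℚ L).injective
  haveI : NeZero (N * ℓ) := ⟨Nat.mul_ne_zero (NeZero.ne N) (NeZero.ne ℓ)⟩
  haveI := finiteDimensional_L L N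
  haveI := finiteDimensional_L L (N * ℓ)
  obtain ⟨hβ, hα, hP, hfin, hFI, hN⟩ :=
    heckeInputs_of_ff (heckeAlphaBar L N ℓ) (heckeBetaBar L N ℓ) (jL L N)
      (jL_transcendental L N) (jL L (N * ℓ)) (jL_transcendental L (N * ℓ))
  exact ⟨hα, hβ, hP, hfin, hFI, hN⟩

/-- The Prelude's total Hecke operator over `L` is the genuine correspondence. -/
theorem heckeOperatorAlong_eq_of_isAlgClosed (N ℓ : ℕ) [NeZero N] [NeZero ℓ] :
    ∃ (hα : HeckeAlphaBarIntegral L N ℓ) (hβ : HeckeBetaBarIntegral L N ℓ)
      (_ : HasPrincipalDivisors L (laurentBaseChange L (modularFunctionFieldFull (N * ℓ))))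
      (hfin : FiniteAlong L (heckeAlphaBar L N ℓ))
      (hFI : FundamentalIdentityAlong L (heckeBetaBar L N ℓ) hβ)
      (hN : NormFormulaAlong L (heckeAlphaBar L N ℓ) hfin),
      heckeOperatorAlong L N ℓ = heckePic0Bar hα hβ hFI hfin hN := by
  obtain ⟨hα, hβ, hP, hfin, hFI, hN⟩ := heckeInputsAlong_of_isAlgClosed L N ℓ
  exact ⟨hα, hβ, hP, hfin, hFI, hN, heckeOperatorAlong_eq hα hβ hFI hfin hN⟩

/-- The Hecke inputs over `ℂ`. -/
theorem heckeInputsAlong_complex (N ℓ : ℕ) [NeZero N] [NeZero ℓ] :
    ModularCurve.HeckeInputsAlong ℂ N ℓ :=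
  heckeInputsAlong_of_isAlgClosed ℂ N ℓ

/-- `F_N(ℂ)` has principal divisors. -/
theorem hasPrincipalDivisors_complex (N : ℕ) [NeZero N] :
    HasPrincipalDivisors ℂ (laurentBaseChange ℂ (modularFunctionFieldFull N)) :=
  hasPrincipalDivisors_L ℂ N

end HeckeInputs

end Fermat.Agent.P3.helper58
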