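import Fermat.Agent.P3.Defs

/-!
# P3: Frobenius lifts on roots of unity, and the value of the cyclotomic character (helper98)

* `frobenius_congr` : a Frobenius lift `φ` at a valuation subring `A` of `ℚ̄` satisfies
  `v (φ a - a ^ ℓ) < 1` for `a ∈ A`.
* `frobenius_apply_rootOfUnity` : if `A` lies over `ℓ`, `φ` is a Frobenius lift at `A` and
  `ζ ^ m = 1` with `ℓ ∤ m`, then `φ ζ = ζ ^ ℓ`.
* `cyclo_frobenius` : for a character `d` with `IsCycloChar p d` and values in a ring in which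
  `⋂ (p ^ n) = 0`, `d φ = ℓ` for every Frobenius lift at `ℓ ≠ p`.
* `cyclo_frobenius_padic` : the case `R = ℤ_[p]`.
-/

set_option autoImplicit false

noncomputable section

namespace Fermat.Agent.P3.helper98

open Fermat.Agent.P3

/-- A Frobenius lift at `A` satisfies the Frobenius congruence on `A`. -/
theorem frobenius_congr (A : ValuationSubring Qbar) {ℓ : ℕ} {σ : GQ}
    (hσ : A.IsFrobeniusAt σ ℓ) {a : Qbar} (ha : a ∈ A) : A.valuation (σ a - a ^ ℓ) < 1 := by
  have h1 := hσ.smul_residue_eq (IsLocalRing.residue A ⟨a, ha⟩)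
  rw [← IsLocalRing.ResidueField.residue_smul, ← map_pow, ← sub_eq_zero, ← map_sub,
    IsLocalRing.residue_eq_zero_iff, A.valuation_lt_one_iff] at h1
  exact h1

/-- The valuation of a root of unity is `1`. -/
theorem valuation_eq_one_of_pow_eq_one (A : ValuationSubring Qbar) {η : Qbar} {m : ℕ}
    (hm : m ≠ 0) (hη : η ^ m = 1) : A.valuation η = 1 := by
  have h : A.valuation η ^ m = 1 := by rw [← map_pow, hη, map_one]
  rcases lt_trichotomy (A.valuation η) 1 with h1 | h1 | h1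
  · exact absurd h (pow_lt_one₀ zero_le h1 hm).ne
  · exact h1
  · exact absurd h (one_lt_pow₀ h1 hm).ne'

/-- A natural number prime to `ℓ` has valuation `1` at a valuation subring over `ℓ`. -/
theorem valuation_natCast_eq_one (A : ValuationSubring Qbar) {ℓ : ℕ} (hℓ : ℓ.Prime)
    (hA : A.LiesOverPrime ℓ) {m : ℕ} (hm : ¬ ℓ ∣ m) : A.valuation (m : Qbar) = 1 := by
  have hcop : Nat.Coprime ℓ m := (Nat.Prime.coprime_iff_not_dvd hℓ).mpr hm
  have hle : A.valuation (m : Qbar) ≤ 1 := by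
    rw [A.valuation_le_one_iff]; exact natCast_mem A m
  have hℓlt : A.valuation (ℓ : Qbar) < 1 := by
    have := hA
    rw [ValuationSubring.LiesOverPrime, A.mem_nonunits_iff] at this
    exact this
  by_contra hne
  have hlt : A.valuation (m : Qbar) < 1 := lt_of_le_of_ne hle hne
  -- Bezout: `x * ℓ + y * m = 1` over `ℤ`
  have hb : (Nat.gcd ℓ m : ℤ) = ℓ * Nat.gcdA ℓ m + m * Nat.gcdB ℓ m := Nat.gcd_eq_gcd_ab ℓ m
  rw [hcop.gcd_eq_one] at hb
  have hb' : (1 : Qbar) = (ℓ : Qbar) * (Nat.gcdA ℓ m : Qbar) + (m : Qbar) * (Nat.gcdB ℓ m : Qbar) := by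
    have := congrArg (Int.cast : ℤ → Qbar) hb
    push_cast at this
    exact this
  have hint : ∀ z : ℤ, A.valuation (z : Qbar) ≤ 1 := fun z => by
    rw [A.valuation_le_one_iff]; exact intCast_mem A z
  have h1 : A.valuation ((ℓ : Qbar) * (Nat.gcdA ℓ m : Qbar)) < 1 := by
    rw [map_mul]
    calc A.valuation (ℓ : Qbar) * A.valuation ((Nat.gcdA ℓ m : ℤ) : Qbar)
        ≤ A.valuation (ℓ : Qbar) * 1 := by gcongr; exact hint _
      _ < 1 := by rw [mul_one]; exact hℓlt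
  have h2 : A.valuation ((m : Qbar) * (Nat.gcdB ℓ m : Qbar)) < 1 := by
    rw [map_mul]
    calc A.valuation (m : Qbar) * A.valuation ((Nat.gcdB ℓ m : ℤ) : Qbar)
        ≤ A.valuation (m : Qbar) * 1 := by gcongr; exact hint _
      _ < 1 := by rw [mul_one]; exact hlt
  have h3 : A.valuation (1 : Qbar) < 1 := by
    rw [hb']
    exact lt_of_le_of_lt (A.valuation.map_add _ _) (max_lt h1 h2)
  rw [map_one] at h3
  exact lt_irrefl _ h3

/-- Roots of unity of order prime to `ℓ` which are congruent to `1` modulo the maximal ideal of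
a valuation subring over `ℓ` are trivial. -/
theorem eq_one_of_valuation_sub_one_lt (A : ValuationSubring Qbar) {ℓ : ℕ} (hℓ : ℓ.Prime)
    (hA : A.LiesOverPrime ℓ) {m : ℕ} (hm : ¬ ℓ ∣ m) {η : Qbar} (hη : η ^ m = 1)
    (hv : A.valuation (η - 1) < 1) : η = 1 := by
  by_contra hne
  have hsum : ∑ i ∈ Finset.range m, η ^ i = 0 := by
    have h := mul_geom_sum η m
    rw [hη, sub_self] at h
    rcases mul_eq_zero.mp h with h | h
    · exact absurd (sub_eq_zero.mp h) hne
    · exact h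
  -- `m = ∑ (1 - η ^ i)`, and each term has valuation `< 1`
  have hterm : ∀ i : ℕ, A.valuation (1 - η ^ i) < 1 := by
    intro i
    have hη1 : A.valuation η ≤ 1 := by
      rcases Nat.eq_zero_or_pos m with h0 | hpos
      · subst h0; exact absurd (dvd_zero ℓ) hm
      · exact (valuation_eq_one_of_pow_eq_one A hpos.ne' hη).le
    have hfact : (1 - η ^ i) = -((η - 1) * ∑ j ∈ Finset.range i, η ^ j) := by
      rw [mul_geom_sum]; ring
    rw [hfact, Valuation.map_neg, map_mul]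
    have hs : A.valuation (∑ j ∈ Finset.range i, η ^ j) ≤ 1 := by
      apply Valuation.map_sum_le
      intro j _
      rw [map_pow]
      exact pow_le_one₀ zero_le hη1
    calc A.valuation (η - 1) * A.valuation (∑ j ∈ Finset.range i, η ^ j)
        ≤ A.valuation (η - 1) * 1 := by gcongr
      _ < 1 := by rw [mul_one]; exact hv
  have hm' : (m : Qbar) = ∑ i ∈ Finset.range m, (1 - η ^ i) := by
    rw [Finset.sum_sub_distrib, hsum, sub_zero]
    simp
  have hlt : A.valuation (m : Qbar) < 1 := by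
    rw [hm']
    apply Valuation.map_sum_lt _ one_ne_zero
    intro i _
    exact hterm i
  rw [valuation_natCast_eq_one A hℓ hA hm] at hlt
  exact lt_irrefl _ hlt

/-- **Frobenius on roots of unity.**  If `A` lies over the prime `ℓ`, `φ` is a Frobenius lift at
`A` and `ζ` is a root of unity of order prime to `ℓ`, then `φ ζ = ζ ^ ℓ`. -/
theorem frobenius_apply_rootOfUnity (A : ValuationSubring Qbar) {ℓ : ℕ} (hℓ : ℓ.Prime)
    (hA : A.LiesOverPrime ℓ) {φ : GQ} (hφ : A.IsFrobeniusAt φ ℓ) {m : ℕ} (hm : ¬ ℓ ∣ m)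
    {ζ : Qbar} (hζ : ζ ^ m = 1) : φ ζ = ζ ^ ℓ := by
  have hm0 : m ≠ 0 := fun h => hm (h ▸ dvd_zero ℓ)
  have hζv : A.valuation ζ = 1 := valuation_eq_one_of_pow_eq_one A hm0 hζ
  have hζA : ζ ∈ A := by rw [← A.valuation_le_one_iff]; exact hζv.le
  have hζ0 : ζ ≠ 0 := by
    intro h
    rw [h, zero_pow hm0] at hζ
    exact zero_ne_one hζ
  have hcongr := frobenius_congr A hφ hζA
  set η : Qbar := φ ζ * (ζ ^ ℓ)⁻¹ with hηdef
  have hηm : η ^ m = 1 := by
    rw [hηdef, mul_pow, ← map_pow, hζ, map_one, one_mul, inv_pow, ← pow_mul, mul_comm ℓ m,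
      pow_mul, hζ, one_pow, inv_one]
  have hηv : A.valuation (η - 1) < 1 := by
    have h1 : η - 1 = (φ ζ - ζ ^ ℓ) * (ζ ^ ℓ)⁻¹ := by
      rw [hηdef, sub_mul, mul_inv_cancel₀ (pow_ne_zero _ hζ0)]
    rw [h1, map_mul, map_inv₀, map_pow, hζv, one_pow, inv_one, mul_one]
    exact hcongr
  have hη1 := eq_one_of_valuation_sub_one_lt A hℓ hA hm hηm hηv
  rw [hηdef] at hη1
  have := congrArg (fun x => x * ζ ^ ℓ) hη1
  simpa [mul_assoc, inv_mul_cancel₀ (pow_ne_zero ℓ hζ0)] using this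

/-- **The cyclotomic character on Frobenius lifts** (general coefficient ring): if
`⋂ (p ^ n) = 0` in `R`, then `d φ = ℓ` for every Frobenius lift `φ` at a prime `ℓ ≠ p`. -/
theorem cyclo_frobenius {p : ℕ} (hp : p.Prime) {R : Type} [CommRing R]
    (hR : ∀ x : R, (∀ n : ℕ, x ∈ Ideal.span {(p : R) ^ n}) → x = 0)
    {d : GQ →* Rˣ} (hd : IsCycloChar p d) {ℓ : ℕ} (hℓ : ℓ.Prime) (hℓp : ℓ ≠ p)
    (A : ValuationSubring Qbar) (hA : A.LiesOverPrime ℓ) {φ : GQ} (hφ : A.IsFrobeniusAt φ ℓ) :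
    (d φ : R) = (ℓ : R) := by
  rw [← sub_eq_zero]
  apply hR
  intro n
  apply hd n φ ℓ
  intro ζ hζ
  refine frobenius_apply_rootOfUnity A hℓ hA hφ ?_ hζ
  intro hdvd
  exact hℓp ((Nat.prime_dvd_prime_iff_eq hℓ hp).mp (hℓ.dvd_of_dvd_pow hdvd))

/-- In `ℤ_[p]` the intersection of the ideals `(p ^ n)` is zero. -/
theorem padicInt_eq_zero_of_forall_mem_span_pow {p : ℕ} [Fact p.Prime] (x : ℤ_[p])
    (hx : ∀ n : ℕ, x ∈ Ideal.span {(p : ℤ_[p]) ^ n}) : x = 0 := by
  by_contra hne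
  have h := hx (x.valuation + 1)
  rw [PadicInt.mem_span_pow_iff_le_valuation x hne] at h
  omega

/-- **The `p`-adic cyclotomic character on Frobenius lifts.** -/
theorem cyclo_frobenius_padic {p : ℕ} [hp : Fact p.Prime] {d : GQ →* ℤ_[p]ˣ}
    (hd : IsCycloChar p d) {ℓ : ℕ} (hℓ : ℓ.Prime) (hℓp : ℓ ≠ p)
    (A : ValuationSubring Qbar) (hA : A.LiesOverPrime ℓ) {φ : GQ} (hφ : A.IsFrobeniusAt φ ℓ) :
    (d φ : ℤ_[p]) = (ℓ : ℤ_[p]) :=
  cyclo_frobenius hp.out padicInt_eq_zero_of_forall_mem_span_pow hd hℓ hℓp A hA hφ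

end Fermat.Agent.P3.helper98

end
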