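import Mathlib
import Fermat.Prelude.Def_CuspForm_HeckeGaloisRepDatum
import Fermat.Prelude.Def_ModularCurve_HeckeModule

/-!
# P3 (Galois representations attached to weight-2 Hecke eigensystems): shared definitions

Top-level interface of program P3 (targets S30, S29, S31, S42).  Everything here is a
definition or a `Prop`; the packages of the blueprint prove the `...Statement`s.

* `P2CoreStatement M p` : (UNR) + (ES) on the `p`-power torsion of `JZero M` (operator form).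
* `TateDatum p N S M`   : the `p`-adic Tate module of level `M` (`N ∣ M`) with its Galois action,
  the Hecke algebra `𝔸` acting on it, (UNR), (ES) and faithfulness w.r.t. the cusp-form Hecke
  algebra of level `N`.
* `EigenLattice p N S M 𝒪 χ` : a nonzero finite free `𝒪`-lattice with adic-continuous Galois
  action, unramified outside `M p`, on which Frobenius at good `ℓ` satisfies
  `X² - χ(T_ℓ) X + ℓ`.
* `IsCycloChar p d` : `d` is the `p`-adic cyclotomic character with values in `R`.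
-/

set_option autoImplicit false

noncomputable section

namespace Fermat.Agent.P3

/-- `ℚ̄`. -/
abbrev Qbar : Type := AlgebraicClosure ℚ

/-- The absolute Galois group of `ℚ`. -/
abbrev GQ : Type := Qbar ≃ₐ[ℚ] Qbar

/-- Auxiliary levels: `Γ₀(M)` is torsion free modulo `±1` and `X₀(M)` covers the genus-0 curve
`X₀(4)` resp. `X₀(9)` with ramification only at the cusps. -/
def GoodLevel (M : ℕ) : Prop := 4 ∣ M ∨ 9 ∣ M

/-- **P2-CORE** (operator form): for every prime `ℓ ∤ M p` and every place `A` of `ℚ̄` over `ℓ`,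
inertia at `A` acts trivially on the `p`-power torsion of `J₀(M)`, and every Frobenius lift `σ`
at `A` satisfies `σ² - T_ℓ σ + ℓ = 0` there (`T_ℓ` = the Prelude's `heckeOperatorBar`). -/
def P2CoreStatement (M p : ℕ) [NeZero M] : Prop :=
  ∀ (ℓ : ℕ) (hℓ : ℓ.Prime), ¬ ℓ ∣ M * p →
    ∀ A : ValuationSubring Qbar, A.LiesOverPrime ℓ →
      (∀ σ ∈ A.inertiaSubgroupIn ℚ, ∀ x : ModularCurve.JZero M,
          (∃ n : ℕ, p ^ n • x = 0) → σ • x = x) ∧
      (∀ σ : GQ, A.IsFrobeniusAt σ ℓ → ∀ x : ModularCurve.JZero M,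
          (∃ n : ℕ, p ^ n • x = 0) →
            σ • σ • x - ModularCurve.heckeOperatorBar M ⟨ℓ, hℓ⟩ (σ • x) + ℓ • x = 0)

/-- The index set of good primes at level `M` away from `S`. -/
abbrev GoodPrime (p M : ℕ) (S : Finset ℕ) : Type :=
  {ℓ : ℕ // ℓ.Prime ∧ ¬ ℓ ∣ M * p ∧ ℓ ∉ S}

/-- The Hecke operator `T_ℓ` of the Prelude's Hecke algebra of level `N` attached to a good
prime of level `M`, `N ∣ M`. -/
def goodT {p N M : ℕ} [NeZero N] {S : Finset ℕ} (hNM : N ∣ M) (ℓ : GoodPrime p M S) :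
    CuspForm.heckeAlgebra N 2 (↑S : Set ℕ) :=
  CuspForm.heckeAlgebra.T (S := (↑S : Set ℕ)) ℓ.2.1
    (fun h => ℓ.2.2.1 (Dvd.dvd.mul_right (h.trans hNM) p))
    (fun h => ℓ.2.2.2 (Finset.mem_coe.mp h))

/-- **The Tate module datum of level `M`** (`N ∣ M`): a finite free `ℤ_p`-module `Λ` with an
adic-continuous action `r` of `G_ℚ` and a commutative `ℤ_p`-algebra `𝔸` of `G_ℚ`-equivariant
endomorphisms generated by elements `τ ℓ` (`ℓ` good), such that
* inertia at every `ℓ ∤ M p` acts trivially,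
* every Frobenius lift `φ` at a good prime `ℓ` satisfies `φ² - τ_ℓ φ + ℓ = 0` on `Λ`,
* (faithfulness) every polynomial relation between the `τ ℓ` holds between the `π (T_ℓ)` for
  every ring homomorphism `π` from the Hecke algebra of `S₂(Γ₀(N))` away from `S` to a
  `ℤ_p`-algebra. -/
structure TateDatum (p : ℕ) [Fact p.Prime] (N : ℕ) [NeZero N] (S : Finset ℕ) (M : ℕ)
    (hNM : N ∣ M) : Type 1 where
  /-- the Tate module -/
  Λ : Type
  [instAddCommGroup : AddCommGroup Λ]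
  [instModule : Module ℤ_[p] Λ]
  [instFree : Module.Free ℤ_[p] Λ]
  [instFinite : Module.Finite ℤ_[p] Λ]
  /-- the Hecke algebra acting on the Tate module -/
  𝔸 : Type
  [instCommRing : CommRing 𝔸]
  [instAlgebra : Algebra ℤ_[p] 𝔸]
  [instModule𝔸 : Module 𝔸 Λ]
  [instTower : IsScalarTower ℤ_[p] 𝔸 Λ]
  /-- the Galois action -/
  r : GQ →* Module.End ℤ_[p] Λ
  /-- the Hecke generators -/
  τ : GoodPrime p M S → 𝔸
  isAdicContinuous : GaloisActionIsAdicContinuous ℤ_[p] r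
  smul_faithful : ∀ a : 𝔸, (∀ v : Λ, a • v = 0) → a = 0
  adjoin_τ : Algebra.adjoin ℤ_[p] (Set.range τ) = ⊤
  r_smul : ∀ (g : GQ) (a : 𝔸) (v : Λ), r g (a • v) = a • r g v
  unramified : ∀ ℓ : ℕ, ℓ.Prime → ¬ ℓ ∣ M * p →
    ∀ A : ValuationSubring Qbar, A.LiesOverPrime ℓ →
      ∀ σ ∈ A.inertiaSubgroupIn ℚ, r σ = 1
  frobenius : ∀ ℓ : GoodPrime p M S,
    ∀ A : ValuationSubring Qbar, A.LiesOverPrime ℓ.1 →
      ∀ φ : GQ, A.IsFrobeniusAt φ ℓ.1 →
        ∀ v : Λ, r φ (r φ v) - τ ℓ • r φ v + (ℓ.1 : ℤ_[p]) • v = 0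
  faithful : ∀ (R : Type) [CommRing R] [Algebra ℤ_[p] R]
    (π : CuspForm.heckeAlgebra N 2 (↑S : Set ℕ) →+* R)
    (P : MvPolynomial (GoodPrime p M S) ℤ_[p]),
      MvPolynomial.aeval τ P = 0 → MvPolynomial.aeval (fun ℓ => π (goodT hNM ℓ)) P = 0

attribute [instance] TateDatum.instAddCommGroup TateDatum.instModule TateDatum.instFree
  TateDatum.instFinite TateDatum.instCommRing TateDatum.instAlgebra TateDatum.instModule𝔸
  TateDatum.instTower

/-- **[GEO]** the Tate datum exists at every good level. -/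
def TateStatement (p : ℕ) [Fact p.Prime] (N : ℕ) [NeZero N] (S : Finset ℕ) (M : ℕ)
    (hNM : N ∣ M) : Prop :=
  Nonempty (TateDatum p N S M hNM)

/-- `d : G_ℚ → Rˣ` is the `p`-adic cyclotomic character: whenever `g` raises all `p^n`-th roots
of unity of `ℚ̄` to the power `a`, `d g ≡ a` modulo `p^n`. -/
def IsCycloChar (p : ℕ) {R : Type} [CommRing R] (d : GQ →* Rˣ) : Prop :=
  ∀ (n : ℕ) (g : GQ) (a : ℕ), (∀ ζ : Qbar, ζ ^ (p ^ n) = 1 → g ζ = ζ ^ a) →
    ((d g : R) - (a : R)) ∈ Ideal.span {(p : R) ^ n}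

/-- Adic continuity of a character. -/
def IsAdicContinuousChar {R : Type} [CommRing R] [IsLocalRing R] (d : GQ →* Rˣ) : Prop :=
  ∀ n : ℕ, ∃ L : IntermediateField ℚ Qbar, FiniteDimensional ℚ L ∧
    ∀ σ : GQ, (∀ x ∈ L, σ x = x) → ((d σ : R) - 1) ∈ IsLocalRing.maximalIdeal R ^ n

/-- **The eigen-lattice of level `M`** attached to `χ`: a nonzero finite free `𝒪`-module with
adic-continuous Galois action, unramified at all `ℓ ∤ M p`, on which every Frobenius lift at a
good prime `ℓ` satisfies `X² - χ(T_ℓ) X + ℓ = 0`. -/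
structure EigenLattice (p : ℕ) (N : ℕ) [NeZero N] (S : Finset ℕ) (M : ℕ) (hNM : N ∣ M)
    (𝒪 : Type) [CommRing 𝒪] [IsLocalRing 𝒪]
    (χ : CuspForm.heckeAlgebra N 2 (↑S : Set ℕ) →+* 𝒪) : Type 1 where
  /-- the lattice -/
  L : Type
  [instAddCommGroup : AddCommGroup L]
  [instModule : Module 𝒪 L]
  [instFree : Module.Free 𝒪 L]
  [instFinite : Module.Finite 𝒪 L]
  [instNontrivial : Nontrivial L]
  /-- the Galois action -/
  r : GQ →* Module.End 𝒪 L
  isAdicContinuous : GaloisActionIsAdicContinuous 𝒪 r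
  unramified : ∀ ℓ : ℕ, ℓ.Prime → ¬ ℓ ∣ M * p →
    ∀ A : ValuationSubring Qbar, A.LiesOverPrime ℓ →
      ∀ σ ∈ A.inertiaSubgroupIn ℚ, r σ = 1
  frobenius : ∀ ℓ : GoodPrime p M S,
    ∀ A : ValuationSubring Qbar, A.LiesOverPrime ℓ.1 →
      ∀ φ : GQ, A.IsFrobeniusAt φ ℓ.1 →
        r φ * r φ - χ (goodT hNM ℓ) • r φ + (ℓ.1 : 𝒪) • (1 : Module.End 𝒪 L) = 0

attribute [instance] EigenLattice.instAddCommGroup EigenLattice.instModule EigenLattice.instFree
  EigenLattice.instFinite EigenLattice.instNontrivial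

/-- The quadratic relation `r(s)² - t(s) r(s) + d(s) = 0` for all `s`. -/
def QuadraticRel {𝒪 : Type} [CommRing 𝒪] {L : Type} [AddCommGroup L] [Module 𝒪 L]
    (r : GQ →* Module.End 𝒪 L) (t : GQ → 𝒪) (d : GQ →* 𝒪ˣ) : Prop :=
  ∀ s : GQ, r s * r s - t s • r s + (d s : 𝒪) • (1 : Module.End 𝒪 L) = 0

end Fermat.Agent.P3

end
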