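import Fermat.Agent.P3.Defs
import Fermat.Agent.S16.helper26_HeckeFun

/-!
# P3: top-level interface (statements only)

Every `...Statement` below is the EXACT target of one package of BLUEPRINT P3 v1.
The final wiring (S30, S29, S42, S31) consumes exactly these statements.
-/

set_option autoImplicit false

noncomputable section

namespace Fermat.Agent.P3

open CongruenceSubgroup Polynomial
open scoped MatrixGroups

/-! ## A. Geometry: inputs of the Tate datum (cluster P2 + AN + DESC + TATE) -/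

/-- **[GALH]** Galois commutes with the Hecke operators on `J₀(M)`. -/
def GalHeckeCommStatement (M : ℕ) [NeZero M] : Prop :=
  ∀ (ℓ : Nat.Primes) (g : GQ) (x : ModularCurve.JZero M),
    ModularCurve.heckeOperatorBar M ℓ (g • x) = g • ModularCurve.heckeOperatorBar M ℓ x

/-- **[CONT]** every point of `J₀(M)` is fixed by an open subgroup of `G_ℚ`. -/
def TorsionContinuityStatement (M : ℕ) [NeZero M] : Prop :=
  ∀ x : ModularCurve.JZero M, ∃ K : IntermediateField ℚ Qbar, FiniteDimensional ℚ K ∧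
    ∀ g : GQ, (∀ y ∈ K, g y = y) → g • x = x

/-- The `p^n`-torsion of `J₀(M)`. -/
abbrev JTors (M p n : ℕ) [NeZero M] : AddSubgroup (ModularCurve.JZero M) :=
  (nsmulAddMonoidHom (α := ModularCurve.JZero M) (p ^ n)).ker

/-- **[BETTI]** (= AN + DESC): compatible Hecke-equivariant isomorphisms
`J₀(M)[p^n] ≅ Hom_par(Γ₀(M), ℤ/p^n)`. -/
def BettiStatement (M p : ℕ) [NeZero M] : Prop :=
  ∃ e : ∀ n : ℕ, JTors M p n →+ (Additive (Gamma0 M) →+ ZMod (p ^ n)),
    (∀ n, Function.Injective (e n)) ∧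
    (∀ n φ, φ ∈ Set.range (e n) ↔ ModularCurve.Period.IsParabolicHom (Gamma0 M) φ) ∧
    (∀ (n : ℕ) (ℓ : Nat.Primes), ¬ (ℓ : ℕ) ∣ M → ∀ x y : JTors M p n,
        (y : ModularCurve.JZero M) = ModularCurve.heckeOperatorBar M ℓ (x : ModularCurve.JZero M) →
          e n y = Fermat.Agent.S16.helper26.heckeHom M ℓ (e n x)) ∧
    (∀ (n : ℕ) (x : JTors M p (n + 1)) (y : JTors M p n),
        (y : ModularCurve.JZero M) = p • (x : ModularCurve.JZero M) →
          e n y = (ZMod.castHom (pow_dvd_pow p n.le_succ) (ZMod (p ^ n))).toAddMonoidHom.comp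
            (e (n + 1) x))

/-- The operator on `Hom(Γ₀(M), A)` attached to a word in the good primes. -/
def wordOp (M : ℕ) {A : Type*} [AddCommGroup A] :
    List Nat.Primes → (Additive (Gamma0 M) →+ A) →+ (Additive (Gamma0 M) →+ A)
  | [] => AddMonoidHom.id _
  | ℓ :: w => (Fermat.Agent.S16.helper26.heckeHom M ℓ).comp (wordOp M w)

/-- A good prime as an element of `Nat.Primes`. -/
def GoodPrime.toPrimes {p M : ℕ} {S : Finset ℕ} (ℓ : GoodPrime p M S) : Nat.Primes :=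
  ⟨ℓ.1, ℓ.2.1⟩

/-- **[FAITH]** Betti faithfulness: an integral combination of words in the good Hecke operators
which kills all integral parabolic homomorphisms of level `M` is zero in the Hecke algebra of
`S₂(Γ₀(N))` away from `S`. -/
def FaithStatement (p N M : ℕ) [NeZero N] (S : Finset ℕ) (hNM : N ∣ M) : Prop :=
  ∀ c : List (GoodPrime p M S) →₀ ℤ,
    (∀ φ : Additive (Gamma0 M) →+ ℤ, ModularCurve.Period.IsParabolicHom (Gamma0 M) φ →
      (c.sum fun w a => a • wordOp M (w.map GoodPrime.toPrimes) φ) = 0) →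
    (c.sum fun w a => a • (w.map (goodT hNM)).prod) = 0

/-- **[TATE]** assembly: the Tate datum from its inputs. -/
def TateAssemblyStatement : Prop :=
  ∀ (p : ℕ) [Fact p.Prime] (N : ℕ) [NeZero N] (S : Finset ℕ) (M : ℕ) [NeZero M] (hNM : N ∣ M),
    p ∈ S → P2CoreStatement M p → GalHeckeCommStatement M → TorsionContinuityStatement M →
      BettiStatement M p → FaithStatement p N M S hNM → TateStatement p N S M hNM

/-! ## B. Algebra -/

/-- **[CHEB]** weak Chebotarev, consumer form: on every number field `K ⊆ ℚ̄`, every `g ∈ G_ℚ`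
agrees with a power of a Frobenius lift at some prime outside a given finite set. -/
def ChebStatement : Prop :=
  ∀ (K : IntermediateField ℚ Qbar), FiniteDimensional ℚ K → ∀ (g : GQ) (Bad : Finset ℕ),
    ∃ ℓ : ℕ, ℓ.Prime ∧ ℓ ∉ Bad ∧ ∃ A : ValuationSubring Qbar, A.LiesOverPrime ℓ ∧
      ∃ φ : GQ, A.IsFrobeniusAt φ ℓ ∧ ∃ j : ℕ, ∀ x ∈ K, (φ ^ j) x = g x

/-- **[CYC]** the `p`-adic cyclotomic character with values in a `p`-adically complete local
ring: existence, continuity, unramified outside `p`, value `ℓ` on Frobenius lifts at `ℓ ≠ p`,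
and an involution `c` (complex conjugation) with `d c = -1`. -/
def CycloStatement : Prop :=
  ∀ (p : ℕ) [Fact p.Prime] (R : Type) [CommRing R] [IsLocalRing R]
    [IsAdicComplete (IsLocalRing.maximalIdeal R) R],
    (p : R) ∈ IsLocalRing.maximalIdeal R →
    ∃ d : GQ →* Rˣ, IsCycloChar p d ∧ IsAdicContinuousChar d ∧
      (∀ ℓ : ℕ, ℓ.Prime → ℓ ≠ p → ∀ A : ValuationSubring Qbar, A.LiesOverPrime ℓ →
        (∀ σ ∈ A.inertiaSubgroupIn ℚ, d σ = 1) ∧
        (∀ φ : GQ, A.IsFrobeniusAt φ ℓ → (d φ : R) = (ℓ : R))) ∧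
      ∃ c : GQ, c * c = 1 ∧ (d c : R) = -1

/-- **[EIGEN]** the eigen-lattice of a Tate datum (for a local principal ideal domain `𝒪`,
i.e. a discrete valuation ring or a field, complete, of residue characteristic `p`). -/
def EigenStatement : Prop :=
  ∀ (p : ℕ) [Fact p.Prime] (N : ℕ) [NeZero N] (S : Finset ℕ) (M : ℕ) (hNM : N ∣ M)
    (𝒪 : Type) [CommRing 𝒪] [IsDomain 𝒪] [IsLocalRing 𝒪] [IsPrincipalIdealRing 𝒪]
    [IsAdicComplete (IsLocalRing.maximalIdeal 𝒪) 𝒪],
    (p : 𝒪) ∈ IsLocalRing.maximalIdeal 𝒪 →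
    ∀ χ : CuspForm.heckeAlgebra N 2 (↑S : Set ℕ) →+* 𝒪,
      TateStatement p N S M hNM → Nonempty (EigenLattice p N S M hNM 𝒪 χ)

/-- **[PSEUDO]** the central-trace trick: if the Frobenius lifts at almost all primes satisfy
`X² - a_ℓ X + ℓ` on a nonzero lattice, then every `s ∈ G_ℚ` satisfies
`X² - t(s) X + d(s)` for a (unique) function `t`, `d` the cyclotomic character. -/
def PseudoStatement : Prop :=
  ∀ (p : ℕ) [Fact p.Prime] (𝒪 : Type) [CommRing 𝒪] [IsDomain 𝒪] [IsLocalRing 𝒪]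
    [IsPrincipalIdealRing 𝒪] [IsAdicComplete (IsLocalRing.maximalIdeal 𝒪) 𝒪],
    (p : 𝒪) ∈ IsLocalRing.maximalIdeal 𝒪 →
    ∀ (L : Type) [AddCommGroup L] [Module 𝒪 L] [Module.Free 𝒪 L] [Module.Finite 𝒪 L]
      [Nontrivial L] (r : GQ →* Module.End 𝒪 L), GaloisActionIsAdicContinuous 𝒪 r →
    ∀ (d : GQ →* 𝒪ˣ), IsCycloChar p d → IsAdicContinuousChar d →
    ∀ (Bad : Finset ℕ) (a : ℕ → 𝒪),
      (∀ ℓ : ℕ, ℓ.Prime → ℓ ∉ Bad → ∀ A : ValuationSubring Qbar, A.LiesOverPrime ℓ →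
        ∀ φ : GQ, A.IsFrobeniusAt φ ℓ →
          r φ * r φ - a ℓ • r φ + (ℓ : 𝒪) • (1 : Module.End 𝒪 L) = 0) →
      ∃ t : GQ → 𝒪, QuadraticRel r t d

/-- **[ALG]** (discrete valuation ring, characteristic 0): a nonzero lattice with quadratic
relation and an odd involution contains / produces a rank-2 representation with the exact
characteristic polynomials; trace-unramified implies unramified. -/
def AlgStatement : Prop :=
  ∀ (𝒪 : Type) [CommRing 𝒪] [IsDomain 𝒪] [IsDiscreteValuationRing 𝒪] [CharZero 𝒪]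
    (L : Type) [AddCommGroup L] [Module 𝒪 L] [Module.Free 𝒪 L] [Module.Finite 𝒪 L]
    [Nontrivial L] (r : GQ →* Module.End 𝒪 L), GaloisActionIsAdicContinuous 𝒪 r →
    ∀ (t : GQ → 𝒪) (d : GQ →* 𝒪ˣ), IsAdicContinuousChar d → QuadraticRel r t d →
    ∀ c : GQ, c * c = 1 → (d c : 𝒪) = -1 →
      ∃ ρ : GaloisRepAdic 𝒪,
        (∀ s : GQ, LinearMap.charpoly (ρ.ρ s) = X ^ 2 - C (t s) * X + C (d s : 𝒪)) ∧
        (∀ σ : GQ, (∀ s : GQ, t (σ * s) = t s) → d σ = 1 → ρ.ρ σ = 1)

/-- **[ALG-F]** (algebraically closed field, any characteristic): same as `[ALG]` for a nonzero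
finite-dimensional representation through a finite quotient. -/
def AlgFieldStatement : Prop :=
  ∀ (F : Type) [Field F] [IsAlgClosed F]
    (V : Type) [AddCommGroup V] [Module F V] [Module.Finite F V] [Nontrivial V]
    (r : GQ →* Module.End F V), GaloisFactorsThroughFiniteLevel r →
    ∀ (t : GQ → F) (d : GQ →* Fˣ), GaloisFactorsThroughFiniteLevel d → QuadraticRel r t d →
      ∃ ρ : ResidualGaloisRep F,
        (∀ s : GQ, LinearMap.charpoly (ρ.ρ s) = X ^ 2 - C (t s) * X + C (d s : F)) ∧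
        (∀ σ : GQ, (∀ s : GQ, t (σ * s) = t s) → d σ = 1 → ρ.ρ σ = 1)

/-- **[ALG-T]** (Carayol's lemma, rank 2): a residually absolutely irreducible representation
over a local ring is trivial on every `σ` on which its trace is "unramified". -/
def AlgTStatement : Prop :=
  ∀ (T : Type) [CommRing T] [IsLocalRing T] (ρ : GaloisRepAdic T),
    ρ.residual.IsAbsolutelyIrreducible →
    ∀ σ : GQ, (∀ s : GQ, LinearMap.trace T ρ.V (ρ.ρ (σ * s)) = LinearMap.trace T ρ.V (ρ.ρ s)) →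
      ρ.ρ σ = 1

/-- **[PSEUDO-U]** the universal trace: on a Tate datum every `s ∈ G_ℚ` satisfies
`X² - t(s) X + d(s)` with `t(s)` in the Hecke algebra `𝔸`. -/
def PseudoUnivStatement : Prop :=
  ∀ (p : ℕ) [Fact p.Prime] (N : ℕ) [NeZero N] (S : Finset ℕ) (M : ℕ) [NeZero M] (hNM : N ∣ M)
    (D : TateDatum p N S M hNM) (d : GQ →* ℤ_[p]ˣ), IsCycloChar p d → IsAdicContinuousChar d →
    ∃ t : GQ → D.𝔸, ∀ (s : GQ) (v : D.Λ),
      D.r s (D.r s v) - t s • D.r s v + (d s : ℤ_[p]) • v = 0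

/-- **[ZP]** a `p`-adically complete local ring of residue characteristic `p` is a
`ℤ_p`-algebra. -/
def ZpAlgebraStatement : Prop :=
  ∀ (p : ℕ) [Fact p.Prime] (R : Type) [CommRing R] [IsLocalRing R]
    [IsAdicComplete (IsLocalRing.maximalIdeal R) R],
    (p : R) ∈ IsLocalRing.maximalIdeal R → Nonempty (ℤ_[p] →+* R)

/-- **[TRACE-T]** the trace of the representation of a Hecke-Galois datum is unramified at every
prime `q ∉ S`. -/
def TraceUnramifiedStatement : Prop :=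
  ∀ (p : ℕ) [Fact p.Prime] (N : ℕ) [NeZero N] (S : Finset ℕ),
    p ∈ S → (∀ q : ℕ, q.Prime → q ∣ N → q ∈ S) →
    ∀ (𝒪 : Type) [CommRing 𝒪] [IsDomain 𝒪] [IsDiscreteValuationRing 𝒪]
      [IsAdicComplete (IsLocalRing.maximalIdeal 𝒪) 𝒪],
      (p : 𝒪) ∈ IsLocalRing.maximalIdeal 𝒪 →
    ∀ (θ : CuspForm.heckeAlgebra N 2 (↑S : Set ℕ) →+* IsLocalRing.ResidueField 𝒪)
      (T : Type) [CommRing T] [IsLocalRing T] [IsNoetherianRing T]
      [IsAdicComplete (IsLocalRing.maximalIdeal T) T] [Algebra 𝒪 T]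
      [IsLocalHom (algebraMap 𝒪 T)] [Module.Finite 𝒪 T] [Module.Free 𝒪 T]
      (H : CuspForm.HeckeGaloisRepDatum N (↑S : Set ℕ) 𝒪 θ T)
      (q : ℕ), q.Prime → q ∉ S →
      ∀ A : ValuationSubring Qbar, A.LiesOverPrime q → ∀ σ ∈ A.inertiaSubgroupIn ℚ,
        ∀ s : GQ, LinearMap.trace T H.ρ.V (H.ρ.ρ (σ * s)) = LinearMap.trace T H.ρ.V (H.ρ.ρ s)

/-- **[EIGVAL]** the eigen-character of a normalised eigenform: a ring homomorphism from the
Hecke algebra away from `S` to the algebraic integers sending `T_ℓ` to `a_ℓ(g)`. -/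
def EigenCharStatement : Prop :=
  ∀ (N : ℕ) [NeZero N] (S : Finset ℕ), (∀ q : ℕ, q.Prime → q ∣ N → q ∈ S) →
    ∀ g : CuspForm (Gamma0 N) 2, g.IsNormalizedEigenform →
      ∃ χ : CuspForm.heckeAlgebra N 2 (↑S : Set ℕ) →+* integralClosure ℤ ℂ,
        ∀ (ℓ : ℕ) (hℓ : ℓ.Prime) (hℓN : ¬ ℓ ∣ N) (hℓS : ℓ ∉ (↑S : Set ℕ)),
          ((χ (CuspForm.heckeAlgebra.T hℓ hℓN hℓS) : integralClosure ℤ ℂ) : ℂ) =
            ModularFormClass.qCoeff g ℓ

/-- **[KBAR]** the image of the ring of algebraic integers in a field is an algebraically closed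
subfield. -/
def KbarStatement : Prop :=
  ∀ (k : Type) [Field k] (φ : integralClosure ℤ ℂ →+* k),
    ∃ F : Subfield k, (F : Set k) = Set.range φ ∧ IsAlgClosed F

end Fermat.Agent.P3

end
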