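import Fermat.Agent.P3.Interface

/-!
# P3: interface of the geometric side, version 2

`KappaStatement` + `FiniteTorsionStatement` replace `BettiStatement` + `FaithStatement` of
`Interface.lean` as inputs of the Tate assembly (they are weaker and are what the analytic
packages [AN4]-[AN6], [DESC] actually produce).
-/

set_option autoImplicit false

noncomputable section

namespace Fermat.Agent.P3

open CongruenceSubgroup

/-- **[FIN]** the `p`-torsion of `J₀(M)` is finite. -/
def FiniteTorsionStatement (M p : ℕ) [NeZero M] : Prop :=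
  Finite (JTors M p 1)

/-- The operator attached to a word in additive endomorphisms. -/
def wordEnd {X : Type*} [AddCommGroup X] (T : Nat.Primes → X →+ X) :
    List Nat.Primes → X →+ X
  | [] => AddMonoidHom.id X
  | ℓ :: w => (T ℓ).comp (wordEnd T w)

/-- **[KAPPA]** (= [AN4]-[AN6] + [DESC] + period lattice): a finite free `ℤ`-module `X`
(the lattice characters `Hom(perLat, ℤ)`) with Hecke operators `Tst ℓ`, and for every `n` a
homomorphism `κ n : X → J₀(M)[p^n]` with kernel `p^n X`, Hecke equivariant for the good primes,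
compatible with the transition maps, such that the Hecke action on `X` is faithful w.r.t. the
Hecke algebra of `S₂(Γ₀(N))` away from `S`. -/
def KappaStatement (p N M : ℕ) [NeZero N] [NeZero M] (S : Finset ℕ) (hNM : N ∣ M) : Prop :=
  ∃ (X : Type) (_ : AddCommGroup X) (_ : Module.Free ℤ X) (_ : Module.Finite ℤ X)
    (Tst : Nat.Primes → X →+ X) (κ : ∀ n : ℕ, X →+ ModularCurve.JZero M),
    (∀ (n : ℕ) (x : X), p ^ n • κ n x = 0) ∧
    (∀ (n : ℕ) (x : X), κ n x = 0 → ∃ y : X, x = p ^ n • y) ∧
    (∀ (n : ℕ) (x : X), p • κ (n + 1) x = κ n x) ∧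
    (∀ (n : ℕ) (ℓ : GoodPrime p M S) (x : X),
        κ n (Tst ℓ.toPrimes x) = ModularCurve.heckeOperatorBar M ℓ.toPrimes (κ n x)) ∧
    (∀ c : List (GoodPrime p M S) →₀ ℤ,
      (∀ x : X, (c.sum fun w a => a • wordEnd Tst (w.map GoodPrime.toPrimes) x) = 0) →
        (c.sum fun w a => a • (w.map (goodT hNM)).prod) = 0)

/-- **[TATE]** assembly, version 2: the Tate datum from P2-CORE, Galois-Hecke commutation,
continuity, finiteness of the `p`-torsion and `κ`. -/
def TateAssemblyStatement2 : Prop :=
  ∀ (p : ℕ) [Fact p.Prime] (N : ℕ) [NeZero N] (S : Finset ℕ) (M : ℕ) [NeZero M] (hNM : N ∣ M),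
    p ∈ S → P2CoreStatement M p → GalHeckeCommStatement M → TorsionContinuityStatement M →
      FiniteTorsionStatement M p → KappaStatement p N M S hNM → TateStatement p N S M hNM

end Fermat.Agent.P3

end
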