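import Fermat.Agent.P3.Interface2

/-!
# P3: interface, version 3 (final-wiring shapes)

* `TateAtGoodLevels`    : Tate data at the two auxiliary levels `4N` and `9N`.
* `PseudoFrobStatement` : [PSEUDO] with the hypothesis `d φ = ℓ` at Frobenius lifts (instead of
  `IsCycloChar`).
* `AlgTraceStatement`   : [ALG-3] = [ALG] with the TRACE criterion.
* `StrongS30Statement`  : S30 with the representation over `𝒪'` itself.
-/

set_option autoImplicit false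

noncomputable section

namespace Fermat.Agent.P3

open Polynomial

/-- Tate data at the two auxiliary levels `4N` and `9N`. -/
def TateAtGoodLevels : Prop :=
  ∀ (p : ℕ) [Fact p.Prime] (N : ℕ) [NeZero N] (S : Finset ℕ), p ∈ S →
    (∀ q : ℕ, q.Prime → q ∣ N → q ∈ S) →
    TateStatement p N S (4 * N) (Dvd.intro_left 4 rfl) ∧
      TateStatement p N S (9 * N) (Dvd.intro_left 9 rfl)

/-- **[PSEUDO]**, Frobenius form: if at almost all primes `ℓ` every Frobenius lift `φ` satisfies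
`d φ = ℓ` and `X² - a_ℓ X + ℓ` on a nonzero lattice, then every `s ∈ G_ℚ` satisfies
`X² - t(s) X + d(s)` for some function `t`. -/
def PseudoFrobStatement : Prop :=
  ∀ (𝒪 : Type) [CommRing 𝒪] [IsDomain 𝒪] [IsLocalRing 𝒪]
    [IsPrincipalIdealRing 𝒪] [IsAdicComplete (IsLocalRing.maximalIdeal 𝒪) 𝒪]
    (L : Type) [AddCommGroup L] [Module 𝒪 L] [Module.Free 𝒪 L] [Module.Finite 𝒪 L]
    [Nontrivial L] (r : GQ →* Module.End 𝒪 L), GaloisActionIsAdicContinuous 𝒪 r →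
    ∀ (d : GQ →* 𝒪ˣ), IsAdicContinuousChar d →
    ∀ (Bad : Finset ℕ) (a : ℕ → 𝒪),
      (∀ ℓ : ℕ, ℓ.Prime → ℓ ∉ Bad → ∀ A : ValuationSubring Qbar, A.LiesOverPrime ℓ →
        ∀ φ : GQ, A.IsFrobeniusAt φ ℓ →
          (d φ : 𝒪) = (ℓ : 𝒪) ∧
            r φ * r φ - a ℓ • r φ + (ℓ : 𝒪) • (1 : Module.End 𝒪 L) = 0) →
      ∃ t : GQ → 𝒪, QuadraticRel r t d

/-- **[ALG-3]** = [ALG] with the trace criterion (hypotheses verbatim as in
`helper22.exists_galoisRepAdic_of_quadratic`). -/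
def AlgTraceStatement : Prop :=
  ∀ (𝒪 : Type) [CommRing 𝒪] [IsDomain 𝒪] [IsPrincipalIdealRing 𝒪] [IsLocalRing 𝒪]
    (M : Type) [AddCommGroup M] [Module 𝒪 M] [Module.Free 𝒪 M] [Module.Finite 𝒪 M]
    [Nontrivial M], (2 : 𝒪) ≠ 0 →
    ∀ (r : GQ →* Module.End 𝒪 M), GaloisActionIsAdicContinuous 𝒪 r →
    ∀ (t : GQ → 𝒪) (d : GQ →* 𝒪),
      (∀ n : ℕ, ∃ L : IntermediateField ℚ Qbar, FiniteDimensional ℚ L ∧
        ∀ σ : GQ, (∀ x ∈ L, σ x = x) → d σ - 1 ∈ IsLocalRing.maximalIdeal 𝒪 ^ n) →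
      (∀ σ, r σ * r σ - t σ • r σ + d σ • (1 : Module.End 𝒪 M) = 0) →
    ∀ c : GQ, c * c = 1 → d c = -1 →
      ∃ ρ : GaloisRepAdic 𝒪,
        (∀ σ, LinearMap.charpoly (ρ.ρ σ) = X ^ 2 - C (t σ) * X + C (d σ)) ∧
        (∀ σ, (∀ s, t (σ * s) = t s) → d σ = 1 → ρ.ρ σ = 1)

/-- **Strong S30**: the Galois representation attached to `χ : 𝕋 → 𝒪'` over `𝒪'` itself. -/
def StrongS30Statement : Prop :=
  ∀ (p : ℕ) [Fact p.Prime] (N : ℕ) [NeZero N] (S : Finset ℕ)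
    (_hpS : p ∈ S) (_hNS : ∀ q : ℕ, q.Prime → q ∣ N → q ∈ S)
    (𝒪' : Type) [CommRing 𝒪'] [IsDomain 𝒪'] [IsDiscreteValuationRing 𝒪']
    [IsAdicComplete (IsLocalRing.maximalIdeal 𝒪') 𝒪'] [Finite (IsLocalRing.ResidueField 𝒪')]
    [CharZero 𝒪'] (_hp𝒪' : (p : 𝒪') ∈ IsLocalRing.maximalIdeal 𝒪')
    (χ : CuspForm.heckeAlgebra N 2 (↑S : Set ℕ) →+* 𝒪'),
    ∃ ρ : GaloisRepAdic 𝒪',
      (∀ (ℓ : ℕ) (hℓ : ℓ.Prime) (hℓN : ¬ ℓ ∣ N) (hℓS : ℓ ∉ (↑S : Set ℕ)),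
        ∀ A : ValuationSubring (AlgebraicClosure ℚ), A.LiesOverPrime ℓ →
          ∀ σ : AlgebraicClosure ℚ ≃ₐ[ℚ] AlgebraicClosure ℚ, A.IsFrobeniusAt σ ℓ →
            LinearMap.charpoly (ρ.ρ σ) =
              X ^ 2 - C (χ (CuspForm.heckeAlgebra.T hℓ hℓN hℓS)) * X + C ((ℓ : 𝒪'))) ∧
      (∀ q : ℕ, q.Prime → ¬ q ∣ N → q ≠ p → ρ.IsUnramifiedAt q)

end Fermat.Agent.P3

end
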