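import Fermat.Agent.P3.Interface

/-!
# P3 [GALH]: the Galois action on `J₀(M)` commutes with the Hecke operators

Transport of structure: a pair of semilinear automorphisms `g` of `F` and `g'` of `F'`
intertwined by a finite morphism `φ : F → F'` commutes with restriction of places, ramification
indices, inertia degrees, hence with pull-back and push-forward of divisors, hence with
correspondences on `Pic⁰`.  The arithmetic Galois action (coefficientwise on Laurent series)
intertwines both degeneracy maps `α` (inclusion) and `β` (`q ↦ q^ℓ`).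
-/

set_option autoImplicit false
set_option linter.style.haveILetI false

noncomputable section

namespace Fermat.Agent.P3.helper10

open AlgebraicCurve
open scoped Pointwise

/-! ## Abstract transport, tower form -/

section Tower

variable {K F F' : Type*} [Field K] [Field F] [Field F']
  [Algebra K F] [Algebra K F'] [Algebra F F'] [IsScalarTower K F F']
  [Algebra.IsIntegral F F']

/-- The intertwining hypothesis in tower form. -/
def Intertwines (g : SemilinearAut K F) (g' : SemilinearAut K F') : Prop :=
  ∀ x : F, g' • algebraMap F F' x = algebraMap F F' (g • x)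

omit [IsScalarTower K F F'] [Algebra.IsIntegral F F'] in
theorem Intertwines.inv {g : SemilinearAut K F} {g' : SemilinearAut K F'}
    (h : Intertwines g g') : Intertwines g⁻¹ g'⁻¹ := fun x => by
  have hx := h (g⁻¹ • x)
  rw [smul_inv_smul] at hx
  rw [← hx, inv_smul_smul]

theorem restrict_smul {g : SemilinearAut K F} {g' : SemilinearAut K F'}
    (h : Intertwines g g') (w : Place K F') :
    (g' • w).restrict F = g • w.restrict F := by
  apply Place.ext
  ext x
  rw [Place.mem_restrict_iff, SemilinearAut.smul_toValuationSubring,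
    SemilinearAut.smul_toValuationSubring,
    ValuationSubring.mem_pointwise_smul_iff_inv_smul_mem,
    ValuationSubring.mem_pointwise_smul_iff_inv_smul_mem, Place.mem_restrict_iff, h.inv x]

omit [IsScalarTower K F F'] [Algebra.IsIntegral F F'] in
theorem ord_algebraMap_smul {g : SemilinearAut K F} {g' : SemilinearAut K F'}
    (h : Intertwines g g') (w : Place K F') (f : F) :
    (g' • w).ord (algebraMap F F' (g • f)) = w.ord (algebraMap F F' f) := by
  rw [← h f]
  exact SemilinearAut.ord_smul g' w _

omit [IsScalarTower K F F'] [Algebra.IsIntegral F F'] in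
theorem ramificationIndex_smul {g : SemilinearAut K F} {g' : SemilinearAut K F'}
    (h : Intertwines g g') (w : Place K F') :
    (g' • w).ramificationIndex F = w.ramificationIndex F := by
  unfold Place.ramificationIndex
  congr 1
  ext n
  constructor
  · rintro ⟨hn, f, hf, hford⟩
    refine ⟨hn, g⁻¹ • f, ?_, ?_⟩
    · intro h0
      apply hf
      have := congrArg (g • ·) h0
      simpa using this
    · rw [← hford, ← ord_algebraMap_smul h w (g⁻¹ • f), smul_inv_smul]
  · rintro ⟨hn, f, hf, hford⟩
    refine ⟨hn, g • f, ?_, ?_⟩
    · intro h0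
      apply hf
      have := congrArg (g⁻¹ • ·) h0
      simpa using this
    · rw [← hford, ord_algebraMap_smul h w f]

/-- The ring isomorphism between the valuation rings of `w|_F` and `(g' w)|_F` induced by `g`. -/
def restrictEquiv {g : SemilinearAut K F} {g' : SemilinearAut K F'}
    (h : Intertwines g g') (w : Place K F') :
    (w.restrict F).toValuationSubring ≃+* ((g' • w).restrict F).toValuationSubring where
  toFun x := ⟨g • (x : F), by
    rw [Place.mem_restrict_iff, ← h]
    exact ValuationSubring.smul_mem_pointwise_smul g' _ w.toValuationSubring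
      (Place.mem_restrict_iff (w := w).mp x.2)⟩
  invFun y := ⟨g⁻¹ • (y : F), by
    rw [Place.mem_restrict_iff, ← h.inv]
    exact (ValuationSubring.mem_pointwise_smul_iff_inv_smul_mem (g := g')
      (S := w.toValuationSubring)).mp (Place.mem_restrict_iff (w := g' • w).mp y.2)⟩
  left_inv x := by ext; simp
  right_inv y := by ext; simp
  map_mul' x y := Subtype.ext (map_mul (SemilinearAut.toRingAut g) (x : F) (y : F))
  map_add' x y := Subtype.ext (map_add (SemilinearAut.toRingAut g) (x : F) (y : F))

theorem inertiaDeg_smul {g : SemilinearAut K F} {g' : SemilinearAut K F'}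
    (h : Intertwines g g') (w : Place K F') :
    (g' • w).inertiaDeg F = w.inertiaDeg F := by
  unfold Place.inertiaDeg
  refine (Algebra.finrank_eq_of_equiv_equiv
    (IsLocalRing.ResidueField.mapEquiv (restrictEquiv h w))
    (SemilinearAut.smulResidueRingEquiv g' w) ?_).symm
  refine RingHom.ext fun a => ?_
  obtain ⟨a, rfl⟩ := IsLocalRing.residue_surjective a
  show Place.restrictResidueMap F (g' • w)
      (IsLocalRing.ResidueField.mapEquiv (restrictEquiv h w) (IsLocalRing.residue _ a))
    = IsLocalRing.ResidueField.mapEquiv
        (SemilinearAut.smulValuationSubringEquiv g' w.toValuationSubring)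
        (Place.restrictResidueMap F w (IsLocalRing.residue _ a))
  rw [IsLocalRing.ResidueField.mapEquiv_apply, IsLocalRing.ResidueField.map_residue,
    Place.restrictResidueMap_residue, Place.restrictResidueMap_residue,
    IsLocalRing.ResidueField.mapEquiv_apply, IsLocalRing.ResidueField.map_residue]
  refine congrArg _ (Subtype.ext ?_)
  exact (h (a : F)).symm

theorem pullback_smul [HasPrincipalDivisors K F'] {g : SemilinearAut K F}
    {g' : SemilinearAut K F'} (h : Intertwines g g') (D : Divisor K F) :
    Divisor.pullback F' (g • D) = g' • Divisor.pullback F' D := by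
  ext w
  rw [Divisor.pullback_apply, SemilinearAut.divisor_smul_apply,
    SemilinearAut.divisor_smul_apply, Divisor.pullback_apply, restrict_smul h.inv,
    ramificationIndex_smul h.inv]

theorem pushforward_smul {g : SemilinearAut K F} {g' : SemilinearAut K F'}
    (h : Intertwines g g') (E : Divisor K F') :
    Divisor.pushforward F (g' • E) = g • Divisor.pushforward F E := by
  induction E using Finsupp.induction with
  | zero => simp
  | single_add w n E _ _ ih =>
    rw [smul_add, map_add, map_add, smul_add, ih, SemilinearAut.smul_single,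
      Divisor.pushforward_single, Divisor.pushforward_single, SemilinearAut.smul_single,
      restrict_smul h, inertiaDeg_smul h]

end Tower

/-! ## Abstract transport, along a morphism of function fields -/

section Along

variable {K F F' : Type*} [Field K] [Field F] [Field F'] [Algebra K F] [Algebra K F']

theorem restrictAlong_smul (φ : F →ₐ[K] F') (hφ : φ.toRingHom.IsIntegral)
    {g : SemilinearAut K F} {g' : SemilinearAut K F'}
    (h : SemilinearAut.IntertwinesAlong (φ : F →+* F') g g') (w : Place K F') :
    (g' • w).restrictAlong φ hφ = g • w.restrictAlong φ hφ := by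
  letI := algebraAlong φ
  haveI := isScalarTower_along φ
  haveI := isIntegral_along φ hφ
  exact restrict_smul (fun x => h x) w

theorem ramificationIndexAlong_smul (φ : F →ₐ[K] F')
    {g : SemilinearAut K F} {g' : SemilinearAut K F'}
    (h : SemilinearAut.IntertwinesAlong (φ : F →+* F') g g') (w : Place K F') :
    (g' • w).ramificationIndexAlong φ = w.ramificationIndexAlong φ := by
  letI := algebraAlong φ
  exact ramificationIndex_smul (fun x => h x) w

theorem inertiaDegAlong_smul (φ : F →ₐ[K] F') (hφ : φ.toRingHom.IsIntegral)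
    {g : SemilinearAut K F} {g' : SemilinearAut K F'}
    (h : SemilinearAut.IntertwinesAlong (φ : F →+* F') g g') (w : Place K F') :
    (g' • w).inertiaDegAlong φ hφ = w.inertiaDegAlong φ hφ := by
  letI := algebraAlong φ
  haveI := isScalarTower_along φ
  haveI := isIntegral_along φ hφ
  exact inertiaDeg_smul (fun x => h x) w

theorem pullbackAlong_smul [HasPrincipalDivisors K F'] (φ : F →ₐ[K] F')
    (hφ : φ.toRingHom.IsIntegral) {g : SemilinearAut K F} {g' : SemilinearAut K F'}
    (h : SemilinearAut.IntertwinesAlong (φ : F →+* F') g g') (D : Divisor K F) :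
    Divisor.pullbackAlong φ hφ (g • D) = g' • Divisor.pullbackAlong φ hφ D := by
  letI := algebraAlong φ
  haveI := isScalarTower_along φ
  haveI := isIntegral_along φ hφ
  exact pullback_smul (fun x => h x) D

theorem pushforwardAlong_smul (φ : F →ₐ[K] F') (hφ : φ.toRingHom.IsIntegral)
    {g : SemilinearAut K F} {g' : SemilinearAut K F'}
    (h : SemilinearAut.IntertwinesAlong (φ : F →+* F') g g') (E : Divisor K F') :
    Divisor.pushforwardAlong φ hφ (g' • E) = g • Divisor.pushforwardAlong φ hφ E := by
  letI := algebraAlong φ
  haveI := isScalarTower_along φ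
  haveI := isIntegral_along φ hφ
  exact pushforward_smul (fun x => h x) E

variable [HasPrincipalDivisors K F']
variable (φ ψ : F →ₐ[K] F') (hφ : φ.toRingHom.IsIntegral) (hψ : ψ.toRingHom.IsIntegral)

theorem divisor_correspondence_smul {g : SemilinearAut K F} {g' : SemilinearAut K F'}
    (hgφ : SemilinearAut.IntertwinesAlong (φ : F →+* F') g g')
    (hgψ : SemilinearAut.IntertwinesAlong (ψ : F →+* F') g g') (D : Divisor K F) :
    Divisor.correspondence φ ψ hφ hψ (g • D) = g • Divisor.correspondence φ ψ hφ hψ D := by
  rw [Divisor.correspondence_apply, Divisor.correspondence_apply, pullbackAlong_smul φ hφ hgφ,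
    pushforwardAlong_smul ψ hψ hgψ]

theorem pic0_correspondence_smul (hFI : FundamentalIdentityAlong K φ hφ)
    (hfin : FiniteAlong K ψ) (hN : NormFormulaAlong K ψ hfin)
    {g : SemilinearAut K F} {g' : SemilinearAut K F'}
    (hgφ : SemilinearAut.IntertwinesAlong (φ : F →+* F') g g')
    (hgψ : SemilinearAut.IntertwinesAlong (ψ : F →+* F') g g') (x : Pic0 K F) :
    Pic0.correspondence φ ψ hφ hψ hFI hfin hN (g • x)
      = g • Pic0.correspondence φ ψ hφ hψ hFI hfin hN x := by
  obtain ⟨D, rfl⟩ := Pic0.mk_surjective x
  rw [SemilinearAut.pic0_smul_mk, Pic0.correspondence_mk, Pic0.correspondence_mk,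
    SemilinearAut.pic0_smul_mk]
  refine congrArg Pic0.mk (Subtype.ext ?_)
  rw [Pic0.coe_degZeroCorrespondence, SemilinearAut.coe_degZeroSMulHom,
    SemilinearAut.coe_degZeroSMulHom, Pic0.coe_degZeroCorrespondence]
  exact divisor_correspondence_smul φ ψ hφ hψ hgφ hgψ _

end Along

/-! ## The modular case -/

section Modular

open ModularCurve

variable {L : Type*} [Field L] [Algebra ℚ L] (N ℓ : ℕ) [NeZero N] [NeZero ℓ]

theorem coeffMap_qExpand_aux {R S : Type*} [CommRing R] [CommRing S] (f : R →+* S) (n : ℕ)
    [NeZero n] (x : LaurentSeries R) :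
    coeffMap f (qExpand R n x) = qExpand S n (coeffMap f x) := by
  ext k
  by_cases hk : (n : ℤ) ∣ k
  · obtain ⟨m, rfl⟩ := hk
    rw [coeffMap_coeff, qExpand_coeff_mul, qExpand_coeff_mul, coeffMap_coeff]
  · rw [coeffMap_coeff, qExpand_coeff_of_not_dvd n _ hk, qExpand_coeff_of_not_dvd n _ hk,
      map_zero]

theorem intertwines_heckeAlphaBar (σ : L ≃ₐ[ℚ] L) :
    SemilinearAut.IntertwinesAlong ((heckeAlphaBar L N ℓ) : _ →+* _)
      (arithmeticGalois (modularFunctionFieldFull N) σ)
      (arithmeticGalois (modularFunctionFieldFull (N * ℓ)) σ) := fun x => Subtype.ext <| by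
  show coeffMap (σ : L →+* L) ((heckeAlphaBar L N ℓ x : _) : LaurentSeries L)
    = ((heckeAlphaBar L N ℓ (arithmeticGalois (modularFunctionFieldFull N) σ • x) : _) :
        LaurentSeries L)
  rw [coe_heckeAlphaBar, coe_heckeAlphaBar, coe_arithmeticGalois_smul]

theorem intertwines_heckeBetaBar (σ : L ≃ₐ[ℚ] L) :
    SemilinearAut.IntertwinesAlong ((heckeBetaBar L N ℓ) : _ →+* _)
      (arithmeticGalois (modularFunctionFieldFull N) σ)
      (arithmeticGalois (modularFunctionFieldFull (N * ℓ)) σ) := fun x => Subtype.ext <| by
  show coeffMap (σ : L →+* L) ((heckeBetaBar L N ℓ x : _) : LaurentSeries L)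
    = ((heckeBetaBar L N ℓ (arithmeticGalois (modularFunctionFieldFull N) σ • x) : _) :
        LaurentSeries L)
  rw [coe_heckeBetaBar, coe_heckeBetaBar, coe_arithmeticGalois_smul, coeffMap_qExpand_aux]

/-- The arithmetic Galois action commutes with the (total) Hecke operator on `Pic⁰`. -/
theorem heckeOperatorAlong_galois_smul (σ : L ≃ₐ[ℚ] L)
    (x : Pic0 L (laurentBaseChange L (modularFunctionFieldFull N))) :
    heckeOperatorAlong L N ℓ (σ • x) = σ • heckeOperatorAlong L N ℓ x := by
  by_cases h : HeckeInputsAlong L N ℓ
  · obtain ⟨hα, hβ, hP, hfin, hFI, hN⟩ := h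
    haveI := hP
    rw [heckeOperatorAlong_eq hα hβ hFI hfin hN, galois_smul_pic0_def, galois_smul_pic0_def]
    exact pic0_correspondence_smul (heckeBetaBar L N ℓ) (heckeAlphaBar L N ℓ) hβ hα hFI hfin hN
      (intertwines_heckeBetaBar N ℓ σ) (intertwines_heckeAlphaBar N ℓ σ) x
  · rw [heckeOperatorAlong_of_not h, AddMonoidHom.zero_apply, AddMonoidHom.zero_apply,
      smul_zero]

end Modular

/-- **[GALH]** Galois commutes with the Hecke operators on `J₀(M)`. -/
theorem galHeckeComm (M : ℕ) [NeZero M] : Fermat.Agent.P3.GalHeckeCommStatement M := by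
  intro ℓ g x
  haveI : NeZero (ℓ : ℕ) := ⟨ℓ.2.ne_zero⟩
  exact heckeOperatorAlong_galois_smul M (ℓ : ℕ) g x

end Fermat.Agent.P3.helper10

end
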