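import Mathlib
import Fermat.Prelude.Def_GaloisRep_Adic

/-!
# P3 / [ALG-T] (helper12, task 418): trace rigidity

* `span_range_eq_top_of_absIrr` : **Burnside in dimension 2** - the image of an absolutely
  irreducible 2-dimensional residual Galois representation spans `End_k(V)` (any field `k`).
* `span_range_eq_top_of_residual_absIrr` : (Nakayama) the image of a `GaloisRepAdic T` with
  absolutely irreducible residual representation spans `End_T(V)`.
* `rho_eq_one_of_trace_mul_eq` : if `tr ρ(s g) = tr ρ(g)` for all `g` and the residual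
  representation is absolutely irreducible, then `ρ(s) = 1`.

Tools (all for finite free modules over a commutative ring, or dimension 2 over a field):
`mul_mul_self_fin_two` (`Y a Y = tr(Y a) Y - det(Y) adj(a)` for `2 × 2` matrices),
`exists_trace_repr_end` (every functional on `End V` is `a ↦ tr (X a)`),
`eq_zero_of_trace_mul_eq_zero` (nondegeneracy of the trace form),
`exists_stable_of_trace_orth` (Burnside over an algebraically closed field, orthogonal form).
-/

set_option autoImplicit false

open scoped TensorProduct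

namespace Fermat.Agent.P3.helper12

open Matrix

/-- Key identity for `2 × 2` matrices: `Y a Y = tr(Y a) Y - det(Y) adj(a)`. -/
theorem mul_mul_self_fin_two {R : Type*} [CommRing R] (Y a : Matrix (Fin 2) (Fin 2) R) :
    Y * a * Y = (Y * a).trace • Y - Y.det • a.adjugate := by
  ext i j
  fin_cases i <;> fin_cases j <;>
    simp [Matrix.mul_apply, Fin.sum_univ_two, Matrix.trace_fin_two, Matrix.det_fin_two,
      Matrix.adjugate_fin_two] <;> ring

section TraceForm

variable {R : Type*} [CommRing R]

/-- Every linear functional on square matrices is `m ↦ tr (X m)`. -/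
theorem exists_trace_repr_matrix {n : Type*} [Fintype n] [DecidableEq n]
    (f : Matrix n n R →ₗ[R] R) : ∃ X : Matrix n n R, ∀ m, (X * m).trace = f m := by
  refine ⟨Matrix.of fun j i => f (Matrix.single i j 1), fun m => ?_⟩
  conv_rhs => rw [matrix_eq_sum_single m]
  simp only [map_sum, Matrix.trace, Matrix.diag, Matrix.mul_apply, Matrix.of_apply]
  rw [Finset.sum_comm]
  refine Finset.sum_congr rfl fun i _ => Finset.sum_congr rfl fun j _ => ?_
  have h1 : Matrix.single i j (m i j) = m i j • Matrix.single i j (1 : R) := by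
    rw [Matrix.smul_single, smul_eq_mul, mul_one]
  rw [h1, map_smul, smul_eq_mul, mul_comm]

variable {V : Type*} [AddCommGroup V] [Module R V] [Module.Free R V] [Module.Finite R V]

/-- Every linear functional on `End V` (`V` finite free) is `a ↦ tr (X a)`. -/
theorem exists_trace_repr_end [Nontrivial R] (f : Module.End R V →ₗ[R] R) :
    ∃ X : Module.End R V, ∀ a, LinearMap.trace R V (X * a) = f a := by
  classical
  let b := Module.Free.chooseBasis R V
  let φ := LinearMap.toMatrixAlgEquiv b
  obtain ⟨X', hX'⟩ := exists_trace_repr_matrix (f ∘ₗ φ.symm.toLinearMap)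
  refine ⟨φ.symm X', fun a => ?_⟩
  have h1 : LinearMap.trace R V (φ.symm X' * a) = (φ (φ.symm X' * a)).trace :=
    LinearMap.trace_eq_matrix_trace R b _
  rw [h1, map_mul, AlgEquiv.apply_symm_apply, hX']
  simp

/-- Nondegeneracy of the trace form on `End V` (`V` finite free). -/
theorem eq_zero_of_trace_mul_eq_zero [Nontrivial R] (x : Module.End R V)
    (h : ∀ a, LinearMap.trace R V (x * a) = 0) : x = 0 := by
  classical
  let b := Module.Free.chooseBasis R V
  let φ := LinearMap.toMatrixAlgEquiv b
  apply φ.injective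
  rw [map_zero]
  refine Matrix.ext_iff_trace_mul_right.2 fun m => ?_
  have h1 : LinearMap.trace R V (x * φ.symm m) = (φ (x * φ.symm m)).trace :=
    LinearMap.trace_eq_matrix_trace R b _
  have h2 : φ (x * φ.symm m) = φ x * m := by
    rw [map_mul φ, AlgEquiv.apply_symm_apply]
  rw [h2, h] at h1
  rw [← h1, zero_mul, Matrix.trace_zero]

/-- In rank 2: if `det Z = 0` and `tr (Z a) = 0` then `Z a Z = 0`. -/
theorem mul_mul_self_eq_zero [Nontrivial R] (h2 : Module.finrank R V = 2) (Z a : Module.End R V)
    (hdet : LinearMap.det Z = 0) (htr : LinearMap.trace R V (Z * a) = 0) : Z * a * Z = 0 := by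
  classical
  let b := Module.finBasisOfFinrankEq R V h2
  apply (LinearMap.toMatrixAlgEquiv b).injective
  have h1 : (LinearMap.toMatrixAlgEquiv b Z * LinearMap.toMatrixAlgEquiv b a).trace = 0 := by
    rw [← map_mul, ← htr, LinearMap.trace_eq_matrix_trace R b]
    rfl
  have h3 : (LinearMap.toMatrixAlgEquiv b Z).det = 0 := by
    rw [← hdet, ← LinearMap.det_toMatrix b]
    rfl
  rw [map_mul, map_mul, map_zero, mul_mul_self_fin_two, h1, h3, zero_smul, zero_smul, sub_zero]

end TraceForm

section BaseChange

variable {R : Type*} [CommRing R] (A : Type*) [CommRing A] [Algebra R A]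
  {V : Type*} [AddCommGroup V] [Module R V]

/-- The matrix entries of an endomorphism whose base change vanishes are killed by
`algebraMap R A`. -/
theorem algebraMap_toMatrix_eq_zero_of_baseChange_eq_zero {ι : Type*} [Fintype ι] [DecidableEq ι]
    (b : Module.Basis ι R V) (f : Module.End R V) (hf : f.baseChange A = 0) (i j : ι) :
    algebraMap R A (LinearMap.toMatrix b b f i j) = 0 := by
  have h := LinearMap.toMatrix_baseChange A f b b
  rw [hf, map_zero] at h
  have h2 := congrFun (congrFun h i) j
  simpa using h2.symm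

variable [Module.Free R V] [Module.Finite R V]

/-- Base change along an injective ring map is injective on endomorphisms of a finite free
module. -/
theorem eq_zero_of_baseChange_eq_zero (hinj : Function.Injective (algebraMap R A))
    (f : Module.End R V) (hf : f.baseChange A = 0) : f = 0 := by
  classical
  let b := Module.Free.chooseBasis R V
  apply (LinearMap.toMatrix b b).injective
  rw [map_zero]
  ext i j
  apply hinj
  rw [algebraMap_toMatrix_eq_zero_of_baseChange_eq_zero A b f hf i j]
  simp

/-- An endomorphism of a finite free module whose base change to `R ⧸ I`-like algebra `A`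
vanishes lies in `I • ⊤`, where `I` is any ideal containing the kernel of `algebraMap R A`. -/
theorem mem_smul_top_of_baseChange_eq_zero (I : Ideal R)
    (hI : ∀ r : R, algebraMap R A r = 0 → r ∈ I)
    (f : Module.End R V) (hf : f.baseChange A = 0) :
    f ∈ I • (⊤ : Submodule R (Module.End R V)) := by
  classical
  let b := Module.Free.chooseBasis R V
  have h1 : f = (LinearMap.toMatrix b b).symm (LinearMap.toMatrix b b f) :=
    ((LinearMap.toMatrix b b).symm_apply_apply f).symm
  rw [h1, matrix_eq_sum_single (LinearMap.toMatrix b b f), map_sum]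
  refine Submodule.sum_mem _ fun i _ => ?_
  rw [map_sum]
  refine Submodule.sum_mem _ fun j _ => ?_
  have h2 : Matrix.single i j (LinearMap.toMatrix b b f i j) =
      LinearMap.toMatrix b b f i j • Matrix.single i j (1 : R) := by
    rw [Matrix.smul_single, smul_eq_mul, mul_one]
  rw [h2, map_smul]
  exact Submodule.smul_mem_smul
    (hI _ (algebraMap_toMatrix_eq_zero_of_baseChange_eq_zero A b f hf i j)) Submodule.mem_top

end BaseChange

section Burnside

variable {K : Type*} [Field K] {V : Type*} [AddCommGroup V] [Module K V] [Module.Finite K V]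
  {G : Type*} [Monoid G]

/-- Case 1: a nonzero singular endomorphism orthogonal (for the trace form) to the image of `ρ`
produces a proper nonzero stable subspace. -/
theorem exists_stable_of_det_eq_zero (h2 : Module.finrank K V = 2) (ρ : G →* Module.End K V)
    (Z : Module.End K V) (hZ : Z ≠ 0) (hdet : LinearMap.det Z = 0)
    (horth : ∀ g, LinearMap.trace K V (Z * ρ g) = 0) :
    ∃ W : Submodule K V, (∀ g, ∀ x ∈ W, ρ g x ∈ W) ∧ W ≠ ⊥ ∧ W ≠ ⊤ := by
  refine ⟨Submodule.span K {w | ∃ g v, w = ρ g (Z v)}, ?_, ?_, ?_⟩
  · intro g x hx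
    induction hx using Submodule.span_induction with
    | mem x hx =>
      obtain ⟨h, v, rfl⟩ := hx
      exact Submodule.subset_span ⟨g * h, v, by rw [map_mul]; rfl⟩
    | zero => rw [map_zero]; exact Submodule.zero_mem _
    | add x y _ _ hx hy => rw [map_add]; exact add_mem hx hy
    | smul c x _ hx => rw [map_smul]; exact Submodule.smul_mem _ _ hx
  · obtain ⟨v, hv⟩ : ∃ v, Z v ≠ 0 := by
      by_contra h
      exact hZ (LinearMap.ext fun v => by_contra fun hv => h ⟨v, hv⟩)
    intro h
    have hmem : Z v ∈ Submodule.span K {w | ∃ g v, w = ρ g (Z v)} :=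
      Submodule.subset_span ⟨1, v, by rw [map_one]; rfl⟩
    rw [h, Submodule.mem_bot] at hmem
    exact hv hmem
  · have hle : Submodule.span K {w | ∃ g v, w = ρ g (Z v)} ≤ LinearMap.ker Z := by
      rw [Submodule.span_le]
      rintro _ ⟨g, v, rfl⟩
      have h0 := mul_mul_self_eq_zero h2 Z (ρ g) hdet (horth g)
      exact LinearMap.congr_fun h0 v
    intro h
    rw [h, top_le_iff, LinearMap.ker_eq_top] at hle
    exact hZ hle

/-- **Burnside, dimension 2, orthogonal form.** Over an algebraically closed field, if a nonzero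
endomorphism `Y` of a 2-dimensional space is orthogonal (for the trace form) to the image of
`ρ`, then `ρ` has a proper nonzero stable subspace. -/
theorem exists_stable_of_trace_orth [IsAlgClosed K] (h2 : Module.finrank K V = 2)
    (ρ : G →* Module.End K V) (Y : Module.End K V) (hY : Y ≠ 0)
    (horth : ∀ g, LinearMap.trace K V (Y * ρ g) = 0) :
    ∃ W : Submodule K V, (∀ g, ∀ x ∈ W, ρ g x ∈ W) ∧ W ≠ ⊥ ∧ W ≠ ⊤ := by
  by_cases hdet : LinearMap.det Y = 0
  · exact exists_stable_of_det_eq_zero h2 ρ Y hY hdet horth
  have hnontriv : Nontrivial V := Module.nontrivial_of_finrank_pos (R := K) (by rw [h2]; norm_num)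
  by_cases hsc : ∀ g, ∃ c : K, ρ g = c • 1
  · obtain ⟨v, hv⟩ := exists_ne (0 : V)
    refine ⟨Submodule.span K {v}, ?_, ?_, ?_⟩
    · intro g x hx
      obtain ⟨c, hc⟩ := hsc g
      rw [hc, LinearMap.smul_apply, Module.End.one_apply]
      exact Submodule.smul_mem _ c hx
    · rw [Ne, Submodule.span_singleton_eq_bot]
      exact hv
    · intro h
      have h1 := finrank_span_singleton (K := K) hv
      rw [h, finrank_top, h2] at h1
      omega
  · obtain ⟨g, hg⟩ := not_forall.1 hsc
    have hg' := not_exists.1 hg
    obtain ⟨c, hc⟩ := Module.End.exists_eigenvalue (ρ g)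
    have hYu : IsUnit Y := (LinearMap.isUnit_iff_isUnit_det Y).2 (Ne.isUnit hdet)
    have hZ : (ρ g - c • 1) * Y ≠ 0 := by
      intro h0
      have h1 : ρ g - c • 1 = 0 := (hYu.mul_left_eq_zero).1 h0
      exact hg' c (sub_eq_zero.1 h1)
    have hZdet : LinearMap.det ((ρ g - c • 1) * Y) = 0 := by
      have h1 : LinearMap.det (ρ g - c • 1) = 0 := by
        rw [LinearMap.det_eq_zero_iff_ker_ne_bot, ← Module.End.eigenspace_def]
        exact Module.End.hasEigenvalue_iff.mp hc
      rw [map_mul, h1, zero_mul]
    have hZorth : ∀ h, LinearMap.trace K V ((ρ g - c • 1) * Y * ρ h) = 0 := by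
      intro h
      rw [mul_assoc, LinearMap.trace_mul_comm, mul_sub, map_sub, mul_assoc, ← map_mul, horth,
        mul_smul_comm, mul_one, map_smul, horth, smul_zero, sub_zero]
    exact exists_stable_of_det_eq_zero h2 ρ _ hZ hZdet hZorth

end Burnside

/-- **Burnside in dimension 2** for residual Galois representations: the image of an absolutely
irreducible representation spans `End_k(V)` (any field `k`, no oddness, `p = 2` allowed). -/
theorem span_range_eq_top_of_absIrr {k : Type} [Field k] (ρbar : ResidualGaloisRep k)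
    (habs : ρbar.IsAbsolutelyIrreducible) : Submodule.span k (Set.range ρbar.ρ) = ⊤ := by
  by_contra hne
  obtain ⟨f, hf0, hf⟩ := Submodule.exists_le_ker_of_lt_top _ (lt_top_iff_ne_top.2 hne)
  obtain ⟨X, hX⟩ := exists_trace_repr_end f
  have hX0 : X ≠ 0 := by
    rintro rfl
    apply hf0
    ext a
    rw [← hX, zero_mul, map_zero, LinearMap.zero_apply]
  have horth : ∀ g, LinearMap.trace k ρbar.V (X * ρbar.ρ g) = 0 := fun g => by
    rw [hX]
    exact hf (Submodule.subset_span ⟨g, rfl⟩)
  have hXK : X.baseChange (AlgebraicClosure k) ≠ 0 := fun h =>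
    hX0 (eq_zero_of_baseChange_eq_zero (AlgebraicClosure k)
      (algebraMap k (AlgebraicClosure k)).injective X h)
  have horthK : ∀ g, LinearMap.trace (AlgebraicClosure k) (ρbar.baseChange (AlgebraicClosure k)).V
      (X.baseChange (AlgebraicClosure k) * (ρbar.baseChange (AlgebraicClosure k)).ρ g) = 0 := by
    intro g
    have h1 : (ρbar.baseChange (AlgebraicClosure k)).ρ g =
        (ρbar.ρ g).baseChange (AlgebraicClosure k) := rfl
    rw [h1, ← LinearMap.baseChange_mul]
    exact (LinearMap.trace_baseChange (X * ρbar.ρ g) (AlgebraicClosure k)).trans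
      (by rw [horth, map_zero])
  obtain ⟨W, hW, hbot, htop⟩ := exists_stable_of_trace_orth
    (ρbar.baseChange (AlgebraicClosure k)).finrank_eq (ρbar.baseChange (AlgebraicClosure k)).ρ
    _ hXK horthK
  rcases habs W hW with h | h
  exacts [hbot h, htop h]

section Adic

variable {T : Type} [CommRing T] [IsLocalRing T]

/-- Every element of the `k`-span of the image of the residual representation lifts to the
`T`-span of the image of `ρ`. -/
theorem exists_mem_span_baseChange_eq (ρ : GaloisRepAdic T)
    (y : Module.End (IsLocalRing.ResidueField T) ρ.residual.V)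
    (hy : y ∈ Submodule.span (IsLocalRing.ResidueField T) (Set.range ρ.residual.ρ)) :
    ∃ f ∈ Submodule.span T (Set.range ρ.ρ), f.baseChange (IsLocalRing.ResidueField T) = y := by
  induction hy using Submodule.span_induction with
  | mem y hy =>
    obtain ⟨g, rfl⟩ := hy
    exact ⟨ρ.ρ g, Submodule.subset_span ⟨g, rfl⟩, rfl⟩
  | zero => exact ⟨0, Submodule.zero_mem _, LinearMap.baseChange_zero⟩
  | add y z _ _ hy hz =>
    obtain ⟨f, hf, rfl⟩ := hy
    obtain ⟨f', hf', rfl⟩ := hz
    exact ⟨f + f', Submodule.add_mem _ hf hf', LinearMap.baseChange_add f f'⟩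
  | smul c y _ hy =>
    obtain ⟨f, hf, rfl⟩ := hy
    obtain ⟨t, rfl⟩ := IsLocalRing.residue_surjective c
    refine ⟨t • f, Submodule.smul_mem _ _ hf, ?_⟩
    ext v
    show (1 : IsLocalRing.ResidueField T) ⊗ₜ[T] ((t • f) v) =
      (IsLocalRing.residue T t) • ((1 : IsLocalRing.ResidueField T) ⊗ₜ[T] f v)
    rw [LinearMap.smul_apply, TensorProduct.tmul_smul, TensorProduct.smul_tmul',
      TensorProduct.smul_tmul', smul_eq_mul, mul_one, Algebra.smul_def, mul_one]
    rfl

/-- (Nakayama) The image of a `GaloisRepAdic T` with absolutely irreducible residual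
representation spans `End_T(V)`. -/
theorem span_range_eq_top_of_residual_absIrr (ρ : GaloisRepAdic T)
    (habs : ρ.residual.IsAbsolutelyIrreducible) : Submodule.span T (Set.range ρ.ρ) = ⊤ := by
  have hk := span_range_eq_top_of_absIrr ρ.residual habs
  rw [eq_top_iff]
  refine Submodule.le_of_le_smul_of_le_jacobson_bot (I := IsLocalRing.maximalIdeal T)
    Module.Finite.fg_top (IsLocalRing.jacobson_eq_maximalIdeal ⊥ bot_ne_top).ge ?_
  intro f _
  obtain ⟨f', hf', hff'⟩ := exists_mem_span_baseChange_eq ρ
    (f.baseChange (IsLocalRing.ResidueField T)) (hk ▸ Submodule.mem_top)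
  have h0 : (f - f').baseChange (IsLocalRing.ResidueField T) = 0 := by
    have h := LinearMap.baseChange_sub (A := IsLocalRing.ResidueField T) f f'
    rw [hff'] at h
    rw [h]
    ext v
    simp
  have h1 := mem_smul_top_of_baseChange_eq_zero (IsLocalRing.ResidueField T)
    (IsLocalRing.maximalIdeal T)
    (fun r hr => (IsLocalRing.residue_eq_zero_iff r).1 hr) (f - f') h0
  have h2 : f = f' + (f - f') := by abel
  rw [h2]
  exact Submodule.add_mem_sup hf' h1

/-- **Trace rigidity** (P3 [ALG-T]): if the residual representation is absolutely irreducible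
and `tr ρ(s g) = tr ρ(g)` for all `g`, then `ρ(s) = 1`. -/
theorem rho_eq_one_of_trace_mul_eq {T : Type} [CommRing T] [IsLocalRing T]
    (ρ : GaloisRepAdic T) (habs : ρ.residual.IsAbsolutelyIrreducible)
    (s : AlgebraicClosure ℚ ≃ₐ[ℚ] AlgebraicClosure ℚ)
    (hs : ∀ g : AlgebraicClosure ℚ ≃ₐ[ℚ] AlgebraicClosure ℚ,
      LinearMap.trace T ρ.V (ρ.ρ (s * g)) = LinearMap.trace T ρ.V (ρ.ρ g)) :
    ρ.ρ s = 1 := by
  have hspan := span_range_eq_top_of_residual_absIrr ρ habs
  have key : ∀ a ∈ Submodule.span T (Set.range ρ.ρ),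
      LinearMap.trace T ρ.V ((ρ.ρ s - 1) * a) = 0 := by
    intro a ha
    induction ha using Submodule.span_induction with
    | mem a ha =>
      obtain ⟨g, rfl⟩ := ha
      rw [sub_mul, one_mul, ← map_mul, map_sub, hs, sub_self]
    | zero => rw [mul_zero, map_zero]
    | add a b _ _ ha hb => rw [mul_add, map_add, ha, hb, add_zero]
    | smul c a _ ha => rw [mul_smul_comm, map_smul, ha, smul_zero]
  have h0 : ρ.ρ s - 1 = 0 :=
    eq_zero_of_trace_mul_eq_zero _ fun a => key a (hspan ▸ Submodule.mem_top)
  exact sub_eq_zero.1 h0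

end Adic

end Fermat.Agent.P3.helper12
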