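import Mathlib
import Fermat.Agent.P3.helper34_Multiplier
import Fermat.Agent.S16.helper26_HeckeFun

/-!
# P3 [AN6-K-CORE]: multiplier calculus and the Hecke norm product (helper34, task 490)

`H = {z : ℂ | 0 < z.im}`.

* `moebG α : ℂ → ℂ` : Möbius transformation of `α ∈ GL₂(ℝ)` (`det α > 0`).
* `HasMult g γ c` : `g ∘ γ = c g` on a punctured neighbourhood of every point of `H`.
* `hasMult_normProd` : for a coset system `S` (helper26) over `Γ`, if `g` has multiplier `ψ` on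
  `Γ`, then `∏ i, g ∘ α i` has multiplier `γ ↦ ∏ i, ψ (step γ i)`  (= `heckeFun ψ`).
* `IsKummerChar Γ m f ψ` : `ψ` is the multiplier of a meromorphic `m`-th root of `f`;
  existence, uniqueness, multiplicativity, triviality criterion, and Hecke equivariance
  `IsKummerChar.normProd`, `IsKummerChar.normProd_heckeHom`.
-/

set_option autoImplicit false

open Filter Topology Set
open scoped MatrixGroups UpperHalfPlane
open Matrix.SpecialLinearGroup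
open Fermat.Agent.S16.helper26

namespace Fermat.Agent.P3.helper34

/-! ### Möbius transformations of `GL₂(ℝ)` on `ℂ` -/

/-- The Möbius transformation of `ℂ` attached to `α ∈ GL₂(ℝ)`. -/
noncomputable def moebG (α : GL (Fin 2) ℝ) (w : ℂ) : ℂ :=
  UpperHalfPlane.num α w / UpperHalfPlane.denom α w

theorem moebG_coe {α : GL (Fin 2) ℝ} (hα : 0 < α.det.val) (z : ℍ) :
    moebG α (z : ℂ) = ((α • z : ℍ) : ℂ) :=
  (UpperHalfPlane.coe_smul_of_det_pos hα z).symm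

theorem moebG_eq_coe {α : GL (Fin 2) ℝ} (hα : 0 < α.det.val) {w : ℂ} (hw : 0 < w.im) :
    moebG α w = ((α • (⟨w, hw⟩ : ℍ) : ℍ) : ℂ) :=
  moebG_coe hα ⟨w, hw⟩

theorem moebG_im_pos {α : GL (Fin 2) ℝ} (hα : 0 < α.det.val) {w : ℂ} (hw : 0 < w.im) :
    0 < (moebG α w).im := by
  rw [moebG_eq_coe hα hw]
  exact (α • (⟨w, hw⟩ : ℍ)).im_pos

theorem det_mul_pos {α β : GL (Fin 2) ℝ} (hα : 0 < α.det.val) (hβ : 0 < β.det.val) :
    0 < (α * β).det.val := by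
  rw [map_mul, Units.val_mul]
  exact mul_pos hα hβ

theorem det_mapGL_pos (γ : SL(2, ℤ)) : 0 < (mapGL ℝ γ).det.val := by
  rw [det_mapGL]
  simp

theorem moebG_mul {α β : GL (Fin 2) ℝ} (hα : 0 < α.det.val) (hβ : 0 < β.det.val) {w : ℂ}
    (hw : 0 < w.im) : moebG (α * β) w = moebG α (moebG β w) := by
  rw [moebG_eq_coe (det_mul_pos hα hβ) hw, mul_smul, ← moebG_coe hα, ← moebG_eq_coe hβ hw]

theorem moebG_mapGL (γ : SL(2, ℤ)) {w : ℂ} (hw : 0 < w.im) :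
    moebG (mapGL ℝ γ) w = moebC γ w := by
  rw [moebG_eq_coe (det_mapGL_pos γ) hw, moebC_eq_coe γ hw]
  rfl

theorem analyticAt_moebG (α : GL (Fin 2) ℝ) {w : ℂ} (hw : 0 < w.im) :
    AnalyticAt ℂ (moebG α) w := by
  unfold moebG UpperHalfPlane.num UpperHalfPlane.denom
  exact ((analyticAt_const.mul analyticAt_id).add analyticAt_const).div
    ((analyticAt_const.mul analyticAt_id).add analyticAt_const)
    (UpperHalfPlane.denom_ne_zero_of_im α hw.ne')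

theorem moebG_injOn {α : GL (Fin 2) ℝ} (hα : 0 < α.det.val) :
    InjOn (moebG α) {z : ℂ | 0 < z.im} := by
  intro w hw z hz h
  rw [moebG_eq_coe hα hw, moebG_eq_coe hα hz] at h
  have h1 : (α • (⟨w, hw⟩ : ℍ) : ℍ) = α • (⟨z, hz⟩ : ℍ) := UpperHalfPlane.ext h
  have h2 := congrArg (fun x => α⁻¹ • x) h1
  simp only [inv_smul_smul] at h2
  exact congrArg UpperHalfPlane.coe h2

theorem tendsto_moebG_nhdsNE {α : GL (Fin 2) ℝ} (hα : 0 < α.det.val) {z : ℂ} (hz : 0 < z.im) :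
    Tendsto (moebG α) (𝓝[≠] z) (𝓝[≠] (moebG α z)) := by
  rw [tendsto_nhdsWithin_iff]
  refine ⟨(analyticAt_moebG α hz).continuousAt.tendsto.mono_left nhdsWithin_le_nhds, ?_⟩
  have hH : {w : ℂ | 0 < w.im} ∈ 𝓝[≠] z :=
    mem_nhdsWithin_of_mem_nhds (UpperHalfPlane.isOpen_upperHalfPlaneSet.mem_nhds hz)
  filter_upwards [hH, self_mem_nhdsWithin] with w hw hwz
  intro h
  exact hwz (moebG_injOn hα hw hz h)

/-- Eventual equalities on punctured neighbourhoods can be pulled back along Möbius maps. -/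
theorem eventuallyEq_comp_moebG {α : GL (Fin 2) ℝ} (hα : 0 < α.det.val) {z : ℂ} (hz : 0 < z.im)
    {f₁ f₂ : ℂ → ℂ} (h : f₁ =ᶠ[𝓝[≠] (moebG α z)] f₂) :
    (fun w => f₁ (moebG α w)) =ᶠ[𝓝[≠] z] fun w => f₂ (moebG α w) :=
  (tendsto_moebG_nhdsNE hα hz).eventually h

theorem eventually_comp_moebG {α : GL (Fin 2) ℝ} (hα : 0 < α.det.val) {z : ℂ} (hz : 0 < z.im)
    {p : ℂ → Prop} (h : ∀ᶠ w in 𝓝[≠] (moebG α z), p w) :
    ∀ᶠ w in 𝓝[≠] z, p (moebG α w) :=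
  (tendsto_moebG_nhdsNE hα hz).eventually h

theorem meromorphicOn_comp_moebG {α : GL (Fin 2) ℝ} (hα : 0 < α.det.val) {g : ℂ → ℂ}
    (hg : MeromorphicOn g {z : ℂ | 0 < z.im}) :
    MeromorphicOn (fun w => g (moebG α w)) {z : ℂ | 0 < z.im} := fun z hz =>
  (hg (moebG α z) (moebG_im_pos hα hz)).comp_analyticAt (analyticAt_moebG α hz)

theorem meromorphicOrderAt_comp_moebG_ne_top {α : GL (Fin 2) ℝ} (hα : 0 < α.det.val) {g : ℂ → ℂ}
    (hg : MeromorphicOn g {z : ℂ | 0 < z.im})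
    (hfin : ∀ z ∈ {z : ℂ | 0 < z.im}, meromorphicOrderAt g z ≠ ⊤) {z : ℂ} (hz : 0 < z.im) :
    meromorphicOrderAt (fun w => g (moebG α w)) z ≠ ⊤ := by
  rw [meromorphicOrderAt_ne_top_iff_eventually_ne_zero (meromorphicOn_comp_moebG hα hg z hz)]
  have h1 := (meromorphicOrderAt_ne_top_iff_eventually_ne_zero
    (hg _ (moebG_im_pos hα hz))).1 (hfin _ (moebG_im_pos hα hz))
  exact eventually_comp_moebG hα hz h1

/-! ### Multipliers in eventual form -/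

/-- `HasMult g γ c`: the function `g ∘ γ` equals `c g` on a punctured neighbourhood of every
point of the upper half plane. -/
def HasMult (g : ℂ → ℂ) (γ : SL(2, ℤ)) (c : ℂ) : Prop :=
  ∀ z ∈ {z : ℂ | 0 < z.im}, (fun w => g (moebC γ w)) =ᶠ[𝓝[≠] z] fun w => c * g w

theorem hasMult_of_pointwise {g : ℂ → ℂ} {γ : SL(2, ℤ)} {c : ℂ}
    (h : ∀ z : ℍ, g ((γ • z : ℍ) : ℂ) = c * g (z : ℂ)) : HasMult g γ c := by
  intro z hz
  filter_upwards [mem_nhdsWithin_of_mem_nhds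
    (UpperHalfPlane.isOpen_upperHalfPlaneSet.mem_nhds hz)] with w hw
  have := h ⟨w, hw⟩
  rw [← moebC_coe] at this
  exact this

/-- For a function in normal form the multiplier relation holds pointwise. -/
theorem HasMult.pointwise {g : ℂ → ℂ} {γ : SL(2, ℤ)} {c : ℂ} (h : HasMult g γ c)
    (hg : MeromorphicNFOn g {z : ℂ | 0 < z.im}) (hc : c ≠ 0) (z : ℍ) :
    g ((γ • z : ℍ) : ℂ) = c * g (z : ℂ) := by
  have hz : (z : ℂ) ∈ {z : ℂ | 0 < z.im} := z.im_pos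
  have := eq_of_meromorphicNFAt_of_eventuallyEq (meromorphicNFOn_comp_moebC γ hg hz)
    (meromorphicNFAt_const_mul (hg hz) hc) (h z hz)
  rw [moebC_coe] at this
  exact this

/-- The multiplier only depends on the function up to equality on punctured neighbourhoods. -/
theorem HasMult.congr {g g' : ℂ → ℂ} {γ : SL(2, ℤ)} {c : ℂ} (h : HasMult g γ c)
    (hgg' : ∀ z ∈ {z : ℂ | 0 < z.im}, g =ᶠ[𝓝[≠] z] g') : HasMult g' γ c := by
  intro z hz
  have h1 := eventuallyEq_comp_moebC γ hz (hgg' _ (moebC_im_pos γ hz))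
  filter_upwards [h z hz, h1, hgg' z hz] with w hw1 hw2 hw3
  rw [← hw2, hw1, hw3]

theorem HasMult.unique {g : ℂ → ℂ} {γ : SL(2, ℤ)} {c₁ c₂ : ℂ}
    (hg : MeromorphicOn g {z : ℂ | 0 < z.im})
    (hfin : ∀ z ∈ {z : ℂ | 0 < z.im}, meromorphicOrderAt g z ≠ ⊤)
    (h₁ : HasMult g γ c₁) (h₂ : HasMult g γ c₂) : c₁ = c₂ := by
  have hI : (0 : ℝ) < Complex.I.im := by simp
  have h0 : ∀ᶠ w in 𝓝[≠] Complex.I, g w ≠ 0 :=
    (meromorphicOrderAt_ne_top_iff_eventually_ne_zero (hg _ hI)).1 (hfin _ hI)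
  obtain ⟨w, hw0, hw1, hw2⟩ := (h0.and ((h₁ _ hI).and (h₂ _ hI))).exists
  rw [hw1] at hw2
  exact mul_right_cancel₀ hw0 hw2

theorem HasMult.mul {g₁ g₂ : ℂ → ℂ} {γ : SL(2, ℤ)} {c₁ c₂ : ℂ} (h₁ : HasMult g₁ γ c₁)
    (h₂ : HasMult g₂ γ c₂) : HasMult (fun w => g₁ w * g₂ w) γ (c₁ * c₂) := by
  intro z hz
  filter_upwards [h₁ z hz, h₂ z hz] with w hw1 hw2
  rw [hw1, hw2]
  ring

theorem HasMult.inv {g : ℂ → ℂ} {γ : SL(2, ℤ)} {c : ℂ} (h : HasMult g γ c) :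
    HasMult (fun w => (g w)⁻¹) γ c⁻¹ := by
  intro z hz
  filter_upwards [h z hz] with w hw
  rw [hw, mul_inv]

theorem HasMult.div {g₁ g₂ : ℂ → ℂ} {γ : SL(2, ℤ)} {c₁ c₂ : ℂ} (h₁ : HasMult g₁ γ c₁)
    (h₂ : HasMult g₂ γ c₂) : HasMult (fun w => g₁ w / g₂ w) γ (c₁ / c₂) := by
  intro z hz
  filter_upwards [h₁ z hz, h₂ z hz] with w hw1 hw2
  rw [hw1, hw2, mul_div_mul_comm]

theorem HasMult.pow {g : ℂ → ℂ} {γ : SL(2, ℤ)} {c : ℂ} (h : HasMult g γ c) (m : ℕ) :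
    HasMult (fun w => g w ^ m) γ (c ^ m) := by
  intro z hz
  filter_upwards [h z hz] with w hw
  rw [hw, mul_pow]

theorem HasMult.const_mul {g : ℂ → ℂ} {γ : SL(2, ℤ)} {c : ℂ} (h : HasMult g γ c) (a : ℂ) :
    HasMult (fun w => a * g w) γ c := by
  intro z hz
  filter_upwards [h z hz] with w hw
  rw [hw]
  ring

theorem hasMult_one (g : ℂ → ℂ) : HasMult g 1 1 := by
  intro z hz
  filter_upwards [mem_nhdsWithin_of_mem_nhds
    (UpperHalfPlane.isOpen_upperHalfPlaneSet.mem_nhds hz)] with w hw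
  rw [moebC_one hw, one_mul]

theorem HasMult.mul_elt {g : ℂ → ℂ} {γ γ' : SL(2, ℤ)} {c c' : ℂ} (h : HasMult g γ c)
    (h' : HasMult g γ' c') : HasMult g (γ * γ') (c * c') := by
  intro z hz
  have h1 := eventuallyEq_comp_moebC γ' hz (h _ (moebC_im_pos γ' hz))
  filter_upwards [h1, h' z hz, mem_nhdsWithin_of_mem_nhds
    (UpperHalfPlane.isOpen_upperHalfPlaneSet.mem_nhds hz)] with w hw1 hw2 hw
  rw [moebC_mul γ γ' hw, hw1, hw2, mul_assoc]

/-- A root of a function with trivial multiplier has a multiplier, an `m`-th root of unity. -/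
theorem exists_hasMult_of_pow {m : ℕ} (hm : 0 < m) {g : ℂ → ℂ} {γ : SL(2, ℤ)}
    (hg : MeromorphicOn g {z : ℂ | 0 < z.im})
    (hfin : ∀ z ∈ {z : ℂ | 0 < z.im}, meromorphicOrderAt g z ≠ ⊤)
    (h : HasMult (fun w => g w ^ m) γ 1) : ∃ ζ : ℂ, ζ ^ m = 1 ∧ HasMult g γ ζ := by
  obtain ⟨ζ, hζ, hζg⟩ := meromorphic_root_unique m hm (fun w => g (moebC γ w)) g
    (meromorphicOn_comp_moebC γ hg) hg hfin (fun z hz => by
      filter_upwards [h z hz] with w hw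
      rw [hw, one_mul])
  exact ⟨ζ, hζ, hζg⟩

/-! ### The Hecke norm product -/

section NormProd

variable {Γ : Subgroup SL(2, ℤ)} {ι : Type*} [Fintype ι] (S : CosetSystem Γ ι)

/-- The norm product `w ↦ ∏ i, g (α i w)` of a function along a coset system. -/
noncomputable def normProd (g : ℂ → ℂ) (w : ℂ) : ℂ := ∏ i, g (moebG (S.α i) w)

theorem meromorphicOn_normProd (hdet : ∀ i, 0 < (S.α i).det.val) {g : ℂ → ℂ}
    (hg : MeromorphicOn g {z : ℂ | 0 < z.im}) :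
    MeromorphicOn (normProd S g) {z : ℂ | 0 < z.im} := by
  have : normProd S g = fun w => ∏ i ∈ Finset.univ, (fun i w => g (moebG (S.α i) w)) i w := rfl
  rw [this]
  exact MeromorphicOn.fun_prod fun i _ => meromorphicOn_comp_moebG (hdet i) hg

theorem eventually_normProd_ne_zero (hdet : ∀ i, 0 < (S.α i).det.val) {g : ℂ → ℂ}
    (hg : MeromorphicOn g {z : ℂ | 0 < z.im})
    (hfin : ∀ z ∈ {z : ℂ | 0 < z.im}, meromorphicOrderAt g z ≠ ⊤) {z : ℂ} (hz : 0 < z.im) :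
    ∀ᶠ w in 𝓝[≠] z, normProd S g w ≠ 0 := by
  have h1 : ∀ᶠ w in 𝓝[≠] z, ∀ i ∈ (Finset.univ : Finset ι), g (moebG (S.α i) w) ≠ 0 := by
    rw [Filter.eventually_all_finset]
    intro i _
    exact (meromorphicOrderAt_ne_top_iff_eventually_ne_zero
      (meromorphicOn_comp_moebG (hdet i) hg z hz)).1
      (meromorphicOrderAt_comp_moebG_ne_top (hdet i) hg hfin hz)
  filter_upwards [h1] with w hw
  exact Finset.prod_ne_zero_iff.2 hw

theorem meromorphicOrderAt_normProd_ne_top (hdet : ∀ i, 0 < (S.α i).det.val) {g : ℂ → ℂ}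
    (hg : MeromorphicOn g {z : ℂ | 0 < z.im})
    (hfin : ∀ z ∈ {z : ℂ | 0 < z.im}, meromorphicOrderAt g z ≠ ⊤) {z : ℂ} (hz : 0 < z.im) :
    meromorphicOrderAt (normProd S g) z ≠ ⊤ :=
  (meromorphicOrderAt_ne_top_iff_eventually_ne_zero (meromorphicOn_normProd S hdet hg z hz)).2
    (eventually_normProd_ne_zero S hdet hg hfin hz)

/-- The norm product is compatible with equality on punctured neighbourhoods. -/
theorem normProd_congr (hdet : ∀ i, 0 < (S.α i).det.val) {g g' : ℂ → ℂ}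
    (hgg' : ∀ z ∈ {z : ℂ | 0 < z.im}, g =ᶠ[𝓝[≠] z] g') {z : ℂ} (hz : 0 < z.im) :
    normProd S g =ᶠ[𝓝[≠] z] normProd S g' := by
  have h1 : ∀ᶠ w in 𝓝[≠] z, ∀ i ∈ (Finset.univ : Finset ι),
      g (moebG (S.α i) w) = g' (moebG (S.α i) w) := by
    rw [Filter.eventually_all_finset]
    intro i _
    exact eventuallyEq_comp_moebG (hdet i) hz (hgg' _ (moebG_im_pos (hdet i) hz))
  filter_upwards [h1] with w hw
  exact Finset.prod_congr rfl hw

theorem normProd_pow (g : ℂ → ℂ) (m : ℕ) (w : ℂ) :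
    normProd S (fun v => g v ^ m) w = normProd S g w ^ m := by
  simp only [normProd]
  rw [Finset.prod_pow]

theorem normProd_mul (g₁ g₂ : ℂ → ℂ) (w : ℂ) :
    normProd S (fun v => g₁ v * g₂ v) w = normProd S g₁ w * normProd S g₂ w := by
  simp only [normProd]
  rw [Finset.prod_mul_distrib]

/-- **The multiplier of the Hecke norm product.**  If `g` has multiplier `ψ` on `Γ`, then
`∏ i, g ∘ α i` has multiplier `γ ↦ ∏ i, ψ (step γ i)`. -/
theorem hasMult_normProd (hdet : ∀ i, 0 < (S.α i).det.val) {g : ℂ → ℂ} {ψ : Γ → ℂ}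
    (hg : ∀ γ : Γ, HasMult g (γ : SL(2, ℤ)) (ψ γ)) (γ : Γ) :
    HasMult (normProd S g) (γ : SL(2, ℤ)) (∏ i, ψ (S.step γ i)) := by
  intro z hz
  have hH : ∀ᶠ w in 𝓝[≠] z, 0 < w.im :=
    mem_nhdsWithin_of_mem_nhds (UpperHalfPlane.isOpen_upperHalfPlaneSet.mem_nhds hz)
  have h1 : ∀ᶠ w in 𝓝[≠] z, ∀ i ∈ (Finset.univ : Finset ι),
      g (moebC (S.step γ i : SL(2, ℤ)) (moebG (S.α (S.perm γ i)) w)) =
        ψ (S.step γ i) * g (moebG (S.α (S.perm γ i)) w) := by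
    rw [Filter.eventually_all_finset]
    intro i _
    have hi := eventuallyEq_comp_moebG (α := S.α (S.perm γ i))
      (f₁ := fun v => g (moebC (S.step γ i : SL(2, ℤ)) v))
      (f₂ := fun v => ψ (S.step γ i) * g v) (hdet (S.perm γ i)) hz
      (hg (S.step γ i) (moebG (S.α (S.perm γ i)) z) (moebG_im_pos (hdet _) hz))
    filter_upwards [hi] with w hw using hw
  filter_upwards [h1, hH] with w hw1 hw
  have key : ∀ i, g (moebG (S.α i) (moebC (γ : SL(2, ℤ)) w)) =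
      ψ (S.step γ i) * g (moebG (S.α (S.perm γ i)) w) := by
    intro i
    have e : moebG (S.α i) (moebC (γ : SL(2, ℤ)) w) =
        moebC (S.step γ i : SL(2, ℤ)) (moebG (S.α (S.perm γ i)) w) :=
      calc moebG (S.α i) (moebC (γ : SL(2, ℤ)) w)
          = moebG (S.α i) (moebG (mapGL ℝ (γ : SL(2, ℤ))) w) :=
            congrArg (moebG (S.α i)) (moebG_mapGL (γ : SL(2, ℤ)) hw).symm
        _ = moebG (S.α i * mapGL ℝ (γ : SL(2, ℤ))) w :=
            (moebG_mul (hdet i) (det_mapGL_pos (γ : SL(2, ℤ))) hw).symm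
        _ = moebG (mapGL ℝ (S.step γ i : SL(2, ℤ)) * S.α (S.perm γ i)) w :=
            congrArg (fun A => moebG A w) (S.rel γ i)
        _ = moebG (mapGL ℝ (S.step γ i : SL(2, ℤ))) (moebG (S.α (S.perm γ i)) w) :=
            moebG_mul (det_mapGL_pos _) (hdet _) hw
        _ = moebC (S.step γ i : SL(2, ℤ)) (moebG (S.α (S.perm γ i)) w) :=
            moebG_mapGL _ (moebG_im_pos (hdet _) hw)
    rw [e]
    exact hw1 i (Finset.mem_univ i)
  simp only [normProd]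
  rw [Finset.prod_congr rfl (fun i _ => key i), Finset.prod_mul_distrib]
  congr 1
  exact Equiv.prod_comp (S.permEquiv γ) (fun j => g (moebG (S.α j) w))

/-- The Hecke operator on characters `Γ →* ℂˣ` attached to the coset system (multiplicative
form of `CosetSystem.heckeFun`). -/
noncomputable def heckeChar (ψ : Γ →* ℂˣ) : Γ →* ℂˣ :=
  MonoidHom.toAdditive.symm (S.heckeFun (MonoidHom.toAdditive ψ))

theorem heckeChar_apply (ψ : Γ →* ℂˣ) (γ : Γ) : heckeChar S ψ γ = ∏ i, ψ (S.step γ i) := by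
  change Additive.toMul (S.heckeFun (MonoidHom.toAdditive ψ) (Additive.ofMul γ)) = _
  rw [CosetSystem.heckeFun_apply]
  simp

theorem heckeChar_eq_toAdditive (ψ : Γ →* ℂˣ) :
    MonoidHom.toAdditive (heckeChar S ψ) = S.heckeFun (MonoidHom.toAdditive ψ) := by
  simp [heckeChar]

/-- **[AN6-K-CORE]** If `g` has the character `ψ : Γ →* ℂˣ` as multiplier, then the norm
product of `g` along the coset system `S` has multiplier `heckeChar S ψ`
(`= S.heckeFun ψ` in additive notation). -/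
theorem hasMult_normProd_heckeChar (hdet : ∀ i, 0 < (S.α i).det.val) {g : ℂ → ℂ} {ψ : Γ →* ℂˣ}
    (hg : ∀ γ : Γ, HasMult g (γ : SL(2, ℤ)) (ψ γ : ℂ)) (γ : Γ) :
    HasMult (normProd S g) (γ : SL(2, ℤ)) (heckeChar S ψ γ : ℂ) := by
  have := hasMult_normProd S hdet (ψ := fun γ => (ψ γ : ℂ)) hg γ
  rw [heckeChar_apply, Units.coe_prod]
  exact this

end NormProd


/-! ### The coset system of `T_ℓ` -/

section SystemT

theorem moebG_heckeMatrix {p : ℕ} (hp : p ≠ 0) (j : ℕ) (w : ℂ) :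
    moebG (ModularForm.heckeMatrix p j) w = (w + j) / p := by
  simp [moebG, UpperHalfPlane.num, UpperHalfPlane.denom, ModularForm.val_heckeMatrix hp]

theorem moebG_heckeDiagMatrix {p : ℕ} (hp : p ≠ 0) (w : ℂ) :
    moebG (ModularForm.heckeDiagMatrix p) w = p * w := by
  simp [moebG, UpperHalfPlane.num, UpperHalfPlane.denom, ModularForm.val_heckeDiagMatrix hp]

variable (N : ℕ) (ℓ : Nat.Primes)

theorem systemT_det_pos (h : ¬ (ℓ : ℕ) ∣ N) (x : OnePoint (ZMod ℓ)) :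
    0 < ((systemT N ℓ h).α x).det.val := by
  rw [systemT_α]
  induction x using OnePoint.rec with
  | infty => exact ModularForm.det_heckeDiagMatrix_pos ℓ
  | coe j => exact ModularForm.det_heckeMatrix_pos ℓ j.val

/-- The norm product along the coset system of `T_ℓ` is
`w ↦ g (ℓ w) * ∏_{j mod ℓ} g ((w + j) / ℓ)`. -/
theorem normProd_systemT (h : ¬ (ℓ : ℕ) ∣ N) (g : ℂ → ℂ) (w : ℂ) :
    normProd (systemT N ℓ h) g w =
      g ((ℓ : ℕ) * w) * ∏ j : ZMod ℓ, g ((w + (j.val : ℕ)) / (ℓ : ℕ)) := by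
  have hℓ : (ℓ : ℕ) ≠ 0 := ℓ.2.ne_zero
  simp only [normProd, systemT_α]
  rw [show (∏ x : OnePoint (ZMod ℓ), g (moebG
      (P2MW.S_ModularForm_heckeT_slash_eq_self_of_mem_Gamma0.ModularForm.HeckeSlashInvariance.heckeRep
        ℓ x) w)) =
      ∏ x : Option (ZMod ℓ), g (moebG
      (P2MW.S_ModularForm_heckeT_slash_eq_self_of_mem_Gamma0.ModularForm.HeckeSlashInvariance.heckeRep
        ℓ x) w) from rfl, Fintype.prod_option]
  congr 1
  · exact congrArg g (moebG_heckeDiagMatrix hℓ w)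
  · refine Finset.prod_congr rfl fun j _ => ?_
    exact congrArg g (moebG_heckeMatrix hℓ j.val w)

/-- **[AN6-K-CORE] for `T_ℓ`, `ℓ ∤ N`**: if `g` has the character `ψ` of `Γ₀(N)` as multiplier,
then `w ↦ g (ℓ w) ∏_j g ((w + j) / ℓ)` has multiplier `heckeHom N ℓ ψ` (helper26's Hecke
operator on `Hom(Γ₀(N), -)`, written multiplicatively). -/
theorem hasMult_normProd_heckeHom (h : ¬ (ℓ : ℕ) ∣ N) {g : ℂ → ℂ}
    {ψ : CongruenceSubgroup.Gamma0 N →* ℂˣ}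
    (hg : ∀ γ : CongruenceSubgroup.Gamma0 N, HasMult g (γ : SL(2, ℤ)) (ψ γ : ℂ))
    (γ : CongruenceSubgroup.Gamma0 N) :
    HasMult (normProd (systemT N ℓ h) g) (γ : SL(2, ℤ))
      ((MonoidHom.toAdditive.symm (heckeHom N ℓ (MonoidHom.toAdditive ψ)) γ : ℂˣ) : ℂ) := by
  have := hasMult_normProd_heckeChar (systemT N ℓ h) (systemT_det_pos N ℓ h) hg γ
  rw [heckeHom_of_not_dvd N h]
  exact this

end SystemT


/-! ### Kummer characters -/

section Kummer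

variable {Γ : Subgroup SL(2, ℤ)}

/-- `IsKummerChar Γ m f ψ`: the character `ψ` of `Γ` is the multiplier of a meromorphic `m`-th
root of `f` on the upper half plane (`f` is determined up to equality on punctured
neighbourhoods; the root has finite orders). -/
def IsKummerChar (Γ : Subgroup SL(2, ℤ)) (m : ℕ) (f : ℂ → ℂ) (ψ : Γ →* ℂˣ) : Prop :=
  ∃ g : ℂ → ℂ, MeromorphicOn g {z : ℂ | 0 < z.im} ∧
    (∀ z ∈ {z : ℂ | 0 < z.im}, meromorphicOrderAt g z ≠ ⊤) ∧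
    (∀ z ∈ {z : ℂ | 0 < z.im}, (fun w => g w ^ m) =ᶠ[𝓝[≠] z] f) ∧
    ∀ γ : Γ, HasMult g (γ : SL(2, ℤ)) (ψ γ : ℂ)

/-- **Existence** of the Kummer character of an invariant function whose orders are divisible
by `m`. -/
theorem exists_isKummerChar (m : ℕ) (hm : 0 < m) (Γ : Subgroup SL(2, ℤ)) (f : ℂ → ℂ)
    (hf : MeromorphicOn f {z : ℂ | 0 < z.im})
    (hfin : ∀ z ∈ {z : ℂ | 0 < z.im}, meromorphicOrderAt f z ≠ ⊤)
    (hdvd : ∀ z ∈ {z : ℂ | 0 < z.im}, (m : ℤ) ∣ (meromorphicOrderAt f z).untop₀)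
    (hinv : ∀ γ ∈ Γ, HasMult f γ 1) :
    ∃ ψ : Γ →* ℂˣ, (∀ γ, ψ γ ^ m = 1) ∧ IsKummerChar Γ m f ψ := by
  obtain ⟨g, ψ, hgNF, hpow, hgfin, -, -, hψ1, hψ2⟩ :=
    exists_root_multiplier m hm Γ f hf hfin hdvd (fun γ hγ z hz => by
      filter_upwards [hinv γ hγ z hz] with w hw
      rw [hw, one_mul])
  exact ⟨ψ, hψ1, g, hgNF.meromorphicOn, hgfin, hpow, fun γ => hasMult_of_pointwise (hψ2 γ)⟩

/-- **Uniqueness** of the Kummer character. -/
theorem IsKummerChar.unique {m : ℕ} (hm : 0 < m) {f : ℂ → ℂ} {ψ₁ ψ₂ : Γ →* ℂˣ}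
    (h₁ : IsKummerChar Γ m f ψ₁) (h₂ : IsKummerChar Γ m f ψ₂) : ψ₁ = ψ₂ := by
  obtain ⟨g₁, hg₁, hfin₁, hpow₁, hm₁⟩ := h₁
  obtain ⟨g₂, hg₂, hfin₂, hpow₂, hm₂⟩ := h₂
  obtain ⟨ζ, -, hζg⟩ := meromorphic_root_unique m hm g₁ g₂ hg₁ hg₂ hfin₂
    (fun z hz => (hpow₁ z hz).trans (hpow₂ z hz).symm)
  ext γ
  have h3 : HasMult g₁ (γ : SL(2, ℤ)) (ψ₂ γ : ℂ) :=
    ((hm₂ γ).const_mul ζ).congr (fun z hz => (hζg z hz).symm)
  exact (hm₁ γ).unique hg₁ hfin₁ h3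

theorem IsKummerChar.congr {m : ℕ} {f f' : ℂ → ℂ} {ψ : Γ →* ℂˣ} (h : IsKummerChar Γ m f ψ)
    (hff' : ∀ z ∈ {z : ℂ | 0 < z.im}, f =ᶠ[𝓝[≠] z] f') : IsKummerChar Γ m f' ψ := by
  obtain ⟨g, hg, hfin, hpow, hmult⟩ := h
  exact ⟨g, hg, hfin, fun z hz => (hpow z hz).trans (hff' z hz), hmult⟩

theorem IsKummerChar.pow_eq_one {m : ℕ} {f : ℂ → ℂ} {ψ : Γ →* ℂˣ}
    (h : IsKummerChar Γ m f ψ) (hf : MeromorphicOn f {z : ℂ | 0 < z.im})
    (hfin : ∀ z ∈ {z : ℂ | 0 < z.im}, meromorphicOrderAt f z ≠ ⊤)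
    (hinv : ∀ γ ∈ Γ, HasMult f γ 1) (γ : Γ) : ψ γ ^ m = 1 := by
  obtain ⟨g, hg, hgfin, hpow, hmult⟩ := h
  have h1 : HasMult f (γ : SL(2, ℤ)) ((ψ γ : ℂ) ^ m) := ((hmult γ).pow m).congr hpow
  have h2 := h1.unique hf hfin (hinv γ γ.2)
  apply Units.ext
  rw [Units.val_pow_eq_pow_val, Units.val_one]
  exact h2

theorem IsKummerChar.mul {m : ℕ} {f₁ f₂ : ℂ → ℂ} {ψ₁ ψ₂ : Γ →* ℂˣ}
    (h₁ : IsKummerChar Γ m f₁ ψ₁) (h₂ : IsKummerChar Γ m f₂ ψ₂) :
    IsKummerChar Γ m (fun w => f₁ w * f₂ w) (ψ₁ * ψ₂) := by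
  obtain ⟨g₁, hg₁, hfin₁, hpow₁, hm₁⟩ := h₁
  obtain ⟨g₂, hg₂, hfin₂, hpow₂, hm₂⟩ := h₂
  refine ⟨fun w => g₁ w * g₂ w, hg₁.mul hg₂, fun z hz => ?_, fun z hz => ?_, fun γ => ?_⟩
  · refine (meromorphicOrderAt_ne_top_iff_eventually_ne_zero (f := fun w => g₁ w * g₂ w)
      ((hg₁ z hz).mul (hg₂ z hz))).2 ?_
    filter_upwards [(meromorphicOrderAt_ne_top_iff_eventually_ne_zero (hg₁ z hz)).1 (hfin₁ z hz),
      (meromorphicOrderAt_ne_top_iff_eventually_ne_zero (hg₂ z hz)).1 (hfin₂ z hz)] with w h1 h2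
    exact mul_ne_zero h1 h2
  · filter_upwards [hpow₁ z hz, hpow₂ z hz] with w h1 h2
    rw [mul_pow, h1, h2]
  · have := (hm₁ γ).mul (hm₂ γ)
    rw [MonoidHom.mul_apply, Units.val_mul]
    exact this

theorem IsKummerChar.inv {m : ℕ} {f : ℂ → ℂ} {ψ : Γ →* ℂˣ} (h : IsKummerChar Γ m f ψ) :
    IsKummerChar Γ m (fun w => (f w)⁻¹) ψ⁻¹ := by
  obtain ⟨g, hg, hfin, hpow, hmult⟩ := h
  refine ⟨fun w => (g w)⁻¹, hg.inv, fun z hz => ?_, fun z hz => ?_, fun γ => ?_⟩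
  · refine (meromorphicOrderAt_ne_top_iff_eventually_ne_zero (f := fun w => (g w)⁻¹)
      (hg z hz).inv).2 ?_
    filter_upwards [(meromorphicOrderAt_ne_top_iff_eventually_ne_zero (hg z hz)).1 (hfin z hz)]
      with w h1
    exact inv_ne_zero h1
  · filter_upwards [hpow z hz] with w h1
    rw [inv_pow, h1]
  · have := (hmult γ).inv
    rw [MonoidHom.inv_apply, Units.val_inv_eq_inv_val]
    exact this

/-- The Kummer character of an `m`-th power of an invariant function is trivial. -/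
theorem isKummerChar_pow_of_invariant {m : ℕ} {k : ℂ → ℂ}
    (hk : MeromorphicOn k {z : ℂ | 0 < z.im})
    (hfin : ∀ z ∈ {z : ℂ | 0 < z.im}, meromorphicOrderAt k z ≠ ⊤)
    (hinv : ∀ γ ∈ Γ, HasMult k γ 1) : IsKummerChar Γ m (fun w => k w ^ m) 1 :=
  ⟨k, hk, hfin, fun _ _ => EventuallyEq.rfl, fun γ => by
    rw [MonoidHom.one_apply, Units.val_one]
    exact hinv γ γ.2⟩

/-- The Kummer character of `u ^ m` is `ψ` if `u` has multiplier `ψ`. -/
theorem isKummerChar_pow_of_hasMult {m : ℕ} {u : ℂ → ℂ} {ψ : Γ →* ℂˣ}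
    (hu : MeromorphicOn u {z : ℂ | 0 < z.im})
    (hfin : ∀ z ∈ {z : ℂ | 0 < z.im}, meromorphicOrderAt u z ≠ ⊤)
    (hmult : ∀ γ : Γ, HasMult u (γ : SL(2, ℤ)) (ψ γ : ℂ)) :
    IsKummerChar Γ m (fun w => u w ^ m) ψ :=
  ⟨u, hu, hfin, fun _ _ => EventuallyEq.rfl, hmult⟩

/-- **Injectivity of the monodromy map**: if the Kummer character of `f` is trivial, then `f`
has a `Γ`-invariant meromorphic `m`-th root. -/
theorem IsKummerChar.exists_invariant_root {m : ℕ} {f : ℂ → ℂ}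
    (h : IsKummerChar Γ m f 1) :
    ∃ g : ℂ → ℂ, MeromorphicOn g {z : ℂ | 0 < z.im} ∧
      (∀ z ∈ {z : ℂ | 0 < z.im}, meromorphicOrderAt g z ≠ ⊤) ∧
      (∀ z ∈ {z : ℂ | 0 < z.im}, (fun w => g w ^ m) =ᶠ[𝓝[≠] z] f) ∧
      ∀ γ ∈ Γ, HasMult g γ 1 := by
  obtain ⟨g, hg, hfin, hpow, hmult⟩ := h
  refine ⟨g, hg, hfin, hpow, fun γ hγ => ?_⟩
  have := hmult ⟨γ, hγ⟩
  rwa [MonoidHom.one_apply, Units.val_one] at this

variable {ι : Type*} [Fintype ι] (S : CosetSystem Γ ι)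

/-- **[AN6-K-CORE] Hecke equivariance of the monodromy map**: the Kummer character of the norm
product of `f` along a coset system is the Hecke transform of the Kummer character of `f`. -/
theorem IsKummerChar.normProd (hdet : ∀ i, 0 < (S.α i).det.val) {m : ℕ} {f : ℂ → ℂ}
    {ψ : Γ →* ℂˣ} (h : IsKummerChar Γ m f ψ) :
    IsKummerChar Γ m (normProd S f) (heckeChar S ψ) := by
  obtain ⟨g, hg, hfin, hpow, hmult⟩ := h
  refine ⟨Fermat.Agent.P3.helper34.normProd S g, meromorphicOn_normProd S hdet hg,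
    fun z hz => meromorphicOrderAt_normProd_ne_top S hdet hg hfin hz, fun z hz => ?_,
    fun γ => hasMult_normProd_heckeChar S hdet hmult γ⟩
  have h1 := normProd_congr S hdet hpow hz
  filter_upwards [h1] with w hw
  rw [← hw, normProd_pow]

end Kummer


/-- **[AN6-K-CORE], final form for `T_ℓ`, `ℓ ∤ N`**: if `ψ` is the Kummer character of `f`
(on `Γ₀(N)`), then `heckeHom N ℓ ψ` (helper26, written multiplicatively) is the Kummer
character of `w ↦ f (ℓ w) ∏_{j mod ℓ} f ((w + j) / ℓ)`. -/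
theorem IsKummerChar.normProd_heckeHom (N : ℕ) (ℓ : Nat.Primes) (h : ¬ (ℓ : ℕ) ∣ N) {m : ℕ}
    {f : ℂ → ℂ} {ψ : CongruenceSubgroup.Gamma0 N →* ℂˣ}
    (hf : IsKummerChar (CongruenceSubgroup.Gamma0 N) m f ψ) :
    IsKummerChar (CongruenceSubgroup.Gamma0 N) m
      (fun w => f ((ℓ : ℕ) * w) * ∏ j : ZMod ℓ, f ((w + (j.val : ℕ)) / (ℓ : ℕ)))
      (MonoidHom.toAdditive.symm (heckeHom N ℓ (MonoidHom.toAdditive ψ))) := by
  have h1 := hf.normProd (systemT N ℓ h) (systemT_det_pos N ℓ h)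
  have h2 : Fermat.Agent.P3.helper34.normProd (systemT N ℓ h) f =
      fun w => f ((ℓ : ℕ) * w) * ∏ j : ZMod ℓ, f ((w + (j.val : ℕ)) / (ℓ : ℕ)) :=
    funext fun w => normProd_systemT N ℓ h f w
  rw [h2] at h1
  rw [heckeHom_of_not_dvd N h]
  exact h1

end Fermat.Agent.P3.helper34
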