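import Mathlib
import Fermat.Agent.S24.helper17_Bridge
import Fermat.Agent.S24.helper24_Stabilizer
import Fermat.Agent.P3.helper80_ChartC
import Fermat.Agent.P3.helper34_MultCalc

/-!
# P3 [AN-EV]: the function on the upper half plane of an element of `F_ℂ` (helper34, task 565)

`IsEv S f` : the function `f : ℂ → ℂ` (meromorphic on `H = {0 < im}`) is "the" function of the
Laurent series `S ∈ ℂ((q))`: `S = A / B` for `q`-expansions `A`, `B` of holomorphic functions
`a`, `b` on `ℍ` (finite order poles at `i∞` allowed) and `f = a / b` on punctured neighbourhoods.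

* `IsEv.meromorphicOn`, `IsEv.finite_order`, `IsEv.unique`, `IsEv.series_unique`,
  `IsEv.mul`, `IsEv.inv`, `IsEv.div`, `IsEv.pow`, `IsEv.add`, `isEv_const`, `isEv_of_isQExp`.
* `exists_isEv_of_mem_FC` : every element of `F_ℂ(N)` has a function, which is
  `Γ₀(N)`-invariant; `IsEv.hasMult_one` : every function of an element of `F_ℂ(N)` is invariant.
-/

set_option autoImplicit false

open Filter Topology Set UpperHalfPlane
open scoped MatrixGroups Manifold
open Fermat.Agent.S24 Fermat.Agent.S24.helper17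

namespace Fermat.Agent.P3.helper34

/-! ### Holomorphic functions on `ℍ` as functions on `ℂ` -/

theorem analyticOnNhd_comp_ofComplex {a : ℍ → ℂ} (ha : MDiff a) :
    AnalyticOnNhd ℂ (fun w => a (ofComplex w)) {z : ℂ | 0 < z.im} :=
  (UpperHalfPlane.mdifferentiable_iff.1 ha).analyticOnNhd isOpen_upperHalfPlaneSet

theorem comp_ofComplex_coe (a : ℍ → ℂ) (τ : ℍ) : a (ofComplex (τ : ℂ)) = a τ := by
  rw [ofComplex_apply]

/-- A nonzero holomorphic function on `ℍ` is nonzero on a punctured neighbourhood of every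
point. -/
theorem eventually_comp_ofComplex_ne_zero {a : ℍ → ℂ} (ha : MDiff a) (hne : a ≠ 0) {z : ℂ}
    (hz : 0 < z.im) : ∀ᶠ w in 𝓝[≠] z, a (ofComplex w) ≠ 0 := by
  have han := analyticOnNhd_comp_ofComplex ha
  rcases (han z hz).eventually_eq_zero_or_eventually_ne_zero with h0 | h0
  · exfalso
    apply hne
    have hEq := han.eqOn_zero_of_preconnected_of_eventuallyEq_zero
      (convex_halfSpace_im_gt 0).isPreconnected hz h0
    funext τ
    have := hEq τ.im_pos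
    simp only [Pi.zero_apply] at this ⊢
    rwa [ofComplex_apply] at this
  · exact h0

/-! ### The relation `IsEv` -/

/-- `IsEv S f`: `f` is the function on the upper half plane of the Laurent series `S`. -/
def IsEv (S : LaurentSeries ℂ) (f : ℂ → ℂ) : Prop :=
  ∃ (A B : LaurentSeries ℂ) (a b : ℍ → ℂ), IsQExp A a ∧ IsQExp B b ∧ B ≠ 0 ∧ S * B = A ∧
    ∀ z ∈ {z : ℂ | 0 < z.im}, f =ᶠ[𝓝[≠] z] fun w => a (ofComplex w) / b (ofComplex w)

theorem isEv_of_isQExp {S : LaurentSeries ℂ} {s : ℍ → ℂ} (h : IsQExp S s) :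
    IsEv S (fun w => s (ofComplex w)) :=
  ⟨S, 1, s, 1, h, IsQExp.one, one_ne_zero, mul_one S, fun z _ => by
    filter_upwards with w
    simp⟩

theorem isEv_const (c : ℂ) : IsEv (HahnSeries.C c) (fun _ => c) :=
  ⟨HahnSeries.C c, 1, fun _ => c, 1, IsQExp.const c, IsQExp.one, one_ne_zero, mul_one _,
    fun z _ => by
      filter_upwards with w
      simp⟩

theorem isEv_one : IsEv 1 (fun _ => 1) := by
  have := isEv_const 1
  rwa [map_one] at this

namespace IsEv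

variable {S S₁ S₂ : LaurentSeries ℂ} {f f₁ f₂ : ℂ → ℂ}

theorem congr (h : IsEv S f) (hff : ∀ z ∈ {z : ℂ | 0 < z.im}, f =ᶠ[𝓝[≠] z] f₁) : IsEv S f₁ := by
  obtain ⟨A, B, a, b, hA, hB, hB0, hS, hf⟩ := h
  exact ⟨A, B, a, b, hA, hB, hB0, hS, fun z hz => (hff z hz).symm.trans (hf z hz)⟩

theorem meromorphicOn (h : IsEv S f) : MeromorphicOn f {z : ℂ | 0 < z.im} := by
  obtain ⟨A, B, a, b, hA, hB, hB0, hS, hf⟩ := h
  intro z hz
  have h1 : MeromorphicAt (fun w => a (ofComplex w) / b (ofComplex w)) z :=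
    ((analyticOnNhd_comp_ofComplex hA.mdiff z hz).meromorphicAt).div
      ((analyticOnNhd_comp_ofComplex hB.mdiff z hz).meromorphicAt)
  exact h1.congr (hf z hz).symm

theorem eventually_ne_zero (h : IsEv S f) (hS0 : S ≠ 0) {z : ℂ} (hz : 0 < z.im) :
    ∀ᶠ w in 𝓝[≠] z, f w ≠ 0 := by
  obtain ⟨A, B, a, b, hA, hB, hB0, hS, hf⟩ := h
  have hA0 : A ≠ 0 := by
    rw [← hS]
    exact mul_ne_zero hS0 hB0
  have ha0 : a ≠ 0 := fun h0 => hA0 (hA.eq_zero_iff.2 h0)
  have hb0 : b ≠ 0 := fun h0 => hB0 (hB.eq_zero_iff.2 h0)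
  filter_upwards [hf z hz, eventually_comp_ofComplex_ne_zero hA.mdiff ha0 hz,
    eventually_comp_ofComplex_ne_zero hB.mdiff hb0 hz] with w hw h1 h2
  rw [hw]
  exact div_ne_zero h1 h2

theorem finite_order (h : IsEv S f) (hS0 : S ≠ 0) {z : ℂ} (hz : 0 < z.im) :
    meromorphicOrderAt f z ≠ ⊤ :=
  (meromorphicOrderAt_ne_top_iff_eventually_ne_zero (h.meromorphicOn z hz)).2
    (h.eventually_ne_zero hS0 hz)

/-- The function of a Laurent series is unique up to equality on punctured neighbourhoods. -/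
theorem unique (h₁ : IsEv S f₁) (h₂ : IsEv S f₂) {z : ℂ} (hz : 0 < z.im) :
    f₁ =ᶠ[𝓝[≠] z] f₂ := by
  obtain ⟨A, B, a, b, hA, hB, hB0, hS, hf⟩ := h₁
  obtain ⟨A', B', a', b', hA', hB', hB0', hS', hf'⟩ := h₂
  have e1 : A * B' = A' * B := by
    rw [← hS, ← hS']
    ring
  have e2 : a * b' = a' * b := (hA.mul hB').right_unique (e1 ▸ hA'.mul hB)
  have hb0 : b ≠ 0 := fun h0 => hB0 (hB.eq_zero_iff.2 h0)
  have hb0' : b' ≠ 0 := fun h0 => hB0' (hB'.eq_zero_iff.2 h0)
  filter_upwards [hf z hz, hf' z hz, eventually_comp_ofComplex_ne_zero hB.mdiff hb0 hz,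
    eventually_comp_ofComplex_ne_zero hB'.mdiff hb0' hz] with w hw hw' h1 h2
  rw [hw, hw', div_eq_div_iff h1 h2]
  exact congrFun e2 (ofComplex w)

/-- The Laurent series is determined by its function. -/
theorem series_unique (h₁ : IsEv S₁ f) (h₂ : IsEv S₂ f) : S₁ = S₂ := by
  obtain ⟨A, B, a, b, hA, hB, hB0, hS, hf⟩ := h₁
  obtain ⟨A', B', a', b', hA', hB', hB0', hS', hf'⟩ := h₂
  have hb0 : b ≠ 0 := fun h0 => hB0 (hB.eq_zero_iff.2 h0)
  have hb0' : b' ≠ 0 := fun h0 => hB0' (hB'.eq_zero_iff.2 h0)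
  -- `a b' = a' b` as functions on `ℍ`, by the identity theorem
  have e2 : a * b' = a' * b := by
    have han : AnalyticOnNhd ℂ (fun w => (a * b' - a' * b) (ofComplex w))
        {z : ℂ | 0 < z.im} :=
      analyticOnNhd_comp_ofComplex (((hA.mul hB').sub (hA'.mul hB)).mdiff)
    have hI : (0 : ℝ) < Complex.I.im := by simp
    have h0 : ∀ᶠ w in 𝓝[≠] Complex.I, (a * b' - a' * b) (ofComplex w) = 0 := by
      filter_upwards [hf _ hI, hf' _ hI, eventually_comp_ofComplex_ne_zero hB.mdiff hb0 hI,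
        eventually_comp_ofComplex_ne_zero hB'.mdiff hb0' hI] with w hw hw' h1 h2
      have := hw.symm.trans hw'
      rw [div_eq_div_iff h1 h2] at this
      simp only [Pi.sub_apply, Pi.mul_apply]
      rw [this, sub_self]
    have h1 : (fun w => (a * b' - a' * b) (ofComplex w)) =ᶠ[𝓝 Complex.I] 0 := by
      rcases (han _ hI).eventually_eq_zero_or_eventually_ne_zero with h | h
      · exact h
      · exfalso
        obtain ⟨w, hw1, hw2⟩ := (h0.and h).exists
        exact hw2 hw1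
    have hEq := han.eqOn_zero_of_preconnected_of_eventuallyEq_zero
      (convex_halfSpace_im_gt 0).isPreconnected hI h1
    have h3 : a * b' - a' * b = 0 := by
      funext τ
      have := hEq τ.im_pos
      simp only [Pi.zero_apply] at this ⊢
      rwa [ofComplex_apply] at this
    exact sub_eq_zero.1 h3
  have e1 : A * B' = A' * B := (hA.mul hB').left_unique (e2 ▸ hA'.mul hB)
  have e3 : S₁ * (B * B') = S₂ * (B * B') := by
    calc S₁ * (B * B') = (S₁ * B) * B' := by ring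
      _ = A * B' := by rw [hS]
      _ = A' * B := e1
      _ = (S₂ * B') * B := by rw [hS']
      _ = S₂ * (B * B') := by ring
  exact mul_right_cancel₀ (mul_ne_zero hB0 hB0') e3

theorem mul (h₁ : IsEv S₁ f₁) (h₂ : IsEv S₂ f₂) : IsEv (S₁ * S₂) (fun w => f₁ w * f₂ w) := by
  obtain ⟨A, B, a, b, hA, hB, hB0, hS, hf⟩ := h₁
  obtain ⟨A', B', a', b', hA', hB', hB0', hS', hf'⟩ := h₂
  refine ⟨A * A', B * B', a * a', b * b', hA.mul hA', hB.mul hB', mul_ne_zero hB0 hB0', ?_,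
    fun z hz => ?_⟩
  · rw [← hS, ← hS']
    ring
  · filter_upwards [hf z hz, hf' z hz] with w hw hw'
    rw [hw, hw']
    simp only [Pi.mul_apply]
    rw [div_mul_div_comm]

theorem inv (h : IsEv S f) (hS0 : S ≠ 0) : IsEv S⁻¹ (fun w => (f w)⁻¹) := by
  obtain ⟨A, B, a, b, hA, hB, hB0, hS, hf⟩ := h
  have hA0 : A ≠ 0 := by
    rw [← hS]
    exact mul_ne_zero hS0 hB0
  refine ⟨B, A, b, a, hB, hA, hA0, ?_, fun z hz => ?_⟩
  · rw [← hS, ← mul_assoc, inv_mul_cancel₀ hS0, one_mul]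
  · filter_upwards [hf z hz] with w hw
    rw [hw, inv_div]

theorem div (h₁ : IsEv S₁ f₁) (h₂ : IsEv S₂ f₂) (hS0 : S₂ ≠ 0) :
    IsEv (S₁ / S₂) (fun w => f₁ w / f₂ w) := by
  have := h₁.mul (h₂.inv hS0)
  simp only [← div_eq_mul_inv] at this
  exact this

theorem pow (h : IsEv S f) (n : ℕ) : IsEv (S ^ n) (fun w => f w ^ n) := by
  induction n with
  | zero =>
    simp only [pow_zero]
    exact isEv_one
  | succ n ih =>
    simp only [pow_succ]
    exact ih.mul h

theorem add (h₁ : IsEv S₁ f₁) (h₂ : IsEv S₂ f₂) : IsEv (S₁ + S₂) (fun w => f₁ w + f₂ w) := by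
  obtain ⟨A, B, a, b, hA, hB, hB0, hS, hf⟩ := h₁
  obtain ⟨A', B', a', b', hA', hB', hB0', hS', hf'⟩ := h₂
  have hb0 : b ≠ 0 := fun h0 => hB0 (hB.eq_zero_iff.2 h0)
  have hb0' : b' ≠ 0 := fun h0 => hB0' (hB'.eq_zero_iff.2 h0)
  refine ⟨A * B' + A' * B, B * B', a * b' + a' * b, b * b', (hA.mul hB').add (hA'.mul hB),
    hB.mul hB', mul_ne_zero hB0 hB0', ?_, fun z hz => ?_⟩
  · rw [← hS, ← hS']
    ring
  · filter_upwards [hf z hz, hf' z hz, eventually_comp_ofComplex_ne_zero hB.mdiff hb0 hz,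
      eventually_comp_ofComplex_ne_zero hB'.mdiff hb0' hz] with w hw hw' h1 h2
    rw [hw, hw']
    simp only [Pi.mul_apply, Pi.add_apply]
    rw [div_add_div _ _ h1 h2]
    ring

end IsEv

/-! ### Elements of `F_ℂ(N)` -/

section FC

open Fermat.Agent.P3.helper80 CongruenceSubgroup

variable {N : ℕ} [NeZero N]

omit [NeZero N] in
theorem isQExp_evPC0 (P : MvPolynomial N.divisors ℂ) :
    IsQExp (MvPolynomial.aeval (genJC N) P) (evPC0 N P) :=
  IsQExp.aeval (f := genJC N) (g := fun d : N.divisors => jfunDT d.1)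
    (fun d => isQExp_jfunDT d.1) P

omit [NeZero N] in
theorem jfunDT_smul_of_mem_Gamma0 (d : N.divisors) {γ : SL(2, ℤ)} (hγ : γ ∈ Gamma0 N) (τ : ℍ) :
    jfunDT d.1 (γ • τ) = jfunDT d.1 τ := by
  obtain ⟨d, hd⟩ := d
  have hd' := Nat.mem_divisors.mp hd
  have : NeZero d :=
    ⟨fun h0 => hd'.2 (by rw [h0] at hd'; exact Nat.eq_zero_of_zero_dvd hd'.1)⟩
  show jfunDT d (γ • τ) = jfunDT d τ
  rw [helper24.jfunDT_of_ne_zero, helper24.jfunDT_of_ne_zero]
  exact helper24.jfunD_smul_of_mem_Gamma0 N d hd'.1 γ hγ τ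

omit [NeZero N] in
theorem evPC0_smul_of_mem_Gamma0 (P : MvPolynomial N.divisors ℂ) {γ : SL(2, ℤ)}
    (hγ : γ ∈ Gamma0 N) (τ : ℍ) : evPC0 N P (γ • τ) = evPC0 N P τ := by
  have e : (fun d : N.divisors => jfunDT d.1 (γ • τ)) = fun d : N.divisors => jfunDT d.1 τ :=
    funext fun d => jfunDT_smul_of_mem_Gamma0 d hγ τ
  show MvPolynomial.eval (fun d : N.divisors => jfunDT d.1 (γ • τ)) P =
    MvPolynomial.eval (fun d : N.divisors => jfunDT d.1 τ) P
  rw [e]

/-- **Existence**: every element of `F_ℂ(N)` has a function on the upper half plane, which is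
invariant under `Γ₀(N)` (pointwise on `ℍ`). -/
theorem exists_isEv_of_mem_FC {S : LaurentSeries ℂ} (hS : S ∈ FCfield N) :
    ∃ f : ℂ → ℂ, IsEv S f ∧
      ∀ γ ∈ Gamma0 N, ∀ τ : ℍ, f ((γ • τ : ℍ) : ℂ) = f (τ : ℂ) := by
  obtain ⟨P, Q, hQ, hPQ⟩ := exists_poly_repr (⟨S, hS⟩ : FC N)
  have hPQ' : S = MvPolynomial.aeval (genJC N) P / MvPolynomial.aeval (genJC N) Q := hPQ
  refine ⟨fun w => evPC0 N P (ofComplex w) / evPC0 N Q (ofComplex w),
    ⟨_, _, _, _, isQExp_evPC0 P, isQExp_evPC0 Q, hQ, ?_, fun z _ => EventuallyEq.rfl⟩,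
    fun γ hγ τ => ?_⟩
  · rw [hPQ', div_mul_cancel₀ _ hQ]
  · simp only [comp_ofComplex_coe]
    rw [evPC0_smul_of_mem_Gamma0 P hγ, evPC0_smul_of_mem_Gamma0 Q hγ]

/-- Every function of an element of `F_ℂ(N)` is `Γ₀(N)`-invariant (in the eventual sense). -/
theorem IsEv.hasMult_one {S : LaurentSeries ℂ} {f : ℂ → ℂ} (h : IsEv S f)
    (hS : S ∈ FCfield N) {γ : SL(2, ℤ)} (hγ : γ ∈ Gamma0 N) : HasMult f γ 1 := by
  obtain ⟨f₀, hf₀, hinv⟩ := exists_isEv_of_mem_FC hS
  have h0 : HasMult f₀ γ 1 := hasMult_of_pointwise (fun τ => by rw [hinv γ hγ τ, one_mul])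
  exact h0.congr (fun z hz => hf₀.unique h hz)

end FC

end Fermat.Agent.P3.helper34
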