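import Mathlib
import Fermat.Prelude.Def_ModularCurve_HeckeModule

/-!
# P3 [KUM] (helper94): the Kummer dictionary on `Pic0 K F` and on `JZero M`

For a function field `F / K` (in the Prelude's sense: `Place K F`, `Divisor K F`, `Pic0 K F`)
an `n`-torsion class `x = [D]` is described by a function `h` with `n D = div h`
(`IsKummerRep n x h`).  This file proves the dictionary

* (KD1) `n • x = 0 ↔ ∃ h, IsKummerRep n x h`;
* (KD2) `x = 0 ↔ h = w * u ^ n` with `div w = 0`  (for `n ≠ 0`); in particular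
  `h = c * u ^ n` with `c` a constant forces `x = 0`;
* (KD3) additivity: representatives multiply;
* (KD4) semilinear automorphisms: `g • x` is represented by `g • h`; on `JZero M`, `σ • x` is
  represented by `arithmeticRingAut σ h` (coefficientwise Galois action on `q`-expansions);
* (KD5) correspondences: `T (x)` is represented by `Norm_ψ (φ h)`; on `JZero M` (given
  `HeckeInputsAlong`), `heckeOperatorBar M ℓ x` is represented by
  `Norm_{heckeAlphaBar} (heckeBetaBar h)`.
-/

set_option autoImplicit false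
set_option linter.unusedSectionVars false
set_option linter.style.haveILetI false

noncomputable section

namespace Fermat.Agent.P3.helper94

open AlgebraicCurve

section General

variable {K F : Type*} [Field K] [Field F] [Algebra K F]

/-- `h` is a Kummer representative (w.r.t. `n`) of the class `x`:
`x = [D]` with `n D = div h`, `h ≠ 0`. -/
def IsKummerRep (n : ℕ) (x : Pic0 K F) (h : F) : Prop :=
  h ≠ 0 ∧ ∃ D : Divisor.degZero (K := K) (F := F), Pic0.mk D = x ∧
    ∀ v : Place K F, (n : ℤ) * (D : Divisor K F) v = v.ord h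

/-- `w` has trivial divisor ("is a constant"). -/
def HasTrivialDiv (K : Type*) {F : Type*} [Field K] [Field F] [Algebra K F] (w : F) : Prop :=
  w ≠ 0 ∧ ∀ v : Place K F, v.ord w = 0

theorem IsKummerRep.ne_zero {n : ℕ} {x : Pic0 K F} {h : F} (H : IsKummerRep n x h) : h ≠ 0 :=
  H.1

theorem pic0_mk_eq_zero_iff (D : Divisor.degZero (K := K) (F := F)) :
    Pic0.mk D = 0 ↔ Divisor.IsPrincipal (D : Divisor K F) := by
  unfold Pic0.mk
  rw [QuotientAddGroup.eq_zero_iff, AddSubgroup.mem_addSubgroupOf]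
  exact Iff.rfl

theorem pic0_mk_nsmul (n : ℕ) (D : Divisor.degZero (K := K) (F := F)) :
    Pic0.mk (n • D) = n • Pic0.mk D := rfl

theorem pic0_mk_neg (D : Divisor.degZero (K := K) (F := F)) :
    Pic0.mk (-D) = -Pic0.mk D := rfl

theorem pic0_mk_sub (D E : Divisor.degZero (K := K) (F := F)) :
    Pic0.mk (D - E) = Pic0.mk D - Pic0.mk E := rfl

theorem pic0_mk_eq_mk_iff (D E : Divisor.degZero (K := K) (F := F)) :
    Pic0.mk D = Pic0.mk E ↔ Divisor.IsPrincipal ((D : Divisor K F) - (E : Divisor K F)) := by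
  rw [← sub_eq_zero, ← pic0_mk_sub, pic0_mk_eq_zero_iff]
  rfl

/-- The order of a nonzero constant vanishes at every place. -/
theorem ord_algebraMap_eq_zero (v : Place K F) (c : K) : v.ord (algebraMap K F c) = 0 := by
  rcases eq_or_ne c 0 with rfl | hc
  · simp
  · have h1 : (algebraMap K v.toValuationSubring c) * (algebraMap K v.toValuationSubring c⁻¹)
        = 1 := by
      rw [← map_mul, mul_inv_cancel₀ hc, map_one]
    have hu : IsUnit (algebraMap K v.toValuationSubring c) := IsUnit.of_mul_eq_one _ h1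
    have := v.ord_coe_unit hu.unit
    rwa [IsUnit.unit_spec, Place.coe_algebraMap] at this

theorem hasTrivialDiv_algebraMap {c : K} (hc : c ≠ 0) :
    HasTrivialDiv K (algebraMap K F c) :=
  ⟨by simpa using hc, fun v => ord_algebraMap_eq_zero v c⟩

theorem hasTrivialDiv_one : HasTrivialDiv K (1 : F) :=
  ⟨one_ne_zero, fun v => v.ord_one⟩

theorem HasTrivialDiv.mul {w w' : F} (h : HasTrivialDiv K w) (h' : HasTrivialDiv K w') :
    HasTrivialDiv K (w * w') :=
  ⟨mul_ne_zero h.1 h'.1, fun v => by rw [v.ord_mul h.1 h'.1, h.2 v, h'.2 v, add_zero]⟩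

theorem HasTrivialDiv.inv {w : F} (h : HasTrivialDiv K w) : HasTrivialDiv K w⁻¹ :=
  ⟨inv_ne_zero h.1, fun v => by rw [v.ord_inv, h.2 v, neg_zero]⟩

theorem ord_pow (v : Place K F) (f : F) (n : ℕ) : v.ord (f ^ n) = n * v.ord f := by
  have := v.ord_zpow f (n : ℤ)
  rwa [zpow_natCast] at this

/-! ### (KD1) -/

/-- (KD1) an `n`-torsion class has a Kummer representative. -/
theorem exists_isKummerRep {n : ℕ} {x : Pic0 K F} (hx : n • x = 0) :
    ∃ h : F, IsKummerRep n x h := by
  obtain ⟨D, rfl⟩ := Pic0.mk_surjective x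
  rw [← pic0_mk_nsmul, pic0_mk_eq_zero_iff] at hx
  obtain ⟨f, hf, hD⟩ := hx
  refine ⟨f, hf, D, rfl, fun v => ?_⟩
  rw [← hD v]
  simp

/-- (KD1, converse) a class with a Kummer representative is `n`-torsion. -/
theorem IsKummerRep.nsmul_eq_zero {n : ℕ} {x : Pic0 K F} {h : F} (H : IsKummerRep n x h) :
    n • x = 0 := by
  obtain ⟨hh, D, rfl, hD⟩ := H
  rw [← pic0_mk_nsmul, pic0_mk_eq_zero_iff]
  refine ⟨h, hh, fun v => ?_⟩
  rw [← hD v]
  simp

theorem nsmul_eq_zero_iff_exists_isKummerRep {n : ℕ} {x : Pic0 K F} :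
    n • x = 0 ↔ ∃ h : F, IsKummerRep n x h :=
  ⟨exists_isKummerRep, fun ⟨_, H⟩ => H.nsmul_eq_zero⟩

/-- The orders of a Kummer representative are divisible by `n`. -/
theorem IsKummerRep.dvd_ord {n : ℕ} {x : Pic0 K F} {h : F} (H : IsKummerRep n x h)
    (v : Place K F) : (n : ℤ) ∣ v.ord h := by
  obtain ⟨-, D, -, hD⟩ := H
  exact ⟨_, (hD v).symm⟩

/-- Every nonzero function whose orders are all divisible by `n ≠ 0` is a Kummer
representative of some class. -/
theorem exists_isKummerRep_of_dvd_ord [HasPrincipalDivisors K F] {n : ℕ} (hn : n ≠ 0) {h : F}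
    (hh : h ≠ 0) (hdiv : ∀ v : Place K F, (n : ℤ) ∣ v.ord h) :
    ∃ x : Pic0 K F, IsKummerRep n x h := by
  obtain ⟨E, hE, hE0⟩ := HasPrincipalDivisors.exists_divisor (K := K) h hh
  have hn' : (n : ℤ) ≠ 0 := Int.natCast_ne_zero.mpr hn
  set D : Divisor K F := E.mapRange (fun a => a / (n : ℤ)) (by simp) with hDdef
  have hD : ∀ v : Place K F, (n : ℤ) * D v = v.ord h := by
    intro v
    rw [hDdef, Finsupp.mapRange_apply, hE v]
    exact Int.mul_ediv_cancel' (hdiv v)
  have hnD : (n : ℤ) • D = E := by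
    ext v
    rw [Finsupp.smul_apply, smul_eq_mul, hD v, hE v]
  have hdeg : Divisor.degree D = 0 := by
    have h1 : (n : ℤ) • Divisor.degree D = 0 := by
      rw [← map_zsmul, hnD, hE0]
    rcases smul_eq_zero.mp h1 with h2 | h2
    · exact absurd h2 hn'
    · exact h2
  exact ⟨Pic0.mk ⟨D, hdeg⟩, hh, ⟨D, hdeg⟩, rfl, hD⟩

/-! ### (KD3) additivity -/

theorem isKummerRep_zero (n : ℕ) : IsKummerRep n (0 : Pic0 K F) (1 : F) :=
  ⟨one_ne_zero, 0, rfl, fun v => by simp⟩

theorem IsKummerRep.add {n : ℕ} {x y : Pic0 K F} {h g : F} (H : IsKummerRep n x h)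
    (G : IsKummerRep n y g) : IsKummerRep n (x + y) (h * g) := by
  obtain ⟨hh, D, rfl, hD⟩ := H
  obtain ⟨hg, E, rfl, hE⟩ := G
  refine ⟨mul_ne_zero hh hg, D + E, rfl, fun v => ?_⟩
  rw [v.ord_mul hh hg, ← hD v, ← hE v]
  simp [mul_add]

theorem IsKummerRep.neg {n : ℕ} {x : Pic0 K F} {h : F} (H : IsKummerRep n x h) :
    IsKummerRep n (-x) h⁻¹ := by
  obtain ⟨hh, D, rfl, hD⟩ := H
  refine ⟨inv_ne_zero hh, -D, rfl, fun v => ?_⟩
  rw [v.ord_inv, ← hD v]
  simp

theorem IsKummerRep.sub {n : ℕ} {x y : Pic0 K F} {h g : F} (H : IsKummerRep n x h)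
    (G : IsKummerRep n y g) : IsKummerRep n (x - y) (h * g⁻¹) := by
  rw [sub_eq_add_neg]
  exact H.add G.neg

theorem IsKummerRep.nsmul {n : ℕ} {x : Pic0 K F} {h : F} (H : IsKummerRep n x h) (k : ℕ) :
    IsKummerRep n (k • x) (h ^ k) := by
  induction k with
  | zero => simpa using isKummerRep_zero (K := K) (F := F) n
  | succ k ih =>
    rw [succ_nsmul, pow_succ]
    exact ih.add H

theorem IsKummerRep.zsmul {n : ℕ} {x : Pic0 K F} {h : F} (H : IsKummerRep n x h) (k : ℤ) :
    IsKummerRep n (k • x) (h ^ k) := by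
  obtain ⟨k, rfl | rfl⟩ := k.eq_nat_or_neg
  · rw [natCast_zsmul, zpow_natCast]
    exact H.nsmul k
  · rw [neg_smul, natCast_zsmul, zpow_neg, zpow_natCast]
    exact (H.nsmul k).neg

/-- Multiplying a representative by an `n`-th power and a function with trivial divisor does
not change the class it represents... up to the principal divisor `div u`, i.e. not at all. -/
theorem IsKummerRep.mul_pow {n : ℕ} {x : Pic0 K F} {h : F} (H : IsKummerRep n x h)
    {u w : F} (hu : u ≠ 0) (hw : HasTrivialDiv K w) [HasPrincipalDivisors K F] :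
    IsKummerRep n x (h * (w * u ^ n)) := by
  obtain ⟨hh, D, rfl, hD⟩ := H
  obtain ⟨E, hE, hE0⟩ := HasPrincipalDivisors.exists_divisor (K := K) u hu
  have hEp : Pic0.mk (⟨E, hE0⟩ : Divisor.degZero (K := K) (F := F)) = 0 :=
    (pic0_mk_eq_zero_iff _).mpr ⟨u, hu, hE⟩
  refine ⟨mul_ne_zero hh (mul_ne_zero hw.1 (pow_ne_zero n hu)), D + ⟨E, hE0⟩, ?_, fun v => ?_⟩
  · rw [Pic0.mk_add, hEp, add_zero]
  · rw [v.ord_mul hh (mul_ne_zero hw.1 (pow_ne_zero n hu)), v.ord_mul hw.1 (pow_ne_zero n hu),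
      hw.2 v, zero_add, ord_pow, ← hD v, ← hE v]
    simp [mul_add]

/-! ### (KD2) triviality -/

/-- (KD2, ⇐) if `h = w * u ^ n` with `div w = 0` and `n ≠ 0`, the class is trivial. -/
theorem IsKummerRep.eq_zero_of_eq_mul_pow {n : ℕ} (hn : n ≠ 0) {x : Pic0 K F} {h : F}
    (H : IsKummerRep n x h) {u w : F} (hw : HasTrivialDiv K w) (hhu : h = w * u ^ n) :
    x = 0 := by
  obtain ⟨hh, D, rfl, hD⟩ := H
  have hu : u ≠ 0 := by
    rintro rfl
    rw [zero_pow hn, mul_zero] at hhu
    exact hh hhu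
  rw [pic0_mk_eq_zero_iff]
  refine ⟨u, hu, fun v => ?_⟩
  have h1 := hD v
  rw [hhu, v.ord_mul hw.1 (pow_ne_zero n hu), hw.2 v, zero_add, ord_pow] at h1
  exact mul_left_cancel₀ (Int.natCast_ne_zero.mpr hn) h1

/-- (KD2, ⇐, constant form) if `h = c * u ^ n` with `c ∈ K` and `n ≠ 0`, the class is
trivial. -/
theorem IsKummerRep.eq_zero_of_eq_const_mul_pow {n : ℕ} (hn : n ≠ 0) {x : Pic0 K F} {h : F}
    (H : IsKummerRep n x h) {u : F} {c : K} (hhu : h = algebraMap K F c * u ^ n) :
    x = 0 := by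
  have hc : c ≠ 0 := by
    rintro rfl
    rw [map_zero, zero_mul] at hhu
    exact H.ne_zero hhu
  exact H.eq_zero_of_eq_mul_pow hn (hasTrivialDiv_algebraMap hc) hhu

/-- (KD2, ⇐, power form) if `h = u ^ n` and `n ≠ 0`, the class is trivial. -/
theorem IsKummerRep.eq_zero_of_eq_pow {n : ℕ} (hn : n ≠ 0) {x : Pic0 K F} {h : F}
    (H : IsKummerRep n x h) {u : F} (hhu : h = u ^ n) : x = 0 :=
  H.eq_zero_of_eq_mul_pow hn hasTrivialDiv_one (by rw [hhu, one_mul])

/-- (KD2, ⇒) a Kummer representative of the trivial class is an `n`-th power up to a function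
with trivial divisor. -/
theorem IsKummerRep.exists_eq_mul_pow {n : ℕ} {h : F} (H : IsKummerRep n (0 : Pic0 K F) h) :
    ∃ u w : F, u ≠ 0 ∧ HasTrivialDiv K w ∧ h = w * u ^ n := by
  obtain ⟨hh, D, hD0, hD⟩ := H
  rw [pic0_mk_eq_zero_iff] at hD0
  obtain ⟨u, hu, hDu⟩ := hD0
  have hun : u ^ n ≠ 0 := pow_ne_zero n hu
  refine ⟨u, h * (u ^ n)⁻¹, hu, ⟨mul_ne_zero hh (inv_ne_zero hun), fun v => ?_⟩, ?_⟩
  · rw [v.ord_mul hh (inv_ne_zero hun), v.ord_inv, ord_pow, ← hD v, hDu v]
    ring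
  · field_simp

/-- (KD2) for `n ≠ 0`: the class represented by `h` is trivial iff `h = w * u ^ n` with
`div w = 0`. -/
theorem IsKummerRep.eq_zero_iff {n : ℕ} (hn : n ≠ 0) {x : Pic0 K F} {h : F}
    (H : IsKummerRep n x h) :
    x = 0 ↔ ∃ u w : F, u ≠ 0 ∧ HasTrivialDiv K w ∧ h = w * u ^ n := by
  constructor
  · rintro rfl
    exact H.exists_eq_mul_pow
  · rintro ⟨u, w, -, hw, hhu⟩
    exact H.eq_zero_of_eq_mul_pow hn hw hhu

/-- Two Kummer representatives of the same class differ by an `n`-th power and a function with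
trivial divisor. -/
theorem IsKummerRep.unique {n : ℕ} {x : Pic0 K F} {h h' : F} (H : IsKummerRep n x h)
    (H' : IsKummerRep n x h') :
    ∃ u w : F, u ≠ 0 ∧ HasTrivialDiv K w ∧ h' = h * (w * u ^ n) := by
  have h0 : IsKummerRep n (0 : Pic0 K F) (h' * h⁻¹) := by
    have := H'.sub H
    rwa [sub_self] at this
  obtain ⟨u, w, hu, hw, he⟩ := h0.exists_eq_mul_pow
  refine ⟨u, w, hu, hw, ?_⟩
  rw [← he]
  field_simp [H.ne_zero]

/-! ### (KD4) semilinear automorphisms -/

/-- (KD4) semilinear automorphisms act on Kummer representatives. -/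
theorem IsKummerRep.smul {n : ℕ} {x : Pic0 K F} {h : F} (H : IsKummerRep n x h)
    (g : SemilinearAut K F) : IsKummerRep n (g • x) (g • h) := by
  obtain ⟨hh, D, rfl, hD⟩ := H
  refine ⟨by simpa using hh, SemilinearAut.degZeroSMulHom g D, (SemilinearAut.pic0_smul_mk g D).symm,
    fun v => ?_⟩
  rw [SemilinearAut.coe_degZeroSMulHom, SemilinearAut.divisor_smul_apply, hD (g⁻¹ • v)]
  have h1 := SemilinearAut.ord_smul g (g⁻¹ • v) h
  rw [smul_inv_smul] at h1
  exact h1.symm

/-- (KD4) `K`-algebra automorphisms act on Kummer representatives. -/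
theorem IsKummerRep.algEquiv_smul {n : ℕ} {x : Pic0 K F} {h : F} (H : IsKummerRep n x h)
    (σ : F ≃ₐ[K] F) : IsKummerRep n (σ • x) (σ h) := by
  obtain ⟨hh, D, rfl, hD⟩ := H
  refine ⟨by simpa using hh, Pic0.degZeroSMulHom σ D, (Pic0.smul_mk σ D).symm, fun v => ?_⟩
  rw [Pic0.coe_degZeroSMulHom, Divisor.smul_apply, hD (σ⁻¹ • v)]
  have h1 := Place.ord_smul σ (σ⁻¹ • v) h
  rw [smul_inv_smul] at h1
  exact h1.symm

end General

/-! ### (KD5) correspondences -/

section Correspondence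

variable {K F F' : Type*} [Field K] [Field F] [Field F'] [Algebra K F] [Algebra K F']
variable [HasPrincipalDivisors K F']

/-- The norm along an algebra homomorphism `ψ : F → F'`. -/
def normAlong (ψ : F →ₐ[K] F') : F' →* F :=
  letI := algebraAlong ψ
  Algebra.norm F

theorem normAlong_def (ψ : F →ₐ[K] F') (f : F') :
    normAlong ψ f = (letI := algebraAlong ψ; Algebra.norm F f) := rfl

theorem normAlong_ne_zero (ψ : F →ₐ[K] F') (hfin : FiniteAlong K ψ) {f : F'} (hf : f ≠ 0) :
    normAlong ψ f ≠ 0 := by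
  letI := algebraAlong ψ
  haveI : Module.Finite F F' := hfin
  exact Algebra.norm_ne_zero_iff.mpr hf

/-- Pull-back of divisors multiplies by `φ` on functions. -/
theorem pullbackAlong_apply_eq_ord (φ : F →ₐ[K] F') (hφ : φ.toRingHom.IsIntegral) {f : F}
    {D : Divisor K F} (hD : ∀ v : Place K F, D v = v.ord f) (w : Place K F') :
    Divisor.pullbackAlong φ hφ D w = w.ord (φ f) := by
  letI := algebraAlong φ
  haveI := isScalarTower_along φ
  haveI := isIntegral_along φ hφ
  exact Divisor.pullback_apply_eq_ord (F' := F') hD w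

/-- Push-forward of divisors is the norm on functions. -/
theorem pushforwardAlong_apply_eq_ord (ψ : F →ₐ[K] F') (hψ : ψ.toRingHom.IsIntegral)
    (hfin : FiniteAlong K ψ) (hN : NormFormulaAlong K ψ hfin) {f : F'} (hf : f ≠ 0)
    {D : Divisor K F'} (hD : ∀ w : Place K F', D w = w.ord f) (v : Place K F) :
    Divisor.pushforwardAlong ψ hψ D v = v.ord (normAlong ψ f) := by
  letI := algebraAlong ψ
  haveI := isScalarTower_along ψ
  haveI := isIntegral_along ψ hψ
  haveI : Module.Finite F F' := hfin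
  exact hN f hf D hD v

/-- (KD5) a correspondence `ψ_* ∘ φ^*` acts on Kummer representatives by `h ↦ Norm_ψ (φ h)`. -/
theorem IsKummerRep.correspondence {n : ℕ} {x : Pic0 K F} {h : F} (H : IsKummerRep n x h)
    (φ ψ : F →ₐ[K] F') (hφ : φ.toRingHom.IsIntegral) (hψ : ψ.toRingHom.IsIntegral)
    (hFI : FundamentalIdentityAlong K φ hφ) (hfin : FiniteAlong K ψ)
    (hN : NormFormulaAlong K ψ hfin) :
    IsKummerRep n (Pic0.correspondence φ ψ hφ hψ hFI hfin hN x) (normAlong ψ (φ h)) := by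
  obtain ⟨hh, D, rfl, hD⟩ := H
  have hφh : φ h ≠ 0 := by simpa using hh
  refine ⟨normAlong_ne_zero ψ hfin hφh, Pic0.degZeroCorrespondence φ ψ hφ hψ hFI D,
    (Pic0.correspondence_mk φ ψ hφ hψ hFI hfin hN D).symm, fun v => ?_⟩
  rw [Pic0.coe_degZeroCorrespondence, Divisor.correspondence_apply]
  have h1 : ∀ w : Place K F', ((n : ℤ) • Divisor.pullbackAlong φ hφ (D : Divisor K F)) w
      = w.ord (φ h) := by
    intro w
    rw [← map_zsmul]
    exact pullbackAlong_apply_eq_ord φ hφ (f := h) (D := (n : ℤ) • (D : Divisor K F))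
      (fun v => by rw [← hD v]; simp) w
  have h2 := pushforwardAlong_apply_eq_ord ψ hψ hfin hN hφh h1 v
  rw [map_zsmul] at h2
  rw [← h2]
  simp

end Correspondence

/-! ### The modular case: `JZero M`, Galois action and Hecke operators -/

section Modular

open ModularCurve

variable {L : Type*} [Field L] [Algebra ℚ L]

/-- (KD4) on `Pic0` of a base-changed Laurent field: `σ • x` is represented by the
coefficientwise conjugate `arithmeticRingAut F₀ σ h` of `h`. -/
theorem IsKummerRep.galois_smul {F₀ : IntermediateField ℚ (LaurentSeries ℚ)} {n : ℕ}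
    {x : Pic0 L (laurentBaseChange L F₀)} {h : laurentBaseChange L F₀}
    (H : IsKummerRep n x h) (σ : L ≃ₐ[ℚ] L) :
    IsKummerRep n (σ • x) (arithmeticRingAut F₀ σ h) :=
  H.smul (arithmeticGalois F₀ σ)

/-- The `q`-expansion of the Galois conjugate of a Kummer representative. -/
theorem coe_arithmeticRingAut {F₀ : IntermediateField ℚ (LaurentSeries ℚ)}
    (σ : L ≃ₐ[ℚ] L) (h : laurentBaseChange L F₀) :
    ((arithmeticRingAut F₀ σ h : laurentBaseChange L F₀) : LaurentSeries L)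
      = coeffMap (σ : L →+* L) (h : LaurentSeries L) := rfl

variable {N ℓ : ℕ} [NeZero N] [NeZero ℓ]

/-- The Hecke operator on Kummer representatives: `h ↦ Norm_{α} (β h)`, where
`α = heckeAlphaBar` (inclusion `F_N ⊆ F_{Nℓ}`) and `β = heckeBetaBar` (`q ↦ q ^ ℓ`). -/
def heckeKummer (L : Type*) [Field L] [Algebra ℚ L] (N ℓ : ℕ) [NeZero N] [NeZero ℓ]
    (h : laurentBaseChange L (modularFunctionFieldFull N)) :
    laurentBaseChange L (modularFunctionFieldFull N) :=
  normAlong (heckeAlphaBar L N ℓ) (heckeBetaBar L N ℓ h)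

theorem heckeKummer_def (h : laurentBaseChange L (modularFunctionFieldFull N)) :
    heckeKummer L N ℓ h =
      (letI := algebraAlong (heckeAlphaBar L N ℓ)
       Algebra.norm (laurentBaseChange L (modularFunctionFieldFull N))
        (heckeBetaBar L N ℓ h)) := rfl

theorem heckeKummer_mul (h g : laurentBaseChange L (modularFunctionFieldFull N)) :
    heckeKummer L N ℓ (h * g) = heckeKummer L N ℓ h * heckeKummer L N ℓ g := by
  unfold heckeKummer
  rw [map_mul, map_mul]

theorem heckeKummer_one :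
    heckeKummer L N ℓ (1 : laurentBaseChange L (modularFunctionFieldFull N)) = 1 := by
  unfold heckeKummer
  rw [map_one, map_one]

theorem heckeKummer_inv (h : laurentBaseChange L (modularFunctionFieldFull N)) :
    heckeKummer L N ℓ h⁻¹ = (heckeKummer L N ℓ h)⁻¹ := by
  rcases eq_or_ne h 0 with rfl | hh
  · rw [inv_zero]
    have h1 : heckeKummer L N ℓ 0 * heckeKummer L N ℓ 0 = heckeKummer L N ℓ 0 := by
      rw [← heckeKummer_mul, mul_zero]
    rcases eq_or_ne (heckeKummer L N ℓ (0 : laurentBaseChange L (modularFunctionFieldFull N))) 0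
      with h0 | h0
    · rw [h0, inv_zero]
    · have h2 : heckeKummer L N ℓ (0 : laurentBaseChange L (modularFunctionFieldFull N)) = 1 :=
        mul_right_cancel₀ h0 (by rw [h1, one_mul])
      rw [h2, inv_one]
  · have h1 : heckeKummer L N ℓ h * heckeKummer L N ℓ h⁻¹ = 1 := by
      rw [← heckeKummer_mul, mul_inv_cancel₀ hh, heckeKummer_one]
    exact eq_inv_of_mul_eq_one_right h1

theorem heckeKummer_pow (h : laurentBaseChange L (modularFunctionFieldFull N)) (k : ℕ) :
    heckeKummer L N ℓ (h ^ k) = heckeKummer L N ℓ h ^ k := by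
  unfold heckeKummer
  rw [map_pow, map_pow]

/-- (KD5) the Hecke operator `heckeOperatorAlong` acts on Kummer representatives by
`h ↦ Norm_α (β h)`. -/
theorem IsKummerRep.heckeOperatorAlong (hI : HeckeInputsAlong L N ℓ) {n : ℕ}
    {x : Pic0 L (laurentBaseChange L (modularFunctionFieldFull N))}
    {h : laurentBaseChange L (modularFunctionFieldFull N)} (H : IsKummerRep n x h) :
    IsKummerRep n (ModularCurve.heckeOperatorAlong L N ℓ x) (heckeKummer L N ℓ h) := by
  obtain ⟨hα, hβ, hP, hfin, hFI, hN⟩ := hI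
  haveI := hP
  rw [heckeOperatorAlong_eq hα hβ hFI hfin hN]
  exact H.correspondence (heckeBetaBar L N ℓ) (heckeAlphaBar L N ℓ) hβ hα hFI hfin hN

end Modular

section JZero

open ModularCurve

variable {M : ℕ} [NeZero M]

/-- (KD4) on `JZero M`. -/
theorem IsKummerRep.galois_smul_jZero {n : ℕ} {x : JZero M} {h : modularFunctionFieldBar M}
    (H : IsKummerRep n x h) (σ : AlgebraicClosure ℚ ≃ₐ[ℚ] AlgebraicClosure ℚ) :
    IsKummerRep n (σ • x) (arithmeticRingAut (modularFunctionFieldFull M) σ h) :=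
  H.galois_smul σ

/-- (KD5) on `JZero M`: `heckeOperatorBar M ℓ x` is represented by `Norm_α (β h)`. -/
theorem IsKummerRep.heckeOperatorBar (ℓ : Nat.Primes)
    (hI : haveI : NeZero (ℓ : ℕ) := ⟨ℓ.2.ne_zero⟩
      HeckeInputsAlong (AlgebraicClosure ℚ) M (ℓ : ℕ))
    {n : ℕ} {x : JZero M} {h : modularFunctionFieldBar M} (H : IsKummerRep n x h) :
    IsKummerRep n (ModularCurve.heckeOperatorBar M ℓ x)
      (haveI : NeZero (ℓ : ℕ) := ⟨ℓ.2.ne_zero⟩
       heckeKummer (AlgebraicClosure ℚ) M (ℓ : ℕ) h) := by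
  haveI : NeZero (ℓ : ℕ) := ⟨ℓ.2.ne_zero⟩
  rw [heckeOperatorBar_apply]
  exact H.heckeOperatorAlong hI

/-- **Kummer form of (UNR)**: `σ x - x` is represented by `σ h / h`. -/
theorem IsKummerRep.galois_sub_self {n : ℕ} {x : JZero M} {h : modularFunctionFieldBar M}
    (H : IsKummerRep n x h) (σ : AlgebraicClosure ℚ ≃ₐ[ℚ] AlgebraicClosure ℚ) :
    IsKummerRep n (σ • x - x) (arithmeticRingAut (modularFunctionFieldFull M) σ h * h⁻¹) :=
  (H.galois_smul_jZero σ).sub H

/-- **Kummer form of (ES)**: `σ² x - T_ℓ (σ x) + ℓ x` is represented by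
`σ² h · (Norm_α (β (σ h)))⁻¹ · h ^ ℓ`. -/
theorem IsKummerRep.eichlerShimura (ℓ : Nat.Primes)
    (hI : haveI : NeZero (ℓ : ℕ) := ⟨ℓ.2.ne_zero⟩
      HeckeInputsAlong (AlgebraicClosure ℚ) M (ℓ : ℕ))
    {n : ℕ} {x : JZero M} {h : modularFunctionFieldBar M} (H : IsKummerRep n x h)
    (σ : AlgebraicClosure ℚ ≃ₐ[ℚ] AlgebraicClosure ℚ) :
    IsKummerRep n (σ • σ • x - ModularCurve.heckeOperatorBar M ℓ (σ • x) + (ℓ : ℕ) • x)
      (arithmeticRingAut (modularFunctionFieldFull M) σ
          (arithmeticRingAut (modularFunctionFieldFull M) σ h)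
        * (haveI : NeZero (ℓ : ℕ) := ⟨ℓ.2.ne_zero⟩
           heckeKummer (AlgebraicClosure ℚ) M (ℓ : ℕ)
            (arithmeticRingAut (modularFunctionFieldFull M) σ h))⁻¹
        * h ^ (ℓ : ℕ)) :=
  (((H.galois_smul_jZero σ).galois_smul_jZero σ).sub
    ((H.galois_smul_jZero σ).heckeOperatorBar ℓ hI)).add (H.nsmul (ℓ : ℕ))

end JZero

end Fermat.Agent.P3.helper94

end
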