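import Mathlib
import Fermat.Agent.P3.helper34_Ev
import Fermat.Agent.P3.helper48_AN1Core
import Fermat.Agent.P2.helper93_ESNorm
import Fermat.Agent.P3.helper94_Kummer

/-!
# P3 [AN6-K-DICT]: the function of the Hecke norm `N_{F_{Nℓ}/αF_N}(β h)` (helper34, task 565)

For a prime `ℓ ∤ N` and `h ∈ F_N = modularFunctionFieldBar N` with function `f` on the upper half
plane (`IsEv (toC h) f`), the function of the norm `N(β h) ∈ F_N` along the Hecke correspondence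
is the norm product `w ↦ f (ℓ w) ∏_{j mod ℓ} f ((w + j) / ℓ)`
(`normProd (systemT N ℓ hN) f`): `isEv_norm_heckeBeta`.

Combined with `IsKummerChar.normProd_heckeHom` this gives the Kummer character of `N(β h)`:
`isKummerChar_norm_heckeBeta`.
-/

set_option autoImplicit false
set_option linter.unusedSectionVars false
set_option linter.style.haveILetI false

open Filter Topology Set UpperHalfPlane ModularCurve AlgebraicCurve
open scoped MatrixGroups Manifold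
open Fermat.Agent.S24 Fermat.Agent.S24.helper17 Fermat.Agent.S24.helper37
open Fermat.Agent.P2.helper93 Fermat.Agent.S16.helper26

namespace Fermat.Agent.P3.helper34

/-! ### `t`-expansions of `τ ↦ a (ℓ τ)` and `τ ↦ a ((τ + k) / ℓ)` -/

section TExp

variable {ℓ : ℕ} [NeZero ℓ]

/-- `τ ↦ ℓ τ` on the upper half plane. -/
noncomputable def mulH (ℓ : ℕ) [NeZero ℓ] (τ : ℍ) : ℍ := scaleR (ℓ : ℝ) (natCast_pos_real ℓ) τ

theorem coe_mulH (τ : ℍ) : ((mulH ℓ τ : ℍ) : ℂ) = (ℓ : ℂ) * τ := by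
  show (((ℓ : ℝ) : ℂ)) * (τ : ℂ) = _
  push_cast
  rfl

theorem isTExp_comp_mulH {A : LaurentSeries ℂ} {a : ℍ → ℂ} (h : IsQExp A a) :
    IsTExp ℓ (qExpand ℂ (ℓ * ℓ) A) (fun τ => a (mulH ℓ τ)) :=
  isTExp_comp_scaleR (N := 1) (N' := ℓ) (isTExp_one_of_isQExp h) (ℓ : ℝ) (natCast_pos_real ℓ)
    (ℓ * ℓ) (by push_cast; ring)

theorem isTExp_comp_divH {A : LaurentSeries ℂ} {a : ℍ → ℂ} (h : IsQExp A a) :
    IsTExp ℓ A (fun τ => a (divH ℓ τ)) := by
  have hℓ : (ℓ : ℝ) ≠ 0 := (natCast_pos_real ℓ).ne'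
  have := isTExp_comp_scaleR (N := 1) (N' := ℓ) (isTExp_one_of_isQExp h) ((ℓ : ℝ))⁻¹
    (inv_natCast_pos ℓ) 1 (by push_cast; field_simp)
  rw [qExpand_one_apply] at this
  exact this

theorem isTExp_comp_divH_vadd {A : LaurentSeries ℂ} {a : ℍ → ℂ} (h : IsQExp A a) (x : ℝ) :
    IsTExp ℓ (rotL (zetaR ℓ x) A) (fun τ => a (divH ℓ (x +ᵥ τ))) :=
  (isTExp_comp_divH h).comp_vadd x

theorem zetaR_natCast (k : ℕ) : zetaR ℓ (k : ℝ) = zetaR ℓ 1 ^ k := by
  unfold zetaR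
  rw [← Complex.exp_nat_mul]
  congr 1
  push_cast
  ring

theorem isPrimitiveRoot_zetaR_one : IsPrimitiveRoot (zetaR ℓ 1) ℓ := by
  have := Complex.isPrimitiveRoot_exp ℓ (NeZero.ne ℓ)
  unfold zetaR
  convert this using 2
  push_cast
  ring

/-- The "norm product" of a function on `ℍ`. -/
noncomputable def prodH (ℓ : ℕ) [NeZero ℓ] (a : ℍ → ℂ) (τ : ℍ) : ℂ :=
  a (mulH ℓ τ) * ∏ k ∈ Finset.range ℓ, a (divH ℓ ((k : ℝ) +ᵥ τ))

theorem isTExp_prodH {A : LaurentSeries ℂ} {a : ℍ → ℂ} (h : IsQExp A a) :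
    IsTExp ℓ (qExpand ℂ (ℓ * ℓ) A * ∏ k ∈ Finset.range ℓ, rotL (zetaR ℓ 1 ^ k) A) (prodH ℓ a) := by
  have key : ∀ n : ℕ, IsTExp ℓ (∏ k ∈ Finset.range n, rotL (zetaR ℓ 1 ^ k) A)
      (fun τ => ∏ k ∈ Finset.range n, a (divH ℓ ((k : ℝ) +ᵥ τ))) := by
    intro n
    induction n with
    | zero =>
      simp only [Finset.range_zero, Finset.prod_empty]
      exact IsTExp.one
    | succ n ih =>
      simp only [Finset.prod_range_succ]
      have h1 := isTExp_comp_divH_vadd (ℓ := ℓ) h (n : ℝ)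
      rw [zetaR_natCast] at h1
      exact ih.mul h1
  exact (isTExp_comp_mulH h).mul (key ℓ)

/-- The function identity behind the norm formula. -/
theorem prodH_identity {ξ : ℂ} (hξ : IsPrimitiveRoot ξ ℓ) {S T A B A' B' : LaurentSeries ℂ}
    {a b a' b' : ℍ → ℂ} (hA : IsQExp A a) (hB : IsQExp B b) (hA' : IsQExp A' a')
    (hB' : IsQExp B' b') (hS : S * B = A) (hT : T * B' = A')
    (hST : qExpand ℂ ℓ T = qExpand ℂ (ℓ * ℓ) S * ∏ k ∈ Finset.range ℓ, rotL (ξ ^ k) S) :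
    a' * prodH ℓ b = b' * prodH ℓ a := by
  have hz : zetaR ℓ 1 ≠ 0 := zetaR_ne_zero ℓ 1
  rw [prod_pow_primitiveRoot hξ (isPrimitiveRoot_zetaR_one (ℓ := ℓ)) (fun c => rotL c S)] at hST
  have h1 : IsTExp ℓ (qExpand ℂ ℓ A' *
      (qExpand ℂ (ℓ * ℓ) B * ∏ k ∈ Finset.range ℓ, rotL (zetaR ℓ 1 ^ k) B)) (a' * prodH ℓ b) :=
    (isTExp_of_isQExp hA' ℓ).mul (isTExp_prodH hB)
  have h2 : IsTExp ℓ (qExpand ℂ ℓ B' *
      (qExpand ℂ (ℓ * ℓ) A * ∏ k ∈ Finset.range ℓ, rotL (zetaR ℓ 1 ^ k) A)) (b' * prodH ℓ a) :=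
    (isTExp_of_isQExp hB' ℓ).mul (isTExp_prodH hA)
  have e : qExpand ℂ ℓ A' *
      (qExpand ℂ (ℓ * ℓ) B * ∏ k ∈ Finset.range ℓ, rotL (zetaR ℓ 1 ^ k) B) =
      qExpand ℂ ℓ B' *
      (qExpand ℂ (ℓ * ℓ) A * ∏ k ∈ Finset.range ℓ, rotL (zetaR ℓ 1 ^ k) A) := by
    have e1 : ∏ k ∈ Finset.range ℓ, rotL (zetaR ℓ 1 ^ k) A =
        (∏ k ∈ Finset.range ℓ, rotL (zetaR ℓ 1 ^ k) S) *
          ∏ k ∈ Finset.range ℓ, rotL (zetaR ℓ 1 ^ k) B := by
      rw [← Finset.prod_mul_distrib]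
      refine Finset.prod_congr rfl fun k _ => ?_
      rw [← hS, rotL_mul (pow_ne_zero k hz)]
    rw [e1, ← hT, ← hS, map_mul, map_mul, hST]
    ring
  rw [e] at h1
  exact h1.fun_unique h2

end TExp

/-! ### Passing to functions on `ℂ` -/

section OnC

variable {ℓ : ℕ} [NeZero ℓ]

theorem ofComplex_natCast_mul {w : ℂ} (hw : 0 < w.im) :
    ofComplex ((ℓ : ℂ) * w) = mulH ℓ (ofComplex w) := by
  apply UpperHalfPlane.ext
  have h1 : 0 < ((ℓ : ℂ) * w).im := by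
    rw [Complex.mul_im]
    simp only [Complex.natCast_re, Complex.natCast_im, zero_mul, add_zero]
    exact mul_pos (natCast_pos_real ℓ) hw
  rw [coe_mulH, ofComplex_apply_of_im_pos h1, ofComplex_apply_of_im_pos hw]

theorem ofComplex_add_div {w : ℂ} (hw : 0 < w.im) (k : ℕ) :
    ofComplex ((w + (k : ℂ)) / (ℓ : ℂ)) = divH ℓ ((k : ℝ) +ᵥ ofComplex w) := by
  apply UpperHalfPlane.ext
  have h1 : 0 < ((w + (k : ℂ)) / (ℓ : ℂ)).im := by
    rw [Complex.div_natCast_im]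
    simp only [Complex.add_im, Complex.natCast_im, add_zero]
    exact div_pos hw (natCast_pos_real ℓ)
  rw [coe_divH, ofComplex_apply_of_im_pos h1, coe_vadd, ofComplex_apply_of_im_pos hw]
  push_cast
  ring

end OnC

section Norm

variable (N : ℕ) (ℓ : Nat.Primes)

theorem prod_zmod_eq_prod_range {M : Type*} [CommMonoid M] (n : ℕ) [NeZero n] (φ : ℕ → M) :
    ∏ j : ZMod n, φ j.val = ∏ k ∈ Finset.range n, φ k := by
  rw [← Fin.prod_univ_eq_prod_range]
  cases n with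
  | zero => exact absurd rfl (NeZero.ne 0)
  | succ n => rfl

/-- The norm product (over the coset system of `T_ℓ`) of a function coming from `ℍ`. -/
theorem normProd_systemT_comp_ofComplex (hN : ¬ (ℓ : ℕ) ∣ N) (c : ℍ → ℂ) {w : ℂ}
    (hw : 0 < w.im) :
    normProd (systemT N ℓ hN) (fun v => c (ofComplex v)) w = prodH ℓ c (ofComplex w) := by
  rw [normProd_systemT, prodH, ofComplex_natCast_mul hw,
    prod_zmod_eq_prod_range (ℓ : ℕ) (fun k => c (ofComplex ((w + (k : ℕ)) / ((ℓ : ℕ) : ℂ))))]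
  congr 1
  refine Finset.prod_congr rfl fun k _ => ?_
  rw [ofComplex_add_div hw k]

theorem normProd_div {Γ : Subgroup SL(2, ℤ)} {ι : Type*} [Fintype ι] (S : CosetSystem Γ ι)
    (g₁ g₂ : ℂ → ℂ) (w : ℂ) :
    normProd S (fun v => g₁ v / g₂ v) w = normProd S g₁ w / normProd S g₂ w := by
  simp only [normProd]
  rw [Finset.prod_div_distrib]

/-- **Core of the norm dictionary**: if `T(q^ℓ) = S(q^{ℓ²}) ∏_k S(ξ^k q)` in `ℂ((q))` and `f`
is the function of `S`, then the norm product of `f` is the function of `T`. -/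
theorem isEv_normProd_of_identity (hN : ¬ (ℓ : ℕ) ∣ N) {ξ : ℂ} (hξ : IsPrimitiveRoot ξ ℓ)
    {S T : LaurentSeries ℂ} {f g : ℂ → ℂ} (hS : IsEv S f) (hT : IsEv T g)
    (hST : qExpand ℂ ℓ T = qExpand ℂ (ℓ * ℓ) S * ∏ k ∈ Finset.range ℓ, rotL (ξ ^ k) S) :
    IsEv T (normProd (systemT N ℓ hN) f) := by
  refine hT.congr fun z hz => ?_
  obtain ⟨A, B, a, b, hA, hB, hB0, hSB, hf⟩ := hS
  obtain ⟨A', B', a', b', hA', hB', hB0', hTB, hg⟩ := hT
  have hid := prodH_identity hξ hA hB hA' hB' hSB hTB hST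
  have hdet := systemT_det_pos N ℓ hN
  have hb0 : b ≠ 0 := fun h0 => hB0 (hB.eq_zero_iff.2 h0)
  have hb0' : b' ≠ 0 := fun h0 => hB0' (hB'.eq_zero_iff.2 h0)
  have hbm : MeromorphicOn (fun v => b (ofComplex v)) {z : ℂ | 0 < z.im} := fun z hz =>
    (analyticOnNhd_comp_ofComplex hB.mdiff z hz).meromorphicAt
  have hbfin : ∀ z ∈ {z : ℂ | 0 < z.im}, meromorphicOrderAt (fun v => b (ofComplex v)) z ≠ ⊤ :=
    fun z hz => (meromorphicOrderAt_ne_top_iff_eventually_ne_zero (hbm z hz)).2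
      (eventually_comp_ofComplex_ne_zero hB.mdiff hb0 hz)
  have hH : ∀ᶠ w in 𝓝[≠] z, 0 < w.im :=
    mem_nhdsWithin_of_mem_nhds (UpperHalfPlane.isOpen_upperHalfPlaneSet.mem_nhds hz)
  filter_upwards [hg z hz, normProd_congr (systemT N ℓ hN) hdet hf hz, hH,
    eventually_comp_ofComplex_ne_zero hB'.mdiff hb0' hz,
    eventually_normProd_ne_zero (systemT N ℓ hN) hdet hbm hbfin hz] with w hw1 hw2 hwH hw3 hw4
  rw [hw1, hw2, normProd_div, normProd_systemT_comp_ofComplex N ℓ hN a hwH]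
  rw [normProd_systemT_comp_ofComplex N ℓ hN b hwH] at hw4 ⊢
  rw [div_eq_div_iff hw3 hw4]
  have := congrFun hid (ofComplex w)
  simp only [Pi.mul_apply] at this
  rw [this]
  ring

end Norm

/-! ### The norm dictionary for `F_N = modularFunctionFieldBar N` -/

section Final

variable (N : ℕ) [NeZero N] (ℓ : Nat.Primes)

/-- `toC` maps `F_N` (over `ℚ̄`) into `F_ℂ(N)`. -/
theorem toC_mem_FCfield (y : FN N) :
    toC (y : LaurentSeries Kbar) ∈ Fermat.Agent.P3.helper80.FCfield N :=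
  Fermat.Agent.P3.helper48.toC_mem_FC N y.2

/-- Every element of `F_N` has a function on the upper half plane. -/
theorem exists_isEv_toC (y : FN N) : ∃ f : ℂ → ℂ, IsEv (toC (y : LaurentSeries Kbar)) f := by
  obtain ⟨f, hf, -⟩ := exists_isEv_of_mem_FC (toC_mem_FCfield N y)
  exact ⟨f, hf⟩

/-- **[AN6-K-DICT], norm dictionary**: for a prime `ℓ ∤ N` and `h ∈ F_N` with function `f`,
the function of `N_{F_{Nℓ}/αF_N}(β h)` is the norm product
`w ↦ f (ℓ w) ∏_{j mod ℓ} f ((w + j) / ℓ)` of `f` along the coset system of `T_ℓ`. -/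
theorem isEv_norm_heckeBeta (hN : ¬ (ℓ : ℕ) ∣ N) (h : FN N) {f : ℂ → ℂ}
    (hf : IsEv (toC (h : LaurentSeries Kbar)) f) :
    letI := algebraAlong (heckeAlphaBar Kbar N ℓ)
    IsEv (toC ((Algebra.norm (FN N) (heckeBetaBar Kbar N ℓ h) : FN N) : LaurentSeries Kbar))
      (normProd (systemT N ℓ hN) f) := by
  letI := algebraAlong (heckeAlphaBar Kbar N ℓ)
  obtain ⟨g, hg⟩ := exists_isEv_toC N (Algebra.norm (FN N) (heckeBetaBar Kbar N ℓ h))
  exact isEv_normProd_of_identity N ℓ hN (isPrimitiveRoot_xiC N ℓ) hf hg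
    (es_norm_complex N ℓ ℓ.2 hN h)

/-- The norm dictionary in `heckeKummer` form (helper94's Hecke operator on Kummer
representatives). -/
theorem isEv_heckeKummer (hN : ¬ (ℓ : ℕ) ∣ N) (h : FN N) {f : ℂ → ℂ}
    (hf : IsEv (toC (h : LaurentSeries Kbar)) f) :
    IsEv (toC ((Fermat.Agent.P3.helper94.heckeKummer Kbar N ℓ h : FN N) : LaurentSeries Kbar))
      (normProd (systemT N ℓ hN) f) :=
  isEv_norm_heckeBeta N ℓ hN h hf

/-- The norm dictionary, explicit form of the function. -/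
theorem isEv_heckeKummer' (hN : ¬ (ℓ : ℕ) ∣ N) (h : FN N) {f : ℂ → ℂ}
    (hf : IsEv (toC (h : LaurentSeries Kbar)) f) :
    IsEv (toC ((Fermat.Agent.P3.helper94.heckeKummer Kbar N ℓ h : FN N) : LaurentSeries Kbar))
      (fun w => f ((ℓ : ℕ) * w) * ∏ j : ZMod ℓ, f ((w + (j.val : ℕ)) / (ℓ : ℕ))) := by
  have h1 := isEv_heckeKummer N ℓ hN h hf
  have h2 : Fermat.Agent.P3.helper34.normProd (systemT N ℓ hN) f =
      fun w => f ((ℓ : ℕ) * w) * ∏ j : ZMod ℓ, f ((w + (j.val : ℕ)) / (ℓ : ℕ)) :=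
    funext fun w => normProd_systemT N ℓ hN f w
  rw [h2] at h1
  exact h1

/-- **[AN6-K], Kummer form**: if `ψ` is the Kummer character (multiplier of an `m`-th root) of
the function of `h ∈ F_N`, then `heckeChar (systemT N ℓ) ψ` is the Kummer character of the
function of `heckeKummer h = N_α(β h)`. -/
theorem isKummerChar_heckeKummer (hN : ¬ (ℓ : ℕ) ∣ N) (h : FN N) {f : ℂ → ℂ}
    (hf : IsEv (toC (h : LaurentSeries Kbar)) f) {m : ℕ}
    {ψ : CongruenceSubgroup.Gamma0 N →* ℂˣ}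
    (hψ : IsKummerChar (CongruenceSubgroup.Gamma0 N) m f ψ) :
    IsEv (toC ((Fermat.Agent.P3.helper94.heckeKummer Kbar N ℓ h : FN N) : LaurentSeries Kbar))
        (normProd (systemT N ℓ hN) f) ∧
      IsKummerChar (CongruenceSubgroup.Gamma0 N) m (normProd (systemT N ℓ hN) f)
        (heckeChar (systemT N ℓ hN) ψ) :=
  ⟨isEv_heckeKummer N ℓ hN h hf, hψ.normProd (systemT N ℓ hN) (systemT_det_pos N ℓ hN)⟩

/-- **[AN6-K], Kummer form, for an arbitrary function of the norm**: if `ψ` is the Kummer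
character of a function `f` of `h ∈ F_N` and `F` is any function of `heckeKummer h`, then
`heckeChar (systemT N ℓ) ψ` is the Kummer character of `F`. -/
theorem isKummerChar_of_isEv_heckeKummer (hN : ¬ (ℓ : ℕ) ∣ N) (h : FN N) {f F : ℂ → ℂ}
    (hf : IsEv (toC (h : LaurentSeries Kbar)) f)
    (hF : IsEv
      (toC ((Fermat.Agent.P3.helper94.heckeKummer Kbar N ℓ h : FN N) : LaurentSeries Kbar)) F)
    {m : ℕ} {ψ : CongruenceSubgroup.Gamma0 N →* ℂˣ}
    (hψ : IsKummerChar (CongruenceSubgroup.Gamma0 N) m f ψ) :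
    IsKummerChar (CongruenceSubgroup.Gamma0 N) m F (heckeChar (systemT N ℓ hN) ψ) :=
  (isKummerChar_heckeKummer N ℓ hN h hf hψ).2.congr
    (fun _ hz => (isEv_heckeKummer N ℓ hN h hf).unique hF hz)

/-- the same with helper26's `heckeHom` (written multiplicatively). -/
theorem isKummerChar_of_isEv_heckeKummer' (hN : ¬ (ℓ : ℕ) ∣ N) (h : FN N) {f F : ℂ → ℂ}
    (hf : IsEv (toC (h : LaurentSeries Kbar)) f)
    (hF : IsEv
      (toC ((Fermat.Agent.P3.helper94.heckeKummer Kbar N ℓ h : FN N) : LaurentSeries Kbar)) F)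
    {m : ℕ} {ψ : CongruenceSubgroup.Gamma0 N →* ℂˣ}
    (hψ : IsKummerChar (CongruenceSubgroup.Gamma0 N) m f ψ) :
    IsKummerChar (CongruenceSubgroup.Gamma0 N) m F
      (MonoidHom.toAdditive.symm (heckeHom N ℓ (MonoidHom.toAdditive ψ))) := by
  have h1 := isKummerChar_of_isEv_heckeKummer N ℓ hN h hf hF hψ
  rw [heckeHom_of_not_dvd N hN]
  exact h1

end Final

end Fermat.Agent.P3.helper34
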