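import Fermat.Agent.P3.helper20_TwistedEis

noncomputable section

namespace Fermat.Agent.P3.helper20

open UpperHalfPlane EisensteinSeries Matrix ModularForm CongruenceSubgroup Filter Topology
open scoped MatrixGroups Manifold

/-!
# The function `u_ψ = E_{4,ψ} / E₄` (P3, package AN4, part 2)

* `tendsto_E_atImInfty`, `tendsto_E₄_atImInfty`: the level one Eisenstein series tend to `1`
  at `i∞`;
* `twistedU ψ = twistedEis 4 ψ / E₄`: multiplier `ψ` under `Γ₀(N)`, all translates bounded at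
  `i∞` and `N`-periodic, limit `1` at `i∞`, meromorphic of finite order on the upper half plane;
* `twistedEisPow`: for `ψ ^ m = 1`, the power `E_ψ ^ m` as a Mathlib modular form of weight
  `m * k` on `Γ₀(N)`.
-/

/-! ## The level one Eisenstein series as a weighted Eisenstein series -/

/-- The indicator function of the set of coprime vectors. -/
def copW : (Fin 2 → ℤ) → ℂ := (gammaSet 1 1 0).indicator (fun _ ↦ (1 : ℂ))

lemma norm_copW_le (v : Fin 2 → ℤ) : ‖copW v‖ ≤ 1 := by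
  unfold copW
  by_cases h : v ∈ gammaSet 1 1 0
  · rw [Set.indicator_of_mem h]
    simp
  · rw [Set.indicator_of_notMem h]
    simp

lemma E_eq_wEis {k : ℕ} (hk : 3 ≤ k) (z : ℍ) :
    E hk z = (1 / 2 : ℂ) * wEis k copW z := by
  rw [show E hk z = (1 / 2 : ℂ) • eisensteinSeriesSIF (N := 1) 0 k z from rfl,
    eisensteinSeriesSIF_apply 0 k z, eisensteinSeries, smul_eq_mul, wEis]
  congr 1
  rw [tsum_subtype (gammaSet 1 1 0) (fun v ↦ eisSummand k v z)]
  refine tsum_congr fun v ↦ ?_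
  unfold copW
  by_cases h : v ∈ gammaSet 1 1 0
  · rw [Set.indicator_of_mem h, Set.indicator_of_mem h, one_mul]
  · rw [Set.indicator_of_notMem h, Set.indicator_of_notMem h, zero_mul]

lemma mem_gammaSet_of_zero {v : Fin 2 → ℤ} (hv : v 0 = 0) :
    v ∈ gammaSet 1 1 0 ↔ v 1 = 1 ∨ v 1 = -1 := by
  rw [gammaSet_one_mem_iff, hv, Int.gcd_zero_left, Int.natAbs_eq_iff]
  simp

lemma wEisConst_copW {k : ℤ} (hk : Even k) : wEisConst k copW = 2 := by
  unfold wEisConst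
  rw [tsum_eq_sum (s := {![0, 1], ![0, -1]})]
  · rw [Finset.sum_pair vec_zero_one_ne]
    have e1 : copW ![0, 1] = 1 := by
      unfold copW
      rw [Set.indicator_of_mem]
      rw [mem_gammaSet_of_zero (by simp)]
      simp
    have e2 : copW ![0, -1] = 1 := by
      unfold copW
      rw [Set.indicator_of_mem]
      rw [mem_gammaSet_of_zero (by simp)]
      simp
    simp only [Matrix.cons_val_zero, if_true, Matrix.cons_val_one, Matrix.cons_val_fin_one,
      e1, e2]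
    have h1 : ((-1 : ℤ) : ℂ) ^ (-k) = 1 := by
      rw [Int.cast_neg, Int.cast_one]
      exact Even.neg_one_zpow hk.neg
    rw [h1]
    simp
    norm_num
  · intro v hv
    simp only [Finset.mem_insert, Finset.mem_singleton, not_or] at hv
    split_ifs with h0
    · have hnot : v ∉ gammaSet 1 1 0 := by
        rw [mem_gammaSet_of_zero h0]
        rintro (h1 | h1)
        · apply hv.1
          ext j
          fin_cases j
          · simpa using h0
          · simpa using h1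
        · apply hv.2
          ext j
          fin_cases j
          · simpa using h0
          · simpa using h1
      unfold copW
      rw [Set.indicator_of_notMem hnot, zero_mul]
    · rfl

/-- The normalised level one Eisenstein series of even weight `k ≥ 4` tends to `1` at `i∞`. -/
theorem tendsto_E_atImInfty {k : ℕ} (hk : 4 ≤ k) (hk2 : Even k) :
    Tendsto (E (show 3 ≤ k by omega)) atImInfty (𝓝 1) := by
  have hk' : (4 : ℤ) ≤ (k : ℤ) := by exact_mod_cast hk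
  have hk2' : Even (k : ℤ) := by exact_mod_cast hk2
  have h := (tendsto_wEis_atImInfty hk' norm_copW_le).const_mul (1 / 2 : ℂ)
  rw [wEisConst_copW hk2'] at h
  have h1 : (1 / 2 : ℂ) * 2 = 1 := by norm_num
  rw [h1] at h
  refine h.congr fun z ↦ ?_
  rw [E_eq_wEis]

theorem tendsto_E₄_atImInfty : Tendsto E₄ atImInfty (𝓝 1) :=
  tendsto_E_atImInfty (k := 4) le_rfl (by decide)

/-! ## The function `u = E_{4,ψ} / E₄` -/

lemma E₄_smul (δ : SL(2, ℤ)) (z : ℍ) : E₄ (δ • z) = denom δ z ^ (4 : ℤ) * E₄ z := by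
  have hmem : (δ : GL (Fin 2) ℝ) ∈ 𝒮ℒ := ⟨δ, rfl⟩
  exact SlashInvariantForm.slash_action_eqn'' E₄ hmem z

lemma eventually_norm_E₄_ge : ∃ A : ℝ, ∀ z : ℍ, A ≤ z.im → (1 / 2 : ℝ) ≤ ‖E₄ z‖ := by
  have h := tendsto_E₄_atImInfty
  have h1 : ∀ᶠ z in atImInfty, ‖E₄ z - 1‖ < 1 / 2 := by
    have := (tendsto_iff_norm_sub_tendsto_zero.mp h).eventually
      (gt_mem_nhds (show (0 : ℝ) < 1 / 2 by norm_num))
    exact this
  rw [Filter.Eventually, atImInfty_mem] at h1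
  obtain ⟨A, hA⟩ := h1
  refine ⟨A, fun z hz ↦ ?_⟩
  have h2 : ‖E₄ z - 1‖ < 1 / 2 := hA z hz
  have h3 : ‖(1 : ℂ)‖ ≤ ‖E₄ z‖ + ‖E₄ z - 1‖ := by
    have := norm_sub_le (E₄ z) (E₄ z - 1)
    simpa using this
  rw [norm_one] at h3
  linarith

section U

variable {N : ℕ} {ψ : Gamma0 N →* ℂˣ}

/-- The function `u_ψ = E_{4,ψ} / E₄` on the upper half plane: it has multiplier `ψ` under
`Γ₀(N)`. -/
def twistedU (ψ : Gamma0 N →* ℂˣ) (z : ℍ) : ℂ := twistedEis 4 ψ z / E₄ z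

/-- `u (γ z) = ψ(γ) u(z)` for `γ ∈ Γ₀(N)` and every `z`. -/
theorem twistedU_smul (hψ : IsParabolicChar ψ) (γ : Gamma0 N) (z : ℍ) :
    twistedU ψ ((γ : SL(2, ℤ)) • z) = ((ψ γ : ℂˣ) : ℂ) * twistedU ψ z := by
  unfold twistedU
  rw [twistedEis_smul 4 hψ, E₄_smul, mul_assoc, mul_div_assoc,
    mul_div_mul_left _ _ (zpow_ne_zero _ <| denom_ne_zero _ z)]

/-- `u (δ z) = (E_ψ ∣[4] δ) z / E₄ z` for every `δ ∈ SL(2, ℤ)`. -/
theorem twistedU_smul_SL (ψ : Gamma0 N →* ℂˣ) (δ : SL(2, ℤ)) (z : ℍ) :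
    twistedU ψ (δ • z) = (twistedEis 4 ψ ∣[(4 : ℤ)] δ) z / E₄ z := by
  unfold twistedU
  have hd : denom δ z ^ (4 : ℤ) ≠ 0 := zpow_ne_zero _ <| denom_ne_zero _ z
  rw [SL_slash_apply, E₄_smul, _root_.zpow_neg]
  field_simp

/-- Every `SL(2, ℤ)`-translate of `u` is bounded at `i∞`: the function `u` is holomorphic
at every cusp. -/
theorem isBoundedAtImInfty_twistedU_smul (hu : IsUnitaryChar ψ) (δ : SL(2, ℤ)) :
    IsBoundedAtImInfty (fun z : ℍ ↦ twistedU ψ (δ • z)) := by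
  obtain ⟨M, A, hMA⟩ := UpperHalfPlane.isBoundedAtImInfty_iff.mp
    (isBoundedAtImInfty_twistedEis_slash (k := 4) (by norm_num) hu δ)
  obtain ⟨B, hB⟩ := eventually_norm_E₄_ge
  rw [UpperHalfPlane.isBoundedAtImInfty_iff]
  refine ⟨2 * M, max A B, fun z hz ↦ ?_⟩
  have h1 := hMA z ((le_max_left A B).trans hz)
  have h2 := hB z ((le_max_right A B).trans hz)
  rw [twistedU_smul_SL, norm_div]
  have hM : 0 ≤ M := (norm_nonneg _).trans h1
  rw [div_le_iff₀ (by linarith)]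
  calc ‖(twistedEis 4 ψ ∣[(4 : ℤ)] δ) z‖ ≤ M := h1
    _ = 2 * M * (1 / 2) := by ring
    _ ≤ 2 * M * ‖E₄ z‖ := by gcongr

/-- `u` tends to `1` at `i∞`. -/
theorem tendsto_twistedU_atImInfty (hψ : IsParabolicChar ψ) (hu : IsUnitaryChar ψ) :
    Tendsto (twistedU ψ) atImInfty (𝓝 1) := by
  have h := (tendsto_twistedEis_atImInfty (k := 4) (by norm_num) (by decide) hψ hu).div
    tendsto_E₄_atImInfty one_ne_zero
  rw [div_one] at h
  exact h

/-! ### Meromorphy of `u` (vocabulary: functions `ℂ → ℂ`, Mathlib `MeromorphicOn`) -/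

/-- A holomorphic function on the upper half plane which is not identically zero has finite
order at every point. -/
lemma meromorphicOrderAt_ne_top_of_differentiableOn {f : ℂ → ℂ}
    (hf : DifferentiableOn ℂ f {z : ℂ | 0 < z.im}) (hne : ∃ z ∈ {z : ℂ | 0 < z.im}, f z ≠ 0)
    {z : ℂ} (hz : z ∈ {z : ℂ | 0 < z.im}) : meromorphicOrderAt f z ≠ ⊤ := by
  have hopen : IsOpen {z : ℂ | 0 < z.im} := isOpen_upperHalfPlaneSet
  have han : AnalyticOnNhd ℂ f {z : ℂ | 0 < z.im} := hf.analyticOnNhd hopen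
  have hpre : IsPreconnected {z : ℂ | 0 < z.im} := (convex_halfSpace_im_gt 0).isPreconnected
  obtain ⟨z₀, hz₀, hfz₀⟩ := hne
  intro htop
  rw [(han z hz).meromorphicOrderAt_eq] at htop
  have htop' : analyticOrderAt f z = ⊤ := by
    cases h : analyticOrderAt f z with
    | top => rfl
    | coe n => rw [h] at htop; simp at htop
  rw [analyticOrderAt_eq_top] at htop'
  exact hfz₀ (han.eqOn_zero_of_preconnected_of_eventuallyEq_zero hpre hz htop' hz₀)

theorem twistedU_comp_ofComplex (ψ : Gamma0 N →* ℂˣ) :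
    (↑ₕ(twistedU ψ)) = (↑ₕ(twistedEis 4 ψ)) / (↑ₕ(E₄ : ℍ → ℂ)) := rfl

lemma E₄_differentiableOn : DifferentiableOn ℂ (↑ₕ(E₄ : ℍ → ℂ)) {z : ℂ | 0 < z.im} :=
  UpperHalfPlane.mdifferentiable_iff.mp (ModularFormClass.holo E₄)

lemma exists_E₄_ne_zero : ∃ z : ℍ, E₄ z ≠ 0 :=
  (tendsto_E₄_atImInfty.eventually_ne one_ne_zero).exists

/-- `u` is meromorphic on the upper half plane. -/
theorem meromorphicOn_twistedU (hu : IsUnitaryChar ψ) :
    MeromorphicOn (↑ₕ(twistedU ψ)) {z : ℂ | 0 < z.im} := by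
  have hopen : IsOpen {z : ℂ | 0 < z.im} := isOpen_upperHalfPlaneSet
  have h1 : AnalyticOnNhd ℂ (↑ₕ(twistedEis 4 ψ)) {z : ℂ | 0 < z.im} :=
    (twistedEis_differentiableOn (k := 4) (by norm_num) hu).analyticOnNhd hopen
  have h2 : AnalyticOnNhd ℂ (↑ₕ(E₄ : ℍ → ℂ)) {z : ℂ | 0 < z.im} :=
    E₄_differentiableOn.analyticOnNhd hopen
  rw [twistedU_comp_ofComplex]
  exact fun z hz ↦ (h1 z hz).meromorphicAt.div (h2 z hz).meromorphicAt

/-- `u` has finite order at every point of the upper half plane (it is not identically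
zero). -/
theorem meromorphicOrderAt_twistedU_ne_top (hψ : IsParabolicChar ψ) (hu : IsUnitaryChar ψ)
    {z : ℂ} (hz : z ∈ {z : ℂ | 0 < z.im}) : meromorphicOrderAt (↑ₕ(twistedU ψ)) z ≠ ⊤ := by
  have hopen : IsOpen {z : ℂ | 0 < z.im} := isOpen_upperHalfPlaneSet
  have hd1 := twistedEis_differentiableOn (k := 4) (by norm_num) hu
  have hd2 := E₄_differentiableOn
  have ho1 : meromorphicOrderAt (↑ₕ(twistedEis 4 ψ)) z ≠ ⊤ := by
    refine meromorphicOrderAt_ne_top_of_differentiableOn hd1 ?_ hz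
    obtain ⟨w, hw⟩ := exists_twistedEis_ne_zero (k := 4) (by norm_num) (by decide) hψ hu
    exact ⟨w, w.im_pos, by simpa [Function.comp, ofComplex_apply] using hw⟩
  have ho2 : meromorphicOrderAt (↑ₕ(E₄ : ℍ → ℂ)) z ≠ ⊤ := by
    refine meromorphicOrderAt_ne_top_of_differentiableOn hd2 ?_ hz
    obtain ⟨w, hw⟩ := exists_E₄_ne_zero
    exact ⟨w, w.im_pos, by simpa [Function.comp, ofComplex_apply] using hw⟩
  have hm1 : MeromorphicAt (↑ₕ(twistedEis 4 ψ)) z :=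
    ((hd1.analyticOnNhd hopen) z hz).meromorphicAt
  have hm2 : MeromorphicAt (↑ₕ(E₄ : ℍ → ℂ)) z := ((hd2.analyticOnNhd hopen) z hz).meromorphicAt
  rw [meromorphicOrderAt_ne_top_iff_eventually_ne_zero (meromorphicOn_twistedU hu z hz)]
  rw [meromorphicOrderAt_ne_top_iff_eventually_ne_zero hm1] at ho1
  rw [meromorphicOrderAt_ne_top_iff_eventually_ne_zero hm2] at ho2
  filter_upwards [ho1, ho2] with w h1 h2
  rw [twistedU_comp_ofComplex]
  exact div_ne_zero h1 h2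

/-- The order of `u` at a point is the difference of the orders of `E_ψ` and `E₄`. -/
theorem meromorphicOrderAt_twistedU (hu : IsUnitaryChar ψ) {z : ℂ}
    (hz : z ∈ {z : ℂ | 0 < z.im}) :
    meromorphicOrderAt (↑ₕ(twistedU ψ)) z =
      meromorphicOrderAt (↑ₕ(twistedEis 4 ψ)) z - meromorphicOrderAt (↑ₕ(E₄ : ℍ → ℂ)) z := by
  have hopen : IsOpen {z : ℂ | 0 < z.im} := isOpen_upperHalfPlaneSet
  have hd1 := twistedEis_differentiableOn (k := 4) (by norm_num) hu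
  have hd2 := E₄_differentiableOn
  rw [twistedU_comp_ofComplex]
  exact meromorphicOrderAt_div ((hd1.analyticOnNhd hopen) z hz).meromorphicAt
    ((hd2.analyticOnNhd hopen) z hz).meromorphicAt

end U

/-! ## Periodicity of the translates -/

lemma conj_T_zpow_mem_Gamma0 (N : ℕ) (δ : SL(2, ℤ)) :
    δ * ModularGroup.T ^ (N : ℤ) * δ⁻¹ ∈ Gamma0 N := by
  have h1 : ModularGroup.T ^ (N : ℤ) ∈ Gamma N := by
    simpa using ModularGroup_T_pow_mem_Gamma (N : ℤ) (N : ℤ) dvd_rfl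
  have h2 := (Gamma_normal N).conj_mem _ h1 δ
  exact Gamma0_mem.mpr ((Gamma_mem.mp h2).2.2.1)

lemma trace_conj_T_zpow (n : ℤ) (δ : SL(2, ℤ)) :
    ((δ * ModularGroup.T ^ n * δ⁻¹ : SL(2, ℤ)) : Matrix (Fin 2) (Fin 2) ℤ).trace = 2 := by
  rw [Matrix.SpecialLinearGroup.coe_mul, Matrix.trace_mul_comm, ← Matrix.SpecialLinearGroup.coe_mul,
    ← mul_assoc, inv_mul_cancel, one_mul, ModularGroup.coe_T_zpow, Matrix.trace_fin_two]
  simp

section Periodic

variable {N : ℕ} {ψ : Gamma0 N →* ℂˣ}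

/-- Every translate `E_ψ ∣[k] δ` is invariant under `z ↦ z + N`. -/
theorem twistedEis_slash_T_zpow_smul (k : ℤ) (hψ : IsParabolicChar ψ) (δ : SL(2, ℤ)) (z : ℍ) :
    (twistedEis k ψ ∣[k] δ) (ModularGroup.T ^ (N : ℤ) • z) = (twistedEis k ψ ∣[k] δ) z := by
  set γ : Gamma0 N := ⟨δ * ModularGroup.T ^ (N : ℤ) * δ⁻¹, conj_T_zpow_mem_Gamma0 N δ⟩ with hγ
  have h1 : ψ γ = 1 := by
    apply hψ
    have : (((γ : Gamma0 N) : SL(2, ℤ)) : Matrix (Fin 2) (Fin 2) ℤ).trace = 2 :=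
      trace_conj_T_zpow (N : ℤ) δ
    rw [this]
    norm_num
  have h2 := twistedEis_slash_mul k hψ γ δ
  rw [h1, Units.val_one, one_smul] at h2
  have h3 : ((γ : Gamma0 N) : SL(2, ℤ)) * δ = δ * ModularGroup.T ^ (N : ℤ) := by
    simp [hγ]
  rw [h3, SlashAction.slash_mul] at h2
  have h4 := congrFun h2 z
  rw [SL_slash_apply, denom_T_zpow, _root_.one_zpow, mul_one] at h4
  exact h4

/-- Every translate `E_ψ ∣[k] δ` is invariant under `z ↦ z + N`. -/
theorem twistedEis_slash_vadd (k : ℤ) (hψ : IsParabolicChar ψ) (δ : SL(2, ℤ)) (z : ℍ) :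
    (twistedEis k ψ ∣[k] δ) ((N : ℝ) +ᵥ z) = (twistedEis k ψ ∣[k] δ) z := by
  have := twistedEis_slash_T_zpow_smul k hψ δ z
  rwa [modular_T_zpow_smul, Int.cast_natCast] at this

lemma E₄_T_zpow_smul (n : ℤ) (z : ℍ) : E₄ (ModularGroup.T ^ n • z) = E₄ z := by
  rw [E₄_smul, denom_T_zpow, _root_.one_zpow, one_mul]

/-- Every translate `z ↦ u (δ z)` is invariant under `z ↦ z + N`. -/
theorem twistedU_smul_T_zpow_smul (hψ : IsParabolicChar ψ) (δ : SL(2, ℤ)) (z : ℍ) :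
    twistedU ψ (δ • (ModularGroup.T ^ (N : ℤ) • z)) = twistedU ψ (δ • z) := by
  rw [twistedU_smul_SL, twistedU_smul_SL, twistedEis_slash_T_zpow_smul 4 hψ, E₄_T_zpow_smul]

/-- Every translate `z ↦ u (δ z)` is invariant under `z ↦ z + N`. -/
theorem twistedU_smul_vadd (hψ : IsParabolicChar ψ) (δ : SL(2, ℤ)) (z : ℍ) :
    twistedU ψ (δ • ((N : ℝ) +ᵥ z)) = twistedU ψ (δ • z) := by
  have := twistedU_smul_T_zpow_smul hψ δ z
  rwa [modular_T_zpow_smul, Int.cast_natCast] at this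

/-- If `ψ ^ m = 1` then `u ^ m` is `Γ₀(N)`-invariant. -/
theorem twistedU_pow_smul (hψ : IsParabolicChar ψ) {m : ℕ} (hpow : ∀ γ : Gamma0 N, ψ γ ^ m = 1)
    (γ : Gamma0 N) (z : ℍ) :
    twistedU ψ ((γ : SL(2, ℤ)) • z) ^ m = twistedU ψ z ^ m := by
  rw [twistedU_smul hψ, mul_pow]
  have h2 : (((ψ γ : ℂˣ) : ℂ)) ^ m = 1 := by
    have := congrArg (fun u : ℂˣ ↦ (u : ℂ)) (hpow γ)
    simpa using this
  rw [h2, one_mul]

end Periodic

/-! ## Powers of the twisted Eisenstein series as modular forms on `Γ₀(N)` -/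

lemma pow_slash_SL (f : ℍ → ℂ) (k : ℤ) (m : ℕ) (δ : SL(2, ℤ)) :
    (f ^ m) ∣[(m : ℤ) * k] δ = (f ∣[k] δ) ^ m := by
  ext z
  simp only [SL_slash_apply, Pi.pow_apply, mul_pow]
  congr 1
  rw [← zpow_natCast, ← _root_.zpow_mul, neg_mul, mul_comm]

lemma isBoundedAtImInfty_pow {f : ℍ → ℂ} (hf : IsBoundedAtImInfty f) (m : ℕ) :
    IsBoundedAtImInfty (f ^ m) := by
  have h := Asymptotics.IsBigO.pow (S := ℝ) hf m
  simp only [Pi.one_apply, one_pow] at h
  exact h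

section MF

variable {N : ℕ} [NeZero N] {ψ : Gamma0 N →* ℂˣ} {k : ℤ}

/-- If `ψ ^ m = 1`, the `m`-th power of the twisted Eisenstein series is a modular form of
weight `m * k` on `Γ₀(N)` (with trivial character). -/
def twistedEisPow (hk : 3 ≤ k) (hψ : IsParabolicChar ψ) {m : ℕ} (hm : m ≠ 0)
    (hpow : ∀ γ : Gamma0 N, ψ γ ^ m = 1) : ModularForm (Gamma0 N) ((m : ℤ) * k) where
  toFun := twistedEis k ψ ^ m
  slash_action_eq' A hA := by
    obtain ⟨γ, hγ, rfl⟩ := hA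
    have h1 := pow_slash_SL (twistedEis k ψ) k m γ
    rw [twistedEis_slash k hψ ⟨γ, hγ⟩, smul_pow] at h1
    have h2 : (((ψ ⟨γ, hγ⟩ : ℂˣ) : ℂ)) ^ m = 1 := by
      have := congrArg (fun u : ℂˣ ↦ (u : ℂ)) (hpow ⟨γ, hγ⟩)
      simpa using this
    rw [h2, one_smul] at h1
    exact h1
  holo' := (twistedEis_mdifferentiable hk (isUnitaryChar_of_pow_eq_one ψ hm hpow)).pow m
  bdd_at_cusps' {c} hc := by
    rw [Subgroup.IsArithmetic.isCusp_iff_isCusp_SL2Z] at hc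
    rw [OnePoint.isBoundedAt_iff_forall_SL2Z hc]
    intro δ _
    rw [pow_slash_SL]
    exact isBoundedAtImInfty_pow
      (isBoundedAtImInfty_twistedEis_slash hk (isUnitaryChar_of_pow_eq_one ψ hm hpow) δ) m

@[simp] lemma coe_twistedEisPow (hk : 3 ≤ k) (hψ : IsParabolicChar ψ) {m : ℕ} (hm : m ≠ 0)
    (hpow : ∀ γ : Gamma0 N, ψ γ ^ m = 1) :
    (twistedEisPow hk hψ hm hpow : ℍ → ℂ) = twistedEis k ψ ^ m := rfl

lemma twistedEisPow_apply (hk : 3 ≤ k) (hψ : IsParabolicChar ψ) {m : ℕ} (hm : m ≠ 0)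
    (hpow : ∀ γ : Gamma0 N, ψ γ ^ m = 1) (z : ℍ) :
    twistedEisPow hk hψ hm hpow z = twistedEis k ψ z ^ m := rfl

/-- `u ^ m` is the quotient of the two modular forms `E_ψ ^ m` and `E₄ ^ m` of weight `4 m` on
`Γ₀(N)`. -/
theorem twistedU_pow_eq (hψ : IsParabolicChar ψ) {m : ℕ} (hm : m ≠ 0)
    (hpow : ∀ γ : Gamma0 N, ψ γ ^ m = 1) (z : ℍ) :
    twistedU ψ z ^ m =
      twistedEisPow (k := 4) (by norm_num) hψ hm hpow z / (E₄.pow m) z := by
  rw [twistedEisPow_apply, ModularForm.coe_pow, Pi.pow_apply, twistedU, div_pow]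

end MF

end Fermat.Agent.P3.helper20

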