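import Mathlib
import Fermat.Agent.P3.helper48_AN1RootMem
import Fermat.Agent.P3.helper34_Ev
import Fermat.Agent.P3.helper20_TwistedU

/-! # P3 / [AN-BR] (helper48): ratios of `q`-expansions are represented by ratios of functions

* `represents_of_isEv`: `helper34.IsEv (x : ℂ((q))) f → helper80.Represents N x f` for `x ∈ F_ℂ`.
* `represents_of_isQExp_ratio`: (BR') if `x = Fq / Gq` with `Fq`, `Gq` the `q`-expansions of
  holomorphic `f`, `g`, then `x` is represented by `f / g`.
* `exists_represents_ratio`: the ratio of two weakly holomorphic modular forms of the same weight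
  on `Γ₀(N)` is represented by an element of `F_ℂ`.
* `exists_represents_twistedU_pow`: `u_ψ ^ m` is represented by a nonzero element of `F_ℂ`
  (the hypothesis `hrep` of `helper80.dvd_ord_of_root` for `u = u_ψ`).
-/

set_option autoImplicit false

noncomputable section

open ModularCurve UpperHalfPlane ModularForm Filter Topology
open scoped MatrixGroups Manifold

namespace Fermat.Agent.P3.helper48

open Fermat.Agent.S24 Fermat.Agent.S24.helper17
open Fermat.Agent.P3.helper34 Fermat.Agent.P3.helper20 Fermat.Agent.P3.helper80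

variable {N : ℕ} [NeZero N]

/-- A function of `x ∈ F_ℂ` in the sense of `helper34.IsEv` represents `x` in the sense of
`helper80.Represents`. -/
theorem represents_of_isEv {x : helper80.FC N} {f : ℂ → ℂ}
    (h : IsEv (x : LaurentSeries ℂ) f) : Represents N x f := by
  obtain ⟨P, Q, hQ, hPQ⟩ := exists_poly_repr x
  have hx : x = ratFC N P Q := Subtype.ext hPQ
  have h1 : IsEv (x : LaurentSeries ℂ) (fun w => evC N P w / evC N Q w) := by
    rw [hPQ]
    exact (isEv_of_isQExp (helper48.isQExp_evPC0 P)).div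
      (isEv_of_isQExp (helper48.isQExp_evPC0 Q)) hQ
  rw [hx]
  exact (represents_ratFC P Q).congr fun τ₀ => h1.unique h τ₀.2

/-- Conversely, a function representing `x ∈ F_ℂ` is a function of `x` in the sense of
`helper34.IsEv`. -/
theorem isEv_of_represents {x : helper80.FC N} {f : ℂ → ℂ}
    (h : Represents N x f) : IsEv (x : LaurentSeries ℂ) f := by
  obtain ⟨P, Q, hQ, hPQ⟩ := exists_poly_repr x
  have hx : x = ratFC N P Q := Subtype.ext hPQ
  have h1 : IsEv (x : LaurentSeries ℂ) (fun w => evC N P w / evC N Q w) := by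
    rw [hPQ]
    exact (isEv_of_isQExp (helper48.isQExp_evPC0 P)).div
      (isEv_of_isQExp (helper48.isQExp_evPC0 Q)) hQ
  refine h1.congr fun z hz => ?_
  have h2 : Represents N x (fun w => evC N P w / evC N Q w) := hx ▸ represents_ratFC P Q
  exact h2.eventuallyEq h ⟨z, hz⟩

/-- **(BR')** If `x = Fq / Gq` in `ℂ((q))`, where `Fq`, `Gq ≠ 0` are the `q`-expansions of `f`,
`g`, then `x` is represented by `f / g`. -/
theorem represents_of_isQExp_ratio {f g : ℍ → ℂ} {Fq Gq : LaurentSeries ℂ} (hF : IsQExp Fq f)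
    (hG : IsQExp Gq g) (hG0 : Gq ≠ 0) (x : helper80.FC N)
    (hx : (x : LaurentSeries ℂ) = Fq / Gq) :
    Represents N x (fun w => f (ofComplex w) / g (ofComplex w)) :=
  represents_of_isEv (hx ▸ (isEv_of_isQExp hF).div (isEv_of_isQExp hG) hG0)

/-- **(BR)** An element of `F_ℂ` which is the `q`-expansion of a holomorphic function `s` is
represented by `s`. -/
theorem represents_of_isQExp {s : ℍ → ℂ} (x : helper80.FC N)
    (hs : IsQExp (x : LaurentSeries ℂ) s) : Represents N x (fun w => s (ofComplex w)) :=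
  represents_of_isEv (isEv_of_isQExp hs)

/-- The ratio of two weakly holomorphic modular forms of the same weight on `Γ₀(N)` is
represented by an element of `F_ℂ`, nonzero if the numerator is. -/
theorem exists_represents_ratio {k : ℤ} {f g : ℍ → ℂ} (hf : IsWeakForm N k f)
    (hg : IsWeakForm N k g) (hf0 : f ≠ 0) (hg0 : g ≠ 0) :
    ∃ x : helper80.FC N, x ≠ 0 ∧
      Represents N x (fun w => f (ofComplex w) / g (ofComplex w)) := by
  obtain ⟨Fq, hFq⟩ := hf.exists_isQExp
  obtain ⟨Gq, hGq⟩ := hg.exists_isQExp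
  have hF0 : Fq ≠ 0 := fun h => hf0 (hFq.eq_zero_iff.mp h)
  have hG0 : Gq ≠ 0 := fun h => hg0 (hGq.eq_zero_iff.mp h)
  refine ⟨⟨Fq / Gq, ratio_mem_FC N hf hg hFq hGq⟩, ?_, ?_⟩
  · intro h
    have := congrArg Subtype.val h
    exact div_ne_zero hF0 hG0 this
  · exact represents_of_isQExp_ratio hFq hGq hG0 _ rfl

/-- A level one modular form is a weakly holomorphic modular form on `Γ₀(N)`. -/
theorem isWeakForm_of_levelOne (N : ℕ) {k : ℤ} (F : ModularForm 𝒮ℒ k) : IsWeakForm N k F := by
  have hsl : ∀ γ : SL(2, ℤ), (F : ℍ → ℂ) ∣[k] γ = F := fun γ => by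
    rw [SL_slash]
    exact SlashInvariantForm.slash_action_eqn F _ ⟨γ, rfl⟩
  refine IsWeakForm.of_bdd (fun γ _ => hsl γ) F.holo' fun δ => ?_
  rw [hsl δ]
  exact ModularFormClass.bdd_at_infty F

/-- **`u_ψ ^ m` is represented by a nonzero element of `F_ℂ`** (`ψ ^ m = 1`): this is the
hypothesis `hrep` of `helper80.dvd_ord_of_root` for `u = ↑ₕ(twistedU ψ)`. -/
theorem exists_represents_twistedU_pow {ψ : CongruenceSubgroup.Gamma0 N →* ℂˣ}
    (hψ : IsParabolicChar ψ) (hu : IsUnitaryChar ψ) {m : ℕ} (hm : m ≠ 0)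
    (hpow : ∀ γ : CongruenceSubgroup.Gamma0 N, ψ γ ^ m = 1) :
    ∃ h : helper80.FC N, h ≠ 0 ∧
      Represents N h (fun z => (↑ₕ(twistedU ψ)) z ^ m) := by
  have hF := isWeakForm_of_modularForm (twistedEisPow (k := 4) (by norm_num) hψ hm hpow)
  have hG := isWeakForm_of_levelOne N (E₄.pow m)
  have hF0 : (twistedEisPow (k := 4) (by norm_num) hψ hm hpow : ℍ → ℂ) ≠ 0 := by
    obtain ⟨z, hz⟩ := exists_twistedEis_ne_zero (k := 4) (by norm_num) (by decide) hψ hu
    intro h0
    have := congrFun h0 z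
    rw [twistedEisPow_apply] at this
    exact hz (pow_eq_zero_iff hm |>.mp this)
  have hG0 : (E₄.pow m : ℍ → ℂ) ≠ 0 := by
    obtain ⟨z, hz⟩ := exists_E₄_ne_zero
    intro h0
    have := congrFun h0 z
    rw [ModularForm.coe_pow, Pi.pow_apply] at this
    exact hz (pow_eq_zero_iff hm |>.mp this)
  obtain ⟨x, hx0, hx⟩ := exists_represents_ratio hF hG hF0 hG0
  refine ⟨x, hx0, ?_⟩
  have e : (fun z => (↑ₕ(twistedU ψ)) z ^ m) = fun w : ℂ =>
      (twistedEisPow (k := 4) (by norm_num) hψ hm hpow) (ofComplex w) /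
        (E₄.pow m) (ofComplex w) := by
    funext w
    exact twistedU_pow_eq hψ hm hpow (ofComplex w)
  rw [e]
  exact hx

end Fermat.Agent.P3.helper48
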