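import Fermat.Agent.P3.helper16_KappaB
import Fermat.Agent.P3.helper34_EvNorm
import Fermat.Agent.P3.helper48_AN1Rep
import Fermat.Agent.P3.helper48_AN1RootMem
import Fermat.Agent.LEF.helper99_DescUncond

/-!
# P3 [AN] final assembly (helper16): everything from the surjectivity of the monodromy

The only remaining input of the analytic module is

  `SurjStatement M p` : every lattice character `latPsi M p n ε` is the monodromy of a class of
  `Pic⁰(F_ℂ)` killed by `p ^ n`   (helper20 [SURJ]: `twistedU`, [AN1], [T1]).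

From it:
* `normDict` : the norm dictionary in the vocabulary of `helper48.anDictC` (from helper34
  `isEv_heckeKummer` and helper48 `isEv_of_represents`);
* `isKummerRep_descC` : the conorm of `descC M` on Kummer representatives (helper99);
* `anDescStatement_of_surj : SurjStatement M p → AnDescStatement M p`;
* `anKappaStatement_of_surj : SurjStatement M p → AnKappaStatement M p`   (clause (d) via
  LEF-HECKE and `helper58.heckeInputsAlong_complex`);
* `kappaStatement_of_surj : SurjStatement M p → KappaStatement p N M S hNM`.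
-/

set_option autoImplicit false

noncomputable section

namespace Fermat.Agent.P3.helper16

open CongruenceSubgroup ModularCurve AlgebraicCurve
open scoped MatrixGroups
open Fermat.Agent.S16 Fermat.Agent.S16.helper26
open Fermat.Agent.P3.helper20 Fermat.Agent.P3.helper34 Fermat.Agent.P3.helper94
open Fermat.Agent.LEF Fermat.Agent.LEF.helper99

variable (M p : ℕ) [NeZero M]

/-- **[SURJ]** (the remaining analytic input): every lattice character is the monodromy of a
class of `Pic⁰(F_ℂ)`. -/
def SurjStatement : Prop :=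
  ∀ (n : ℕ) (ε : LatChar M),
    ∃ c : JC M, IsMonData (helper48.anDictC M) (p ^ n) c (latPsi M p n ε)

/-- The conorm `J₀(M) → Pic⁰(F_ℂ)`. -/
def conC : JZero M →+ JC M := (descC M).conPic0

/-- The coefficient embedding `F_ℚ̄(M) → F_ℂ(M)`. -/
def iotaFC : modularFunctionFieldBar M → FC M := (descC M).ι

theorem conC_injective : Function.Injective (conC M) := descC_conPic0_injective M

theorem conC_torsion_surj (y : JC M) (hy : ∃ m : ℕ, 0 < m ∧ m • y = 0) :
    ∃ x : JZero M, conC M x = y := by
  obtain ⟨m, hm, hmy⟩ := hy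
  exact descC_torsion_surj_uncond M m hm y hmy

/-- The conorm on Kummer representatives. -/
theorem isKummerRep_conC (m : ℕ) (x : JZero M) (h : modularFunctionFieldBar M)
    (H : IsKummerRep m x h) : IsKummerRep m (conC M x) (iotaFC M h) := by
  obtain ⟨hh, D, rfl, hD⟩ := H
  obtain ⟨D', h1, -, h3, h4⟩ := descC_kummer M (m : ℤ) D h hh hD
  exact ⟨h3, D', h1.symm, h4⟩

/-- **The norm dictionary** in the vocabulary of the analytic dictionary of `F_ℂ`. -/
theorem normDict (ℓ : Nat.Primes) (hℓ : ¬ (ℓ : ℕ) ∣ M) (h : modularFunctionFieldBar M) :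
    EqH ((helper48.anDictC M).ev (iotaFC M (heckeKummer (AlgebraicClosure ℚ) M (ℓ : ℕ) h)))
      (normProd (systemT M ℓ hℓ) ((helper48.anDictC M).ev (iotaFC M h))) := by
  rw [helper48.anDictC_ev]
  have h1 : IsEv ((iotaFC M h : FC M) : LaurentSeries ℂ) (helper80.evC M (iotaFC M h)) :=
    helper48.isEv_of_represents (helper80.represents_evC (N := M) (iotaFC M h))
  have h2 : IsEv ((iotaFC M (heckeKummer (AlgebraicClosure ℚ) M (ℓ : ℕ) h) : FC M) :
      LaurentSeries ℂ)
      (helper80.evC M (iotaFC M (heckeKummer (AlgebraicClosure ℚ) M (ℓ : ℕ) h))) :=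
    helper48.isEv_of_represents (helper80.represents_evC (N := M) _)
  have h3 := isEv_heckeKummer M ℓ hℓ h (f := helper80.evC M (iotaFC M h)) h1
  exact fun z hz => h2.unique h3 hz

/-- **[AN-DESC]** from [SURJ]. -/
theorem anDescStatement_of_surj (hp : 0 < p) (hS : SurjStatement M p) : AnDescStatement M p :=
  anDescStatement_of M p hp (helper48.anDictC M) hS (conC M) (conC_injective M)
    (conC_torsion_surj M) (iotaFC M) (isKummerRep_conC M)
    (fun ℓ hℓ h _ => normDict M ℓ hℓ h)

/-- **[KAPPA]** from [SURJ]. -/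
theorem kappaStatement_of_surj (N : ℕ) [NeZero N] (S : Finset ℕ) (hNM : N ∣ M) (hp : 0 < p)
    (hS : SurjStatement M p) : KappaStatement p N M S hNM :=
  kappa_of_anDesc p N S hNM (anDescStatement_of_surj M p hp hS)

/-- The conorm commutes with the Hecke correspondences (LEF-HECKE for `descC M`). -/
theorem conC_heckeOperatorBar (ℓ : Nat.Primes) (x : JZero M) :
    conC M (heckeOperatorBar M ℓ x) = heckeOperatorC M ℓ (conC M x) := by
  have : NeZero (ℓ : ℕ) := ⟨ℓ.2.ne_zero⟩
  have : NeZero (M * (ℓ : ℕ)) := ⟨Nat.mul_ne_zero (NeZero.ne M) ℓ.2.ne_zero⟩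
  exact helper95.V.conPic0_heckeOperatorAlong jC M ℓ (descC M) (descC_κ M) (descC_ι M)
    (helper58.heckeInputsAlong_bar M ℓ) (helper58.heckeInputsAlong_complex M ℓ)
    (riemannSettingQ M) (riemannSettingQ (M * ℓ))
    (riemannSettingC M) (riemannSettingC (M * ℓ)) x

/-- **[AN-KAPPA]** from [SURJ] (in the original shape, with the Hecke correspondence on
`Pic⁰(F_ℂ)`). -/
theorem anKappaStatement_of_surj (hp : 0 < p) (hS : SurjStatement M p) :
    AnKappaStatement M p := by
  obtain ⟨κC, hκ, ha, hb, hc⟩ := exists_kappa (𝒟 := helper48.anDictC M) hp (latPsi M p)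
    (fun n ε ε' => latPsi_add M p n ε ε') (fun n ε => latPsi_pow_succ M p hp n ε) hS
  refine ⟨κC, ha, fun n ε h0 => (latPsi_eq_one_iff M p hp n ε).mp (hb n ε h0), hc, ?_⟩
  intro n ℓ hℓ ε
  obtain ⟨x, hx⟩ := conC_torsion_surj M (κC n ε) ⟨p ^ n, pow_pos hp n, ha n ε⟩
  have hB := bridge_of_dict M p hp (helper48.anDictC M) κC hκ (conC M) (conC_injective M)
    (iotaFC M) (isKummerRep_conC M) (fun ℓ hℓ h _ => normDict M ℓ hℓ h) n ℓ hℓ ε x hx
  rw [← hB, conC_heckeOperatorBar, hx]

end Fermat.Agent.P3.helper16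

end
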