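import Mathlib.NumberTheory.ModularForms.EisensteinSeries.Basic
import Mathlib.NumberTheory.ModularForms.EisensteinSeries.QExpansion

/-!
# Twisted Eisenstein series (P3, package AN4)

For a bounded weight function `w : (Fin 2 → ℤ) → ℂ` we study the weighted Eisenstein series
`wEis k w z = ∑' v, w v * eisSummand k v z` (holomorphy, slash action, boundedness at `i∞`,
limit at `i∞`).  For a unitary character `ψ` of `Γ₀(N)` which is trivial on the elements of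
trace `±2`, the weight `psiRow ψ` (value `(ψ γ)⁻¹` on the bottom row of `γ ∈ Γ₀(N)`, zero
elsewhere) gives the twisted Eisenstein series `twistedEis k ψ`.
-/

noncomputable section

namespace Fermat.Agent.P3.helper20

open UpperHalfPlane EisensteinSeries Matrix ModularForm CongruenceSubgroup Filter Topology
open scoped MatrixGroups Manifold

/-! ## Weighted Eisenstein series -/

/-- The weighted Eisenstein series `∑' v, w v * (v 0 * z + v 1) ^ (-k)`. -/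
def wEis (k : ℤ) (w : (Fin 2 → ℤ) → ℂ) (z : ℍ) : ℂ :=
  ∑' v : Fin 2 → ℤ, w v * eisSummand k v z

variable {k : ℤ} {w : (Fin 2 → ℤ) → ℂ}

lemma norm_wEis_term_le (hw : ∀ v, ‖w v‖ ≤ 1) (v : Fin 2 → ℤ) (z : ℍ) :
    ‖w v * eisSummand k v z‖ ≤ ‖eisSummand k v z‖ := by
  rw [norm_mul]
  exact mul_le_of_le_one_left (norm_nonneg _) (hw v)

lemma summable_norm_wEis_term (hk : 3 ≤ k) (hw : ∀ v, ‖w v‖ ≤ 1) (z : ℍ) :
    Summable fun v : Fin 2 → ℤ ↦ ‖w v * eisSummand k v z‖ :=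
  (summable_norm_eisSummand hk z).of_nonneg_of_le (fun _ ↦ norm_nonneg _)
    (fun v ↦ norm_wEis_term_le hw v z)

lemma summable_wEis_term (hk : 3 ≤ k) (hw : ∀ v, ‖w v‖ ≤ 1) (z : ℍ) :
    Summable fun v : Fin 2 → ℤ ↦ w v * eisSummand k v z :=
  (summable_norm_wEis_term hk hw z).of_norm

lemma norm_wEis_le (hk : 3 ≤ k) (hw : ∀ v, ‖w v‖ ≤ 1) (z : ℍ) :
    ‖wEis k w z‖ ≤ ∑' v : Fin 2 → ℤ, ‖eisSummand k v z‖ := by
  refine (norm_tsum_le_tsum_norm (summable_norm_wEis_term hk hw z)).trans ?_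
  exact (summable_norm_wEis_term hk hw z).tsum_le_tsum (fun v ↦ norm_wEis_term_le hw v z)
    (summable_norm_eisSummand hk z)

/-- Right multiplication by `δ ∈ SL(2, ℤ)` as a permutation of `Fin 2 → ℤ`. -/
def vecMulEquiv (δ : SL(2, ℤ)) : (Fin 2 → ℤ) ≃ (Fin 2 → ℤ) where
  toFun v := v ᵥ* δ
  invFun v := v ᵥ* ↑(δ⁻¹)
  left_inv v := by
    simp_rw [vecMul_vecMul, ← Matrix.SpecialLinearGroup.coe_mul, mul_inv_cancel,
      Matrix.SpecialLinearGroup.coe_one, vecMul_one]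
  right_inv v := by
    simp_rw [vecMul_vecMul, ← Matrix.SpecialLinearGroup.coe_mul, inv_mul_cancel,
      Matrix.SpecialLinearGroup.coe_one, vecMul_one]

@[simp] lemma vecMulEquiv_apply (δ : SL(2, ℤ)) (v : Fin 2 → ℤ) : vecMulEquiv δ v = v ᵥ* δ := rfl

@[simp] lemma vecMulEquiv_symm_apply (δ : SL(2, ℤ)) (v : Fin 2 → ℤ) :
    (vecMulEquiv δ).symm v = v ᵥ* ↑(δ⁻¹) := rfl

/-- The slash action on weighted Eisenstein series: the weight is transported. -/
lemma wEis_slash (k : ℤ) (w : (Fin 2 → ℤ) → ℂ) (δ : SL(2, ℤ)) :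
    wEis k w ∣[k] δ = wEis k (fun v ↦ w (v ᵥ* ↑(δ⁻¹))) := by
  ext1 z
  simp_rw [SL_slash_apply, _root_.zpow_neg,
    mul_inv_eq_iff_eq_mul₀ (zpow_ne_zero _ <| denom_ne_zero _ z),
    wEis, eisSummand_SL2_apply, ← tsum_mul_right]
  conv_rhs => rw [← (vecMulEquiv δ).tsum_eq]
  refine tsum_congr fun v ↦ ?_
  simp only [vecMulEquiv_apply]
  rw [vecMul_vecMul, ← Matrix.SpecialLinearGroup.coe_mul, mul_inv_cancel,
    Matrix.SpecialLinearGroup.coe_one, vecMul_one]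
  ring

/-! ### Holomorphy -/

theorem wEis_tendstoLocallyUniformly (hk : 3 ≤ k) (hw : ∀ v, ‖w v‖ ≤ 1) :
    TendstoLocallyUniformly (fun (s : Finset (Fin 2 → ℤ)) ↦ (∑ x ∈ s, w x * eisSummand k x ·))
      (wEis k w ·) Filter.atTop := by
  have hk' : (2 : ℝ) < k := by norm_cast
  have p_sum : Summable fun x : Fin 2 → ℤ ↦ ‖x‖ ^ (-k) :=
    mod_cast (summable_one_div_norm_rpow hk')
  simp only [tendstoLocallyUniformly_iff_forall_isCompact, wEis]
  intro K hK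
  obtain ⟨A, B, hB, HABK⟩ := subset_verticalStrip_of_isCompact hK
  refine (tendstoUniformlyOn_tsum (hu := p_sum.mul_left <| r ⟨⟨A, B⟩, hB⟩ ^ (-k : ℝ))
    (fun p z hz ↦ ?_)).mono HABK
  refine (norm_wEis_term_le hw p z).trans ?_
  simpa only [eisSummand, one_div, ← _root_.zpow_neg, norm_zpow, ← Real.rpow_intCast,
    Int.cast_neg] using summand_bound_of_mem_verticalStrip (by positivity) p hB hz

lemma wEis_tendstoLocallyUniformlyOn (hk : 3 ≤ k) (hw : ∀ v, ‖w v‖ ≤ 1) :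
    TendstoLocallyUniformlyOn (fun (s : Finset (Fin 2 → ℤ)) ↦
      ↑ₕ(fun (z : ℍ) ↦ ∑ x ∈ s, w x * eisSummand k x z)) (↑ₕ(wEis k w))
          Filter.atTop {z : ℂ | 0 < z.im} := by
  rw [← upperHalfPlaneSet, ← range_coe, ← Set.image_univ]
  apply TendstoLocallyUniformlyOn.comp (s := ⊤) _ _ _ (OpenPartialHomeomorph.continuousOn_symm _)
  · simp only [Set.top_eq_univ, tendstoLocallyUniformlyOn_univ]
    exact wEis_tendstoLocallyUniformly hk hw
  · simp only [IsOpenEmbedding.toOpenPartialHomeomorph_target, Set.top_eq_univ,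
      Set.mapsTo_range_iff, Set.mem_univ, forall_const]

/-- The extension of a weighted Eisenstein series to `ℂ` is holomorphic on the upper half
plane. -/
theorem wEis_differentiableOn (hk : 3 ≤ k) (hw : ∀ v, ‖w v‖ ≤ 1) :
    DifferentiableOn ℂ (↑ₕ(wEis k w)) {z : ℂ | 0 < z.im} := by
  refine (wEis_tendstoLocallyUniformlyOn hk hw).differentiableOn
    (Eventually.of_forall fun s ↦ ?_) isOpen_upperHalfPlaneSet
  have : (↑ₕ(fun (z : ℍ) ↦ ∑ x ∈ s, w x * eisSummand k x z)) =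
      fun z : ℂ ↦ ∑ x ∈ s, w x * (↑ₕ(eisSummand k x)) z := by
    ext z
    simp [Function.comp]
  rw [this]
  exact DifferentiableOn.fun_sum fun x _ ↦
    (eisSummand_extension_differentiableOn k x).const_mul (w x)

/-- Weighted Eisenstein series are holomorphic. -/
theorem wEis_mdifferentiable (hk : 3 ≤ k) (hw : ∀ v, ‖w v‖ ≤ 1) : MDiff (wEis k w) := by
  intro τ
  suffices DifferentiableAt ℂ (↑ₕ(wEis k w)) τ.1 by
    convert!
      MDifferentiableAt.comp τ (DifferentiableAt.mdifferentiableAt this) τ.mdifferentiable_coe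
    exact funext fun z ↦ (comp_ofComplex (wEis k w) z).symm
  exact (wEis_differentiableOn hk hw).differentiableAt (isOpen_upperHalfPlaneSet.mem_nhds τ.2)

/-! ### Boundedness at `i∞` -/

/-- The majorant `∑' v, ‖eisSummand k v z‖` of all weighted Eisenstein series. -/
def eisMajorant (k : ℤ) (z : ℍ) : ℝ := ∑' v : Fin 2 → ℤ, ‖eisSummand k v z‖

lemma norm_wEis_le_eisMajorant (hk : 3 ≤ k) (hw : ∀ v, ‖w v‖ ≤ 1) (z : ℍ) :
    ‖wEis k w z‖ ≤ eisMajorant k z := norm_wEis_le hk hw z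

lemma denom_T_zpow (n : ℤ) (z : ℍ) : denom (ModularGroup.T ^ n : SL(2, ℤ)) z = 1 := by
  rw [ModularGroup.denom_apply, ModularGroup.coe_T_zpow]
  simp

lemma norm_eisSummand_T_zpow_smul (k : ℤ) (v : Fin 2 → ℤ) (n : ℤ) (z : ℍ) :
    ‖eisSummand k v (ModularGroup.T ^ n • z)‖ =
      ‖eisSummand k (v ᵥ* (ModularGroup.T ^ n : SL(2, ℤ))) z‖ := by
  rw [eisSummand_SL2_apply, denom_T_zpow, _root_.one_zpow, one_mul]

lemma eisMajorant_T_zpow_smul (k : ℤ) (n : ℤ) (z : ℍ) :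
    eisMajorant k (ModularGroup.T ^ n • z) = eisMajorant k z := by
  unfold eisMajorant
  simp_rw [norm_eisSummand_T_zpow_smul]
  exact (vecMulEquiv (ModularGroup.T ^ n)).tsum_eq (fun v ↦ ‖eisSummand k v z‖)

lemma eisMajorant_le_of_mem_verticalStrip (hk : 3 ≤ k) {A B : ℝ} (hB : 0 < B) {z : ℍ}
    (hz : z ∈ verticalStrip A B) :
    eisMajorant k z ≤ ∑' x : Fin 2 → ℤ, r ⟨⟨A, B⟩, hB⟩ ^ (-k) * ‖x‖ ^ (-k) := by
  have hk' : (2 : ℝ) < k := by norm_cast
  apply (summable_norm_eisSummand hk _).tsum_le_tsum _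
  · exact_mod_cast (summable_one_div_norm_rpow hk').mul_left <| r ⟨⟨A, B⟩, hB⟩ ^ (-k)
  · intro x
    simp_rw [eisSummand, norm_zpow]
    exact_mod_cast summand_bound_of_mem_verticalStrip (lt_trans two_pos hk').le x hB hz

/-- The majorant is bounded on `{z | 1 ≤ im z}`. -/
lemma eisMajorant_le (hk : 3 ≤ k) {z : ℍ} (hz : 1 ≤ z.im) :
    eisMajorant k z ≤ ∑' x : Fin 2 → ℤ, r ⟨⟨1, 1⟩, one_pos⟩ ^ (-k) * ‖x‖ ^ (-k) := by
  obtain ⟨n, hn⟩ := ModularGroup_T_zpow_mem_verticalStrip z (N := 1) one_pos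
  rw [← eisMajorant_T_zpow_smul k ((1 : ℕ) * n) z]
  refine eisMajorant_le_of_mem_verticalStrip hk one_pos ?_
  have hn' : ModularGroup.T ^ ((1 : ℕ) * n) • z ∈ verticalStrip 1 z.im := by
    simpa using hn
  exact verticalStrip_anti_right 1 hz hn'

/-- Weighted Eisenstein series (with weights bounded by `1`) are bounded at `i∞`. -/
theorem isBoundedAtImInfty_wEis (hk : 3 ≤ k) (hw : ∀ v, ‖w v‖ ≤ 1) :
    IsBoundedAtImInfty (wEis k w) := by
  rw [UpperHalfPlane.isBoundedAtImInfty_iff]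
  exact ⟨_, 1, fun z hz ↦ (norm_wEis_le_eisMajorant hk hw z).trans (eisMajorant_le hk hz)⟩

/-- All `SL(2, ℤ)`-translates of weighted Eisenstein series are bounded at `i∞`. -/
theorem isBoundedAtImInfty_wEis_slash (hk : 3 ≤ k) (hw : ∀ v, ‖w v‖ ≤ 1) (δ : SL(2, ℤ)) :
    IsBoundedAtImInfty (wEis k w ∣[k] δ) := by
  rw [wEis_slash]
  exact isBoundedAtImInfty_wEis hk (fun v ↦ hw _)

/-! ### The limit at `i∞` -/

/-- The part of the majorant coming from the vectors with `v 0 ≠ 0`. -/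
def eisMajorantNZ (k : ℤ) (z : ℍ) : ℝ :=
  ∑' v : Fin 2 → ℤ, if v 0 = 0 then 0 else ‖eisSummand k v z‖

lemma vecMul_T_zpow_zero (v : Fin 2 → ℤ) (n : ℤ) :
    (v ᵥ* ((ModularGroup.T ^ n : SL(2, ℤ)) : Matrix (Fin 2) (Fin 2) ℤ)) 0 = v 0 := by
  rw [ModularGroup.coe_T_zpow]
  simp [vecMul, vecHead]

lemma eisMajorantNZ_T_zpow_smul (k : ℤ) (n : ℤ) (z : ℍ) :
    eisMajorantNZ k (ModularGroup.T ^ n • z) = eisMajorantNZ k z := by
  unfold eisMajorantNZ
  simp_rw [norm_eisSummand_T_zpow_smul]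
  rw [← (vecMulEquiv (ModularGroup.T ^ n)).tsum_eq
    (fun v ↦ if v 0 = 0 then 0 else ‖eisSummand k v z‖)]
  refine tsum_congr fun v ↦ ?_
  simp only [vecMulEquiv_apply, vecMul_T_zpow_zero]

lemma im_le_norm_linear {v : Fin 2 → ℤ} (hv : v 0 ≠ 0) (z : ℍ) :
    z.im ≤ ‖(v 0 : ℂ) * z + v 1‖ := by
  have h1 : ((v 0 : ℂ) * z + v 1).im = v 0 * z.im := by simp
  have h2 : |((v 0 : ℂ) * z + v 1).im| ≤ ‖(v 0 : ℂ) * z + v 1‖ := Complex.abs_im_le_norm _
  rw [h1, abs_mul, abs_of_pos z.im_pos] at h2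
  have h3 : (1 : ℝ) ≤ |(v 0 : ℝ)| := by
    have : (1 : ℤ) ≤ |v 0| := Int.one_le_abs hv
    exact_mod_cast this
  calc z.im = 1 * z.im := (one_mul _).symm
    _ ≤ |(v 0 : ℝ)| * z.im := by gcongr
    _ ≤ _ := h2

lemma norm_eisSummand_le_of_ne_zero (hk : 1 ≤ k) {v : Fin 2 → ℤ} (hv : v 0 ≠ 0) {z : ℍ}
    (hz : z ∈ verticalStrip 1 1) :
    ‖eisSummand k v z‖ ≤
      (z.im)⁻¹ * (r ⟨⟨1, 1⟩, one_pos⟩ ^ (-(k - 1)) * ‖v‖ ^ (-(k - 1))) := by
  have ha : z.im ≤ ‖(v 0 : ℂ) * z + v 1‖ := im_le_norm_linear hv z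
  have ha0 : 0 < ‖(v 0 : ℂ) * z + v 1‖ := z.im_pos.trans_le ha
  have hk1 : (0 : ℝ) ≤ ((k - 1 : ℤ) : ℝ) := by
    have : (0 : ℤ) ≤ k - 1 := by omega
    exact_mod_cast this
  have hb := summand_bound_of_mem_verticalStrip hk1 v one_pos hz
  rw [← Int.cast_neg, Real.rpow_intCast, Real.rpow_intCast, Real.rpow_intCast] at hb
  have hsplit : ‖(v 0 : ℂ) * z + v 1‖ ^ (-k) =
      (‖(v 0 : ℂ) * z + v 1‖)⁻¹ * ‖(v 0 : ℂ) * z + v 1‖ ^ (-(k - 1)) := by
    rw [← _root_.zpow_neg_one, ← zpow_add₀ ha0.ne']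
    congr 1
    ring
  simp only [eisSummand, norm_zpow]
  rw [hsplit]
  have hinv : (‖(v 0 : ℂ) * z + v 1‖)⁻¹ ≤ (z.im)⁻¹ := inv_anti₀ z.im_pos ha
  have hnn : (0 : ℝ) ≤ ‖(v 0 : ℂ) * z + v 1‖ ^ (-(k - 1)) := zpow_nonneg ha0.le _
  have hnn2 : (0 : ℝ) ≤ (z.im)⁻¹ := inv_nonneg.mpr z.im_pos.le
  exact mul_le_mul hinv hb hnn hnn2

lemma summable_eisMajorantNZ_term (hk : 3 ≤ k) (z : ℍ) :
    Summable fun v : Fin 2 → ℤ ↦ if v 0 = 0 then 0 else ‖eisSummand k v z‖ := by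
  refine (summable_norm_eisSummand hk z).of_nonneg_of_le (fun v ↦ ?_) (fun v ↦ ?_)
  · split_ifs
    · exact le_rfl
    · exact norm_nonneg _
  · split_ifs
    · exact norm_nonneg _
    · exact le_rfl

lemma eisMajorantNZ_nonneg (k : ℤ) (z : ℍ) : 0 ≤ eisMajorantNZ k z := by
  refine tsum_nonneg fun v ↦ ?_
  split_ifs
  · exact le_rfl
  · exact norm_nonneg _

/-- The constant in the decay estimate for `eisMajorantNZ`. -/
def eisDecayConst (k : ℤ) : ℝ :=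
  ∑' x : Fin 2 → ℤ, r ⟨⟨1, 1⟩, one_pos⟩ ^ (-(k - 1)) * ‖x‖ ^ (-(k - 1))

lemma eisMajorantNZ_le (hk : 4 ≤ k) {z : ℍ} (hz : 1 ≤ z.im) :
    eisMajorantNZ k z ≤ (z.im)⁻¹ * eisDecayConst k := by
  have hk' : (2 : ℝ) < ((k - 1 : ℤ) : ℝ) := by
    have : (2 : ℤ) < k - 1 := by omega
    exact_mod_cast this
  have hsum : Summable fun x : Fin 2 → ℤ ↦
      r ⟨⟨1, 1⟩, one_pos⟩ ^ (-(k - 1)) * ‖x‖ ^ (-(k - 1)) := by
    have := (summable_one_div_norm_rpow hk').mul_left (r ⟨⟨1, 1⟩, one_pos⟩ ^ (-(k - 1)))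
    simpa only [← Int.cast_neg, Real.rpow_intCast] using this
  obtain ⟨n, hn⟩ := ModularGroup_T_zpow_mem_verticalStrip z (N := 1) one_pos
  have hn' : ModularGroup.T ^ ((1 : ℕ) * n) • z ∈ verticalStrip 1 z.im := by
    simpa using hn
  have hn'' : ModularGroup.T ^ ((1 : ℕ) * n) • z ∈ verticalStrip 1 1 :=
    verticalStrip_anti_right 1 hz hn'
  rw [← eisMajorantNZ_T_zpow_smul k ((1 : ℕ) * n) z]
  have him : (ModularGroup.T ^ ((1 : ℕ) * n) • z).im = z.im := ModularGroup.im_T_zpow_smul z _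
  unfold eisMajorantNZ eisDecayConst
  rw [← tsum_mul_left]
  refine (summable_eisMajorantNZ_term (by omega) _).tsum_le_tsum (fun v ↦ ?_) (hsum.mul_left _)
  split_ifs with hv
  · have : (0 : ℝ) ≤ r ⟨⟨1, 1⟩, one_pos⟩ ^ (-(k - 1)) * ‖v‖ ^ (-(k - 1)) :=
      mul_nonneg (zpow_nonneg (r_pos _).le _) (zpow_nonneg (norm_nonneg _) _)
    exact mul_nonneg (inv_nonneg.mpr z.im_pos.le) this
  · have := norm_eisSummand_le_of_ne_zero (k := k) (by omega) hv hn''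
    rwa [him] at this

lemma tendsto_eisMajorantNZ (hk : 4 ≤ k) : Tendsto (eisMajorantNZ k) atImInfty (𝓝 0) := by
  have h1 : Tendsto (fun z : ℍ ↦ (z.im)⁻¹ * eisDecayConst k) atImInfty (𝓝 0) := by
    have : Tendsto (fun z : ℍ ↦ (z.im)⁻¹) atImInfty (𝓝 0) :=
      tendsto_inv_atTop_zero.comp tendsto_comap
    simpa using this.mul_const (eisDecayConst k)
  refine squeeze_zero' (Eventually.of_forall fun z ↦ eisMajorantNZ_nonneg k z) ?_ h1
  rw [Filter.Eventually, atImInfty_mem]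
  exact ⟨1, fun z hz ↦ eisMajorantNZ_le hk hz⟩

/-- The constant term of a weighted Eisenstein series at `i∞`. -/
def wEisConst (k : ℤ) (w : (Fin 2 → ℤ) → ℂ) : ℂ :=
  ∑' v : Fin 2 → ℤ, if v 0 = 0 then w v * (v 1 : ℂ) ^ (-k) else 0

lemma eisSummand_of_zero (k : ℤ) {v : Fin 2 → ℤ} (hv : v 0 = 0) (z : ℍ) :
    eisSummand k v z = (v 1 : ℂ) ^ (-k) := by
  simp [eisSummand, hv]

lemma wEis_term_split (k : ℤ) (w : (Fin 2 → ℤ) → ℂ) (v : Fin 2 → ℤ) (z : ℍ) :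
    w v * eisSummand k v z = (if v 0 = 0 then w v * (v 1 : ℂ) ^ (-k) else 0) +
      (if v 0 = 0 then 0 else w v * eisSummand k v z) := by
  split_ifs with hv
  · rw [eisSummand_of_zero k hv, add_zero]
  · rw [zero_add]

lemma summable_wEisConst_term (hk : 3 ≤ k) (hw : ∀ v, ‖w v‖ ≤ 1) :
    Summable fun v : Fin 2 → ℤ ↦ if v 0 = 0 then w v * (v 1 : ℂ) ^ (-k) else 0 := by
  refine Summable.of_norm_bounded (summable_norm_eisSummand hk UpperHalfPlane.I) (fun v ↦ ?_)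
  split_ifs with hv
  · rw [← eisSummand_of_zero k hv UpperHalfPlane.I]
    exact norm_wEis_term_le hw v _
  · simp

lemma summable_wEisNZ_term (hk : 3 ≤ k) (hw : ∀ v, ‖w v‖ ≤ 1) (z : ℍ) :
    Summable fun v : Fin 2 → ℤ ↦ if v 0 = 0 then 0 else w v * eisSummand k v z := by
  refine Summable.of_norm_bounded (summable_norm_eisSummand hk z) (fun v ↦ ?_)
  split_ifs with hv
  · simp
  · exact norm_wEis_term_le hw v _

lemma wEis_eq_wEisConst_add (hk : 3 ≤ k) (hw : ∀ v, ‖w v‖ ≤ 1) (z : ℍ) :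
    wEis k w z = wEisConst k w +
      ∑' v : Fin 2 → ℤ, if v 0 = 0 then 0 else w v * eisSummand k v z := by
  unfold wEis wEisConst
  rw [← (summable_wEisConst_term hk hw).tsum_add (summable_wEisNZ_term hk hw z)]
  exact tsum_congr fun v ↦ wEis_term_split k w v z

lemma norm_wEis_sub_wEisConst_le (hk : 3 ≤ k) (hw : ∀ v, ‖w v‖ ≤ 1) (z : ℍ) :
    ‖wEis k w z - wEisConst k w‖ ≤ eisMajorantNZ k z := by
  rw [wEis_eq_wEisConst_add hk hw z, add_sub_cancel_left]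
  have hs := summable_wEisNZ_term hk hw z
  refine (norm_tsum_le_tsum_norm hs.norm).trans ?_
  refine hs.norm.tsum_le_tsum (fun v ↦ ?_) (summable_eisMajorantNZ_term hk z)
  split_ifs with hv
  · simp
  · exact norm_wEis_term_le hw v _

/-- A weighted Eisenstein series tends to its constant term at `i∞`. -/
theorem tendsto_wEis_atImInfty (hk : 4 ≤ k) (hw : ∀ v, ‖w v‖ ≤ 1) :
    Tendsto (wEis k w) atImInfty (𝓝 (wEisConst k w)) := by
  rw [tendsto_iff_norm_sub_tendsto_zero]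
  exact squeeze_zero (fun z ↦ norm_nonneg _)
    (fun z ↦ norm_wEis_sub_wEisConst_le (by omega) hw z) (tendsto_eisMajorantNZ hk)

/-! ## The weight attached to a character of `Γ₀(N)` -/

/-- The bottom row of `γ ∈ SL(2, ℤ)`, as the vector `![0, 1] ᵥ* γ`. -/
def bottomRow (γ : SL(2, ℤ)) : Fin 2 → ℤ := ![0, 1] ᵥ* (γ : Matrix (Fin 2) (Fin 2) ℤ)

lemma bottomRow_zero (γ : SL(2, ℤ)) : bottomRow γ 0 = γ 1 0 := by
  simp [bottomRow, vecMul, vecHead, vecTail]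

lemma bottomRow_one (γ : SL(2, ℤ)) : bottomRow γ 1 = γ 1 1 := by
  simp [bottomRow, vecMul, vecHead, vecTail]

lemma bottomRow_mul (γ δ : SL(2, ℤ)) :
    bottomRow (γ * δ) = bottomRow γ ᵥ* (δ : Matrix (Fin 2) (Fin 2) ℤ) := by
  simp only [bottomRow, Matrix.SpecialLinearGroup.coe_mul, vecMul_vecMul]

lemma bottomRow_one_eq : bottomRow 1 = ![0, 1] := by
  simp [bottomRow]

lemma bottomRow_neg_one : bottomRow (-1) = ![0, -1] := by
  ext j
  fin_cases j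
  · simp [bottomRow_zero]
  · simp [bottomRow_one]

/-- Two elements of `SL(2, ℤ)` with the same bottom row differ by an element of trace `2`. -/
lemma trace_mul_inv_of_bottomRow_eq {A B : SL(2, ℤ)} (h : bottomRow A = bottomRow B) :
    ((A * B⁻¹ : SL(2, ℤ)) : Matrix (Fin 2) (Fin 2) ℤ).trace = 2 := by
  have h0 : A 1 0 = B 1 0 := by rw [← bottomRow_zero, ← bottomRow_zero, h]
  have h1 : A 1 1 = B 1 1 := by rw [← bottomRow_one, ← bottomRow_one, h]
  have hA := A.det_coe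
  have hB := B.det_coe
  rw [Matrix.det_fin_two] at hA hB
  rw [Matrix.SpecialLinearGroup.coe_mul, Matrix.SpecialLinearGroup.coe_inv,
    Matrix.adjugate_fin_two, Matrix.trace_fin_two]
  simp only [Matrix.mul_apply, Fin.sum_univ_two, Matrix.of_apply, Matrix.cons_val_zero,
    Matrix.cons_val_one, Matrix.cons_val', Matrix.cons_val_fin_one]
  rw [h0, h1] at *
  linear_combination hA + hB

section Twisted

variable {N : ℕ} (ψ : Gamma0 N →* ℂˣ)

/-- A character of `Γ₀(N)` is *parabolic* if it is trivial on all elements of trace `±2`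
(this includes `-1` and all parabolic elements). -/
def IsParabolicChar (ψ : Gamma0 N →* ℂˣ) : Prop :=
  ∀ γ : Gamma0 N, ((γ : SL(2, ℤ)) : Matrix (Fin 2) (Fin 2) ℤ).trace ^ 2 = 4 → ψ γ = 1

/-- A character of `Γ₀(N)` is *unitary* if all its values have norm `1`. -/
def IsUnitaryChar (ψ : Gamma0 N →* ℂˣ) : Prop := ∀ γ : Gamma0 N, ‖((ψ γ : ℂˣ) : ℂ)‖ = 1

lemma isUnitaryChar_of_pow_eq_one {m : ℕ} (hm : m ≠ 0) (h : ∀ γ : Gamma0 N, ψ γ ^ m = 1) :
    IsUnitaryChar ψ := by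
  intro γ
  refine Complex.norm_eq_one_of_pow_eq_one (n := m) ?_ hm
  have := congrArg (fun u : ℂˣ ↦ (u : ℂ)) (h γ)
  simpa using this

open Classical in
/-- The weight function of the twisted Eisenstein series: `(ψ γ)⁻¹` on the bottom row of
`γ ∈ Γ₀(N)`, and `0` on the vectors which are not such bottom rows. -/
def psiRow (ψ : Gamma0 N →* ℂˣ) (v : Fin 2 → ℤ) : ℂ :=
  if h : ∃ γ : Gamma0 N, bottomRow (γ : SL(2, ℤ)) = v then (((ψ h.choose)⁻¹ : ℂˣ) : ℂ) else 0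

variable {ψ}

lemma psi_eq_of_bottomRow_eq (hψ : IsParabolicChar ψ) {γ γ' : Gamma0 N}
    (h : bottomRow (γ : SL(2, ℤ)) = bottomRow (γ' : SL(2, ℤ))) : ψ γ = ψ γ' := by
  have htr := trace_mul_inv_of_bottomRow_eq h
  have h1 : ψ (γ * γ'⁻¹) = 1 := by
    apply hψ
    have : (((γ * γ'⁻¹ : Gamma0 N) : SL(2, ℤ)) : Matrix (Fin 2) (Fin 2) ℤ).trace = 2 := by
      simpa using htr
    rw [this]
    norm_num
  rw [map_mul, map_inv, mul_inv_eq_one] at h1
  exact h1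

lemma psiRow_bottomRow (hψ : IsParabolicChar ψ) (γ : Gamma0 N) :
    psiRow ψ (bottomRow (γ : SL(2, ℤ))) = (((ψ γ)⁻¹ : ℂˣ) : ℂ) := by
  have h : ∃ γ' : Gamma0 N, bottomRow (γ' : SL(2, ℤ)) = bottomRow (γ : SL(2, ℤ)) := ⟨γ, rfl⟩
  rw [psiRow, dif_pos h, psi_eq_of_bottomRow_eq hψ h.choose_spec]

lemma psiRow_of_not_bottomRow {v : Fin 2 → ℤ}
    (h : ¬ ∃ γ : Gamma0 N, bottomRow (γ : SL(2, ℤ)) = v) : psiRow ψ v = 0 := by
  rw [psiRow, dif_neg h]

lemma norm_psiRow_le (hu : IsUnitaryChar ψ) (v : Fin 2 → ℤ) : ‖psiRow ψ v‖ ≤ 1 := by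
  unfold psiRow
  split_ifs with h
  · rw [Units.val_inv_eq_inv_val, norm_inv, hu, inv_one]
  · simp

/-- The transformation rule of the weight: `Ψ (v γ) = Ψ v * (ψ γ)⁻¹` for `γ ∈ Γ₀(N)`. -/
lemma psiRow_vecMul (hψ : IsParabolicChar ψ) (v : Fin 2 → ℤ) (γ : Gamma0 N) :
    psiRow ψ (v ᵥ* ((γ : SL(2, ℤ)) : Matrix (Fin 2) (Fin 2) ℤ)) =
      psiRow ψ v * (((ψ γ)⁻¹ : ℂˣ) : ℂ) := by
  by_cases h : ∃ δ : Gamma0 N, bottomRow (δ : SL(2, ℤ)) = v
  · obtain ⟨δ, rfl⟩ := h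
    have : bottomRow (δ : SL(2, ℤ)) ᵥ* ((γ : SL(2, ℤ)) : Matrix (Fin 2) (Fin 2) ℤ) =
        bottomRow (((δ * γ : Gamma0 N)) : SL(2, ℤ)) := by
      rw [Subgroup.coe_mul, bottomRow_mul]
    rw [this, psiRow_bottomRow hψ, psiRow_bottomRow hψ, map_mul, mul_inv, Units.val_mul]
  · have h' : ¬ ∃ δ : Gamma0 N, bottomRow (δ : SL(2, ℤ)) =
        v ᵥ* ((γ : SL(2, ℤ)) : Matrix (Fin 2) (Fin 2) ℤ) := by
      rintro ⟨δ, hδ⟩
      refine h ⟨δ * γ⁻¹, ?_⟩
      rw [Subgroup.coe_mul, bottomRow_mul, hδ, vecMul_vecMul, Subgroup.coe_inv,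
        ← Matrix.SpecialLinearGroup.coe_mul, mul_inv_cancel, Matrix.SpecialLinearGroup.coe_one,
        vecMul_one]
    rw [psiRow_of_not_bottomRow h, psiRow_of_not_bottomRow h', zero_mul]

lemma psiRow_zero_one (hψ : IsParabolicChar ψ) : psiRow ψ ![0, 1] = 1 := by
  have := psiRow_bottomRow hψ (1 : Gamma0 N)
  rw [Subgroup.coe_one, bottomRow_one_eq] at this
  simpa using this

lemma neg_one_mem_Gamma0 (N : ℕ) : (-1 : SL(2, ℤ)) ∈ Gamma0 N := by
  rw [Gamma0_mem]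
  simp

lemma psiRow_zero_neg_one (hψ : IsParabolicChar ψ) : psiRow ψ ![0, -1] = 1 := by
  have h1 := psiRow_bottomRow hψ (⟨-1, neg_one_mem_Gamma0 N⟩ : Gamma0 N)
  have h2 : ψ (⟨-1, neg_one_mem_Gamma0 N⟩ : Gamma0 N) = 1 := by
    apply hψ
    simp
  rw [h2] at h1
  simpa [bottomRow_neg_one] using h1

lemma psiRow_eq_zero_of_zero {v : Fin 2 → ℤ} (hv0 : v 0 = 0) (hv1 : v 1 ≠ 1)
    (hv1' : v 1 ≠ -1) : psiRow ψ v = 0 := by
  apply psiRow_of_not_bottomRow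
  rintro ⟨γ, rfl⟩
  rw [bottomRow_zero] at hv0
  rw [bottomRow_one] at hv1 hv1'
  have hdet := (γ : SL(2, ℤ)).det_coe
  rw [Matrix.det_fin_two, hv0, mul_zero, sub_zero] at hdet
  rcases Int.eq_one_or_neg_one_of_mul_eq_one' hdet with ⟨-, h⟩ | ⟨-, h⟩
  · exact hv1 h
  · exact hv1' h

lemma vec_zero_one_ne : (![0, 1] : Fin 2 → ℤ) ≠ ![0, -1] := by
  intro h
  have := congrFun h 1
  simp at this

/-- The constant term of the twisted weight is `2` (for even `k`). -/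
lemma wEisConst_psiRow (hψ : IsParabolicChar ψ) (hk : Even k) :
    wEisConst k (psiRow ψ) = 2 := by
  unfold wEisConst
  rw [tsum_eq_sum (s := {![0, 1], ![0, -1]})]
  · rw [Finset.sum_pair vec_zero_one_ne]
    simp only [Matrix.cons_val_zero, if_true, Matrix.cons_val_one, Matrix.cons_val_fin_one,
      psiRow_zero_one hψ, psiRow_zero_neg_one hψ]
    have h1 : ((-1 : ℤ) : ℂ) ^ (-k) = 1 := by
      rw [Int.cast_neg, Int.cast_one]
      exact Even.neg_one_zpow hk.neg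
    rw [h1]
    simp
    norm_num
  · intro v hv
    simp only [Finset.mem_insert, Finset.mem_singleton, not_or] at hv
    split_ifs with h0
    · have hv1 : v 1 ≠ 1 := by
        intro h1
        apply hv.1
        ext j
        fin_cases j
        · simpa using h0
        · simpa using h1
      have hv1' : v 1 ≠ -1 := by
        intro h1
        apply hv.2
        ext j
        fin_cases j
        · simpa using h0
        · simpa using h1
      rw [psiRow_eq_zero_of_zero h0 hv1 hv1', zero_mul]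
    · rfl

/-! ## The twisted Eisenstein series -/

/-- The twisted Eisenstein series
`E_{k,ψ}(z) = (1/2) ∑ ψ(γ)⁻¹ (c z + d) ^ (-k)`, the sum being over the bottom rows `(c, d)`
of the elements `γ` of `Γ₀(N)`. -/
def twistedEis (k : ℤ) (ψ : Gamma0 N →* ℂˣ) (z : ℍ) : ℂ := (1 / 2 : ℂ) * wEis k (psiRow ψ) z

lemma twistedEis_eq (k : ℤ) (ψ : Gamma0 N →* ℂˣ) :
    twistedEis k ψ = (1 / 2 : ℂ) • wEis k (psiRow ψ) := by
  ext z
  simp [twistedEis]

/-- Absolute convergence of the series defining `twistedEis`. -/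
theorem summable_twistedEis_term (hk : 3 ≤ k) (hu : IsUnitaryChar ψ) (z : ℍ) :
    Summable fun v : Fin 2 → ℤ ↦ ‖psiRow ψ v * eisSummand k v z‖ :=
  summable_norm_wEis_term hk (norm_psiRow_le hu) z

/-- The twisted Eisenstein series is holomorphic on the upper half plane. -/
theorem twistedEis_mdifferentiable (hk : 3 ≤ k) (hu : IsUnitaryChar ψ) :
    MDiff (twistedEis k ψ) := by
  rw [twistedEis_eq]
  exact (wEis_mdifferentiable hk (norm_psiRow_le hu)).const_smul _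

/-- The extension to `ℂ` of the twisted Eisenstein series is holomorphic on the upper half
plane. -/
theorem twistedEis_differentiableOn (hk : 3 ≤ k) (hu : IsUnitaryChar ψ) :
    DifferentiableOn ℂ (↑ₕ(twistedEis k ψ)) {z : ℂ | 0 < z.im} := by
  have : (↑ₕ(twistedEis k ψ)) = fun z ↦ (1 / 2 : ℂ) * (↑ₕ(wEis k (psiRow ψ))) z := by
    ext z
    simp [twistedEis]
  rw [this]
  exact (wEis_differentiableOn hk (norm_psiRow_le hu)).const_mul _

/-- Slash action of `SL(2, ℤ)` on the twisted Eisenstein series. -/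
lemma twistedEis_slash_SL (k : ℤ) (ψ : Gamma0 N →* ℂˣ) (δ : SL(2, ℤ)) :
    twistedEis k ψ ∣[k] δ =
      (1 / 2 : ℂ) • wEis k (fun v ↦ psiRow ψ (v ᵥ* ((δ⁻¹ : SL(2, ℤ)) : Matrix (Fin 2) (Fin 2) ℤ))) := by
  rw [twistedEis_eq, ModularForm.SL_smul_slash, wEis_slash]

/-- The transformation law of the twisted Eisenstein series under `Γ₀(N)`:
`E ∣[k] γ = ψ(γ) • E`. -/
theorem twistedEis_slash (k : ℤ) (hψ : IsParabolicChar ψ) (γ : Gamma0 N) :
    twistedEis k ψ ∣[k] (γ : SL(2, ℤ)) = ((ψ γ : ℂˣ) : ℂ) • twistedEis k ψ := by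
  rw [twistedEis_slash_SL, twistedEis_eq, smul_comm]
  congr 1
  ext z
  simp only [wEis, Pi.smul_apply, smul_eq_mul, ← tsum_mul_left]
  refine tsum_congr fun v ↦ ?_
  have := psiRow_vecMul hψ v γ⁻¹
  rw [Subgroup.coe_inv] at this
  rw [this, map_inv, inv_inv]
  ring

/-- The transformation law of the twisted Eisenstein series under `Γ₀(N)`:
`E (γ z) = ψ(γ) (c z + d) ^ k E(z)`. -/
theorem twistedEis_smul (k : ℤ) (hψ : IsParabolicChar ψ) (γ : Gamma0 N) (z : ℍ) :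
    twistedEis k ψ ((γ : SL(2, ℤ)) • z) =
      ((ψ γ : ℂˣ) : ℂ) * denom (γ : SL(2, ℤ)) z ^ k * twistedEis k ψ z := by
  have h := congrFun (twistedEis_slash k hψ γ) z
  rw [SL_slash_apply, Pi.smul_apply, smul_eq_mul, _root_.zpow_neg,
    mul_inv_eq_iff_eq_mul₀ (zpow_ne_zero _ <| denom_ne_zero _ z)] at h
  rw [h]
  ring

/-- More generally, for `γ ∈ Γ₀(N)` and `δ ∈ SL(2, ℤ)`: `E ∣[k] (γ δ) = ψ(γ) • (E ∣[k] δ)`. -/
theorem twistedEis_slash_mul (k : ℤ) (hψ : IsParabolicChar ψ) (γ : Gamma0 N) (δ : SL(2, ℤ)) :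
    twistedEis k ψ ∣[k] ((γ : SL(2, ℤ)) * δ) = ((ψ γ : ℂˣ) : ℂ) • (twistedEis k ψ ∣[k] δ) := by
  rw [SlashAction.slash_mul, twistedEis_slash k hψ, ModularForm.SL_smul_slash]

/-- All `SL(2, ℤ)`-translates of the twisted Eisenstein series are bounded at `i∞`, i.e. the
twisted Eisenstein series is bounded at every cusp. -/
theorem isBoundedAtImInfty_twistedEis_slash (hk : 3 ≤ k) (hu : IsUnitaryChar ψ) (δ : SL(2, ℤ)) :
    IsBoundedAtImInfty (twistedEis k ψ ∣[k] δ) := by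
  rw [twistedEis_eq, ModularForm.SL_smul_slash]
  exact (isBoundedAtImInfty_wEis_slash hk (norm_psiRow_le hu) δ).const_smul_left _

/-- The twisted Eisenstein series tends to `1` at `i∞`. -/
theorem tendsto_twistedEis_atImInfty (hk : 4 ≤ k) (hk2 : Even k) (hψ : IsParabolicChar ψ)
    (hu : IsUnitaryChar ψ) : Tendsto (twistedEis k ψ) atImInfty (𝓝 1) := by
  have h := (tendsto_wEis_atImInfty hk (norm_psiRow_le hu)).const_mul (1 / 2 : ℂ)
  rw [wEisConst_psiRow hψ hk2] at h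
  have h1 : (1 / 2 : ℂ) * 2 = 1 := by norm_num
  rw [h1] at h
  exact h

/-- The twisted Eisenstein series is not identically zero. -/
theorem exists_twistedEis_ne_zero (hk : 4 ≤ k) (hk2 : Even k) (hψ : IsParabolicChar ψ)
    (hu : IsUnitaryChar ψ) : ∃ z : ℍ, twistedEis k ψ z ≠ 0 := by
  have h := tendsto_twistedEis_atImInfty hk hk2 hψ hu
  have h1 : ∀ᶠ z in atImInfty, twistedEis k ψ z ≠ 0 :=
    h.eventually_ne one_ne_zero
  exact h1.exists

end Twisted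

end Fermat.Agent.P3.helper20
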