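import Fermat.Agent.P3.helper16_ANInterface
import Fermat.Agent.P3.helper34_MultCalc
import Fermat.Agent.P3.helper20_TwistedEis

/-!
# P3 [AN6-PSI] (helper16): the characters of `Γ₀(M)` attached to lattice characters

For `ε : perLat M →+ ℤ` (a character of the period lattice) and `n`, the character

  `latPsi M p n ε : Γ₀(M) →* ℂˣ`,  `γ ↦ exp(2πi · ε(per γ) / p^n)`.

* `latPsi_add`, `latPsi_zero`: additivity in `ε`;
* `latPsi_pow_succ`: `latPsi (n+1) ε ^ p = latPsi n ε`;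
* `latPsi_pow`: `latPsi n ε ^ (p^n) = 1`;
* `latPsi_eq_one_iff`: `latPsi n ε = 1 ↔ ∀ lam, p^n ∣ ε lam`;
* `latPsi_of_trace_sq_le`: trivial on all elements with `trace² ≤ 4` (elliptic, parabolic, `±1`);
  `isParabolicChar_latPsi`, `isUnitaryChar_latPsi` (the hypotheses of `helper20.twistedU`);
* `latPsi_heckeHom`, `latPsi_heckeChar`: the Hecke operator on characters (helper26 / helper34)
  corresponds to `latCharT` on lattice characters.
-/

set_option autoImplicit false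

noncomputable section

namespace Fermat.Agent.P3.helper16

open CongruenceSubgroup Complex
open scoped MatrixGroups Real
open Fermat.Agent.S16 Fermat.Agent.S16.helper26

/-! ### The root of unity `exp(2πi/m)` -/

/-- The root of unity `exp(2πi / m)` as a unit of `ℂ`. -/
def zetaUnit (m : ℕ) : ℂˣ := Units.mk0 (Complex.exp (2 * π * I / m)) (Complex.exp_ne_zero _)

@[simp] theorem coe_zetaUnit (m : ℕ) : ((zetaUnit m : ℂˣ) : ℂ) = Complex.exp (2 * π * I / m) := rfl

theorem isPrimitiveRoot_zetaUnit (m : ℕ) (hm : m ≠ 0) : IsPrimitiveRoot (zetaUnit m) m := by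
  have h := Complex.isPrimitiveRoot_exp m hm
  rw [← coe_zetaUnit] at h
  exact IsPrimitiveRoot.coe_units_iff.mp h

theorem zetaUnit_pow_self (m : ℕ) (hm : m ≠ 0) : zetaUnit m ^ m = 1 :=
  (isPrimitiveRoot_zetaUnit m hm).pow_eq_one

theorem zetaUnit_zpow_eq_one_iff (m : ℕ) (hm : m ≠ 0) (k : ℤ) :
    zetaUnit m ^ k = 1 ↔ (m : ℤ) ∣ k :=
  (isPrimitiveRoot_zetaUnit m hm).zpow_eq_one_iff_dvd k

theorem zetaUnit_mul_pow (p m : ℕ) (hp : p ≠ 0) : zetaUnit (p * m) ^ p = zetaUnit m := by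
  apply Units.ext
  rw [Units.val_pow_eq_pow_val, coe_zetaUnit, coe_zetaUnit, ← Complex.exp_nat_mul]
  congr 1
  have hp' : (p : ℂ) ≠ 0 := Nat.cast_ne_zero.mpr hp
  by_cases hm : m = 0
  · subst hm
    simp
  have hm' : (m : ℂ) ≠ 0 := Nat.cast_ne_zero.mpr hm
  push_cast
  field_simp

/-! ### The characters -/

variable (M : ℕ) [NeZero M] (p : ℕ)

/-- `k ↦ exp(2πi k / p^n)` as an additive map `ℤ →+ Additive ℂˣ`. -/
def zetaHom (n : ℕ) : ℤ →+ Additive ℂˣ :=
  zmultiplesHom (Additive ℂˣ) (Additive.ofMul (zetaUnit (p ^ n)))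

theorem zetaHom_apply (n : ℕ) (k : ℤ) :
    Additive.toMul (zetaHom p n k) = zetaUnit (p ^ n) ^ k := by
  simp [zetaHom]

/-- The character `γ ↦ exp(2πi · ε(per γ) / p^n)` of `Γ₀(M)`. -/
def latPsi (n : ℕ) (ε : LatChar M) : Gamma0 M →* ℂˣ :=
  MonoidHom.toAdditive.symm ((zetaHom p n).comp (ε.comp (perZ' M)))

theorem toAdditive_latPsi (n : ℕ) (ε : LatChar M) :
    MonoidHom.toAdditive (latPsi M p n ε) = ((zetaHom p n).comp ε).comp (perZ' M) := by
  unfold latPsi
  rw [Equiv.apply_symm_apply, AddMonoidHom.comp_assoc]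

theorem latPsi_apply (n : ℕ) (ε : LatChar M) (γ : Gamma0 M) :
    latPsi M p n ε γ = zetaUnit (p ^ n) ^ (ε (perZ' M (Additive.ofMul γ))) := by
  rw [← zetaHom_apply]
  rfl

theorem coe_latPsi_apply (n : ℕ) (ε : LatChar M) (γ : Gamma0 M) :
    ((latPsi M p n ε γ : ℂˣ) : ℂ) =
      Complex.exp (2 * π * I / ((p ^ n : ℕ) : ℂ)) ^ (ε (perZ' M (Additive.ofMul γ))) := by
  rw [latPsi_apply, Units.val_zpow_eq_zpow_val, coe_zetaUnit]

theorem latPsi_add (n : ℕ) (ε ε' : LatChar M) :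
    latPsi M p n (ε + ε') = latPsi M p n ε * latPsi M p n ε' := by
  ext γ
  rw [MonoidHom.mul_apply, latPsi_apply, latPsi_apply, latPsi_apply, AddMonoidHom.add_apply,
    zpow_add, Units.val_mul]

theorem latPsi_zero (n : ℕ) : latPsi M p n 0 = 1 := by
  ext γ
  rw [latPsi_apply, AddMonoidHom.zero_apply, zpow_zero, MonoidHom.one_apply]

theorem latPsi_pow_succ (hp : 0 < p) (n : ℕ) (ε : LatChar M) :
    latPsi M p (n + 1) ε ^ p = latPsi M p n ε := by
  ext γ
  rw [MonoidHom.pow_apply, latPsi_apply, latPsi_apply, ← zpow_natCast, ← zpow_mul, mul_comm,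
    zpow_mul, zpow_natCast, pow_succ', zetaUnit_mul_pow p (p ^ n) hp.ne']

theorem latPsi_pow (hp : 0 < p) (n : ℕ) (ε : LatChar M) :
    latPsi M p n ε ^ (p ^ n) = 1 := by
  ext γ
  rw [MonoidHom.pow_apply, latPsi_apply, ← zpow_natCast, ← zpow_mul, mul_comm,
    zpow_mul, zpow_natCast, zetaUnit_pow_self _ (pow_pos hp n).ne', one_zpow, MonoidHom.one_apply]

theorem latPsi_eq_one_iff (hp : 0 < p) (n : ℕ) (ε : LatChar M) :
    latPsi M p n ε = 1 ↔ ∀ lam : perLat M, ((p ^ n : ℕ) : ℤ) ∣ ε lam := by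
  constructor
  · intro h lam
    obtain ⟨γ, rfl⟩ := perZ'_surjective M lam
    have h1 := DFunLike.congr_fun h (Additive.toMul γ)
    rw [latPsi_apply, MonoidHom.one_apply] at h1
    exact (zetaUnit_zpow_eq_one_iff _ (pow_pos hp n).ne' _).mp h1
  · intro h
    ext γ
    rw [latPsi_apply, MonoidHom.one_apply,
      (zetaUnit_zpow_eq_one_iff _ (pow_pos hp n).ne' _).mpr (h _)]

/-! ### Triviality on elliptic and parabolic elements -/

omit [NeZero M] in
/-- Periods of elements of finite order vanish. -/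
theorem perZ'_eq_zero_of_pow_eq_one (γ : Gamma0 M) (k : ℕ) (hk : k ≠ 0) (h : γ ^ k = 1) :
    perZ' M (Additive.ofMul γ) = 0 := by
  have h1 : k • perZ' M (Additive.ofMul γ) = 0 := by
    rw [← map_nsmul, ← ofMul_pow, h, ofMul_one, map_zero]
  exact (nsmul_eq_zero_iff_right hk).mp h1

/-- Cayley-Hamilton for `SL(2, ℤ)`. -/
theorem sl2_sq (g : SL(2, ℤ)) :
    (g : Matrix (Fin 2) (Fin 2) ℤ) ^ 2 =
      (g : Matrix (Fin 2) (Fin 2) ℤ).trace • (g : Matrix (Fin 2) (Fin 2) ℤ) - 1 := by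
  have hdet := g.det_coe
  rw [Matrix.det_fin_two] at hdet
  ext i j
  fin_cases i <;> fin_cases j
  · simp only [pow_two, Matrix.mul_apply, Fin.sum_univ_two, Matrix.trace_fin_two,
      Matrix.sub_apply, Matrix.smul_apply, smul_eq_mul, Fin.zero_eta, Fin.isValue,
      Matrix.one_apply_eq]
    linear_combination (-1 : ℤ) * hdet
  · simp only [pow_two, Matrix.mul_apply, Fin.sum_univ_two, Matrix.trace_fin_two,
      Matrix.sub_apply, Matrix.smul_apply, smul_eq_mul, Fin.zero_eta, Fin.mk_one, Fin.isValue,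
      ne_eq, zero_ne_one, not_false_eq_true, Matrix.one_apply_ne]
    ring
  · simp only [pow_two, Matrix.mul_apply, Fin.sum_univ_two, Matrix.trace_fin_two,
      Matrix.sub_apply, Matrix.smul_apply, smul_eq_mul, Fin.zero_eta, Fin.mk_one, Fin.isValue,
      ne_eq, one_ne_zero, not_false_eq_true, Matrix.one_apply_ne]
    ring
  · simp only [pow_two, Matrix.mul_apply, Fin.sum_univ_two, Matrix.trace_fin_two,
      Matrix.sub_apply, Matrix.smul_apply, smul_eq_mul, Fin.mk_one, Fin.isValue,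
      Matrix.one_apply_eq]
    linear_combination (-1 : ℤ) * hdet

/-- An element of `SL(2, ℤ)` with `trace² < 4` has order dividing `12`. -/
theorem sl2_pow_twelve (g : SL(2, ℤ))
    (ht : (g : Matrix (Fin 2) (Fin 2) ℤ).trace ^ 2 < 4) : g ^ 12 = 1 := by
  set A : Matrix (Fin 2) (Fin 2) ℤ := (g : Matrix (Fin 2) (Fin 2) ℤ) with hA
  set t : ℤ := A.trace with htdef
  have hsq : A ^ 2 = t • A - 1 := sl2_sq g
  have ht' : t = -1 ∨ t = 0 ∨ t = 1 := by
    have h1 : -2 < t := by nlinarith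
    have h2 : t < 2 := by nlinarith
    omega
  apply Subtype.ext
  rw [Matrix.SpecialLinearGroup.coe_pow, Matrix.SpecialLinearGroup.coe_one]
  change A ^ 12 = 1
  rcases ht' with h | h | h
  · -- A² = -A - 1, A³ = 1
    rw [h] at hsq
    have h3 : A ^ 3 = 1 := by
      rw [pow_succ, hsq, sub_mul, smul_mul_assoc, ← pow_two, hsq]
      simp
    rw [show 12 = 3 * 4 from rfl, pow_mul, h3, one_pow]
  · rw [h] at hsq
    have h4 : A ^ 4 = 1 := by
      rw [show 4 = 2 * 2 from rfl, pow_mul, hsq]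
      simp
    rw [show 12 = 4 * 3 from rfl, pow_mul, h4, one_pow]
  · rw [h] at hsq
    have h3 : A ^ 3 = -1 := by
      rw [pow_succ, hsq, sub_mul, smul_mul_assoc, ← pow_two, hsq]
      simp
    rw [show 12 = 3 * 4 from rfl, pow_mul, h3]
    exact Even.neg_one_pow ⟨2, rfl⟩

/-- Periods of elliptic and parabolic elements (and of `±1`) vanish. -/
theorem perZ'_eq_zero_of_trace_sq_le (γ : Gamma0 M)
    (hγ : ((γ : SL(2, ℤ)) : Matrix (Fin 2) (Fin 2) ℤ).trace ^ 2 ≤ 4) :
    perZ' M (Additive.ofMul γ) = 0 := by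
  rcases hγ.lt_or_eq with h | h
  · refine perZ'_eq_zero_of_pow_eq_one M γ 12 (by norm_num) ?_
    apply Subtype.ext
    rw [Subgroup.coe_pow, Subgroup.coe_one]
    exact sl2_pow_twelve _ h
  · exact Subtype.ext (perZ_parabolic M γ h)

theorem latPsi_of_trace_sq_le (n : ℕ) (ε : LatChar M) (γ : Gamma0 M)
    (hγ : ((γ : SL(2, ℤ)) : Matrix (Fin 2) (Fin 2) ℤ).trace ^ 2 ≤ 4) :
    latPsi M p n ε γ = 1 := by
  rw [latPsi_apply, perZ'_eq_zero_of_trace_sq_le M γ hγ, map_zero, zpow_zero]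

theorem isParabolicChar_latPsi (n : ℕ) (ε : LatChar M) :
    helper20.IsParabolicChar (latPsi M p n ε) :=
  fun γ hγ => latPsi_of_trace_sq_le M p n ε γ hγ.le

theorem isUnitaryChar_latPsi (hp : 0 < p) (n : ℕ) (ε : LatChar M) :
    helper20.IsUnitaryChar (latPsi M p n ε) :=
  helper20.isUnitaryChar_of_pow_eq_one _ (pow_pos hp n).ne' fun γ => by
    rw [← MonoidHom.pow_apply, latPsi_pow M p hp, MonoidHom.one_apply]

/-! ### Hecke operators -/

/-- The Hecke operator of S16-[B1] on the characters `latPsi`, in the shape of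
`helper34.IsKummerChar.normProd_heckeHom`. -/
theorem latPsi_heckeHom (n : ℕ) (ℓ : Nat.Primes) (ε : LatChar M) :
    MonoidHom.toAdditive.symm
        (helper26.heckeHom M ℓ (MonoidHom.toAdditive (latPsi M p n ε))) =
      latPsi M p n (latCharT M ℓ ε) := by
  rw [toAdditive_latPsi, heckeHom_comp_perZ']
  unfold latPsi latCharT
  rfl

/-- The Hecke operator on characters (helper34's `heckeChar` along the coset system of `T_ℓ`). -/
theorem latPsi_heckeChar (n : ℕ) (ℓ : Nat.Primes) (h : ¬ (ℓ : ℕ) ∣ M) (ε : LatChar M) :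
    helper34.heckeChar (helper26.systemT M ℓ h) (latPsi M p n ε) =
      latPsi M p n (latCharT M ℓ ε) := by
  rw [← latPsi_heckeHom, helper26.heckeHom_of_not_dvd M h]
  rfl

end Fermat.Agent.P3.helper16

end
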