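import Mathlib
import Fermat.Agent.P3.helper80_AnDict
import Fermat.Agent.P3.helper20_TwistedU

/-!
# P3 [AN2] (helper80): consumer theorem T1 - orders of a power at all places

* `chart_identity`: identity principle in a chart (two germs at the base point of a chart agree
  as soon as the functions on the upper half plane they come from agree on punctured
  neighbourhoods);
* `sigmaC_eq_mk_of_represents`: the germ `sigmaC C g h` in terms of a function representing `h`;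
* `dvd_ord_core`: the local computation;
* `dvd_ord_of_root` (**T1**): if the function of `h ∈ F_ℂ` is an `m`-th power `u ^ m` of a
  meromorphic function `u` on the upper half plane with a multiplier trivial on the stabilisers
  of points and on the parabolic elements, and `u` is meromorphic at the cusps, then
  `m ∣ ord_w h` for every place `w` of `F_ℂ`.
-/

set_option autoImplicit false

noncomputable section

open UpperHalfPlane ModularForm Filter Topology CongruenceSubgroup ModularCurve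
  IntermediateField AlgebraicCurve WithZero
open scoped MatrixGroups Manifold

namespace Fermat.Agent.P3.helper80

open Fermat.Agent.S24 Fermat.Agent.S24.helper24 Fermat.Agent.S24.helper99
open Fermat.Agent.P3.helper20 Fermat.Agent.P3.helper34

variable {N : ℕ} [NeZero N]

/-! ### The identity principle in a chart -/

omit [NeZero N] in
/-- **Identity principle in a chart.** -/
theorem chart_identity (C : Chart N) {F G : ℂ → ℂ} (hF : MeromorphicAt F C.z₀)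
    (hG : MeromorphicAt G C.z₀) {f₁ f₂ : ℂ → ℂ} (hf : EqH f₁ f₂)
    (hFG : ∀ᶠ q in 𝓝[≠] C.z₀, ∀ τ : ℍ, C.u τ = q → F q = f₁ (τ : ℂ) ∧ G q = f₂ (τ : ℂ)) :
    F =ᶠ[𝓝[≠] C.z₀] G := by
  have hD : MeromorphicAt (F - G) C.z₀ := hF.sub hG
  rcases hD.eventually_eq_zero_or_eventually_ne_zero with h0 | hne
  · filter_upwards [h0] with q hq
    exact sub_eq_zero.mp hq
  · exfalso
    obtain ⟨U, hUo, ⟨τ₁, hτ₁⟩, hU⟩ := C.exists_open_of_eventually (hne.and hFG)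
    have hnhds : ((↑) : ℍ → ℂ) '' U ∈ 𝓝 (τ₁ : ℂ) :=
      (isOpenEmbedding_coe.isOpenMap U hUo).mem_nhds ⟨τ₁, hτ₁, rfl⟩
    have hev := hf (τ₁ : ℂ) τ₁.im_pos
    have hmem : ∀ᶠ z in 𝓝[≠] (τ₁ : ℂ), z ∈ ((↑) : ℍ → ℂ) '' U :=
      mem_nhdsWithin_of_mem_nhds hnhds
    obtain ⟨z, ⟨τ, hτ, rfl⟩, hz⟩ := (hmem.and hev).exists
    obtain ⟨hne', h12⟩ := hU τ hτ
    obtain ⟨h1, h2⟩ := h12 τ rfl
    apply hne'
    show F (C.u τ) - G (C.u τ) = 0
    rw [h1, h2, hz, sub_self]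

/-! ### Germs in a chart and representing functions -/

theorem eqH_mul_evPC0 {h : FC N} {f : ℂ → ℂ} (H : Represents N h f)
    (P Q : MvPolynomial N.divisors ℂ) (hQ : MvPolynomial.aeval (genJC N) Q ≠ 0)
    (hPQ : (h : LaurentSeries ℂ)
      = MvPolynomial.aeval (genJC N) P / MvPolynomial.aeval (genJC N) Q) :
    EqH (fun z => f z * evPC0 N Q (ofComplex z)) (fun z => evPC0 N P (ofComplex z)) := by
  have hP' : MvPolynomial.aeval (genJC N) P ∈ FCfield N := by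
    rw [FCfield_eq_adjoin]
    exact helper24.aeval_mem_adjoin _ P
  have hQ' : MvPolynomial.aeval (genJC N) Q ∈ FCfield N := by
    rw [FCfield_eq_adjoin]
    exact helper24.aeval_mem_adjoin _ Q
  have e : h * (⟨_, hQ'⟩ : FC N) = ⟨_, hP'⟩ := by
    apply Subtype.ext
    show (h : LaurentSeries ℂ) * MvPolynomial.aeval (genJC N) Q = MvPolynomial.aeval (genJC N) P
    rw [hPQ, div_mul_cancel₀ _ hQ]
  have h1 : Represents N (⟨_, hP'⟩ : FC N) (f * fun z => evPC0 N Q (ofComplex z)) := by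
    rw [← e]
    exact H.mul (represents_aeval Q ⟨_, hQ'⟩ rfl)
  have h2 := represents_aeval P (⟨_, hP'⟩ : FC N) rfl
  intro z hz
  exact h1.eventuallyEq h2 ⟨z, hz⟩

/-- **The germ of `h` in a chart**, in terms of a function representing `h`. -/
theorem sigmaC_eq_mk_of_represents (C : Chart N) (g : SL(2, ℤ)) {h : FC N} {f : ℂ → ℂ}
    (H : Represents N h f) {F : ℂ → ℂ} (hF : MeromorphicAt F C.z₀)
    (hFf : ∀ᶠ q in 𝓝[≠] C.z₀, ∀ τ : ℍ, C.u τ = q → F q = f ((g⁻¹ • τ : ℍ) : ℂ)) :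
    sigmaC C g h = MeroGerm.mk F hF := by
  obtain ⟨P, Q, hQ, hPQ⟩ := exists_poly_repr h
  have hP' : MvPolynomial.aeval (genJC N) P ∈ FCfield N := by
    rw [FCfield_eq_adjoin]
    exact helper24.aeval_mem_adjoin _ P
  have hQ' : MvPolynomial.aeval (genJC N) Q ∈ FCfield N := by
    rw [FCfield_eq_adjoin]
    exact helper24.aeval_mem_adjoin _ Q
  have hQ0 : (⟨_, hQ'⟩ : FC N) ≠ 0 := fun h0 => hQ (congrArg Subtype.val h0)
  have e : h = (⟨_, hP'⟩ : FC N) / ⟨_, hQ'⟩ := by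
    apply Subtype.ext
    rw [hPQ]
    rfl
  obtain ⟨FP, hFP, h1, h2⟩ := ΘC_spec C g P
  obtain ⟨FQ, hFQ, h3, h4⟩ := ΘC_spec C g Q
  have hsQ : sigmaC C g (⟨_, hQ'⟩ : FC N) = MeroGerm.mk FQ hFQ := by
    rw [sigmaC_of_eq C g _ Q rfl, h3]
  have hsP : sigmaC C g (⟨_, hP'⟩ : FC N) = MeroGerm.mk FP hFP := by
    rw [sigmaC_of_eq C g _ P rfl, h1]
  have hne : MeroGerm.mk FQ hFQ ≠ 0 := by
    rw [← hsQ]
    exact sigmaC_ne_zero C g hQ0
  rw [e, map_div₀, hsQ, hsP, div_eq_iff hne, ← MeroGerm.mk_mul]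
  apply MeroGerm.mk_eq_mk_iff.mpr
  refine (chart_identity C (hF.mul hFQ) hFP
    ((eqH_mul_evPC0 H P Q hQ hPQ).comp_moebC g⁻¹) ?_).symm
  filter_upwards [hFf] with q hq τ hτ
  have hm : moebC g⁻¹ (τ : ℂ) = ((g⁻¹ • τ : ℍ) : ℂ) := moebC_coe g⁻¹ τ
  refine ⟨?_, ?_⟩
  · show F q * FQ q = _
    rw [hq τ hτ, ← hτ, h4]
    show _ = f (moebC g⁻¹ (τ : ℂ)) * evPC0 N Q (ofComplex (moebC g⁻¹ (τ : ℂ)))
    rw [hm, ofComplex_apply]
    rfl
  · rw [← hτ, h2]
    show _ = evPC0 N P (ofComplex (moebC g⁻¹ (τ : ℂ)))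
    rw [hm, ofComplex_apply]
    rfl

/-! ### Rotations -/

omit [NeZero N] in
/-- A germ `W` in a chart which comes from a function `u` with multiplier `ψ`, read through the
coset `g`, is invariant under the rotation `φ` attached to `hh`, if `ψ (g⁻¹ hh⁻¹ g) = 1`. -/
theorem comp_rot_eventuallyEq (C : Chart N) (g hh : SL(2, ℤ)) (φ : ℂ → ℂ) (hR : C.IsRot hh φ)
    {u : ℂ → ℂ} (ψ : Gamma0 N →* ℂˣ) (hmult : HasMultH u ψ)
    (hmem : g⁻¹ * hh⁻¹ * g ∈ Gamma0 N) (hψ : ψ ⟨_, hmem⟩ = 1)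
    {W : ℂ → ℂ} (hW : MeromorphicAt W C.z₀)
    (hWu : ∀ᶠ q in 𝓝[≠] C.z₀, ∀ τ : ℍ, C.u τ = q → W q = u ((g⁻¹ • τ : ℍ) : ℂ)) :
    W ∘ φ =ᶠ[𝓝[≠] C.z₀] W := by
  have hWφ : MeromorphicAt (W ∘ φ) C.z₀ :=
    (hR.fix.symm ▸ hW : MeromorphicAt W (φ C.z₀)).comp_analyticAt hR.an
  have htend : Tendsto φ (𝓝[≠] C.z₀) (𝓝[≠] C.z₀) :=
    tendsto_nhdsNE_of_analyticAt hR.an hR.fix hR.deriv_ne
  have hE : EqH (fun z => u (moebC (g⁻¹ * hh⁻¹ * g) (moebC g⁻¹ z)))
      (fun z => u (moebC g⁻¹ z)) := by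
    have h1 := (hmult ⟨_, hmem⟩).comp_moebC g⁻¹
    rw [hψ] at h1
    intro z hz
    filter_upwards [h1 z hz] with y hy
    rw [hy]
    simp
  refine chart_identity C hWφ hW hE ?_
  filter_upwards [hWu, htend.eventually hWu] with q hq hq' τ hτ
  refine ⟨?_, ?_⟩
  · show W (φ q) = _
    have h1 : C.u (hh⁻¹ • τ) = φ q := by rw [hR.spec, hτ]
    rw [hq' (hh⁻¹ • τ) h1, moebC_coe, moebC_coe]
    congr 2
    rw [← mul_smul, ← mul_smul]
    congr 1
    group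
  · rw [hq τ hτ, moebC_coe]

/-! ### The local computation -/

/-- **Local computation for T1.** -/
theorem dvd_ord_core (C : Chart N) (g : SL(2, ℤ)) (w : Place ℂ (FC N)) (d : ℕ) (hd : 0 < d)
    (hdict : ∀ f : FC N, f ≠ 0 →
      MeroGerm.V C.z₀ (sigmaC C g f) = exp (-((d : ℤ) * w.ord f)))
    {u : ℂ → ℂ} (ψ : Gamma0 N →* ℂˣ) (hmult : HasMultH u ψ)
    (hrot : 1 < d → ∃ (hh : SL(2, ℤ)) (φ : ℂ → ℂ), C.IsRot hh φ ∧
      IsPrimitiveRoot (deriv φ C.z₀) d ∧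
      ∃ hmem : g⁻¹ * hh⁻¹ * g ∈ Gamma0 N, ψ ⟨_, hmem⟩ = 1)
    {h : FC N} (hh0 : h ≠ 0) {m : ℕ} (hm : 0 < m) (hrep : Represents N h (fun z => u z ^ m))
    {W : ℂ → ℂ} (hW : MeromorphicAt W C.z₀)
    (hWu : ∀ᶠ q in 𝓝[≠] C.z₀, ∀ τ : ℍ, C.u τ = q → W q = u ((g⁻¹ • τ : ℍ) : ℂ)) :
    (m : ℤ) ∣ w.ord h := by
  have hgerm : sigmaC C g h = MeroGerm.mk (fun q => W q ^ m) (hW.fun_pow m) := by
    refine sigmaC_eq_mk_of_represents C g hrep _ ?_
    filter_upwards [hWu] with q hq τ hτ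
    show W q ^ m = _
    rw [hq τ hτ]
  have hne : MeroGerm.mk (fun q => W q ^ m) (hW.fun_pow m) ≠ 0 := by
    rw [← hgerm]
    exact sigmaC_ne_zero C g hh0
  have htopm : meromorphicOrderAt (fun q => W q ^ m) C.z₀ ≠ ⊤ :=
    fun h => hne (MeroGerm.mk_eq_zero_iff_order.mpr h)
  have hordm : meromorphicOrderAt (fun q => W q ^ m) C.z₀ = m * meromorphicOrderAt W C.z₀ :=
    meromorphicOrderAt_pow (n := m) hW
  have htop : meromorphicOrderAt W C.z₀ ≠ ⊤ := by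
    intro h
    apply htopm
    rw [hordm, h]
    have hm0 : m ≠ 0 := hm.ne'
    have : ((m : ℕ) : WithTop ℤ) ≠ 0 := by exact_mod_cast hm0
    exact WithTop.mul_top this
  obtain ⟨n, hn⟩ := WithTop.ne_top_iff_exists.mp htop
  have hordm' : meromorphicOrderAt (fun q => W q ^ m) C.z₀ = ((m * n : ℤ) : WithTop ℤ) := by
    rw [hordm, ← hn]
    push_cast
    rfl
  have hV := hdict h hh0
  rw [hgerm, MeroGerm.V_mk_of_order_eq _ hordm'] at hV
  have hmn : (m : ℤ) * n = d * w.ord h := by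
    have := exp_injective hV
    omega
  by_cases hd1 : d = 1
  · subst hd1
    refine ⟨n, ?_⟩
    rw [hmn]
    simp
  · obtain ⟨hh, φ, hR, hprim, hmem, hψ⟩ := hrot (by omega)
    have hinv := comp_rot_eventuallyEq C g hh φ hR ψ hmult hmem hψ hW hWu
    obtain ⟨c, hc⟩ := dvd_meromorphicOrderAt_of_comp_eventuallyEq hd
      hR.an.differentiableAt hR.fix hprim hW hn.symm hinv
    refine ⟨c, ?_⟩
    have hd0 : (d : ℤ) ≠ 0 := by exact_mod_cast hd.ne'
    apply mul_left_cancel₀ hd0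
    rw [← hmn, hc]
    ring

/-! ### The theorem T1 -/

/-- An eventual property at `i∞` holds on the preimage of a punctured neighbourhood of `0`
under `q_N`. -/
theorem eventually_cusp_of_atImInfty {p : ℍ → Prop} (hp : ∀ᶠ τ in atImInfty, p τ) :
    ∀ᶠ q in 𝓝[≠] (0 : ℂ), ∀ τ : ℍ, Function.Periodic.qParam N (τ : ℂ) = q → p τ := by
  obtain ⟨A, hA⟩ := (atImInfty_mem _).mp hp
  have hN : (0 : ℝ) < N := by exact_mod_cast Nat.pos_of_ne_zero (NeZero.ne N)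
  have hball : Metric.ball (0 : ℂ) (Real.exp (-2 * Real.pi * A / N)) ∈ 𝓝 (0 : ℂ) :=
    Metric.ball_mem_nhds _ (Real.exp_pos _)
  filter_upwards [mem_nhdsWithin_of_mem_nhds hball] with q hq τ hτ
  apply hA
  have h1 : ‖Function.Periodic.qParam N (τ : ℂ)‖ < Real.exp (-2 * Real.pi * A / N) := by
    rw [hτ]
    simpa using hq
  exact ((Function.Periodic.norm_qParam_lt_iff hN A (τ : ℂ)).mp h1).le

/-- **T1.**  Let `h ∈ F_ℂ`, `h ≠ 0`, be represented by `u ^ m`, where `u` is meromorphic on the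
upper half plane, has a multiplier `ψ : Γ₀(N) → ℂˣ` which is trivial on the stabilisers of the
points of the upper half plane and on the elements of trace `±2`, and such that every translate
`u ∘ g` is meromorphic at `i∞` in the parameter `q_N`.  Then `m ∣ ord_w h` for all places `w`
of `F_ℂ`. -/
theorem dvd_ord_of_root {h : FC N} (hh0 : h ≠ 0) {m : ℕ} (hm : 0 < m) {u : ℂ → ℂ}
    (hu : MeromorphicOn u {z : ℂ | 0 < z.im})
    (hrep : Represents N h (fun z => u z ^ m))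
    (ψ : Gamma0 N →* ℂˣ) (hmult : HasMultH u ψ)
    (hψell : ∀ (γ : Gamma0 N) (τ : ℍ), (γ : SL(2, ℤ)) • τ = τ → ψ γ = 1)
    (hψpar : IsParabolicChar ψ)
    (hcusp : ∀ g : SL(2, ℤ), ∃ U : ℂ → ℂ, MeromorphicAt U 0 ∧
      ∀ᶠ τ : ℍ in atImInfty, U (Function.Periodic.qParam N (τ : ℂ)) = u ((g • τ : ℍ) : ℂ))
    (w : Place ℂ (FC N)) : (m : ℤ) ∣ w.ord h := by
  by_cases hw : 0 ≤ w.ord (xJC N)
  · -- interior points
    obtain ⟨τ₀, g, hh, d, hd, hmem, -, hrot, hdict⟩ := dict_interior w hw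
    have hmem' : g⁻¹ * hh⁻¹ * g ∈ Gamma0 N := by
      have := inv_mem hmem
      have e : (g⁻¹ * hh * g)⁻¹ = g⁻¹ * hh⁻¹ * g := by group
      rwa [e] at this
    have hgz : (0 : ℝ) < (moebC g⁻¹ (τ₀ : ℂ)).im := moebC_im_pos g⁻¹ τ₀.im_pos
    have hW : MeromorphicAt (fun z => u (moebC g⁻¹ z)) (τ₀ : ℂ) :=
      (hu _ hgz).comp_analyticAt (analyticAt_moebC g⁻¹ τ₀.im_pos)
    refine dvd_ord_core (interiorChart N τ₀) g w d hd hdict ψ hmult (fun hd1 => ?_) hh0 hm hrep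
      (W := fun z => u (moebC g⁻¹ z)) hW ?_
    · obtain ⟨hfix, hprim⟩ := hrot hd1
      refine ⟨hh, helper48.chartSL hh⁻¹, isRot_interior N τ₀ hh hfix, hprim, hmem', ?_⟩
      apply hψell _ (g⁻¹ • τ₀)
      show (g⁻¹ * hh⁻¹ * g) • (g⁻¹ • τ₀) = g⁻¹ • τ₀
      rw [← mul_smul, mul_assoc, mul_inv_cancel, mul_one, mul_smul, hfix]
    · refine Eventually.of_forall fun q τ hτ => ?_
      have e : (τ : ℂ) = q := hτ
      rw [← e, moebC_coe]
  · -- cusps
    obtain ⟨g, d, hd, hdN, hmem, hdict⟩ := dict_cusp w (not_le.mp hw)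
    obtain ⟨U, hU, hUu⟩ := hcusp g⁻¹
    have hmem' : g⁻¹ * (ModularGroup.T ^ (N / d))⁻¹ * g ∈ Gamma0 N := by
      have := inv_mem hmem
      have e : (g⁻¹ * ModularGroup.T ^ (N / d) * g)⁻¹
          = g⁻¹ * (ModularGroup.T ^ (N / d))⁻¹ * g := by group
      rwa [e] at this
    have hUu' : ∀ᶠ q in 𝓝[≠] (cuspChart N).z₀, ∀ τ : ℍ, (cuspChart N).u τ = q →
        U q = u ((g⁻¹ • τ : ℍ) : ℂ) := by
      filter_upwards [eventually_cusp_of_atImInfty (N := N) hUu] with q hq τ hτ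
      have := hq τ hτ
      rwa [hτ] at this
    refine dvd_ord_core (cuspChart N) g w d hd hdict ψ hmult (fun hd1 => ?_) hh0 hm hrep
      (W := U) hU hUu'
    refine ⟨ModularGroup.T ^ (N / d), fun q => rotC N (N / d) * q, isRot_cusp N (N / d),
      isPrimitiveRoot_rotC N d hdN hd1, hmem', ?_⟩
    apply hψpar
    have htr : (((g⁻¹ * (ModularGroup.T ^ (N / d))⁻¹ * g : SL(2, ℤ)) :
        Matrix (Fin 2) (Fin 2) ℤ)).trace = 2 := by
      have h1 : g⁻¹ * (ModularGroup.T ^ (N / d))⁻¹ * g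
          = g⁻¹ * ModularGroup.T ^ (-((N / d : ℕ) : ℤ)) * g⁻¹⁻¹ := by
        rw [inv_inv, zpow_neg, zpow_natCast]
      rw [h1]
      exact trace_conj_T_zpow _ g⁻¹
    show (((g⁻¹ * (ModularGroup.T ^ (N / d))⁻¹ * g : SL(2, ℤ)) :
        Matrix (Fin 2) (Fin 2) ℤ)).trace ^ 2 = 4
    rw [htr]
    norm_num

end Fermat.Agent.P3.helper80
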