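import Mathlib
import Fermat.Agent.P3.helper80_RootOrd

/-!
# P3 [AN2] (helper80): the hypotheses of T1 for the functions `u_ψ`

* `trace_sq_le_four_of_smul_eq`: an element of `SL(2, ℤ)` fixing a point of the upper half
  plane has `trace² ≤ 4`;
* `dvd_ord_of_root'`: T1 for multipliers trivial on the elements with `trace² ≤ 4`;
* `exists_cuspGerm_of_bounded`: a function on the upper half plane which is `N`-periodic,
  bounded at `i∞` and holomorphic near `i∞` is an analytic function of `q_N` at `0`;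
* `exists_cuspGerm_twistedU`: this applies to all translates of `helper20.twistedU ψ`;
* `dvd_ord_twistedU` : T1 for `u = twistedU ψ`.
-/

set_option autoImplicit false

noncomputable section

open UpperHalfPlane ModularForm Filter Topology CongruenceSubgroup ModularCurve
  IntermediateField AlgebraicCurve WithZero
open scoped MatrixGroups Manifold

namespace Fermat.Agent.P3.helper80

open Fermat.Agent.S24 Fermat.Agent.S24.helper24 Fermat.Agent.S24.helper99
open Fermat.Agent.P3.helper20 Fermat.Agent.P3.helper34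

/-! ### Stabilisers of points -/

/-- An element of `SL(2, ℤ)` fixing a point of the upper half plane has `trace² ≤ 4`. -/
theorem trace_sq_le_four_of_smul_eq (γ : SL(2, ℤ)) (τ : ℍ) (h : γ • τ = τ) :
    ((γ : Matrix (Fin 2) (Fin 2) ℤ)).trace ^ 2 ≤ 4 := by
  have h1 : moebC γ (τ : ℂ) = (τ : ℂ) := by rw [moebC_coe, h]
  unfold moebC at h1
  have hden := moebC_denom_ne_zero γ τ.im_pos
  rw [div_eq_iff hden] at h1
  have hdet := γ.det_coe
  rw [Matrix.det_fin_two] at hdet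
  have hy : 0 < (τ : ℂ).im := τ.im_pos
  have hre := congrArg Complex.re h1
  have him := congrArg Complex.im h1
  simp only [Complex.add_re, Complex.mul_re, Complex.intCast_re, Complex.intCast_im, zero_mul,
    sub_zero, Complex.add_im, Complex.mul_im, add_zero] at hre him
  have hdetR : ((γ 0 0 : ℤ) : ℝ) * (γ 1 1 : ℤ) - (γ 0 1 : ℤ) * (γ 1 0 : ℤ) = 1 := by
    exact_mod_cast hdet
  have e1 : ((γ 0 0 : ℤ) : ℝ) - (γ 1 1 : ℤ) - 2 * (γ 1 0 : ℤ) * (τ : ℂ).re = 0 := by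
    apply mul_right_cancel₀ hy.ne'
    linear_combination him
  have e2 : ((γ 0 1 : ℤ) : ℝ) + (γ 1 0 : ℤ) * ((τ : ℂ).re ^ 2 + (τ : ℂ).im ^ 2) = 0 := by
    linear_combination hre - (τ : ℂ).re * e1
  have key : (((γ 0 0 : ℤ) : ℝ) + (γ 1 1 : ℤ)) ^ 2
      = 4 - 4 * ((γ 1 0 : ℤ) : ℝ) ^ 2 * (τ : ℂ).im ^ 2 := by
    linear_combination (((γ 0 0 : ℤ) : ℝ) - (γ 1 1 : ℤ) + 2 * (γ 1 0 : ℤ) * (τ : ℂ).re) * e1
      + 4 * hdetR + 4 * ((γ 1 0 : ℤ) : ℝ) * e2
  have hle : (((γ 0 0 : ℤ) : ℝ) + (γ 1 1 : ℤ)) ^ 2 ≤ 4 := by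
    rw [key]
    have : 0 ≤ ((γ 1 0 : ℤ) : ℝ) ^ 2 * (τ : ℂ).im ^ 2 := by positivity
    linarith
  rw [Matrix.trace_fin_two]
  exact_mod_cast hle

variable {N : ℕ} [NeZero N]

/-- **T1**, for multipliers which are trivial on all elements with `trace² ≤ 4`. -/
theorem dvd_ord_of_root' {h : FC N} (hh0 : h ≠ 0) {m : ℕ} (hm : 0 < m) {u : ℂ → ℂ}
    (hu : MeromorphicOn u {z : ℂ | 0 < z.im})
    (hrep : Represents N h (fun z => u z ^ m))
    (ψ : Gamma0 N →* ℂˣ) (hmult : HasMultH u ψ)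
    (hψ : ∀ γ : Gamma0 N,
      (((γ : SL(2, ℤ)) : Matrix (Fin 2) (Fin 2) ℤ)).trace ^ 2 ≤ 4 → ψ γ = 1)
    (hcusp : ∀ g : SL(2, ℤ), ∃ U : ℂ → ℂ, MeromorphicAt U 0 ∧
      ∀ᶠ τ : ℍ in atImInfty, U (Function.Periodic.qParam N (τ : ℂ)) = u ((g • τ : ℍ) : ℂ))
    (w : Place ℂ (FC N)) : (m : ℤ) ∣ w.ord h :=
  dvd_ord_of_root hh0 hm hu hrep ψ hmult
    (fun γ τ hγ => hψ γ (trace_sq_le_four_of_smul_eq _ τ hγ))
    (fun γ hγ => hψ γ hγ.le) hcusp w

/-! ### Functions which are analytic at the cusp -/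

omit [NeZero N] in
theorem periodic_comp_ofComplex_of_vadd {f : ℍ → ℂ}
    (hper : ∀ τ : ℍ, f ((N : ℝ) +ᵥ τ) = f τ) :
    Function.Periodic (f ∘ ofComplex) ((N : ℝ) : ℂ) := by
  intro w
  by_cases hw : 0 < w.im
  · have hw' : 0 < (w + ((N : ℝ) : ℂ)).im := by simpa using hw
    simp only [Function.comp_apply, ofComplex_apply_of_im_pos hw', ofComplex_apply_of_im_pos hw]
    have := hper ⟨w, hw⟩
    rw [← this]
    congr 1
    ext
    simp [add_comm]
  · have hw0 : w.im ≤ 0 := not_lt.mp hw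
    have hw' : (w + ((N : ℝ) : ℂ)).im ≤ 0 := by simpa using hw0
    simp only [Function.comp_apply, ofComplex_apply_of_im_nonpos hw',
      ofComplex_apply_of_im_nonpos hw0]

/-- A function on the upper half plane which is `N`-periodic, bounded at `i∞` and holomorphic
near `i∞` is an analytic function of `q_N = exp (2 π i τ / N)` at `q_N = 0`. -/
theorem exists_cuspGerm_of_bounded {f : ℍ → ℂ} (hper : ∀ τ : ℍ, f ((N : ℝ) +ᵥ τ) = f τ)
    (hbd : IsBoundedAtImInfty f)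
    (hhol : ∀ᶠ τ : ℍ in atImInfty, DifferentiableAt ℂ (f ∘ ofComplex) (τ : ℂ)) :
    ∃ U : ℂ → ℂ, AnalyticAt ℂ U 0 ∧
      ∀ τ : ℍ, U (Function.Periodic.qParam N (τ : ℂ)) = f τ := by
  have hN : (0 : ℝ) < N := by exact_mod_cast Nat.pos_of_ne_zero (NeZero.ne N)
  have hfper := periodic_comp_ofComplex_of_vadd (N := N) hper
  refine ⟨UpperHalfPlane.cuspFunction N f, ?_,
    fun τ => UpperHalfPlane.eq_cuspFunction τ hN.ne' hfper⟩
  have h_hol : ∀ᶠ z in Filter.comap Complex.im atTop,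
      DifferentiableAt ℂ (f ∘ ofComplex) z := by
    obtain ⟨A, hA⟩ := (atImInfty_mem _).mp hhol
    rw [Filter.eventually_comap]
    filter_upwards [Filter.eventually_ge_atTop (max A 1)] with y hy z hz
    have hzpos : 0 < z.im := by
      rw [hz]
      exact lt_of_lt_of_le one_pos ((le_max_right A 1).trans hy)
    have := hA ⟨z, hzpos⟩ (by
      show A ≤ z.im
      rw [hz]
      exact (le_max_left A 1).trans hy)
    exact this
  have h_bd : BoundedAtFilter (Filter.comap Complex.im atTop) (f ∘ ofComplex) :=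
    hbd.comp_tendsto tendsto_comap_im_ofComplex
  have h0 : DifferentiableAt ℂ (UpperHalfPlane.cuspFunction N f) 0 :=
    hfper.differentiableAt_cuspFunction_zero hN h_hol h_bd
  have h1 := Function.Periodic.eventually_differentiableAt_cuspFunction_nhds_ne_zero hN hfper
    h_hol
  rw [Complex.analyticAt_iff_eventually_differentiableAt]
  rw [eventually_nhdsWithin_iff] at h1
  filter_upwards [h1] with q hq
  by_cases hq0 : q = 0
  · rw [hq0]
    exact h0
  · exact hq hq0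

/-! ### The functions `u_ψ` -/

section TwistedU

variable {ψ : Gamma0 N →* ℂˣ}

omit [NeZero N] in
theorem mdiff_twistedEis_slash (hu : IsUnitaryChar ψ) (δ : SL(2, ℤ)) :
    MDiff (twistedEis 4 ψ ∣[(4 : ℤ)] δ) := by
  rw [twistedEis_slash_SL]
  exact (wEis_mdifferentiable (k := 4) (by norm_num) (fun v => norm_psiRow_le hu _)).const_smul _

/-- Every translate of `u_ψ` is an analytic function of `q_N` at the cusp. -/
theorem exists_cuspGerm_twistedU (hψ : IsParabolicChar ψ) (hu : IsUnitaryChar ψ)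
    (δ : SL(2, ℤ)) :
    ∃ U : ℂ → ℂ, AnalyticAt ℂ U 0 ∧
      ∀ τ : ℍ, U (Function.Periodic.qParam N (τ : ℂ)) = twistedU ψ (δ • τ) := by
  refine exists_cuspGerm_of_bounded (f := fun τ => twistedU ψ (δ • τ))
    (fun τ => twistedU_smul_vadd hψ δ τ) (isBoundedAtImInfty_twistedU_smul hu δ) ?_
  obtain ⟨B, hB⟩ := eventually_norm_E₄_ge
  refine (atImInfty_mem _).mpr ⟨B, fun τ hτ => ?_⟩
  have hE : E₄ τ ≠ 0 := by
    intro h0
    have := hB τ hτ
    rw [h0, norm_zero] at this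
    linarith
  have hfun : (fun τ : ℍ => twistedU ψ (δ • τ))
      = fun τ : ℍ => (twistedEis 4 ψ ∣[(4 : ℤ)] δ) τ / E₄ τ :=
    funext fun τ => twistedU_smul_SL ψ δ τ
  show DifferentiableAt ℂ ((fun τ : ℍ => twistedU ψ (δ • τ)) ∘ ofComplex) (τ : ℂ)
  rw [hfun]
  have h1 : DifferentiableAt ℂ ((twistedEis 4 ψ ∣[(4 : ℤ)] δ) ∘ ofComplex) (τ : ℂ) :=
    UpperHalfPlane.mdifferentiableAt_iff.mp (mdiff_twistedEis_slash hu δ τ)
  have h2 : DifferentiableAt ℂ ((E₄ : ℍ → ℂ) ∘ ofComplex) (τ : ℂ) :=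
    UpperHalfPlane.mdifferentiableAt_iff.mp (ModularFormClass.holo E₄ τ)
  have h3 : ((E₄ : ℍ → ℂ) ∘ ofComplex) (τ : ℂ) ≠ 0 := by
    rw [Function.comp_apply, ofComplex_apply]
    exact hE
  exact h1.div h2 h3

/-- **T1 for `u_ψ`.**  If `h ∈ F_ℂ` is represented by `u_ψ ^ m`, where `ψ` is a unitary
character of `Γ₀(N)` trivial on the elements with `trace² ≤ 4`, then `m ∣ ord_w h` for every
place `w` of `F_ℂ`. -/
theorem dvd_ord_twistedU (hu : IsUnitaryChar ψ)
    (hψ : ∀ γ : Gamma0 N,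
      (((γ : SL(2, ℤ)) : Matrix (Fin 2) (Fin 2) ℤ)).trace ^ 2 ≤ 4 → ψ γ = 1)
    {h : FC N} (hh0 : h ≠ 0) {m : ℕ} (hm : 0 < m)
    (hrep : Represents N h (fun z => twistedU ψ (ofComplex z) ^ m))
    (w : Place ℂ (FC N)) : (m : ℤ) ∣ w.ord h := by
  have hψpar : IsParabolicChar ψ := fun γ hγ => hψ γ hγ.le
  refine dvd_ord_of_root' (u := fun z => twistedU ψ (ofComplex z)) hh0 hm
    (meromorphicOn_twistedU hu) hrep ψ
    (HasMultH.of_pointwise fun γ z => ?_) hψ (fun g => ?_) w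
  · show twistedU ψ (ofComplex (((γ : SL(2, ℤ)) • z : ℍ) : ℂ)) = _ * twistedU ψ (ofComplex (z : ℂ))
    rw [ofComplex_apply, ofComplex_apply]
    exact twistedU_smul hψpar γ z
  · obtain ⟨U, hU, hUf⟩ := exists_cuspGerm_twistedU hψpar hu g
    refine ⟨U, hU.meromorphicAt, Eventually.of_forall fun τ => ?_⟩
    rw [hUf τ]
    show _ = twistedU ψ (ofComplex ((g • τ : ℍ) : ℂ))
    rw [ofComplex_apply]

end TwistedU

end Fermat.Agent.P3.helper80
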