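import Mathlib
import Fermat.Agent.P3.helper80_CuspGerm
import Fermat.Agent.P3.helper48_AN1Rep
import Fermat.Agent.P3.helper16_LatChar
import Fermat.Agent.P3.helper20_TwistedU
import Fermat.Agent.P3.helper20_Mon

/-!
# P3 [AN5], surjectivity of the monodromy and the analytic Kummer maps

* `exists_isMonData_of_root` (abstract): if all orders of `h` are divisible by `m` and the
  function of `h` has an `m`-th root with multiplier `ψ`, then `ψ` is the monodromy of the class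
  of `(1/m) div h`;
* `exists_isMonData_twistedU`: every character `ψ : Γ₀(N) → μ_m` which is trivial on the elements
  of trace `t` with `t ^ 2 ≤ 4` is the monodromy of a class of `Pic⁰(F_ℂ)` killed by `m`
  (the class of `(1/m) div (u_ψ ^ m)`, `u_ψ = E_{4,ψ} / E₄`);
* `exists_kappaC`: the analytic Kummer maps `κC n : Hom(perLat M, ℤ) → Pic⁰(F_ℂ)[p ^ n]`, with
  the handle `IsMonData (κC n ε) (latPsi n ε)`, clauses (a), (b), (c) of
  `helper16.AnKappaStatement`.
-/

set_option autoImplicit false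

noncomputable section

namespace Fermat.Agent.P3.helper20

open UpperHalfPlane EisensteinSeries ModularForm CongruenceSubgroup Filter Topology AlgebraicCurve
open scoped MatrixGroups Manifold
open Fermat.Agent.S24 Fermat.Agent.P3.helper34

/-! ## The class of `(1/m) div h` -/

section Abstract

variable {Γ : Subgroup SL(2, ℤ)} {F : Type*} [Field F] [Algebra ℂ F]

/-- If all orders of `h` are divisible by `m` and the function of `h` has an `m`-th root `g`
with multiplier `ψ`, then `ψ` is the monodromy of the class of the divisor `(1/m) div h`. -/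
theorem exists_isMonData_of_root (𝒟 : AnDict F Γ) (hPD : HasPrincipalDivisors ℂ F) {m : ℕ}
    (hm : 0 < m) (h : F) (hh0 : h ≠ 0) (hdvd : ∀ w : Place ℂ F, (m : ℤ) ∣ w.ord h)
    (g : ℂ → ℂ) (hg : MeromorphicOn g {z : ℂ | 0 < z.im}) (hgfin : FinOrd g)
    (hpow : EqH (fun w ↦ g w ^ m) (𝒟.ev h)) (ψ : Γ →* ℂˣ) (hmult : HasMultH g ψ) :
    ∃ c : Pic0 ℂ F, IsMonData 𝒟 m c ψ := by
  obtain ⟨D₀, hD₀, hdeg⟩ := hPD.exists_divisor h hh0
  set D : Divisor ℂ F := D₀.mapRange (fun n ↦ n / (m : ℤ)) (by simp) with hDdef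
  have hD : ∀ w : Place ℂ F, (m : ℤ) * D w = w.ord h := fun w ↦ by
    rw [hDdef, Finsupp.mapRange_apply, hD₀ w]
    exact Int.mul_ediv_cancel' (hdvd w)
  have hmD : (m : ℤ) • D = D₀ := by
    ext w
    rw [Finsupp.smul_apply, smul_eq_mul, hD w, hD₀ w]
  have hdegD : Divisor.degree D = 0 := by
    have h1 : (m : ℤ) * Divisor.degree D = 0 := by
      rw [← smul_eq_mul, ← map_zsmul, hmD, hdeg]
    rcases mul_eq_zero.mp h1 with h2 | h2
    · exact absurd h2 (by exact_mod_cast hm.ne')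
    · exact h2
  exact ⟨Pic0.mk ⟨D, hdegD⟩, ⟨D, hdegD⟩, h, g, rfl, hh0, hD, hg, hgfin, hpow, hmult⟩

end Abstract

/-! ## Surjectivity of the monodromy for `F_ℂ` -/

section Surj

variable {N : ℕ} [NeZero N]

/-- **Surjectivity of the monodromy.**  A character `ψ : Γ₀(N) → ℂˣ` with `ψ ^ m = 1` which is
trivial on the elements of trace `t` with `t ^ 2 ≤ 4` (elliptic and parabolic elements, `± 1`) is
the monodromy of a class of `Pic⁰(F_ℂ)` killed by `m`. -/
theorem exists_isMonData_twistedU (ψ : Gamma0 N →* ℂˣ)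
    (hψ : ∀ γ : Gamma0 N,
      (((γ : SL(2, ℤ)) : Matrix (Fin 2) (Fin 2) ℤ)).trace ^ 2 ≤ 4 → ψ γ = 1)
    {m : ℕ} (hm : 0 < m) (hpow : ∀ γ : Gamma0 N, ψ γ ^ m = 1) :
    ∃ c : Pic0 ℂ (Fermat.Agent.P3.helper80.FC N),
      IsMonData (Fermat.Agent.P3.helper48.anDictC N) m c ψ := by
  have hpar : IsParabolicChar ψ := fun γ hγ ↦ hψ γ hγ.le
  have hu : IsUnitaryChar ψ := isUnitaryChar_of_pow_eq_one ψ hm.ne' hpow
  obtain ⟨h, hh0, hrep⟩ :=
    Fermat.Agent.P3.helper48.exists_represents_twistedU_pow hpar hu hm.ne' hpow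
  have hdvd : ∀ w : Place ℂ (Fermat.Agent.P3.helper80.FC N), (m : ℤ) ∣ w.ord h := fun w ↦
    Fermat.Agent.P3.helper80.dvd_ord_twistedU hu hψ hh0 hm hrep w
  refine exists_isMonData_of_root (Fermat.Agent.P3.helper48.anDictC N)
    (Fermat.Agent.P3.helper80.hasPrincipalDivisors_FC N) hm h hh0 hdvd (↑ₕ(twistedU ψ))
    (meromorphicOn_twistedU hu) (fun z hz ↦ meromorphicOrderAt_twistedU_ne_top hpar hu hz) ?_ ψ
    (HasMultH.of_pointwise fun γ z ↦ ?_)
  · exact Fermat.Agent.P3.helper80.represents_iff_eqH.mp hrep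
  · show twistedU ψ (ofComplex (((γ : SL(2, ℤ)) • z : ℍ) : ℂ)) = _ * twistedU ψ (ofComplex (z : ℂ))
    rw [ofComplex_apply, ofComplex_apply, twistedU_smul hpar]

end Surj

/-! ## The analytic Kummer maps -/

section Kappa

open Fermat.Agent.P3.helper16

/-- **The analytic Kummer maps.**  For every `n` there is an additive map
`κC n : Hom(perLat M, ℤ) → Pic⁰(F_ℂ)` such that `κC n ε` is the class with monodromy
`latPsi n ε = exp (2πi ε(per γ) / p ^ n)`; it takes values in the `p ^ n`-torsion, it vanishes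
only if `p ^ n ∣ ε`, and `p • κC (n + 1) = κC n`. -/
theorem exists_kappaC (M p : ℕ) [NeZero M] (hp : 0 < p) :
    ∃ κC : ℕ → LatChar M →+ JC M,
      (∀ (n : ℕ) (ε : LatChar M),
        IsMonData (Fermat.Agent.P3.helper48.anDictC M) (p ^ n) (κC n ε) (latPsi M p n ε)) ∧
      (∀ (n : ℕ) (ε : LatChar M), p ^ n • κC n ε = 0) ∧
      (∀ (n : ℕ) (ε : LatChar M), κC n ε = 0 →
        ∀ lam : perLat M, ((p ^ n : ℕ) : ℤ) ∣ ε lam) ∧
      (∀ (n : ℕ) (ε : LatChar M), p • κC (n + 1) ε = κC n ε) := by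
  have hsurj : ∀ (n : ℕ) (ε : LatChar M), ∃ c : Pic0 ℂ (Fermat.Agent.P3.helper80.FC M),
      IsMonData (Fermat.Agent.P3.helper48.anDictC M) (p ^ n) c (latPsi M p n ε) := fun n ε ↦
    exists_isMonData_twistedU (latPsi M p n ε) (latPsi_of_trace_sq_le M p n ε) (pow_pos hp n)
      fun γ ↦ by rw [← MonoidHom.pow_apply, latPsi_pow M p hp, MonoidHom.one_apply]
  obtain ⟨κ, h1, h2, h3, h4⟩ := exists_kappa (𝒟 := Fermat.Agent.P3.helper48.anDictC M) hp
    (fun n ε ↦ latPsi M p n ε) (fun n ε ε' ↦ latPsi_add M p n ε ε')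
    (fun n ε ↦ latPsi_pow_succ M p hp n ε) hsurj
  exact ⟨κ, h1, h2, fun n ε h0 ↦ (latPsi_eq_one_iff M p hp n ε).mp (h3 n ε h0), h4⟩

end Kappa

end Fermat.Agent.P3.helper20
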