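import Fermat.Agent.P3.helper16_AnFinal
import Fermat.Agent.P3.helper20_Surj

/-!
# P3 [AN]: the analytic module, UNCONDITIONAL (helper16, assembly)

* `surjStatement M p : SurjStatement M p` (helper20 `exists_isMonData_twistedU` for the lattice
  characters `latPsi`);
* `anDescStatement M p : AnDescStatement M p`;
* `anKappaStatement M p : AnKappaStatement M p`  (leaf [AN-KAPPA] of the P3 board);
* `kappaStatement : KappaStatement p N M S hNM`  ([KAPPA], unconditional).
-/

set_option autoImplicit false

noncomputable section

namespace Fermat.Agent.P3.helper16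

open CongruenceSubgroup ModularCurve AlgebraicCurve
open scoped MatrixGroups

variable (M p : ℕ) [NeZero M]

/-- **[SURJ]**: every lattice character is the monodromy of a class of `Pic⁰(F_ℂ)`. -/
theorem surjStatement (hp : 0 < p) : SurjStatement M p := fun n ε =>
  helper20.exists_isMonData_twistedU (latPsi M p n ε)
    (fun γ hγ => latPsi_of_trace_sq_le M p n ε γ hγ) (pow_pos hp n)
    (fun γ => by rw [← MonoidHom.pow_apply, latPsi_pow M p hp, MonoidHom.one_apply])

/-- **[AN-DESC]**, unconditional. -/
theorem anDescStatement (hp : 0 < p) : AnDescStatement M p :=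
  anDescStatement_of_surj M p hp (surjStatement M p hp)

/-- **[AN-KAPPA]**, unconditional. -/
theorem anKappaStatement (hp : 0 < p) : AnKappaStatement M p :=
  anKappaStatement_of_surj M p hp (surjStatement M p hp)

/-- **[KAPPA]**, unconditional. -/
theorem kappaStatement (N : ℕ) [NeZero N] (S : Finset ℕ) (hNM : N ∣ M) (hp : 0 < p) :
    KappaStatement p N M S hNM :=
  kappaStatement_of_surj M p N S hNM hp (surjStatement M p hp)

end Fermat.Agent.P3.helper16

end
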