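import Fermat.Agent.P3.helper16_PerLattice

/-!
# P3 [AN6-L] (helper16): faithfulness (G3)

If a Hecke polynomial `P` kills (through the transpose action on the period lattice) all
characters `ε ∘ per : Γ₀(N) → ℤ/pⁿ`, for all `n`, then `P` acts as zero on `S₂(Γ₀(N))`.
Also: the abstract induction which transports a one-step Hecke equivariance of a map `K`
defined on characters of the period lattice to all Hecke polynomials, and the resulting
faithfulness criterion for Hecke modules receiving the characters injectively.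
-/

set_option autoImplicit false

open ModularCurve CuspForm CongruenceSubgroup ModularCurve.Period
open scoped MatrixGroups

noncomputable section

namespace Fermat.Agent.P3.helper16

open Fermat.Agent.S16

variable (N : ℕ) [NeZero N]

/-- An integer divisible by all powers of `p > 1` is zero. -/
theorem int_eq_zero_of_forall_pow_dvd {p : ℕ} (hp : 1 < p) (c : ℤ)
    (h : ∀ n : ℕ, ((p ^ n : ℕ) : ℤ) ∣ c) : c = 0 := by
  by_contra hc
  have h1 : c.natAbs < p ^ c.natAbs := Nat.lt_pow_self hp
  have h2 := h c.natAbs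
  have h3 : (p ^ c.natAbs : ℕ) ∣ c.natAbs := Int.natCast_dvd.mp h2
  have h4 : 0 < c.natAbs := Int.natAbs_pos.mpr hc
  exact absurd (Nat.le_of_dvd h4 h3) (not_le.mpr h1)

/-- Characters with values in `ℤ/pⁿ` (all `n`) separate the points of a finitely generated free
abelian group. -/
theorem eq_zero_of_forall_zmod_pow {L : Type*} [AddCommGroup L] [Module.Free ℤ L]
    {p : ℕ} (hp : 1 < p) (y : L)
    (h : ∀ (n : ℕ) (ε : L →+ ZMod (p ^ n)), ε y = 0) : y = 0 := by
  set b := Module.Free.chooseBasis ℤ L with hb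
  apply b.repr.injective
  rw [map_zero]
  ext i
  rw [Finsupp.zero_apply]
  apply int_eq_zero_of_forall_pow_dvd hp
  intro n
  have := h n ((Int.castAddHom (ZMod (p ^ n))).comp (b.coord i).toAddMonoidHom)
  simp only [AddMonoidHom.coe_comp, Function.comp_apply, LinearMap.toAddMonoidHom_coe,
    Module.Basis.coord_apply, Int.coe_castAddHom] at this
  exact (ZMod.intCast_zmod_eq_zero_iff_dvd _ _).mp this

/-- If the transpose action of `P` on the period lattice is zero then `P` kills `S₂`. -/
theorem heckeEvalForms_eq_zero_of_hTr (P : HeckeAlg)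
    (h : ∀ γ : Gamma0 N, hTr N P (perZ' N (Additive.ofMul γ)) = 0) :
    heckeEvalForms N 2 P = 0 := by
  have hx : ∀ x : V2 N, helper26.evalPair N P x = 0 := by
    intro x
    apply perLat_separates N
    rintro lam ⟨γ, rfl⟩
    have h1 := congrArg (fun l : perLat N => (l : V2 N →ₗ[ℂ] ℂ) x) (h (Additive.toMul γ))
    exact h1
  apply Subtype.ext
  refine LinearMap.ext fun f => ?_
  have := congrArg Prod.fst (hx (f, 0))
  exact this

/-- **Faithfulness (G3)**: if for all `n` every character `ε ∘ per : Γ₀(N) → ℤ/pⁿ` is killed by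
the transpose action of `P`, then `P` acts as zero on `S₂(Γ₀(N))`. -/
theorem faithful {p : ℕ} (hp : 1 < p) (P : HeckeAlg)
    (h : ∀ (n : ℕ) (ε : perLat N →+ ZMod (p ^ n)) (γ : Gamma0 N),
      ε (hTr N P (perZ' N (Additive.ofMul γ))) = 0) :
    heckeEvalForms N 2 P = 0 :=
  heckeEvalForms_eq_zero_of_hTr N P fun γ =>
    eq_zero_of_forall_zmod_pow hp _ fun n ε => h n ε γ

/-- The same, in terms of the characters `(ε ∘ hTr P) ∘ per` of `Γ₀(N)`. -/
theorem faithful' {p : ℕ} (hp : 1 < p) (P : HeckeAlg)
    (h : ∀ (n : ℕ) (ε : perLat N →+ ZMod (p ^ n)),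
      (ε.comp (hTr N P)).comp (perZ' N) = 0) :
    heckeEvalForms N 2 P = 0 :=
  faithful N hp P fun n ε γ => DFunLike.congr_fun (h n ε) (Additive.ofMul γ)

variable {A : Type*} [AddCommGroup A]

/-- **Abstract Hecke induction.** Let `K` be an additive map from the characters of the period
lattice to a Hecke module `M` (a ring homomorphism `act : HeckeAlg →+* End_ℤ M`).  If `K` is
equivariant for every generator `X ℓ`, it is equivariant for every Hecke polynomial. -/
theorem K_hTr {M : Type*} [AddCommGroup M] (act : HeckeAlg →+* Module.End ℤ M)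
    (K : (perLat N →+ A) →+ M)
    (hK : ∀ (ℓ : Nat.Primes) (ε : perLat N →+ A),
      K (ε.comp (hTr N (MvPolynomial.X ℓ))) = act (MvPolynomial.X ℓ) (K ε))
    (P : HeckeAlg) : ∀ ε : perLat N →+ A, K (ε.comp (hTr N P)) = act P (K ε) := by
  induction P using MvPolynomial.induction_on with
  | C a =>
    intro ε
    have h1 : ε.comp (hTr N (MvPolynomial.C a)) = a • ε := by
      refine AddMonoidHom.ext fun lam => ?_
      rw [AddMonoidHom.comp_apply, hTr_C, map_zsmul]
      rfl
    have h2 : act (MvPolynomial.C a) = (a : Module.End ℤ M) := by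
      rw [← MvPolynomial.algebraMap_eq, eq_intCast, map_intCast]
    calc K (ε.comp (hTr N (MvPolynomial.C a))) = K (a • ε) := congrArg K h1
      _ = a • K ε := map_zsmul K a ε
      _ = act (MvPolynomial.C a) (K ε) := by rw [h2, Module.End.intCast_apply]
  | add P Q hP hQ =>
    intro ε
    have h1 : ε.comp (hTr N (P + Q)) = ε.comp (hTr N P) + ε.comp (hTr N Q) := by
      rw [hTr_add]
      refine AddMonoidHom.ext fun lam => ?_
      simp
    calc K (ε.comp (hTr N (P + Q))) = K (ε.comp (hTr N P) + ε.comp (hTr N Q)) :=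
          congrArg K h1
      _ = K (ε.comp (hTr N P)) + K (ε.comp (hTr N Q)) := map_add K _ _
      _ = act P (K ε) + act Q (K ε) := congrArg₂ (· + ·) (hP ε) (hQ ε)
      _ = act (P + Q) (K ε) := (LinearMap.congr_fun (map_add act P Q) (K ε)).symm
  | mul_X P ℓ hP =>
    intro ε
    have h1 : ε.comp (hTr N (P * MvPolynomial.X ℓ)) =
        (ε.comp (hTr N P)).comp (hTr N (MvPolynomial.X ℓ)) := by
      rw [hTr_mul]
      exact (AddMonoidHom.comp_assoc _ _ _).symm
    calc K (ε.comp (hTr N (P * MvPolynomial.X ℓ)))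
        = K ((ε.comp (hTr N P)).comp (hTr N (MvPolynomial.X ℓ))) := congrArg K h1
      _ = act (MvPolynomial.X ℓ) (K (ε.comp (hTr N P))) := hK ℓ _
      _ = act (MvPolynomial.X ℓ) (act P (K ε)) := congrArg (act (MvPolynomial.X ℓ)) (hP ε)
      _ = act (MvPolynomial.X ℓ * P) (K ε) :=
          (LinearMap.congr_fun (map_mul act (MvPolynomial.X ℓ) P) (K ε)).symm
      _ = act (P * MvPolynomial.X ℓ) (K ε) := by rw [mul_comm]

/-- **Faithfulness through a family of Hecke modules.** Suppose that for every `n` the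
characters `perLat N →+ ℤ/pⁿ` are mapped injectively and Hecke-equivariantly (on generators) into a
Hecke module `M n`.  If `P` kills every `M n`, then `P` acts as zero on `S₂(Γ₀(N))`. -/
theorem faithful_of_modules {p : ℕ} (hp : 1 < p) {M : ℕ → Type*} [∀ n, AddCommGroup (M n)]
    (act : ∀ n, HeckeAlg →+* Module.End ℤ (M n))
    (K : ∀ n, (perLat N →+ ZMod (p ^ n)) →+ M n)
    (hinj : ∀ n, Function.Injective (K n))
    (hK : ∀ (n : ℕ) (ℓ : Nat.Primes) (ε : perLat N →+ ZMod (p ^ n)),
      K n (ε.comp (hTr N (MvPolynomial.X ℓ))) = act n (MvPolynomial.X ℓ) (K n ε))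
    (P : HeckeAlg) (hP : ∀ n, act n P = 0) :
    heckeEvalForms N 2 P = 0 := by
  refine faithful N hp P fun n ε γ => ?_
  have h1 := K_hTr N (act n) (K n) (hK n) P ε
  rw [hP n, LinearMap.zero_apply, ← map_zero (K n)] at h1
  have h2 := hinj n h1
  exact DFunLike.congr_fun h2 (perZ' N (Additive.ofMul γ))

end Fermat.Agent.P3.helper16
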