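import Mathlib
import Fermat.Prelude.Def_CuspForm_HeckeAlgebra

/-!
# P3 (helper16): old forms — `S_k(Γ₀(N)) ↪ S_k(Γ₀(M))` for `N ∣ M`, Hecke equivariant at `ℓ ∤ M`
-/

set_option autoImplicit false

open CongruenceSubgroup
open scoped MatrixGroups ModularForm

noncomputable section

namespace Fermat.Agent.P3.helper16

theorem Gamma0_le_of_dvd {N M : ℕ} (h : N ∣ M) : Gamma0 M ≤ Gamma0 N := by
  intro g hg
  rw [Gamma0_mem] at hg ⊢
  have h1 : ((M : ℤ)) ∣ g 1 0 := (ZMod.intCast_zmod_eq_zero_iff_dvd _ _).mp hg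
  exact (ZMod.intCast_zmod_eq_zero_iff_dvd _ _).mpr ((Int.natCast_dvd_natCast.mpr h).trans h1)

theorem Gamma0_map_le_of_dvd {N M : ℕ} (h : N ∣ M) :
    ((Gamma0 M : Subgroup SL(2, ℤ)) : Subgroup (GL (Fin 2) ℝ)) ≤
      ((Gamma0 N : Subgroup SL(2, ℤ)) : Subgroup (GL (Fin 2) ℝ)) :=
  Subgroup.map_mono (Gamma0_le_of_dvd h)

/-- Restriction of a cusp form to a smaller group. -/
def restrictCusp {Γ Γ' : Subgroup (GL (Fin 2) ℝ)} [Γ.HasDetOne] [Γ'.HasDetOne] (h : Γ' ≤ Γ)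
    (k : ℤ) :
    CuspForm Γ k →ₗ[ℂ] CuspForm Γ' k where
  toFun f :=
    { toFun := f
      slash_action_eq' := fun γ hγ => SlashInvariantFormClass.slash_action_eq f γ (h hγ)
      holo' := CuspFormClass.holo f
      zero_at_cusps' := fun hc => CuspFormClass.zero_at_cusps f (hc.mono h) }
  map_add' _ _ := rfl
  map_smul' _ _ := rfl

@[simp]
theorem coe_restrictCusp {Γ Γ' : Subgroup (GL (Fin 2) ℝ)} [Γ.HasDetOne] [Γ'.HasDetOne]
    (h : Γ' ≤ Γ) (k : ℤ)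
    (f : CuspForm Γ k) : (⇑(restrictCusp h k f) : UpperHalfPlane → ℂ) = ⇑f := rfl

theorem restrictCusp_injective {Γ Γ' : Subgroup (GL (Fin 2) ℝ)} [Γ.HasDetOne] [Γ'.HasDetOne]
    (h : Γ' ≤ Γ) (k : ℤ) :
    Function.Injective (restrictCusp h k) := by
  intro f g hfg
  apply DFunLike.coe_injective
  have := congrArg (fun F : CuspForm Γ' k => (⇑F : UpperHalfPlane → ℂ)) hfg
  exact this

/-- The old-form inclusion `S_k(Γ₀(N)) → S_k(Γ₀(M))`, `N ∣ M`. -/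
def oldForm {N M : ℕ} (h : N ∣ M) (k : ℤ) :
    CuspForm (Gamma0 N) k →ₗ[ℂ] CuspForm (Gamma0 M) k :=
  restrictCusp (Gamma0_map_le_of_dvd h) k

@[simp]
theorem coe_oldForm {N M : ℕ} (h : N ∣ M) (k : ℤ) (f : CuspForm (Gamma0 N) k) :
    (⇑(oldForm h k f) : UpperHalfPlane → ℂ) = ⇑f := rfl

theorem oldForm_injective {N M : ℕ} (h : N ∣ M) (k : ℤ) : Function.Injective (oldForm h k) :=
  restrictCusp_injective _ k

/-- The old-form inclusion commutes with `T_ℓ` for `ℓ ∤ M`. -/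
theorem oldForm_heckeTLin {N M : ℕ} (h : N ∣ M) (k : ℤ) {ℓ : ℕ} (hℓ : ℓ.Prime)
    (hℓM : ¬ ℓ ∣ M) (hℓN : ¬ ℓ ∣ N) (f : CuspForm (Gamma0 N) k) :
    oldForm h k (CuspForm.heckeTLin k hℓ hℓN f) = CuspForm.heckeTLin k hℓ hℓM (oldForm h k f) := by
  apply DFunLike.coe_injective
  rw [coe_oldForm, CuspForm.coe_heckeTLin_apply, CuspForm.coe_heckeTLin_apply, coe_oldForm]

end Fermat.Agent.P3.helper16
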