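import Fermat.Agent.P3.helper16_ANInterface
import Fermat.Agent.P3.helper16_Faithful
import Fermat.Agent.P3.helper16_OldForms

/-!
# P3 [KAPPA] (helper16): `KappaStatement` from `AnKappaStatement` and `DescStatement`

Pure algebra on top of the period lattice (`helper16_PerLattice`, `helper16_Faithful`) and the
old-form inclusion (`helper16_OldForms`).
-/

set_option autoImplicit false

open ModularCurve CuspForm CongruenceSubgroup ModularCurve.Period
open scoped MatrixGroups

noncomputable section

namespace Fermat.Agent.P3.helper16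

open Fermat.Agent.S16 Fermat.Agent.P3

section Lattice

variable (M : ℕ) [NeZero M]

/-- `hTr` as an additive map in the Hecke polynomial. -/
def hTrHom : HeckeAlg →+ (perLat M →+ perLat M) where
  toFun := hTr M
  map_zero' := hTr_zero M
  map_add' := hTr_add M

@[simp]
theorem hTrHom_apply (P : HeckeAlg) : hTrHom M P = hTr M P := rfl

/-- The monomial attached to a word in the primes. -/
def wordMon (w : List Nat.Primes) : HeckeAlg := (w.map MvPolynomial.X).prod

@[simp]
theorem wordMon_nil : wordMon [] = 1 := rfl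

@[simp]
theorem wordMon_cons (ℓ : Nat.Primes) (w : List Nat.Primes) :
    wordMon (ℓ :: w) = MvPolynomial.X ℓ * wordMon w := by
  rw [wordMon, List.map_cons, List.prod_cons]
  rfl

/-- A word in the transpose Hecke operators acts on lattice characters through `hTr`. -/
theorem wordEnd_latCharT (w : List Nat.Primes) (ε : LatChar M) :
    wordEnd (latCharT M) w ε = ε.comp (hTr M (wordMon w)) := by
  induction w with
  | nil =>
    rw [wordMon_nil, hTr_one]
    rfl
  | cons ℓ w ih =>
    have h1 : wordEnd (latCharT M) (ℓ :: w) ε = latCharT M ℓ (wordEnd (latCharT M) w ε) := rfl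
    rw [h1, ih, wordMon_cons, mul_comm, hTr_mul]
    exact AddMonoidHom.comp_assoc _ _ _

/-- Characters with values in `ℤ` separate the points of a free abelian group. -/
theorem eq_zero_of_forall_int {L : Type*} [AddCommGroup L] [Module.Free ℤ L] (y : L)
    (h : ∀ ε : L →+ ℤ, ε y = 0) : y = 0 := by
  set b := Module.Free.chooseBasis ℤ L with hb
  apply b.repr.injective
  rw [map_zero]
  ext i
  rw [Finsupp.zero_apply]
  exact h (b.coord i).toAddMonoidHom

/-- The Hecke polynomial attached to an integral combination of words. -/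
def wordPoly (c : List Nat.Primes →₀ ℤ) : HeckeAlg :=
  c.sum fun w a => a • wordMon w

theorem sum_wordEnd_latCharT (c : List Nat.Primes →₀ ℤ) (ε : LatChar M) :
    (c.sum fun w a => a • wordEnd (latCharT M) w ε) = ε.comp (hTr M (wordPoly c)) := by
  have h1 : hTr M (wordPoly c) = c.sum fun w a => a • hTr M (wordMon w) := by
    rw [← hTrHom_apply, wordPoly, map_finsuppSum]
    refine Finsupp.sum_congr fun w _ => ?_
    rw [map_zsmul, hTrHom_apply]
  rw [h1]
  simp only [Finsupp.sum]
  refine AddMonoidHom.ext fun lam => ?_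
  simp only [AddMonoidHom.finsetSum_apply, AddMonoidHom.comp_apply, wordEnd_latCharT,
    AddMonoidHom.smul_apply, map_sum, map_zsmul]

/-- If an integral combination of words kills all lattice characters, the corresponding Hecke
polynomial kills `S₂(Γ₀(M))`. -/
theorem heckeEvalForms_wordPoly_eq_zero (c : List Nat.Primes →₀ ℤ)
    (h : ∀ ε : LatChar M, (c.sum fun w a => a • wordEnd (latCharT M) w ε) = 0) :
    heckeEvalForms M 2 (wordPoly c) = 0 := by
  refine heckeEvalForms_eq_zero_of_hTr M _ fun γ => ?_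
  refine eq_zero_of_forall_int _ fun ε => ?_
  have := h ε
  rw [sum_wordEnd_latCharT] at this
  exact DFunLike.congr_fun this _

end Lattice

section OldForms

variable {p N M : ℕ} [NeZero N] [NeZero M] {S : Finset ℕ} (hNM : N ∣ M)

omit [NeZero M] in
theorem GoodPrime.not_dvd (ℓ : GoodPrime p M S) : ¬ ℓ.1 ∣ M :=
  fun h => ℓ.2.2.1 (Dvd.dvd.mul_right h p)

/-- `heckeEvalForms M 2 (X ℓ)` is `T_ℓ` of level `M` for a good prime. -/
theorem coe_heckeEvalForms_X_good (ℓ : GoodPrime p M S) :
    ((heckeEvalForms M 2 (MvPolynomial.X ℓ.toPrimes) : heckeAlgebra M 2 ∅) :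
      Module.End ℂ (CuspForm (Gamma0 M) 2)) = CuspForm.heckeTLin 2 ℓ.2.1 (GoodPrime.not_dvd ℓ) := by
  have h1 : heckeEvalForms M 2 (MvPolynomial.X ℓ.toPrimes) = heckeFormsGen M 2 ℓ.toPrimes :=
    heckeEvalForms_heckeGen M 2 ℓ.toPrimes
  rw [h1, heckeFormsGen_of_not_dvd (N := M) (k := 2) (ℓ := ℓ.toPrimes) (GoodPrime.not_dvd ℓ)]
  rfl

/-- Transfer of a word of good Hecke operators along the old-form inclusion. -/
theorem oldForm_word (w : List (GoodPrime p M S)) (f : CuspForm (Gamma0 N) 2) :
    oldForm hNM 2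
        ((((w.map (goodT hNM)).prod : heckeAlgebra N 2 (↑S : Set ℕ)) :
          Module.End ℂ (CuspForm (Gamma0 N) 2)) f) =
      ((heckeEvalForms M 2 (wordMon (w.map GoodPrime.toPrimes)) : heckeAlgebra M 2 ∅) :
        Module.End ℂ (CuspForm (Gamma0 M) 2)) (oldForm hNM 2 f) := by
  induction w generalizing f with
  | nil =>
    simp only [List.map_nil, List.prod_nil, wordMon_nil, map_one]
    rfl
  | cons ℓ w ih =>
    rw [List.map_cons, List.prod_cons, List.map_cons, wordMon_cons, map_mul]
    have h1 : (((goodT hNM ℓ * (w.map (goodT hNM)).prod : heckeAlgebra N 2 (↑S : Set ℕ))) :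
        Module.End ℂ (CuspForm (Gamma0 N) 2)) f =
        CuspForm.heckeTLin 2 ℓ.2.1 (fun h => GoodPrime.not_dvd ℓ (h.trans hNM))
          ((((w.map (goodT hNM)).prod : heckeAlgebra N 2 (↑S : Set ℕ)) :
            Module.End ℂ (CuspForm (Gamma0 N) 2)) f) := rfl
    have h2 : ((heckeEvalForms M 2 (MvPolynomial.X ℓ.toPrimes) *
        heckeEvalForms M 2 (wordMon (w.map GoodPrime.toPrimes)) : heckeAlgebra M 2 ∅) :
        Module.End ℂ (CuspForm (Gamma0 M) 2)) (oldForm hNM 2 f) =
        ((heckeEvalForms M 2 (MvPolynomial.X ℓ.toPrimes) : heckeAlgebra M 2 ∅) :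
          Module.End ℂ (CuspForm (Gamma0 M) 2))
          (((heckeEvalForms M 2 (wordMon (w.map GoodPrime.toPrimes)) : heckeAlgebra M 2 ∅) :
            Module.End ℂ (CuspForm (Gamma0 M) 2)) (oldForm hNM 2 f)) := rfl
    rw [h1, h2, oldForm_heckeTLin hNM 2 ℓ.2.1 (GoodPrime.not_dvd ℓ), ih, coe_heckeEvalForms_X_good]

/-- The word combination of good primes as a combination of words in `Nat.Primes`. -/
def goodWords (c : List (GoodPrime p M S) →₀ ℤ) : List Nat.Primes →₀ ℤ :=
  c.sum fun w a => Finsupp.single (w.map GoodPrime.toPrimes) a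

omit [NeZero M] in
theorem goodWords_sum {X : Type*} [AddCommGroup X] (c : List (GoodPrime p M S) →₀ ℤ)
    (g : List Nat.Primes → X) :
    ((goodWords c).sum fun w a => a • g w) =
      c.sum fun w a => a • g (w.map GoodPrime.toPrimes) := by
  rw [goodWords, Finsupp.sum_sum_index (h := fun w a => a • g w) (fun _ => zero_smul ℤ _)
    (fun _ _ _ => add_smul _ _ _)]
  refine Finsupp.sum_congr fun w _ => ?_
  exact Finsupp.sum_single_index (h := fun w a => a • g w) (zero_smul ℤ _)

/-- **Faithfulness clause of `KappaStatement`** for `X = Hom(perLat M, ℤ)`. -/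
theorem kappa_faithful (c : List (GoodPrime p M S) →₀ ℤ)
    (h : ∀ x : LatChar M,
      (c.sum fun w a => a • wordEnd (latCharT M) (w.map GoodPrime.toPrimes) x) = 0) :
    (c.sum fun w a => a • (w.map (goodT hNM)).prod) = 0 := by
  have h0 : heckeEvalForms M 2 (wordPoly (goodWords c)) = 0 := by
    refine heckeEvalForms_wordPoly_eq_zero M _ fun ε => ?_
    rw [goodWords_sum c (fun w => wordEnd (latCharT M) w ε)]
    exact h ε
  have hP : wordPoly (goodWords c) =
      c.sum fun w a => a • wordMon (w.map GoodPrime.toPrimes) := by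
    rw [wordPoly, goodWords_sum c wordMon]
  apply Subtype.ext
  refine LinearMap.ext fun f => ?_
  apply oldForm_injective hNM 2
  rw [ZeroMemClass.coe_zero, LinearMap.zero_apply, map_zero]
  have h1 : oldForm hNM 2
      (((c.sum fun w a => a • (w.map (goodT hNM)).prod : heckeAlgebra N 2 (↑S : Set ℕ)) :
        Module.End ℂ (CuspForm (Gamma0 N) 2)) f) =
      ((heckeEvalForms M 2 (wordPoly (goodWords c)) : heckeAlgebra M 2 ∅) :
        Module.End ℂ (CuspForm (Gamma0 M) 2)) (oldForm hNM 2 f) := by
    rw [hP]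
    simp only [Finsupp.sum, map_sum, AddSubmonoidClass.coe_finsetSum, LinearMap.sum_apply,
      map_zsmul, SetLike.val_smul, LinearMap.smul_apply]
    exact Finset.sum_congr rfl fun w _ => congrArg _ (oldForm_word hNM w f)
  rw [h1, h0]
  rfl

end OldForms

section Assembly

variable (M : ℕ) [NeZero M]

instance free_latChar : Module.Free ℤ (LatChar M) :=
  Module.Free.of_equiv (addMonoidHomLequivInt (A := perLat M) (B := ℤ) ℤ).symm

instance finite_latChar : Module.Finite ℤ (LatChar M) :=
  Module.Finite.equiv (addMonoidHomLequivInt (A := perLat M) (B := ℤ) ℤ).symm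

/-- Division of a lattice character by `d`, when all its values are divisible by `d`. -/
theorem exists_eq_nsmul_of_forall_dvd (d : ℕ) (ε : LatChar M)
    (h : ∀ lam : perLat M, (d : ℤ) ∣ ε lam) : ∃ y : LatChar M, ε = d • y := by
  rcases Nat.eq_zero_or_pos d with rfl | hd
  · refine ⟨0, AddMonoidHom.ext fun lam => ?_⟩
    have := h lam
    rw [Nat.cast_zero, zero_dvd_iff] at this
    rw [this]
    simp
  · have hd' : (d : ℤ) ≠ 0 := by exact_mod_cast hd.ne'
    refine ⟨{ toFun := fun lam => ε lam / (d : ℤ)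
              map_zero' := by simp
              map_add' := fun a b => by
                rw [map_add, Int.add_ediv_of_dvd_left (h a)] }, AddMonoidHom.ext fun lam => ?_⟩
    have h1 : ε lam = (d : ℤ) * (ε lam / (d : ℤ)) := (Int.mul_ediv_cancel' (h lam)).symm
    rw [AddMonoidHom.smul_apply, nsmul_eq_mul]
    exact h1

/-- **[KAPPA]** from the analytic Kummer map and the descent. -/
theorem kappa_of_an_desc (p N : ℕ) [NeZero N] (S : Finset ℕ) (hNM : N ∣ M) (hp : 0 < p)
    (hAN : AnKappaStatement M p) (hD : DescStatement M) : KappaStatement p N M S hNM := by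
  obtain ⟨κC, ha, hb, hc, hd⟩ := hAN
  obtain ⟨con, hinj, hHecke, hsurj⟩ := hD
  have hex : ∀ (n : ℕ) (ε : LatChar M), ∃ x : JZero M, con x = κC n ε := fun n ε =>
    hsurj _ ⟨p ^ n, pow_pos hp n, ha n ε⟩
  choose f hf using hex
  let κ : ℕ → LatChar M →+ JZero M := fun n =>
    { toFun := f n
      map_zero' := hinj (by rw [hf, map_zero, map_zero])
      map_add' := fun a b => hinj (by rw [hf, map_add, map_add, hf, hf]) }
  have hκ : ∀ n ε, con (κ n ε) = κC n ε := fun n ε => hf n ε
  refine ⟨LatChar M, inferInstance, inferInstance, inferInstance, latCharT M, κ, ?_, ?_, ?_, ?_, ?_⟩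
  · intro n x
    apply hinj
    rw [map_nsmul, hκ, ha, map_zero]
  · intro n x hx
    have h0 : κC n x = 0 := by rw [← hκ, hx, map_zero]
    exact exists_eq_nsmul_of_forall_dvd M (p ^ n) x (hb n x h0)
  · intro n x
    apply hinj
    rw [map_nsmul, hκ, hκ, hc]
  · intro n ℓ x
    apply hinj
    rw [hκ, hHecke ℓ.toPrimes (GoodPrime.not_dvd ℓ), hκ]
    exact hd n ℓ.toPrimes (GoodPrime.not_dvd ℓ) x
  · intro c h
    exact kappa_faithful hNM c h

end Assembly

end Fermat.Agent.P3.helper16
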