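import Fermat.Agent.P3.helper16_Kappa
import Fermat.Agent.P3.helper16_LatChar
import Fermat.Agent.P3.helper20_Mon
import Fermat.Agent.P3.helper94_Kummer
import Fermat.Agent.P3.helper58_HeckeInputs

/-!
# P3 [AN6-B] + [KAPPA], Route B (helper16): Hecke equivariance on the `ℚ̄` side

`heckeOperatorAlong ℂ M ℓ` never appears: the Hecke equivariance of the analytic Kummer map is
stated and proved through the conorm `con : J₀(M) → Pic⁰(F_ℂ)`:

  `con x = κC n ε  ⟹  con (T_ℓ x) = κC n (ε ∘ T_ℓ)`        (B)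

* `AnDescStatement M p`: the combined output of the analytic module and of the descent;
* `kappa_of_anDesc : AnDescStatement M p → KappaStatement p N M S hNM`;
* `isMonData_iff_exists_isKummerRep`, `isKummerChar_of_isMonData`: the monodromy of
  a class can be computed from ANY Kummer representative;
* `bridge_of_dict`: (B) from the monodromy handle `IsMonData 𝒟 (p^n) (κC n ε) (latPsi M p n ε)`,
  the compatibility of `con` with Kummer representatives and the norm dictionary
  `ev (ι (Norm_α (β h))) = normProd (ev (ι h))`;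
* `anDescStatement_of`: the final assembly.
-/

set_option autoImplicit false

noncomputable section

namespace Fermat.Agent.P3.helper16

open CongruenceSubgroup ModularCurve AlgebraicCurve
open scoped MatrixGroups
open Fermat.Agent.S16 Fermat.Agent.S16.helper26

/-! ### The combined statement and `KappaStatement` -/

/-- **[AN-DESC]** (Route B): the analytic Kummer map `κC`, the conorm `con`, and the Hecke
equivariance of `κC` transported through `con`. -/
def AnDescStatement (M p : ℕ) [NeZero M] : Prop :=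
  ∃ (κC : ℕ → LatChar M →+ JC M) (con : JZero M →+ JC M),
    (∀ (n : ℕ) (ε : LatChar M), p ^ n • κC n ε = 0) ∧
    (∀ (n : ℕ) (ε : LatChar M), κC n ε = 0 →
      ∀ lam : perLat M, ((p ^ n : ℕ) : ℤ) ∣ ε lam) ∧
    (∀ (n : ℕ) (ε : LatChar M), p • κC (n + 1) ε = κC n ε) ∧
    Function.Injective con ∧
    (∀ (n : ℕ) (ε : LatChar M), ∃ x : JZero M, con x = κC n ε) ∧
    (∀ (n : ℕ) (ℓ : Nat.Primes), ¬ (ℓ : ℕ) ∣ M → ∀ (ε : LatChar M) (x : JZero M),
      con x = κC n ε → con (heckeOperatorBar M ℓ x) = κC n (latCharT M ℓ ε))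

/-- **[KAPPA]** from the combined statement (Route B). -/
theorem kappa_of_anDesc {M : ℕ} [NeZero M] (p N : ℕ) [NeZero N] (S : Finset ℕ) (hNM : N ∣ M)
    (hAD : AnDescStatement M p) : KappaStatement p N M S hNM := by
  obtain ⟨κC, con, ha, hb, hc, hinj, hex, hB⟩ := hAD
  choose f hf using hex
  let κ : ℕ → LatChar M →+ JZero M := fun n =>
    { toFun := f n
      map_zero' := hinj (by rw [hf, map_zero, map_zero])
      map_add' := fun a b => hinj (by rw [hf, map_add, map_add, hf, hf]) }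
  have hκ : ∀ n ε, con (κ n ε) = κC n ε := fun n ε => hf n ε
  refine ⟨LatChar M, inferInstance, inferInstance, inferInstance, latCharT M, κ, ?_, ?_, ?_, ?_, ?_⟩
  · intro n x
    apply hinj
    rw [map_nsmul, hκ, ha, map_zero]
  · intro n x hx
    have h0 : κC n x = 0 := by rw [← hκ, hx, map_zero]
    exact exists_eq_nsmul_of_forall_dvd M (p ^ n) x (hb n x h0)
  · intro n x
    apply hinj
    rw [map_nsmul, hκ, hκ, hc]
  · intro n ℓ x
    apply hinj
    rw [hκ]
    exact (hB n ℓ.toPrimes (GoodPrime.not_dvd ℓ) x (κ n x) (hκ n x)).symm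
  · intro c h
    exact kappa_faithful hNM c h

/-! ### Monodromy data and Kummer representatives -/

section Mon

open Fermat.Agent.P3.helper20 Fermat.Agent.P3.helper34 Fermat.Agent.P3.helper94

variable {Γ : Subgroup SL(2, ℤ)} {F : Type*} [Field F] [Algebra ℂ F] {𝒟 : AnDict F Γ}

/-- `IsMonData` in terms of Kummer representatives (helper94) and Kummer characters
(helper34). -/
theorem isMonData_iff_exists_isKummerRep {m : ℕ} {c : Pic0 ℂ F} {ψ : Γ →* ℂˣ} :
    IsMonData 𝒟 m c ψ ↔ ∃ h : F, IsKummerRep m c h ∧ IsKummerChar Γ m (𝒟.ev h) ψ := by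
  constructor
  · rintro ⟨D, h, g, hD, hh0, hdiv, hg, hgfin, hpow, hmult⟩
    exact ⟨h, ⟨hh0, D, hD, hdiv⟩, g, hg, hgfin, hpow, hmult⟩
  · rintro ⟨h, ⟨hh0, D, hD, hdiv⟩, g, hg, hgfin, hpow, hmult⟩
    exact ⟨D, h, g, hD, hh0, hdiv, hg, hgfin, hpow, hmult⟩

/-- The function of a Kummer representative has a Kummer character. -/
theorem exists_isKummerChar_of_isKummerRep (𝒟 : AnDict F Γ) {m : ℕ} (hm : 0 < m)
    {c : Pic0 ℂ F} {h : F} (H : IsKummerRep m c h) :
    ∃ ψ : Γ →* ℂˣ, IsKummerChar Γ m (𝒟.ev h) ψ := by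
  obtain ⟨ψ, -, hψ⟩ := exists_isKummerChar m hm Γ (𝒟.ev h) (𝒟.mero h) (𝒟.fin h H.ne_zero)
    (𝒟.t2 m h H.ne_zero H.dvd_ord)
    (fun γ hγ z hz => by
      filter_upwards [𝒟.inv h ⟨γ, hγ⟩ z hz] with w hw
      rw [one_mul]
      exact hw)
  exact ⟨ψ, hψ⟩

/-- The monodromy of a class can be read off from ANY Kummer representative. -/
theorem isKummerChar_of_isMonData {m : ℕ} (hm : 0 < m) {c : Pic0 ℂ F}
    {ψ : Γ →* ℂˣ} (hc : IsMonData 𝒟 m c ψ) {h : F} (H : IsKummerRep m c h) :
    IsKummerChar Γ m (𝒟.ev h) ψ := by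
  obtain ⟨ψ', hψ'⟩ := exists_isKummerChar_of_isKummerRep 𝒟 hm H
  have h1 : IsMonData 𝒟 m c ψ' := isMonData_iff_exists_isKummerRep.mpr ⟨h, H, hψ'⟩
  rw [hc.unique hm h1]
  exact hψ'

end Mon

/-! ### The bridge (B) -/

section Bridge

open Fermat.Agent.P3.helper20 Fermat.Agent.P3.helper34 Fermat.Agent.P3.helper94

variable (M p : ℕ) [NeZero M]

/-- **(B)**: Hecke equivariance of the analytic Kummer map, transported to `J₀(M)`.

Inputs: the analytic dictionary `𝒟`, the monodromy handle of `κC` (`helper20.exists_kappa`),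
the conorm `con` with its coefficient embedding `ι` on functions (compatibility with Kummer
representatives = LEF CON-5/7), and the norm dictionary (helper34, from `es_norm_complex`). -/
theorem bridge_of_dict (hp : 0 < p) (𝒟 : AnDict (FC M) (Gamma0 M))
    (κC : ℕ → LatChar M →+ JC M)
    (hκ : ∀ (n : ℕ) (ε : LatChar M), IsMonData 𝒟 (p ^ n) (κC n ε) (latPsi M p n ε))
    (con : JZero M →+ JC M) (hinj : Function.Injective con)
    (ι : modularFunctionFieldBar M → FC M)
    (hcon : ∀ (m : ℕ) (x : JZero M) (h : modularFunctionFieldBar M),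
      IsKummerRep m x h → IsKummerRep m (con x) (ι h))
    (hdict : ∀ (ℓ : Nat.Primes) (hℓ : ¬ (ℓ : ℕ) ∣ M) (h : modularFunctionFieldBar M), h ≠ 0 →
      EqH (𝒟.ev (ι (heckeKummer (AlgebraicClosure ℚ) M (ℓ : ℕ) h)))
        (normProd (systemT M ℓ hℓ) (𝒟.ev (ι h))))
    (n : ℕ) (ℓ : Nat.Primes) (hℓ : ¬ (ℓ : ℕ) ∣ M) (ε : LatChar M) (x : JZero M)
    (hx : con x = κC n ε) :
    con (heckeOperatorBar M ℓ x) = κC n (latCharT M ℓ ε) := by
  have hm : 0 < p ^ n := pow_pos hp n
  -- `x` is killed by `p ^ n`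
  have hx0 : p ^ n • x = 0 := by
    apply hinj
    rw [map_nsmul, hx, (hκ n ε).nsmul_eq_zero, map_zero]
  obtain ⟨h, H⟩ := exists_isKummerRep hx0
  -- the monodromy of `con x`, computed from the representative `ι h`
  have HC : IsKummerRep (p ^ n) (con x) (ι h) := hcon _ _ _ H
  have hmon : IsMonData 𝒟 (p ^ n) (con x) (latPsi M p n ε) := by
    rw [hx]
    exact hκ n ε
  have hchar : IsKummerChar (Gamma0 M) (p ^ n) (𝒟.ev (ι h)) (latPsi M p n ε) :=
    isKummerChar_of_isMonData hm hmon HC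
  -- the Hecke operator on the representative
  have HT : IsKummerRep (p ^ n) (heckeOperatorBar M ℓ x)
      (heckeKummer (AlgebraicClosure ℚ) M (ℓ : ℕ) h) :=
    H.heckeOperatorBar ℓ (helper58.heckeInputsAlong_bar M ℓ)
  have HCT : IsKummerRep (p ^ n) (con (heckeOperatorBar M ℓ x))
      (ι (heckeKummer (AlgebraicClosure ℚ) M (ℓ : ℕ) h)) := hcon _ _ _ HT
  -- the monodromy of the norm product
  have hcharT : IsKummerChar (Gamma0 M) (p ^ n)
      (𝒟.ev (ι (heckeKummer (AlgebraicClosure ℚ) M (ℓ : ℕ) h)))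
      (latPsi M p n (latCharT M ℓ ε)) := by
    have h1 := hchar.normProd (systemT M ℓ hℓ) (systemT_det_pos M ℓ hℓ)
    rw [latPsi_heckeChar M p n ℓ hℓ ε] at h1
    exact h1.congr (hdict ℓ hℓ h H.ne_zero).symm
  have hmonT : IsMonData 𝒟 (p ^ n) (con (heckeOperatorBar M ℓ x))
      (latPsi M p n (latCharT M ℓ ε)) :=
    isMonData_iff_exists_isKummerRep.mpr ⟨_, HCT, hcharT⟩
  exact hmonT.eq_of_eq hm (hκ n (latCharT M ℓ ε))

/-- **[AN-DESC] assembly** (Route B): `AnDescStatement M p` from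
* the analytic dictionary `𝒟` of `F_ℂ` (helper80 `anDict` + helper48 `RootMemStatement`),
* the surjectivity of the monodromy onto the lattice characters (helper20 [SURJ]),
* the conorm `con` (LEF): injective, hitting all torsion classes, compatible with Kummer
  representatives,
* the norm dictionary (helper34 [DICT]). -/
theorem anDescStatement_of (hp : 0 < p) (𝒟 : AnDict (FC M) (Gamma0 M))
    (hsurj : ∀ (n : ℕ) (ε : LatChar M), ∃ c : JC M, IsMonData 𝒟 (p ^ n) c (latPsi M p n ε))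
    (con : JZero M →+ JC M) (hinj : Function.Injective con)
    (htors : ∀ y : JC M, (∃ m : ℕ, 0 < m ∧ m • y = 0) → ∃ x : JZero M, con x = y)
    (ι : modularFunctionFieldBar M → FC M)
    (hcon : ∀ (m : ℕ) (x : JZero M) (h : modularFunctionFieldBar M),
      IsKummerRep m x h → IsKummerRep m (con x) (ι h))
    (hdict : ∀ (ℓ : Nat.Primes) (hℓ : ¬ (ℓ : ℕ) ∣ M) (h : modularFunctionFieldBar M), h ≠ 0 →
      EqH (𝒟.ev (ι (heckeKummer (AlgebraicClosure ℚ) M (ℓ : ℕ) h)))
        (normProd (systemT M ℓ hℓ) (𝒟.ev (ι h)))) :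
    AnDescStatement M p := by
  obtain ⟨κC, hκ, ha, hb, hc⟩ := exists_kappa (𝒟 := 𝒟) hp (latPsi M p)
    (fun n ε ε' => latPsi_add M p n ε ε') (fun n ε => latPsi_pow_succ M p hp n ε) hsurj
  refine ⟨κC, con, ha, fun n ε h0 => (latPsi_eq_one_iff M p hp n ε).mp (hb n ε h0), hc, hinj,
    fun n ε => htors _ ⟨p ^ n, pow_pos hp n, ha n ε⟩, ?_⟩
  intro n ℓ hℓ ε x hx
  exact bridge_of_dict M p hp 𝒟 κC hκ con hinj ι hcon hdict n ℓ hℓ ε x hx

/-- **[FIN-C]** from the analytic dictionary. -/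
theorem finiteTorsionC_of_dict (hp : 0 < p) (𝒟 : AnDict (FC M) (Gamma0 M)) :
    FiniteTorsionCStatement M p :=
  haveI := fg_Gamma0 M
  finite_torsion_of_fg 𝒟 hp

end Bridge

end Fermat.Agent.P3.helper16

end
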