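import Mathlib

/-!
# P3 [TATE-2]: the algebra behind faithfulness

* `padic_coeff_eq_zero` : if `ι : X → Λ` is an additive map from a free `ℤ`-module with basis `e`
  to a torsion-free `ℤ_p`-module such that `ι x ∈ p Λ → x ∈ p X`, then the `ι (e s)` are
  `ℤ_p`-linearly independent.
* `exists_int_relations` : under the same hypotheses, every `ℤ_p`-linear relation
  `∑ a i • ι (f i x) = 0` (for all `x`) between additive endomorphisms `f i` of `X` is a
  `ℤ_p`-linear combination of integral relations `∑ c j i • f i = 0` (flatness of `ℤ_p` over `ℤ`).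
-/

set_option autoImplicit false

noncomputable section

namespace Fermat.Agent.P3.helper1

open Module

section LinearIndependence

variable {p : ℕ} [Fact p.Prime] {Λ : Type*} [AddCommGroup Λ] [Module ℤ_[p] Λ]
  {X : Type*} [AddCommGroup X] {d : Type*} [Fintype d]

theorem padic_eq_zero_of_forall_pow_dvd (b : ℤ_[p]) (h : ∀ n : ℕ, (p : ℤ_[p]) ^ n ∣ b) : b = 0 := by
  by_contra hb
  have h1 : ∀ n : ℕ, ‖b‖ ≤ (p : ℝ) ^ (-(n : ℤ)) := fun n =>
    (PadicInt.norm_le_pow_iff_mem_span_pow b n).mpr (Ideal.mem_span_singleton.mpr (h n))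
  have hpos : 0 < ‖b‖ := norm_pos_iff.mpr hb
  have hp1 : (1 : ℝ) < p := by exact_mod_cast (Fact.out : p.Prime).one_lt
  obtain ⟨n, hn⟩ := exists_pow_lt_of_lt_one hpos (inv_lt_one_of_one_lt₀ hp1)
  have := h1 n
  rw [zpow_neg, zpow_natCast, ← inv_pow] at this
  exact absurd (lt_of_le_of_lt this hn) (lt_irrefl _)

/-- One step: the coefficients of a relation are divisible by `p`. -/
theorem padic_dvd_of_relation (e : Basis d ℤ X) (ι : X →+ Λ)
    (hι : ∀ x : X, (∃ w : Λ, ι x = (p : ℤ_[p]) • w) → ∃ y : X, x = p • y)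
    (b : d → ℤ_[p]) (hb : ∑ s, b s • ι (e s) = 0) (s : d) : (p : ℤ_[p]) ∣ b s := by
  classical
  -- integral approximations
  have hc : ∀ s, ∃ t : ℤ_[p], b s - ((b s).appr 1 : ℤ_[p]) = (p : ℤ_[p]) * t := by
    intro s
    have := PadicInt.appr_spec 1 (b s)
    rw [pow_one] at this
    obtain ⟨t, ht⟩ := Ideal.mem_span_singleton'.mp this
    exact ⟨t, by rw [← ht, mul_comm]⟩
  choose t ht using hc
  have h1 : ι (∑ s, (b s).appr 1 • e s) = (p : ℤ_[p]) • (-∑ s, t s • ι (e s)) := by
    rw [map_sum, smul_neg, Finset.smul_sum, eq_neg_iff_add_eq_zero, ← Finset.sum_add_distrib,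
      ← hb]
    refine Finset.sum_congr rfl fun s _ => ?_
    rw [map_nsmul, smul_smul, ← ht s, ← Nat.cast_smul_eq_nsmul ℤ_[p], ← add_smul]
    congr 1
    ring
  obtain ⟨y, hy⟩ := hι _ ⟨_, h1⟩
  have h2 : ((b s).appr 1 : ℤ) = p * e.repr y s := by
    have := congrArg (fun x => e.repr x s) hy
    simp only [map_sum, map_nsmul, Finsupp.coe_finsetSum, Finsupp.coe_smul, Finset.sum_apply,
      Pi.smul_apply, Basis.repr_self] at this
    rw [Finset.sum_eq_single s (fun s' _ hs' => by simp [hs'])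
      (fun h => absurd (Finset.mem_univ s) h)] at this
    simpa using this
  have h3 : (p : ℤ_[p]) ∣ ((b s).appr 1 : ℤ_[p]) := by
    refine ⟨(e.repr y s : ℤ_[p]), ?_⟩
    have := congrArg (fun z : ℤ => (z : ℤ_[p])) h2
    simpa using this
  have h4 : (p : ℤ_[p]) ∣ b s - ((b s).appr 1 : ℤ_[p]) := ⟨t s, ht s⟩
  have := dvd_add h4 h3
  rwa [sub_add_cancel] at this

variable [Module.IsTorsionFree ℤ_[p] Λ]

theorem padic_pow_dvd_of_relation (e : Basis d ℤ X) (ι : X →+ Λ)
    (hι : ∀ x : X, (∃ w : Λ, ι x = (p : ℤ_[p]) • w) → ∃ y : X, x = p • y) (n : ℕ) :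
    ∀ (b : d → ℤ_[p]), ∑ s, b s • ι (e s) = 0 → ∀ s, (p : ℤ_[p]) ^ n ∣ b s := by
  induction n with
  | zero => intro b _ s; simp
  | succ n ih =>
    intro b hb s
    have h1 := padic_dvd_of_relation e ι hι b hb
    choose b' hb' using h1
    have hp0 : (p : ℤ_[p]) ≠ 0 := by
      exact_mod_cast (Fact.out : p.Prime).ne_zero
    have h2 : ∑ s, b' s • ι (e s) = 0 := by
      have : (p : ℤ_[p]) • ∑ s, b' s • ι (e s) = 0 := by
        rw [Finset.smul_sum, ← hb]
        refine Finset.sum_congr rfl fun s _ => ?_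
        rw [smul_smul, ← hb' s]
      exact (smul_eq_zero_iff_right hp0).mp this
    obtain ⟨u, hu⟩ := ih b' h2 s
    exact ⟨u, by rw [hb' s, hu]; ring⟩

/-- **`p`-adic linear independence.** -/
theorem padic_coeff_eq_zero (e : Basis d ℤ X) (ι : X →+ Λ)
    (hι : ∀ x : X, (∃ w : Λ, ι x = (p : ℤ_[p]) • w) → ∃ y : X, x = p • y)
    (b : d → ℤ_[p]) (hb : ∑ s, b s • ι (e s) = 0) (s : d) : b s = 0 :=
  padic_eq_zero_of_forall_pow_dvd (b s) fun n => padic_pow_dvd_of_relation e ι hι n b hb s

end LinearIndependence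

section Flat

variable {p : ℕ} [Fact p.Prime] {Λ : Type*} [AddCommGroup Λ] [Module ℤ_[p] Λ]
  [Module.IsTorsionFree ℤ_[p] Λ]
  {X : Type*} [AddCommGroup X] [Module.Free ℤ X] [Module.Finite ℤ X]

/-- **Integrality of relations**: a `ℤ_p`-linear relation between additive endomorphisms of a
finite free `ℤ`-module `X`, tested inside a torsion-free `ℤ_p`-module `Λ` through a map
`ι : X → Λ` which is injective modulo `p`, is a `ℤ_p`-linear combination of integral relations. -/
theorem exists_int_relations (ι : X →+ Λ)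
    (hι : ∀ x : X, (∃ w : Λ, ι x = (p : ℤ_[p]) • w) → ∃ y : X, x = p • y)
    {I : Type*} [Fintype I] [DecidableEq I] (f : I → X →+ X) (a : I → ℤ_[p])
    (ha : ∀ x : X, ∑ i, a i • ι (f i x) = 0) :
    ∃ (k : ℕ) (c : Fin k → I → ℤ) (b : Fin k → ℤ_[p]),
      (∀ j x, ∑ i, c j i • f i x = 0) ∧ ∀ i, a i = ∑ j, b j * (c j i : ℤ_[p]) := by
  classical
  let d := Module.Free.ChooseBasisIndex ℤ X
  let e : Basis d ℤ X := Module.Free.chooseBasis ℤ X
  let F : I → d → d → ℤ := fun i t s => e.repr (f i (e s)) t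
  have hF : ∀ i s, f i (e s) = ∑ t, F i t s • e t := fun i s => (e.sum_repr (f i (e s))).symm
  -- the coordinate relations
  have hcoord : ∀ s t, ∑ i, a i * (F i t s : ℤ_[p]) = 0 := by
    intro s
    have h1 : ∑ t, (∑ i, a i * (F i t s : ℤ_[p])) • ι (e t) = 0 := by
      rw [← ha (e s)]
      simp_rw [Finset.sum_smul]
      rw [Finset.sum_comm]
      refine Finset.sum_congr rfl fun i _ => ?_
      rw [hF i s, map_sum, Finset.smul_sum]
      refine Finset.sum_congr rfl fun t _ => ?_
      rw [map_zsmul, ← Int.cast_smul_eq_zsmul ℤ_[p], smul_smul]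
    exact fun t => padic_coeff_eq_zero e ι hι _ h1 t
  -- flatness of `ℤ_p` over `ℤ`
  let fK : (d × d → ℤ) →ₗ[ℤ] (I → ℤ) :=
    LinearMap.pi fun i => ∑ ts : d × d, F i ts.1 ts.2 • LinearMap.proj ts
  let x : (I → ℤ) →ₗ[ℤ] ℤ_[p] := ∑ i, (LinearMap.proj i).smulRight (a i)
  have hx : ∀ v : I → ℤ, x v = ∑ i, v i • a i := by
    intro v
    simp [x, LinearMap.sum_apply]
  have hfK : ∀ (u : d × d → ℤ) (i : I), fK u i = ∑ ts : d × d, F i ts.1 ts.2 * u ts := by
    intro u i
    simp [fK, LinearMap.sum_apply]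
  have hcomp : x ∘ₗ fK = 0 := by
    refine LinearMap.ext fun u => ?_
    rw [LinearMap.comp_apply, hx, LinearMap.zero_apply]
    simp_rw [hfK, Finset.sum_smul]
    rw [Finset.sum_comm]
    refine Finset.sum_eq_zero fun ts _ => ?_
    have := hcoord ts.2 ts.1
    calc ∑ i, (F i ts.1 ts.2 * u ts) • a i
        = (u ts : ℤ_[p]) * ∑ i, a i * (F i ts.1 ts.2 : ℤ_[p]) := by
          rw [Finset.mul_sum]
          refine Finset.sum_congr rfl fun i _ => ?_
          rw [zsmul_eq_mul]
          push_cast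
          ring
      _ = 0 := by rw [this, mul_zero]
  obtain ⟨k, α, y, hy, hα⟩ := Module.Flat.exists_factorization_of_comp_eq_zero_of_free hcomp
  refine ⟨k, fun j i => α (Pi.single i 1) j, fun j => y (Finsupp.single j 1), ?_, ?_⟩
  · intro j
    -- the integral relation on the basis
    have hrel : ∀ s t, ∑ i, α (Pi.single i 1) j * F i t s = 0 := by
      intro s t
      have h1 : α (fK (Pi.single (t, s) 1)) = 0 := by
        rw [← LinearMap.comp_apply, hα, LinearMap.zero_apply]
      have h2 : fK (Pi.single (t, s) 1) = ∑ i, F i t s • (Pi.single i 1 : I → ℤ) := by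
        funext i
        rw [hfK, Finset.sum_apply]
        simp only [Pi.smul_apply, Pi.single_apply, smul_eq_mul, mul_ite, mul_one, mul_zero]
        rw [Finset.sum_eq_single (t, s) (fun ts _ hts => by simp [hts])
          (fun h => absurd (Finset.mem_univ _) h),
          Finset.sum_eq_single i (fun i' _ hi' => by simp [Ne.symm hi'])
          (fun h => absurd (Finset.mem_univ _) h)]
        simp
      rw [h2, map_sum] at h1
      have h3 := congrArg (fun v : Fin k →₀ ℤ => v j) h1
      simp only [map_zsmul, Finsupp.coe_finsetSum, Finsupp.coe_smul, Finset.sum_apply,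
        Pi.smul_apply, smul_eq_mul, Finsupp.coe_zero, Pi.zero_apply] at h3
      rw [← h3]
      exact Finset.sum_congr rfl fun i _ => mul_comm _ _
    have hbasis : ∀ s, ∑ i, α (Pi.single i 1) j • f i (e s) = 0 := by
      intro s
      simp_rw [hF, Finset.smul_sum, smul_smul]
      rw [Finset.sum_comm]
      refine Finset.sum_eq_zero fun t _ => ?_
      rw [← Finset.sum_smul, hrel s t, zero_smul]
    let Φ : X →ₗ[ℤ] X := ∑ i, α (Pi.single i 1) j • (f i).toIntLinearMap
    have hΦ : Φ = 0 := by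
      apply e.ext
      intro s
      simp only [Φ, LinearMap.sum_apply, LinearMap.smul_apply, AddMonoidHom.coe_toIntLinearMap,
        LinearMap.zero_apply]
      exact hbasis s
    intro x₀
    have := congrArg (fun φ : X →ₗ[ℤ] X => φ x₀) hΦ
    simpa [Φ, LinearMap.sum_apply] using this
  · intro i
    have h1 : a i = x (Pi.single i 1) := by
      rw [hx, Finset.sum_eq_single i (fun i' _ hi' => by simp [hi'])
        (fun h => absurd (Finset.mem_univ _) h)]
      simp
    rw [h1, hy, LinearMap.comp_apply]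
    have h2 : α (Pi.single i 1) = ∑ j, α (Pi.single i 1) j • Finsupp.single j (1 : ℤ) := by
      conv_lhs => rw [← Finsupp.univ_sum_single (α (Pi.single i 1))]
      refine Finset.sum_congr rfl fun j _ => ?_
      rw [Finsupp.smul_single, smul_eq_mul, mul_one]
    rw [h2, map_sum]
    refine Finset.sum_congr rfl fun j _ => ?_
    rw [map_zsmul, zsmul_eq_mul, mul_comm]

end Flat

end Fermat.Agent.P3.helper1

end
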