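import Mathlib

/-!
# P3 [TATE]: abstract models of the `p`-adic Tate module

`TateModel p J` packages what the Tate assembly needs from the `p`-adic Tate module
`T_p J = lim J[p^n]` of an additive group `J`: a finite free `ℤ_p`-module `Λ` with projections
`proj n : Λ → J` identifying `Λ` with the compatible sequences
`(x n)`, `p^n x n = 0`, `p x (n+1) = x n`, such that `ker (proj n) = p^n Λ`.

From these axioms we derive functoriality in additive endomorphisms of `J` (`TateModel.map`,
`TateModel.mapHom`), lifting of compatible families (`TateModel.lift`) and the compatibility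
of the `ℤ_p`-module structure with the projections.
-/

set_option autoImplicit false

noncomputable section

namespace Fermat.Agent.P3.helper1

/-- An abstract model of the `p`-adic Tate module of the additive group `J`. -/
structure TateModel (p : ℕ) [Fact p.Prime] (J : Type) [AddCommGroup J] : Type 1 where
  /-- the Tate module -/
  Λ : Type
  [instAddCommGroup : AddCommGroup Λ]
  [instModule : Module ℤ_[p] Λ]
  [instFree : Module.Free ℤ_[p] Λ]
  [instFinite : Module.Finite ℤ_[p] Λ]
  /-- the projection to the `p^n`-torsion of `J` -/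
  proj : ℕ → Λ →+ J
  pow_smul_proj : ∀ (n : ℕ) (v : Λ), p ^ n • proj n v = 0
  smul_proj_succ : ∀ (n : ℕ) (v : Λ), p • proj (n + 1) v = proj n v
  eq_zero_of_proj : ∀ v : Λ, (∀ n, proj n v = 0) → v = 0
  exists_smul_of_proj_eq_zero : ∀ (n : ℕ) (v : Λ), proj n v = 0 →
    ∃ w : Λ, v = (p : ℤ_[p]) ^ n • w
  exists_proj_eq : ∀ x : ℕ → J, (∀ n, p ^ n • x n = 0) → (∀ n, p • x (n + 1) = x n) →
    ∃ v : Λ, ∀ n, proj n v = x n

attribute [instance] TateModel.instAddCommGroup TateModel.instModule TateModel.instFree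
  TateModel.instFinite

namespace TateModel

variable {p : ℕ} [Fact p.Prime] {J : Type} [AddCommGroup J] (T : TateModel p J)

theorem ext_proj {v w : T.Λ} (h : ∀ n, T.proj n v = T.proj n w) : v = w := by
  rw [← sub_eq_zero]
  apply T.eq_zero_of_proj
  intro n
  rw [map_sub, h n, sub_self]

theorem proj_pow_smul (n : ℕ) (w : T.Λ) : T.proj n ((p : ℤ_[p]) ^ n • w) = 0 := by
  have e : ((p : ℤ_[p]) ^ n) • w = (p ^ n : ℕ) • w := by
    rw [← Nat.cast_pow, Nat.cast_smul_eq_nsmul]
  rw [e, map_nsmul, T.pow_smul_proj]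

theorem proj_eq_zero_iff (n : ℕ) (v : T.Λ) :
    T.proj n v = 0 ↔ ∃ w : T.Λ, v = (p : ℤ_[p]) ^ n • w := by
  constructor
  · exact T.exists_smul_of_proj_eq_zero n v
  · rintro ⟨w, rfl⟩
    exact T.proj_pow_smul n w

/-- Compatibility of the `ℤ_p`-module structure with the projections. -/
theorem proj_smul_of_sub_mem (n : ℕ) (a : ℤ_[p]) (c : ℤ)
    (h : a - (c : ℤ_[p]) ∈ Ideal.span {(p : ℤ_[p]) ^ n}) (v : T.Λ) :
    T.proj n (a • v) = c • T.proj n v := by
  obtain ⟨b, hb⟩ := Ideal.mem_span_singleton'.mp h
  have e : a • v = (c : ℤ_[p]) • v + (p : ℤ_[p]) ^ n • (b • v) := by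
    rw [smul_smul, ← add_smul, mul_comm, hb]
    congr 1
    ring
  rw [e, map_add, T.proj_pow_smul, add_zero, Int.cast_smul_eq_zsmul, map_zsmul]

theorem proj_smul_appr (n : ℕ) (a : ℤ_[p]) (v : T.Λ) :
    T.proj n (a • v) = a.appr n • T.proj n v := by
  have h := T.proj_smul_of_sub_mem n a (a.appr n : ℤ) (by simpa using PadicInt.appr_spec n a) v
  rw [h, natCast_zsmul]

theorem proj_natCast_smul (n : ℕ) (c : ℕ) (v : T.Λ) :
    T.proj n ((c : ℤ_[p]) • v) = c • T.proj n v := by
  rw [Nat.cast_smul_eq_nsmul, map_nsmul]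

theorem proj_intCast_smul (n : ℕ) (c : ℤ) (v : T.Λ) :
    T.proj n ((c : ℤ_[p]) • v) = c • T.proj n v := by
  rw [Int.cast_smul_eq_zsmul, map_zsmul]

/-- Elements killed by `proj n` lie in `𝔪^n Λ`. -/
theorem mem_smul_top_of_proj_eq_zero (n : ℕ) (v : T.Λ) (h : T.proj n v = 0) :
    v ∈ (IsLocalRing.maximalIdeal ℤ_[p] ^ n) • (⊤ : Submodule ℤ_[p] T.Λ) := by
  obtain ⟨w, rfl⟩ := T.exists_smul_of_proj_eq_zero n v h
  refine Submodule.smul_mem_smul ?_ Submodule.mem_top
  rw [PadicInt.maximalIdeal_eq_span_p, Ideal.span_singleton_pow]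
  exact Ideal.mem_span_singleton_self _

/-! ### Lifting compatible families -/

section Lift

variable {X : Type*} [AddCommGroup X] (κ : ℕ → X →+ J)
  (h1 : ∀ (n : ℕ) (x : X), p ^ n • κ n x = 0)
  (h2 : ∀ (n : ℕ) (x : X), p • κ (n + 1) x = κ n x)

/-- The lift of a compatible family of homomorphisms to the Tate module. -/
def lift : X →+ T.Λ where
  toFun x := (T.exists_proj_eq (fun n => κ n x) (fun n => h1 n x) (fun n => h2 n x)).choose
  map_zero' := by
    apply T.ext_proj
    intro n
    rw [(T.exists_proj_eq (fun n => κ n (0 : X)) (fun n => h1 n 0)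
      (fun n => h2 n 0)).choose_spec n, map_zero, map_zero]
  map_add' x y := by
    apply T.ext_proj
    intro n
    rw [map_add, (T.exists_proj_eq (fun n => κ n (x + y)) (fun n => h1 n (x + y))
      (fun n => h2 n (x + y))).choose_spec n,
      (T.exists_proj_eq (fun n => κ n x) (fun n => h1 n x) (fun n => h2 n x)).choose_spec n,
      (T.exists_proj_eq (fun n => κ n y) (fun n => h1 n y) (fun n => h2 n y)).choose_spec n,
      map_add]

@[simp]
theorem proj_lift (n : ℕ) (x : X) : T.proj n (T.lift κ h1 h2 x) = κ n x :=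
  (T.exists_proj_eq (fun n => κ n x) (fun n => h1 n x) (fun n => h2 n x)).choose_spec n

end Lift

/-! ### Functoriality -/

/-- The additive endomorphism of the Tate module induced by an additive endomorphism of `J`. -/
def mapAdd (f : J →+ J) : T.Λ →+ T.Λ :=
  T.lift (fun n => f.comp (T.proj n))
    (fun n v => by
      rw [AddMonoidHom.comp_apply, ← map_nsmul, T.pow_smul_proj, map_zero])
    (fun n v => by
      rw [AddMonoidHom.comp_apply, AddMonoidHom.comp_apply, ← map_nsmul, T.smul_proj_succ])

@[simp]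
theorem proj_mapAdd (f : J →+ J) (n : ℕ) (v : T.Λ) : T.proj n (T.mapAdd f v) = f (T.proj n v) := by
  rw [mapAdd, proj_lift, AddMonoidHom.comp_apply]

/-- The `ℤ_p`-linear endomorphism of the Tate module induced by an additive endomorphism of
`J`. -/
def map (f : J →+ J) : Module.End ℤ_[p] T.Λ where
  toFun := T.mapAdd f
  map_add' := map_add _
  map_smul' a v := by
    apply T.ext_proj
    intro n
    rw [RingHom.id_apply, proj_mapAdd, T.proj_smul_appr, T.proj_smul_appr, map_nsmul,
      proj_mapAdd]

@[simp]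
theorem proj_map (f : J →+ J) (n : ℕ) (v : T.Λ) : T.proj n (T.map f v) = f (T.proj n v) :=
  T.proj_mapAdd f n v

theorem map_id : T.map (AddMonoidHom.id J) = 1 := by
  refine LinearMap.ext fun v => T.ext_proj fun n => ?_
  rw [proj_map, AddMonoidHom.id_apply, Module.End.one_apply]

theorem map_comp (f g : J →+ J) : T.map (f.comp g) = T.map f * T.map g := by
  refine LinearMap.ext fun v => T.ext_proj fun n => ?_
  rw [proj_map, Module.End.mul_apply, proj_map, proj_map, AddMonoidHom.comp_apply]

theorem map_add' (f g : J →+ J) : T.map (f + g) = T.map f + T.map g := by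
  refine LinearMap.ext fun v => T.ext_proj fun n => ?_
  rw [proj_map, LinearMap.add_apply, map_add, proj_map, proj_map, AddMonoidHom.add_apply]

theorem map_zero' : T.map (0 : J →+ J) = 0 := by
  refine LinearMap.ext fun v => T.ext_proj fun n => ?_
  rw [proj_map, LinearMap.zero_apply, map_zero, AddMonoidHom.zero_apply]

theorem map_natCast_smul (c : ℕ) (f : J →+ J) : T.map (c • f) = (c : ℤ_[p]) • T.map f := by
  refine LinearMap.ext fun v => T.ext_proj fun n => ?_
  rw [proj_map, LinearMap.smul_apply, T.proj_natCast_smul, proj_map, AddMonoidHom.smul_apply]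

/-- Functoriality as a monoid homomorphism `End(J) → End_{ℤ_p}(Λ)`. -/
def mapHom : AddMonoid.End J →* Module.End ℤ_[p] T.Λ where
  toFun f := T.map f
  map_one' := T.map_id
  map_mul' f g := T.map_comp f g

@[simp]
theorem mapHom_apply (f : AddMonoid.End J) : T.mapHom f = T.map f := rfl

/-- The action of a group acting on `J` by additive automorphisms. -/
def action {G : Type*} [Group G] [DistribMulAction G J] : G →* Module.End ℤ_[p] T.Λ :=
  T.mapHom.comp (DistribMulAction.toAddMonoidEnd G J)

@[simp]
theorem proj_action {G : Type*} [Group G] [DistribMulAction G J] (g : G) (n : ℕ) (v : T.Λ) :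
    T.proj n (T.action g v) = g • T.proj n v := by
  rw [action, MonoidHom.comp_apply, mapHom_apply, proj_map]
  rfl

end TateModel

end Fermat.Agent.P3.helper1

end
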