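import Fermat.Agent.P3.helper44_Tate1
import Fermat.Agent.P3.helper1_TateModel

/-!
# P3 [TATE-1]: the Tate module `Tp p J` is a `TateModel`

Deliverable of package [TATE-1] in the shape fixed by helper1 (`helper1_TateModel.lean`):
`nonempty_tateModel` and `finite_torsion_pow`.
-/

set_option autoImplicit false

noncomputable section

namespace Fermat.Agent.P3.helper44

/-- The Tate module `Tp p J` as a `TateModel`, when `J[p]` is finite. -/
def tateModel (p : ℕ) [Fact p.Prime] (J : Type) [AddCommGroup J]
    (hfin : Finite (nsmulAddMonoidHom (α := J) (p ^ 1)).ker) :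
    Fermat.Agent.P3.helper1.TateModel p J :=
  letI : Module.Free ℤ_[p] (Tp p J) := Tp.moduleFree hfin
  letI : Module.Finite ℤ_[p] (Tp p J) := Tp.moduleFinite hfin
  { Λ := Tp p J
    proj := fun n => Tp.proj n
    pow_smul_proj := fun n v => Tp.pow_smul_proj n v
    smul_proj_succ := fun n v => Tp.smul_proj_succ n v
    eq_zero_of_proj := fun v h => Tp.eq_zero_of_proj v h
    exists_smul_of_proj_eq_zero := fun n v h => Tp.exists_smul_of_proj_eq_zero n v h
    exists_proj_eq := fun x h0 h => Tp.exists_proj_eq x h0 h }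

/-- **[TATE-1]** the abstract Tate module exists as soon as `J[p]` is finite. -/
theorem nonempty_tateModel (p : ℕ) [Fact p.Prime] (J : Type) [AddCommGroup J]
    (hfin : Finite (nsmulAddMonoidHom (α := J) (p ^ 1)).ker) :
    Nonempty (Fermat.Agent.P3.helper1.TateModel p J) :=
  ⟨tateModel p J hfin⟩

/-- **[TATE-1]** (T7) if `J[p]` is finite, so is `J[p ^ n]` for every `n`. -/
theorem finite_torsion_pow (p : ℕ) [Fact p.Prime] (J : Type) [AddCommGroup J]
    (hfin : Finite (nsmulAddMonoidHom (α := J) (p ^ 1)).ker) (n : ℕ) :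
    Finite (nsmulAddMonoidHom (α := J) (p ^ n)).ker :=
  finite_torsion_pow' p J hfin n

end Fermat.Agent.P3.helper44

end
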