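import Fermat.Agent.P3.helper1_TateGeom
import Fermat.Agent.P3.helper1_TateFaith
import Fermat.Agent.P3.helper44_Tate1Model

/-!
# P3 [TATE-2]: assembly of the Tate datum

`tateAssembly2 : TateAssemblyStatement2`: the Tate datum of level `M` from P2-CORE,
Galois-Hecke commutation, continuity, finiteness of the `p`-torsion and `κ`.
-/

set_option autoImplicit false

noncomputable section

namespace Fermat.Agent.P3.helper1

open ModularCurve

/-! ### Words and monomials -/

section Words

variable {σ : Type*}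

/-- The word attached to a monomial. -/
def monoWord (m : σ →₀ ℕ) : List σ := (Finsupp.toMultiset m).toList

theorem monoWord_prod {C : Type*} [CommMonoid C] (u : σ → C) (m : σ →₀ ℕ) :
    ((monoWord m).map u).prod = m.prod fun i k => u i ^ k := by
  classical
  rw [monoWord, ← Multiset.prod_coe, ← Multiset.map_coe, Multiset.coe_toList,
    Finsupp.toMultiset_map, Finsupp.prod_toMultiset,
    Finsupp.prod_mapDomain_index (fun _ => pow_zero _) (fun _ _ _ => pow_add _ _ _)]

end Words

/-! ### The commutative subalgebra generated by commuting elements -/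

section Adjoin

variable (R : Type*) {A : Type*} [CommRing R] [Ring A] [Algebra R A]

/-- The commutative ring structure on the subalgebra generated by commuting elements. -/
@[reducible] def adjoinCommRing {s : Set A} (hcomm : ∀ a ∈ s, ∀ b ∈ s, a * b = b * a) :
    CommRing (Algebra.adjoin R s) :=
  { (Algebra.adjoin R s).toRing with
    mul_comm := fun x y =>
      (Algebra.isMulCommutative_adjoin R hcomm).is_comm.comm x y }

end Adjoin


/-! ### The operators on the Tate module -/

section Operators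

variable {p : ℕ} [Fact p.Prime] {M : ℕ} [NeZero M] (S : Finset ℕ)
  (T : TateModel p (JZero M))

/-- The Hecke operator `T_ℓ` on the Tate module. -/
def tauEnd (ℓ : Nat.Primes) : Module.End ℤ_[p] T.Λ :=
  T.map (heckeOperatorBar M ℓ).toAddMonoidHom

@[simp]
theorem proj_tauEnd (ℓ : Nat.Primes) (n : ℕ) (v : T.Λ) :
    T.proj n (tauEnd T ℓ v) = heckeOperatorBar M ℓ (T.proj n v) := by
  rw [tauEnd, TateModel.proj_map]
  rfl

/-- The Galois action on the Tate module. -/
def galRep : GQ →* Module.End ℤ_[p] T.Λ := T.action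

@[simp]
theorem proj_galRep (g : GQ) (n : ℕ) (v : T.Λ) :
    T.proj n (galRep T g v) = g • T.proj n v :=
  T.proj_action g n v

theorem isPTors_proj (n : ℕ) (v : T.Λ) : IsPTors p (T.proj n v) := ⟨n, T.pow_smul_proj n v⟩

/-- The generators of the Hecke algebra of the Tate module. -/
def tauSet : Set (Module.End ℤ_[p] T.Λ) :=
  Set.range fun ℓ : GoodPrime p M S => tauEnd T ℓ.toPrimes

theorem tauEnd_comm (hP2 : P2CoreStatement M p) (hG : GalHeckeCommStatement M)
    (ℓ : GoodPrime p M S) (ℓ' : Nat.Primes) :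
    tauEnd T ℓ' * tauEnd T ℓ.toPrimes = tauEnd T ℓ.toPrimes * tauEnd T ℓ' := by
  refine LinearMap.ext fun v => T.ext_proj fun n => ?_
  rw [Module.End.mul_apply, Module.End.mul_apply, proj_tauEnd, proj_tauEnd, proj_tauEnd,
    proj_tauEnd]
  exact hecke_comm_of_isPTors hP2 hG ℓ.2.1 ℓ.2.2.1 ℓ' _ (isPTors_proj T n v)

theorem tauSet_comm (hP2 : P2CoreStatement M p) (hG : GalHeckeCommStatement M) :
    ∀ a ∈ tauSet S T, ∀ b ∈ tauSet S T, a * b = b * a := by
  rintro _ ⟨ℓ, rfl⟩ _ ⟨ℓ', rfl⟩
  exact tauEnd_comm S T hP2 hG ℓ' ℓ.toPrimes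

theorem tauEnd_galRep (hG : GalHeckeCommStatement M) (ℓ : Nat.Primes) (g : GQ) (v : T.Λ) :
    galRep T g (tauEnd T ℓ v) = tauEnd T ℓ (galRep T g v) := by
  refine T.ext_proj fun n => ?_
  rw [proj_galRep, proj_tauEnd, proj_tauEnd, proj_galRep, hG ℓ g]

/-- The Hecke algebra of the Tate module. -/
def heckeSub : Subalgebra ℤ_[p] (Module.End ℤ_[p] T.Λ) := Algebra.adjoin ℤ_[p] (tauSet S T)

theorem galRep_heckeSub (hG : GalHeckeCommStatement M) (g : GQ) (a : heckeSub S T) (v : T.Λ) :
    galRep T g (a • v) = a • galRep T g v := by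
  have key : ∀ b ∈ heckeSub S T, galRep T g * b = b * galRep T g := by
    intro b hb
    induction hb using Algebra.adjoin_induction with
    | mem x hx =>
      obtain ⟨ℓ, rfl⟩ := hx
      exact LinearMap.ext fun w => tauEnd_galRep T hG ℓ.toPrimes g w
    | algebraMap r =>
      exact ((Algebra.commutes r (galRep T g)).symm)
    | add x y _ _ hx hy => rw [mul_add, add_mul, hx, hy]
    | mul x y _ _ hx hy => rw [← mul_assoc, hx, mul_assoc, hy, mul_assoc]
  exact LinearMap.congr_fun (key a a.2) v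

end Operators


/-! ### Continuity, unramifiedness, Eichler-Shimura -/

section Fields

variable {p : ℕ} [Fact p.Prime] {M : ℕ} [NeZero M] (S : Finset ℕ)
  (T : TateModel p (JZero M))

theorem galRep_isAdicContinuous (hC : TorsionContinuityStatement M)
    (hfin : ∀ n : ℕ, Finite (nsmulAddMonoidHom (α := JZero M) (p ^ n)).ker) :
    GaloisActionIsAdicContinuous ℤ_[p] (galRep T) := by
  intro n
  haveI := hfin n
  choose K hK1 hK2 using hC
  let L : IntermediateField ℚ Qbar :=
    ⨆ x : (nsmulAddMonoidHom (α := JZero M) (p ^ n)).ker, K (x : JZero M)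
  haveI : ∀ x : (nsmulAddMonoidHom (α := JZero M) (p ^ n)).ker,
      FiniteDimensional ℚ (K (x : JZero M)) := fun x => hK1 _
  refine ⟨L, IntermediateField.finiteDimensional_iSup_of_finite, fun σ hσ v => ?_⟩
  apply T.mem_smul_top_of_proj_eq_zero
  rw [map_sub, proj_galRep, sub_eq_zero]
  have hmem : T.proj n v ∈ (nsmulAddMonoidHom (α := JZero M) (p ^ n)).ker := by
    rw [AddMonoidHom.mem_ker, nsmulAddMonoidHom_apply]
    exact T.pow_smul_proj n v
  refine hK2 (T.proj n v) σ fun y hy => hσ y ?_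
  exact (le_iSup (fun x : (nsmulAddMonoidHom (α := JZero M) (p ^ n)).ker => K (x : JZero M))
    ⟨T.proj n v, hmem⟩) hy

theorem galRep_unramified (hP2 : P2CoreStatement M p) (ℓ : ℕ) (hℓ : ℓ.Prime)
    (hℓM : ¬ ℓ ∣ M * p) (A : ValuationSubring Qbar) (hA : A.LiesOverPrime ℓ)
    (σ : GQ) (hσ : σ ∈ A.inertiaSubgroupIn ℚ) : galRep T σ = 1 := by
  refine LinearMap.ext fun v => T.ext_proj fun n => ?_
  rw [proj_galRep, Module.End.one_apply]
  exact (hP2 ℓ hℓ hℓM A hA).1 σ hσ _ (isPTors_proj T n v)

theorem galRep_frobenius (hP2 : P2CoreStatement M p) (ℓ : GoodPrime p M S)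
    (A : ValuationSubring Qbar) (hA : A.LiesOverPrime ℓ.1) (φ : GQ)
    (hφ : A.IsFrobeniusAt φ ℓ.1) (v : T.Λ) :
    galRep T φ (galRep T φ v) - tauEnd T ℓ.toPrimes (galRep T φ v) + (ℓ.1 : ℤ_[p]) • v = 0 := by
  refine T.ext_proj fun n => ?_
  rw [map_add, map_sub, proj_galRep, proj_galRep, proj_tauEnd, proj_galRep,
    T.proj_natCast_smul, map_zero]
  exact (hP2 ℓ.1 ℓ.2.1 ℓ.2.2.1 A hA).2 φ hφ _ (isPTors_proj T n v)

end Fields


/-! ### Faithfulness -/

section Faithful

theorem aeval_eq_sum_words {R : Type*} [CommRing R] {C : Type*} [CommRing C] [Algebra R C]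
    {σ : Type*} (u : σ → C) (P : MvPolynomial σ R) :
    MvPolynomial.aeval u P =
      ∑ m ∈ P.support, algebraMap R C (P.coeff m) * ((monoWord m).map u).prod := by
  rw [MvPolynomial.aeval_def, MvPolynomial.eval₂_eq]
  refine Finset.sum_congr rfl fun m _ => ?_
  rw [monoWord_prod]
  rfl

variable {p : ℕ} [Fact p.Prime] {N : ℕ} [NeZero N] {M : ℕ} [NeZero M] {S : Finset ℕ}
  (T : TateModel p (JZero M))
  {X : Type} [AddCommGroup X]
  (Tst : Nat.Primes → X →+ X) (κ : ∀ _ : ℕ, X →+ JZero M)
  (h1 : ∀ (n : ℕ) (x : X), p ^ n • κ n x = 0)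
  (h2 : ∀ (n : ℕ) (x : X), κ n x = 0 → ∃ y : X, x = p ^ n • y)
  (h3 : ∀ (n : ℕ) (x : X), p • κ (n + 1) x = κ n x)
  (h4 : ∀ (n : ℕ) (ℓ : GoodPrime p M S) (x : X),
    κ n (Tst ℓ.toPrimes x) = heckeOperatorBar M ℓ.toPrimes (κ n x))

include h4 in
theorem lift_tst (ℓ : GoodPrime p M S) (x : X) :
    T.lift κ h1 h3 (Tst ℓ.toPrimes x) = tauEnd T ℓ.toPrimes (T.lift κ h1 h3 x) := by
  refine T.ext_proj fun n => ?_
  rw [TateModel.proj_lift, proj_tauEnd, TateModel.proj_lift, h4]

include h4 in
theorem lift_word (w : List (GoodPrime p M S)) (x : X) :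
    T.lift κ h1 h3 (wordEnd Tst (w.map GoodPrime.toPrimes) x) =
      (w.map fun ℓ => tauEnd T ℓ.toPrimes).prod (T.lift κ h1 h3 x) := by
  induction w with
  | nil => simp [wordEnd]
  | cons ℓ w ih =>
    rw [List.map_cons, List.map_cons, List.prod_cons, Module.End.mul_apply, ← ih]
    exact lift_tst T Tst κ h1 h3 h4 ℓ _

include h2 in
theorem lift_mod_p (x : X) (h : ∃ w : T.Λ, T.lift κ h1 h3 x = (p : ℤ_[p]) • w) :
    ∃ y : X, x = p • y := by
  obtain ⟨w, hw⟩ := h
  have h0 : κ 1 x = 0 := by
    rw [← TateModel.proj_lift T κ h1 h3 1 x, hw]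
    have := T.proj_pow_smul 1 w
    rwa [pow_one] at this
  obtain ⟨y, hy⟩ := h2 1 x h0
  exact ⟨y, by rw [hy, pow_one]⟩

variable [Module.Free ℤ X] [Module.Finite ℤ X]

include h1 h2 h3 h4 in
/-- **Faithfulness**: a `ℤ_p`-polynomial relation between the Hecke operators on the Tate module
holds for the images of the Hecke operators of `S₂(Γ₀(N))` in every `ℤ_p`-algebra. -/
theorem faithful_of_kappa (hNM : N ∣ M)
    (h5 : ∀ c : List (GoodPrime p M S) →₀ ℤ,
      (∀ x : X, (c.sum fun w a => a • wordEnd Tst (w.map GoodPrime.toPrimes) x) = 0) →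
        (c.sum fun w a => a • (w.map (goodT hNM)).prod) = 0)
    (R : Type) [CommRing R] [Algebra ℤ_[p] R]
    (π : CuspForm.heckeAlgebra N 2 (↑S : Set ℕ) →+* R)
    (P : MvPolynomial (GoodPrime p M S) ℤ_[p])
    (hP : ∀ v : T.Λ, ∑ m ∈ P.support,
      P.coeff m • ((monoWord m).map fun ℓ => tauEnd T ℓ.toPrimes).prod v = 0) :
    MvPolynomial.aeval (fun ℓ => π (goodT hNM ℓ)) P = 0 := by
  classical
  obtain ⟨k, c, b, hc, hb⟩ := exists_int_relations (p := p) (T.lift κ h1 h3)
    (lift_mod_p T κ h1 h2 h3) (I := P.support)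
    (fun m => wordEnd Tst ((monoWord m.1).map GoodPrime.toPrimes)) (fun m => P.coeff m.1)
    (by
      intro x
      rw [Finset.sum_coe_sort P.support
        (fun m => P.coeff m • T.lift κ h1 h3 (wordEnd Tst ((monoWord m).map GoodPrime.toPrimes) x))]
      rw [← hP (T.lift κ h1 h3 x)]
      refine Finset.sum_congr rfl fun m _ => ?_
      rw [lift_word T Tst κ h1 h3 h4])
  -- the integral relations hold in the Hecke algebra
  have hrel : ∀ j : Fin k, ∑ m : P.support, c j m • ((monoWord m.1).map (goodT hNM)).prod = 0 := by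
    intro j
    have e1 : ∀ x : X, ((∑ m : P.support, Finsupp.single (monoWord m.1) (c j m)).sum
        fun w a => a • wordEnd Tst (w.map GoodPrime.toPrimes) x) = 0 := by
      intro x
      rw [← Finsupp.sum_finsetSum_index
        (h := fun (w : List (GoodPrime p M S)) (a : ℤ) =>
          a • wordEnd Tst (w.map GoodPrime.toPrimes) x)
        (fun w => zero_smul _ _) (fun w a a' => add_smul _ _ _)]
      rw [← hc j x]
      refine Finset.sum_congr rfl fun m _ => ?_
      exact Finsupp.sum_single_index (by simp)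
    have e2 := h5 _ e1
    rw [← Finsupp.sum_finsetSum_index
      (h := fun (w : List (GoodPrime p M S)) (a : ℤ) => a • (w.map (goodT hNM)).prod)
      (fun w => zero_smul _ _) (fun w a a' => add_smul _ _ _)] at e2
    rw [← e2]
    refine Finset.sum_congr rfl fun m _ => ?_
    exact (Finsupp.sum_single_index
      (h := fun (w : List (GoodPrime p M S)) (a : ℤ) => a • (w.map (goodT hNM)).prod)
      (zero_smul _ _)).symm
  rw [aeval_eq_sum_words, ← Finset.sum_coe_sort P.support
    (fun m => algebraMap ℤ_[p] R (P.coeff m) * ((monoWord m).map fun ℓ => π (goodT hNM ℓ)).prod)]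
  have e3 : ∀ m : P.support, ((monoWord m.1).map fun ℓ => π (goodT hNM ℓ)).prod =
      π ((monoWord m.1).map (goodT hNM)).prod := by
    intro m
    rw [map_list_prod, List.map_map]
    rfl
  calc ∑ m : P.support, algebraMap ℤ_[p] R (P.coeff m.1) *
        ((monoWord m.1).map fun ℓ => π (goodT hNM ℓ)).prod
      = ∑ m : P.support, ∑ j, algebraMap ℤ_[p] R (b j) *
          ((c j m : R) * π ((monoWord m.1).map (goodT hNM)).prod) := by
        refine Finset.sum_congr rfl fun m _ => ?_
        rw [e3 m, hb m, map_sum, Finset.sum_mul]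
        refine Finset.sum_congr rfl fun j _ => ?_
        rw [map_mul, map_intCast, mul_assoc]
    _ = ∑ j, algebraMap ℤ_[p] R (b j) *
          π (∑ m : P.support, c j m • ((monoWord m.1).map (goodT hNM)).prod) := by
        rw [Finset.sum_comm]
        refine Finset.sum_congr rfl fun j _ => ?_
        rw [map_sum, Finset.mul_sum]
        refine Finset.sum_congr rfl fun m _ => ?_
        rw [map_zsmul, zsmul_eq_mul]
    _ = 0 := by
        refine Finset.sum_eq_zero fun j _ => ?_
        rw [hrel j, map_zero, mul_zero]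

end Faithful


/-! ### The assembly -/

section Assembly

variable {p : ℕ} [Fact p.Prime] {M : ℕ} [NeZero M] (S : Finset ℕ)
  (T : TateModel p (JZero M))

/-- The Hecke generators as elements of the Hecke algebra of the Tate module. -/
def tauGen (ℓ : GoodPrime p M S) : heckeSub S T :=
  ⟨tauEnd T ℓ.toPrimes, Algebra.subset_adjoin ⟨ℓ, rfl⟩⟩

theorem range_tauGen :
    Set.range (tauGen S T) = ((↑) : heckeSub S T → Module.End ℤ_[p] T.Λ) ⁻¹' tauSet S T := by
  ext x
  constructor
  · rintro ⟨ℓ, rfl⟩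
    exact ⟨ℓ, rfl⟩
  · rintro ⟨ℓ, hℓ⟩
    exact ⟨ℓ, Subtype.ext hℓ⟩

theorem adjoin_tauGen : Algebra.adjoin ℤ_[p] (Set.range (tauGen S T)) = ⊤ := by
  rw [range_tauGen]
  exact Algebra.adjoin_adjoin_coe_preimage

/-- The commutative ring structure on the Hecke algebra of the Tate module. -/
@[reducible] def heckeSubCommRing (hP2 : P2CoreStatement M p) (hG : GalHeckeCommStatement M) :
    CommRing (heckeSub S T) :=
  { (heckeSub S T).toRing with
    mul_comm := fun x y =>
      (Algebra.isMulCommutative_adjoin ℤ_[p] (tauSet_comm S T hP2 hG)).is_comm.comm x y }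

theorem heckeSub_smul_faithful (a : heckeSub S T) (h : ∀ v : T.Λ, a • v = 0) : a = 0 :=
  Subtype.ext (LinearMap.ext fun v => h v)

theorem coe_list_prod_tauGen (w : List (GoodPrime p M S)) :
    (((w.map (tauGen S T)).prod : heckeSub S T) : Module.End ℤ_[p] T.Λ) =
      (w.map fun ℓ => tauEnd T ℓ.toPrimes).prod := by
  induction w with
  | nil => rfl
  | cons ℓ w ih =>
    rw [List.map_cons, List.map_cons, List.prod_cons, List.prod_cons, ← ih]
    rfl

end Assembly

/-- **[TATE-2]** the Tate datum from P2-CORE, Galois-Hecke commutation, continuity, finiteness of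
the `p`-torsion and `κ`. -/
theorem tateAssembly2 : TateAssemblyStatement2 := by
  intro p _ N _ S M _ hNM _ hP2 hG hC hF hK
  obtain ⟨X, iX1, iX2, iX3, Tst, κ, h1, h2, h3, h4, h5⟩ := hK
  have hfin1 : Finite (nsmulAddMonoidHom (α := JZero M) (p ^ 1)).ker := hF
  let T : TateModel p (JZero M) := Fermat.Agent.P3.helper44.tateModel p (JZero M) hfin1
  have hfin := Fermat.Agent.P3.helper44.finite_torsion_pow p (JZero M) hfin1
  letI : CommRing (heckeSub S T) := heckeSubCommRing S T hP2 hG
  refine ⟨{ Λ := T.Λ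
            𝔸 := heckeSub S T
            r := galRep T
            τ := tauGen S T
            isAdicContinuous := galRep_isAdicContinuous T hC hfin
            smul_faithful := heckeSub_smul_faithful S T
            adjoin_τ := adjoin_tauGen S T
            r_smul := fun g a v => galRep_heckeSub S T hG g a v
            unramified := fun ℓ hℓ hℓM A hA σ hσ =>
              galRep_unramified T hP2 ℓ hℓ hℓM A hA σ hσ
            frobenius := fun ℓ A hA φ hφ v => galRep_frobenius S T hP2 ℓ A hA φ hφ v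
            faithful := ?_ }⟩
  intro R _ _ π P hP
  refine faithful_of_kappa T Tst κ h1 h2 h3 h4 hNM h5 R π P fun v => ?_
  have h0 : ((MvPolynomial.aeval (tauGen S T) P : heckeSub S T) : Module.End ℤ_[p] T.Λ) v = 0 := by
    rw [hP]
    rfl
  rw [aeval_eq_sum_words] at h0
  rw [← h0]
  rw [AddSubmonoidClass.coe_finset_sum, LinearMap.sum_apply]
  refine Finset.sum_congr rfl fun m _ => ?_
  rw [MulMemClass.coe_mul, coe_list_prod_tauGen, Module.End.mul_apply]
  rfl

end Fermat.Agent.P3.helper1

end
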