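import Fermat.Agent.P3.Interface2
import Fermat.Agent.P3.helper1_TateModel
import Fermat.Agent.S54.helper91_Frobenius

/-!
# P3 [TATE-2], geometric part: Hecke operators on the `p`-power torsion of `J₀(M)`

From `P2CoreStatement M p` and `GalHeckeCommStatement M`:

* `hecke_eq_frob_add` : on `p`-power torsion `T_ℓ = φ + ℓ φ⁻¹` for every Frobenius lift `φ` at a
  prime `ℓ ∤ M p`;
* `hecke_comm_of_isPTors` : the operators `T_ℓ`, `ℓ ∤ M p`, commute on `p`-power torsion.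
-/

set_option autoImplicit false

noncomputable section

namespace Fermat.Agent.P3.helper1

open ModularCurve

/-- `x` is killed by a power of `p`. -/
def IsPTors (p : ℕ) {J : Type*} [AddCommGroup J] (x : J) : Prop := ∃ n : ℕ, p ^ n • x = 0

theorem IsPTors.smul {p : ℕ} {J : Type*} [AddCommGroup J] {G : Type*} [Monoid G]
    [DistribMulAction G J] {x : J} (hx : IsPTors p x) (g : G) : IsPTors p (g • x) := by
  obtain ⟨n, hn⟩ := hx
  refine ⟨n, ?_⟩
  rw [← smul_comm g (p ^ n) x, hn, smul_zero]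

theorem IsPTors.map {p : ℕ} {J J' : Type*} [AddCommGroup J] [AddCommGroup J'] {x : J}
    (hx : IsPTors p x) (f : J →+ J') : IsPTors p (f x) := by
  obtain ⟨n, hn⟩ := hx
  exact ⟨n, by rw [← map_nsmul, hn, map_zero]⟩

theorem isPTors_of_pow_smul {p : ℕ} {J : Type*} [AddCommGroup J] {x : J} (n : ℕ)
    (hx : p ^ n • x = 0) : IsPTors p x := ⟨n, hx⟩

section

variable {p : ℕ} {M : ℕ} [NeZero M]

/-- On `p`-power torsion, `T_ℓ = φ + ℓ φ⁻¹` for every Frobenius lift `φ` at `ℓ ∤ M p`. -/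
theorem hecke_eq_frob_add (hP2 : P2CoreStatement M p) {ℓ : ℕ} (hℓ : ℓ.Prime)
    (hℓM : ¬ ℓ ∣ M * p) (A : ValuationSubring Qbar) (hA : A.LiesOverPrime ℓ) (φ : GQ)
    (hφ : A.IsFrobeniusAt φ ℓ) (x : JZero M) (hx : IsPTors p x) :
    heckeOperatorBar M ⟨ℓ, hℓ⟩ x = φ • x + ℓ • (φ⁻¹ • x) := by
  have h := (hP2 ℓ hℓ hℓM A hA).2 φ hφ (φ⁻¹ • x) (hx.smul φ⁻¹)
  rw [smul_inv_smul] at h
  rw [sub_add_eq_add_sub, sub_eq_zero] at h
  exact h.symm

/-- The Hecke operators at primes `ℓ ∤ M p` preserve `p`-power torsion. -/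
theorem isPTors_hecke {x : JZero M} (hx : IsPTors p x) (ℓ : Nat.Primes) :
    IsPTors p (heckeOperatorBar M ℓ x) :=
  hx.map (heckeOperatorBar M ℓ).toAddMonoidHom

/-- The Hecke operators at primes not dividing `M p` commute on `p`-power torsion. -/
theorem hecke_comm_of_isPTors (hP2 : P2CoreStatement M p) (hG : GalHeckeCommStatement M)
    {ℓ : ℕ} (hℓ : ℓ.Prime) (hℓM : ¬ ℓ ∣ M * p) (ℓ' : Nat.Primes)
    (x : JZero M) (hx : IsPTors p x) :
    heckeOperatorBar M ℓ' (heckeOperatorBar M ⟨ℓ, hℓ⟩ x) =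
      heckeOperatorBar M ⟨ℓ, hℓ⟩ (heckeOperatorBar M ℓ' x) := by
  obtain ⟨A, φ, hA, hφ⟩ := Fermat.Agent.S54.helper91.exists_isFrobeniusAt hℓ
  rw [hecke_eq_frob_add hP2 hℓ hℓM A hA φ hφ x hx,
    hecke_eq_frob_add hP2 hℓ hℓM A hA φ hφ _ (isPTors_hecke hx ℓ'), map_add, map_nsmul,
    hG ℓ' φ x, hG ℓ' φ⁻¹ x]

end

end Fermat.Agent.P3.helper1

end
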