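import Mathlib
import Fermat.Agent.P3.helper20_Mon
import Fermat.Agent.P3.helper34_MultCalc

/-!
# P3 [AN5]: monodromy data and Kummer characters

The monodromy data `IsMonData 𝒟 m c ψ` of `helper20_Mon` in terms of the Kummer characters
`helper34.IsKummerChar Γ m f ψ` of functions:

* `isMonData_iff`: `IsMonData 𝒟 m c ψ` iff `c = [D]`, `m D = div h`, and `ψ` is the Kummer
  character of the function of `h`;
* `IsMonData.isKummerChar`: the monodromy of `c` is the Kummer character of the function of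
  *every* `h` with `m D = div h`, `c = [D]`;
* `eq_of_kummer_transport`: the abstract form of the Hecke-equivariance argument: if the Kummer
  character of `h₁` is obtained from that of `h` by an operation which maps the monodromy of `c`
  to the monodromy of `c'`, then `[D₁] = c'`.
-/

set_option autoImplicit false

noncomputable section

namespace Fermat.Agent.P3.helper20

open Filter Topology Set AlgebraicCurve
open scoped MatrixGroups UpperHalfPlane
open Fermat.Agent.P3.helper34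

variable {Γ : Subgroup SL(2, ℤ)} {F : Type*} [Field F] [Algebra ℂ F] {𝒟 : AnDict F Γ}

/-- The multiplier property of `helper20_Mon` in terms of `helper34.HasMult`. -/
lemma hasMultH_iff {g : ℂ → ℂ} {ψ : Γ →* ℂˣ} :
    HasMultH g ψ ↔ ∀ γ : Γ, HasMult g (γ : SL(2, ℤ)) (ψ γ : ℂ) := Iff.rfl

/-- Monodromy data in terms of Kummer characters. -/
theorem isMonData_iff {m : ℕ} {c : Pic0 ℂ F} {ψ : Γ →* ℂˣ} :
    IsMonData 𝒟 m c ψ ↔
      ∃ (D : Divisor.degZero (K := ℂ) (F := F)) (h : F), Pic0.mk D = c ∧ h ≠ 0 ∧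
        (∀ w : Place ℂ F, (m : ℤ) * (D : Divisor ℂ F) w = w.ord h) ∧
        IsKummerChar Γ m (𝒟.ev h) ψ := by
  constructor
  · rintro ⟨D, h, g, hD, hh0, hdiv, hg, hgfin, hpow, hmult⟩
    exact ⟨D, h, hD, hh0, hdiv, g, hg, hgfin, hpow, hmult⟩
  · rintro ⟨D, h, hD, hh0, hdiv, g, hg, hgfin, hpow, hmult⟩
    exact ⟨D, h, g, hD, hh0, hdiv, hg, hgfin, hpow, hmult⟩

/-- A Kummer character of the function of `h`, `m D = div h`, is the monodromy of `[D]`. -/
theorem isMonData_of_isKummerChar {m : ℕ} {ψ : Γ →* ℂˣ}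
    (D : Divisor.degZero (K := ℂ) (F := F)) {h : F} (hh0 : h ≠ 0)
    (hdiv : ∀ w : Place ℂ F, (m : ℤ) * (D : Divisor ℂ F) w = w.ord h)
    (hK : IsKummerChar Γ m (𝒟.ev h) ψ) : IsMonData 𝒟 m (Pic0.mk D) ψ :=
  isMonData_iff.mpr ⟨D, h, rfl, hh0, hdiv, hK⟩

/-- The function of every `h` with `m D = div h` has a Kummer character. -/
theorem exists_isKummerChar_ev (𝒟 : AnDict F Γ) {m : ℕ} (hm : 0 < m)
    (D : Divisor.degZero (K := ℂ) (F := F)) {h : F} (hh0 : h ≠ 0)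
    (hdiv : ∀ w : Place ℂ F, (m : ℤ) * (D : Divisor ℂ F) w = w.ord h) :
    ∃ ψ : Γ →* ℂˣ, IsKummerChar Γ m (𝒟.ev h) ψ := by
  have hdvd : ∀ w : Place ℂ F, (m : ℤ) ∣ w.ord h := fun w ↦ ⟨_, (hdiv w).symm⟩
  obtain ⟨ψ, -, hψ⟩ := exists_isKummerChar m hm Γ (𝒟.ev h) (𝒟.mero h) (𝒟.fin h hh0)
    (𝒟.t2 m h hh0 hdvd) (fun γ hγ z hz ↦ by
      have := 𝒟.inv h ⟨γ, hγ⟩ z hz
      simpa using this)
  exact ⟨ψ, hψ⟩

/-- **The monodromy is the Kummer character of every representative**: if `ψ` is the monodromy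
of `c = [D]` and `m D = div h`, then `ψ` is the Kummer character of the function of `h`. -/
theorem IsMonData.isKummerChar {m : ℕ} (hm : 0 < m) {c : Pic0 ℂ F} {ψ : Γ →* ℂˣ}
    (hc : IsMonData 𝒟 m c ψ) {D : Divisor.degZero (K := ℂ) (F := F)} {h : F}
    (hD : Pic0.mk D = c) (hh0 : h ≠ 0)
    (hdiv : ∀ w : Place ℂ F, (m : ℤ) * (D : Divisor ℂ F) w = w.ord h) :
    IsKummerChar Γ m (𝒟.ev h) ψ := by
  obtain ⟨ψ', hψ'⟩ := exists_isKummerChar_ev 𝒟 hm D hh0 hdiv
  have h1 : IsMonData 𝒟 m c ψ' := hD ▸ isMonData_of_isKummerChar D hh0 hdiv hψ'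
  rwa [hc.unique hm h1]

/-- **Transport of the monodromy** (abstract form of the Hecke equivariance of the Kummer
maps).  Let `ψ` be the monodromy of `c = [D]`, `m D = div h`, and `ψ'` the monodromy of `c'`.
If `m D₁ = div h₁` and the Kummer character of the function of `h₁` is `ψ'` as soon as the Kummer
character of the function of `h` is `ψ`, then `[D₁] = c'`. -/
theorem eq_of_kummer_transport {m : ℕ} (hm : 0 < m) {c c' : Pic0 ℂ F} {ψ ψ' : Γ →* ℂˣ}
    (hc : IsMonData 𝒟 m c ψ) (hc' : IsMonData 𝒟 m c' ψ')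
    {D D₁ : Divisor.degZero (K := ℂ) (F := F)} {h h₁ : F}
    (hD : Pic0.mk D = c) (hh0 : h ≠ 0)
    (hdiv : ∀ w : Place ℂ F, (m : ℤ) * (D : Divisor ℂ F) w = w.ord h)
    (hh1 : h₁ ≠ 0)
    (hdiv₁ : ∀ w : Place ℂ F, (m : ℤ) * (D₁ : Divisor ℂ F) w = w.ord h₁)
    (htr : IsKummerChar Γ m (𝒟.ev h) ψ → IsKummerChar Γ m (𝒟.ev h₁) ψ') :
    Pic0.mk D₁ = c' :=
  (isMonData_of_isKummerChar D₁ hh1 hdiv₁ (htr (hc.isKummerChar hm hD hh0 hdiv))).eq_of_eq hm hc'

end Fermat.Agent.P3.helper20
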