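import Mathlib
import Fermat.Agent.P3.helper20_Surj
import Fermat.Agent.P3.helper20_MonKummer
import Fermat.Agent.P3.helper34_EvNorm
import Fermat.Agent.LEF.helper99_DescUncond

/-!
# P3 [AN-KAPPA]: the analytic Kummer maps are Hecke equivariant

* `isEv_descC_ι`: the function of the conorm `ι y ∈ F_ℂ` of `y ∈ F_ℚ̄` is a function of `toC y`;
* `isKummerChar_evC_heckeKummer`: Kummer transport along `T_ℓ` (norm dictionary of helper34) for
  the functions of the conorms;
* `conPic0_hecke_of_isMonData` (**(B)** of Route B): if `con x` has monodromy `latPsi n ε` and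
  `c'` has monodromy `latPsi n (latCharT ℓ ε)`, then `con (T_ℓ x) = c'`;
* `anKappaStatement M p : helper16.AnKappaStatement M p` (all four clauses), for `0 < p`.
-/

set_option autoImplicit false

noncomputable section

namespace Fermat.Agent.P3.helper20

open AlgebraicCurve ModularCurve CongruenceSubgroup
open Fermat.Agent.S24 Fermat.Agent.S16.helper26
open Fermat.Agent.P3.helper16 Fermat.Agent.P3.helper34 Fermat.Agent.LEF Fermat.Agent.LEF.helper99

variable (M p : ℕ) [NeZero M]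

/-- The function of the conorm of `y` is a function of `toC y`. -/
theorem isEv_descC_ι (y : FN M) :
    IsEv (helper17.toC (y : LaurentSeries Kbar))
      (Fermat.Agent.P3.helper80.evC M ((descC M).ι y)) := by
  have h := Fermat.Agent.P3.helper48.isEv_of_represents
    (Fermat.Agent.P3.helper80.represents_evC ((descC M).ι y))
  have e : (((descC M).ι y : Fermat.Agent.P3.helper80.FC M) : LaurentSeries ℂ)
      = helper17.toC (y : LaurentSeries Kbar) := descC_ι M y
  rw [e] at h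
  exact h

/-- Kummer transport along `T_ℓ` for the functions of the conorms. -/
theorem isKummerChar_evC_heckeKummer (ℓ : Nat.Primes) (hℓ : ¬ (ℓ : ℕ) ∣ M) (h₀ : FN M)
    {m : ℕ} {ψ : Gamma0 M →* ℂˣ}
    (hψ : IsKummerChar (Gamma0 M) m (Fermat.Agent.P3.helper80.evC M ((descC M).ι h₀)) ψ) :
    IsKummerChar (Gamma0 M) m (Fermat.Agent.P3.helper80.evC M
      ((descC M).ι (Fermat.Agent.P3.helper94.heckeKummer Kbar M ℓ h₀)))
      (heckeChar (systemT M ℓ hℓ) ψ) :=
  isKummerChar_of_isEv_heckeKummer M ℓ hℓ h₀ (isEv_descC_ι M h₀)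
    (isEv_descC_ι M (Fermat.Agent.P3.helper94.heckeKummer Kbar M ℓ h₀)) hψ

/-- **(B)**: Hecke equivariance of the monodromy along the constant field extension.  If the
conorm of `x ∈ J₀(M)` has monodromy `latPsi n ε` and `c'` has monodromy `latPsi n (ε ∘ T_ℓ)`,
then the conorm of `T_ℓ x` is `c'`. -/
theorem conPic0_hecke_of_isMonData {n : ℕ} (hp : 0 < p) (ℓ : Nat.Primes) (hℓ : ¬ (ℓ : ℕ) ∣ M)
    (ε : LatChar M) {c c' : JC M}
    (hc : IsMonData (Fermat.Agent.P3.helper48.anDictC M) (p ^ n) c (latPsi M p n ε))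
    (hc' : IsMonData (Fermat.Agent.P3.helper48.anDictC M) (p ^ n) c'
      (latPsi M p n (latCharT M ℓ ε)))
    (x : JZero M) (hx : (descC M).conPic0 x = c) :
    (descC M).conPic0 (heckeOperatorBar M ℓ x) = c' := by
  have hm : 0 < p ^ n := pow_pos hp n
  -- `x` is torsion
  have hxtor : (p ^ n) • x = 0 := by
    apply descC_conPic0_injective M
    rw [map_nsmul, hx, map_zero]
    exact hc.nsmul_eq_zero
  obtain ⟨h₀, hK⟩ := Fermat.Agent.P3.helper94.exists_isKummerRep hxtor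
  have hK1 := hK.heckeOperatorBar ℓ (Fermat.Agent.P3.helper58.heckeInputsAlong_bar M ℓ)
  obtain ⟨hh0, D₀, hD₀, hdiv₀⟩ := hK
  obtain ⟨hh1, D₁, hD₁, hdiv₁⟩ := hK1
  obtain ⟨D, hconD, -, hιh0, hdiv⟩ := descC_kummer M ((p ^ n : ℕ) : ℤ) D₀ h₀ hh0 hdiv₀
  obtain ⟨D', hconD', -, hιh1, hdiv'⟩ := descC_kummer M ((p ^ n : ℕ) : ℤ) D₁ _ hh1 hdiv₁
  have hconx : (descC M).conPic0 (heckeOperatorBar M ℓ x) = Pic0.mk D' := by
    rw [← hD₁]
    exact hconD'
  have hDc : Pic0.mk D = c := by rw [← hconD, hD₀, hx]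
  rw [hconx]
  refine eq_of_kummer_transport (𝒟 := Fermat.Agent.P3.helper48.anDictC M) hm hc hc' hDc hιh0 hdiv
    hιh1 hdiv' fun hψ ↦ ?_
  have h3 := isKummerChar_evC_heckeKummer M ℓ hℓ h₀ hψ
  rw [latPsi_heckeChar] at h3
  exact h3

/-- **[AN-KAPPA]**: the analytic Kummer maps `κC n : Hom(perLat M, ℤ) → Pic⁰(F_ℂ)[p ^ n]`,
compatible, injective modulo `p ^ n` and Hecke equivariant. -/
theorem anKappaStatement (hp : 0 < p) : AnKappaStatement M p := by
  obtain ⟨κC, hmon, ha, hb, hc⟩ := exists_kappaC M p hp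
  refine ⟨κC, ha, hb, hc, fun n ℓ hℓ ε ↦ ?_⟩
  haveI : NeZero (M * (ℓ : ℕ)) := ⟨Nat.mul_ne_zero (NeZero.ne M) ℓ.2.ne_zero⟩
  obtain ⟨x, hx⟩ := descC_torsion_surj_uncond M (p ^ n) (pow_pos hp n) (κC n ε) (ha n ε)
  have hB := conPic0_hecke_of_isMonData M p hp ℓ hℓ ε (hmon n ε) (hmon n (latCharT M ℓ ε)) x hx
  have hH : (descC M).conPic0 (heckeOperatorBar M ℓ x)
      = heckeOperatorC M ℓ ((descC M).conPic0 x) :=
    helper95.V.conPic0_heckeOperatorAlong jC M ℓ (descC M) (descC_κ M) (descC_ι M)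
      (Fermat.Agent.P3.helper58.heckeInputsAlong_bar M ℓ)
      (Fermat.Agent.P3.helper58.heckeInputsAlong_complex M ℓ)
      (riemannSettingQ M) (riemannSettingQ (M * ℓ))
      (riemannSettingC M) (riemannSettingC (M * ℓ)) x
  rw [← hB, hH, hx]

end Fermat.Agent.P3.helper20
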