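import Fermat.Agent.P3.helper22_QuadraticRep

/-!
# P3 [ALG] (helper22), part 5: the trace criterion

`exists_galoisRepAdic_of_quadratic_trace` : same hypotheses as
`exists_galoisRepAdic_of_quadratic`; the representation `ρ` moreover satisfies the TRACE
criterion: if `t (σ * s) = t s` for all `s` and `d σ = 1`, then `ρ σ = 1`.

Proof: for such `σ`, `N = R σ - 1` satisfies `N ^ 2 = 0` and `N * R s + R s * N = t s • N`
(polarised Cayley-Hamilton), hence `ker N` is stable and meets every nonzero stable subspace;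
so `N` vanishes on every minimal stable subspace `U`.  Apply
`exists_galoisRepAdic_of_quadratic` to the lattice cut out by `U`.
-/

set_option autoImplicit false

open Polynomial

namespace Fermat.Agent.P3.helper22

namespace QuadData

variable {G : Type*} [Group G] {K : Type*} [Field K] {W : Type*} [AddCommGroup W]
  [Module K W] (Q : QuadData G K W)

theorem d_one : Q.d 1 = 1 := by
  have h := Q.d_mul Q.c 1
  rw [mul_one, Q.d_c] at h
  have h' : (-1 : K) * (Q.d 1 - 1) = 0 := by rw [mul_sub, ← h]; ring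
  rcases mul_eq_zero.mp h' with h1 | h1
  · exact absurd h1 (neg_ne_zero.mpr one_ne_zero)
  · exact sub_eq_zero.mp h1

theorem t_one [Nontrivial W] : Q.t 1 = 2 := by
  obtain ⟨w, hw⟩ := exists_ne (0 : W)
  have h := congrArg (fun f : Module.End K W => f w) (Q.quad 1)
  simp only [map_one, Q.d_one, LinearMap.add_apply, LinearMap.sub_apply, LinearMap.smul_apply,
    Module.End.mul_apply, Module.End.one_apply, LinearMap.zero_apply, one_smul] at h
  have h' : ((2 : K) - Q.t 1) • w = 0 := by
    rw [sub_smul, two_smul]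
    rw [← h]; abel
  rcases smul_eq_zero.mp h' with h1 | h1
  · exact (sub_eq_zero.mp h1).symm
  · exact absurd h1 hw

variable {Q}

/-- `N = R σ - 1` squares to zero if `t σ = 2`, `d σ = 1` -/
theorem sub_one_mul_sub_one {σ : G} (ht : Q.t σ = 2) (hd : Q.d σ = 1) :
    (Q.R σ - 1) * (Q.R σ - 1) = 0 := by
  have h := Q.quad σ
  rw [ht, hd, one_smul, two_smul] at h
  rw [← h]
  noncomm_ring

/-- `N * R s + R s * N = t s • N` for a trace-invariant `σ` -/
theorem sub_one_mul_add_mul_sub_one {σ : G} (ht : Q.t σ = 2) (s : G)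
    (hts : Q.t (σ * s) = Q.t s) :
    (Q.R σ - 1) * Q.R s + Q.R s * (Q.R σ - 1) = Q.t s • (Q.R σ - 1) := by
  have hXY : (Q.R σ * Q.R s) * (Q.R σ * Q.R s) - Q.t (σ * s) • (Q.R σ * Q.R s)
      + (Q.d σ * Q.d s) • (1 : Module.End K W) = 0 := by
    have := Q.quad (σ * s)
    rw [map_mul, Q.d_mul] at this
    exact this
  have hu : IsUnit (Q.R σ * Q.R s) := by
    have := Q.isUnit_R (σ * s)
    rwa [map_mul] at this
  have h := polarized_of_quad (Q.quad σ) (Q.quad s) hXY hu
  rw [ht, hts] at h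
  have e : (Q.R σ - 1) * Q.R s + Q.R s * (Q.R σ - 1)
      = (Q.R σ * Q.R s + Q.R s * Q.R σ) - (2 : K) • Q.R s := by
    rw [two_smul]; noncomm_ring
  rw [e, h]
  module

/-- a trace-invariant `σ` with `d σ = 1` acts trivially on every minimal stable subspace -/
theorem apply_eq_self_of_isMinStable [Nontrivial W] {U : Submodule K W}
    (hmin : Q.IsMinStable U) {σ : G} (hσ : ∀ s, Q.t (σ * s) = Q.t s) (hd : Q.d σ = 1)
    {u : W} (hu : u ∈ U) : Q.R σ u = u := by
  obtain ⟨hU0, hs, hU⟩ := hmin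
  have ht : Q.t σ = 2 := by
    have := hσ 1
    rwa [mul_one, Q.t_one] at this
  obtain ⟨N, hN⟩ : ∃ N : Module.End K W, N = Q.R σ - 1 := ⟨_, rfl⟩
  have hNN : ∀ w : W, N (N w) = 0 := fun w => by
    have h := sub_one_mul_sub_one ht hd
    rw [← hN] at h
    have := congrArg (fun f : Module.End K W => f w) h
    simpa only [Module.End.mul_apply, LinearMap.zero_apply] using this
  have hNR : ∀ (s : G) (w : W), N (Q.R s w) + Q.R s (N w) = Q.t s • N w := fun s w => by
    have h := sub_one_mul_add_mul_sub_one ht s (hσ s)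
    rw [← hN] at h
    have := congrArg (fun f : Module.End K W => f w) h
    simpa only [Module.End.mul_apply, LinearMap.add_apply, LinearMap.smul_apply] using this
  have hNU : ∀ w ∈ U, N w ∈ U := fun w hw => by
    rw [hN, LinearMap.sub_apply, Module.End.one_apply]
    exact U.sub_mem (hs σ w hw) hw
  -- the stable subspace `ker N ⊓ U`
  let U' : Submodule K W := LinearMap.ker N ⊓ U
  have hU's : Q.IsStable U' := by
    intro s w hw
    obtain ⟨hw1, hw2⟩ := Submodule.mem_inf.mp hw
    rw [LinearMap.mem_ker] at hw1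
    refine Submodule.mem_inf.mpr ⟨?_, hs s w hw2⟩
    rw [LinearMap.mem_ker]
    have := hNR s w
    rwa [hw1, map_zero, add_zero, smul_zero] at this
  have hU'0 : U' ≠ ⊥ := by
    obtain ⟨w, hw, hw0⟩ := (Submodule.ne_bot_iff U).mp hU0
    by_cases hNw : N w = 0
    · exact (Submodule.ne_bot_iff U').mpr
        ⟨w, Submodule.mem_inf.mpr ⟨LinearMap.mem_ker.mpr hNw, hw⟩, hw0⟩
    · exact (Submodule.ne_bot_iff U').mpr
        ⟨N w, Submodule.mem_inf.mpr ⟨LinearMap.mem_ker.mpr (hNN w), hNU w hw⟩, hNw⟩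
  have hEq : U' = U := hU U' hU'0 hU's inf_le_right
  have hu' : u ∈ U' := hEq ▸ hu
  have hNu : N u = 0 := LinearMap.mem_ker.mp (Submodule.mem_inf.mp hu').1
  rw [hN, LinearMap.sub_apply, Module.End.one_apply, sub_eq_zero] at hNu
  exact hNu

end QuadData


section MainTrace

open scoped TensorProduct

variable (𝒪 : Type) [CommRing 𝒪] [IsDomain 𝒪] [IsPrincipalIdealRing 𝒪] [IsLocalRing 𝒪]
  (M : Type) [AddCommGroup M] [Module 𝒪 M] [Module.Free 𝒪 M] [Module.Finite 𝒪 M]

/-- **P3 [ALG]**, trace form: as `exists_galoisRepAdic_of_quadratic`, with the TRACE criterion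
`(∀ s, t (σ * s) = t s) → d σ = 1 → ρ σ = 1`. -/
theorem exists_galoisRepAdic_of_quadratic_trace [Nontrivial M] (h2 : (2 : 𝒪) ≠ 0)
    (r : GQ →* Module.End 𝒪 M) (hr : GaloisActionIsAdicContinuous 𝒪 r)
    (t : GQ → 𝒪) (d : GQ →* 𝒪) (hd : IsAdicContinuousChar 𝒪 d)
    (hquad : ∀ σ, r σ * r σ - t σ • r σ + d σ • (1 : Module.End 𝒪 M) = 0)
    (c : GQ) (hc : c * c = 1) (hdc : d c = -1) :
    ∃ ρ : GaloisRepAdic 𝒪,
      (∀ σ, LinearMap.charpoly (ρ.ρ σ) = X ^ 2 - C (t σ) * X + C (d σ)) ∧
      (∀ σ, (∀ s, t (σ * s) = t s) → d σ = 1 → ρ.ρ σ = 1) := by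
  classical
  let K := FractionRing 𝒪
  let W := K ⊗[𝒪] M
  let ι : M →ₗ[𝒪] W := TensorProduct.mk 𝒪 K M 1
  have hinjK : Function.Injective (algebraMap 𝒪 K) := IsFractionRing.injective 𝒪 K
  have : Nontrivial W := by
    have h1 : Module.finrank K W = Module.finrank 𝒪 M := Module.finrank_baseChange
    have h3 : 0 < Module.finrank 𝒪 M := Module.finrank_pos
    exact Module.nontrivial_of_finrank_pos (R := K) (h1 ▸ h3)
  -- `t c = 0`
  have htc : t c = 0 := by
    obtain ⟨m, hm⟩ := exists_ne (0 : M)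
    have h := congrArg (fun f : Module.End 𝒪 M => f m) (hquad c)
    simp only [LinearMap.add_apply, LinearMap.sub_apply, LinearMap.smul_apply,
      Module.End.mul_apply, Module.End.one_apply, LinearMap.zero_apply] at h
    have hcc : r c (r c m) = m := by
      rw [← Module.End.mul_apply, ← map_mul, hc, map_one, Module.End.one_apply]
    rw [hcc, hdc, neg_smul, one_smul] at h
    have h' : t c • r c m = 0 := by
      have : t c • r c m = -(m - t c • r c m + -m) := by abel
      rw [this, h, neg_zero]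
    rcases smul_eq_zero.mp h' with h1 | h1
    · exact h1
    · exfalso
      apply hm
      rw [← hcc, h1, map_zero]
  let Q : QuadData GQ K W :=
    { R := (Module.End.baseChangeHom 𝒪 K M).toMonoidHom.comp r
      t := fun σ => algebraMap 𝒪 K (t σ)
      d := fun σ => algebraMap 𝒪 K (d σ)
      quad := fun σ => by
        have h := congrArg (Module.End.baseChangeHom 𝒪 K M) (hquad σ)
        rw [map_zero, map_add, map_sub, map_mul, map_smul, map_smul, map_one] at h
        show Module.End.baseChangeHom 𝒪 K M (r σ) * Module.End.baseChangeHom 𝒪 K M (r σ)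
          - algebraMap 𝒪 K (t σ) • Module.End.baseChangeHom 𝒪 K M (r σ)
          + algebraMap 𝒪 K (d σ) • (1 : Module.End K W) = 0
        rw [algebraMap_smul, algebraMap_smul]
        exact h
      d_mul := fun σ τ => by rw [map_mul, map_mul]
      c := c
      c_sq := hc
      d_c := by rw [hdc, map_neg, map_one]
      t_c := by rw [htc, map_zero] }
  have hQ : ∀ σ m, Q.R σ (ι m) = ι (r σ m) := fun σ m => by
    show (r σ).baseChange K ((1 : K) ⊗ₜ[𝒪] m) = (1 : K) ⊗ₜ[𝒪] (r σ m)
    rw [LinearMap.baseChange_tmul]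
  have hQt : ∀ σ, Q.t σ = algebraMap 𝒪 K (t σ) := fun _ => rfl
  have hQd : ∀ σ, Q.d σ = algebraMap 𝒪 K (d σ) := fun _ => rfl
  -- a minimal stable subspace and its lattice
  obtain ⟨U, hmin⟩ := Q.exists_isMinStable
  have hs := hmin.2.1
  have hst : ∀ σ, ∀ m ∈ lattice ι U, r σ m ∈ lattice ι U := fun σ =>
    lattice_stable (r σ) (Q.R σ) (hQ σ) (hs σ)
  let r' : GQ →* Module.End 𝒪 (lattice ι U) :=
    { toFun := fun σ => (r σ).restrict (hst σ)
      map_one' := by
        ext v
        simp
      map_mul' := fun σ τ => by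
        ext v
        simp }
  have hr'apply : ∀ σ (v : lattice ι U), ((r' σ v : lattice ι U) : M) = r σ (v : M) :=
    fun _ _ => rfl
  have hr' : GaloisActionIsAdicContinuous 𝒪 r' := by
    intro n
    obtain ⟨L, hL, h⟩ := hr n
    refine ⟨L, hL, fun σ hσ v => ?_⟩
    obtain ⟨w, hw⟩ := (mem_maximalIdeal_pow_smul_top_iff n _).mp (h σ hσ (v : M))
    rw [mem_maximalIdeal_pow_smul_top_iff]
    by_cases hπ : unif 𝒪 ^ n = 0
    · refine ⟨0, ?_⟩
      apply Subtype.ext
      rw [smul_zero, Submodule.coe_sub, hr'apply, hw, hπ, zero_smul, Submodule.coe_zero]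
    · have hwU : w ∈ lattice ι U := by
        apply lattice_saturated hπ
        rw [← hw]
        exact Submodule.sub_mem _ (hst σ _ v.2) v.2
      refine ⟨⟨w, hwU⟩, ?_⟩
      apply Subtype.ext
      rw [Submodule.coe_sub, hr'apply, hw, Submodule.coe_smul]
  have hquad' : ∀ σ, r' σ * r' σ - t σ • r' σ + d σ • (1 : Module.End 𝒪 (lattice ι U)) = 0 := by
    intro σ
    ext v
    have h := congrArg (fun f : Module.End 𝒪 M => f (v : M)) (hquad σ)
    simp only [LinearMap.add_apply, LinearMap.sub_apply, LinearMap.smul_apply,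
      Module.End.mul_apply, Module.End.one_apply, LinearMap.zero_apply] at h
    simp only [LinearMap.add_apply, LinearMap.sub_apply, LinearMap.smul_apply,
      Module.End.mul_apply, Module.End.one_apply, LinearMap.zero_apply, Submodule.coe_add,
      Submodule.coe_sub, Submodule.coe_smul, Submodule.coe_zero, hr'apply]
    exact h
  have hnt : Nontrivial (lattice ι U) := by
    have h1 : Module.finrank 𝒪 (lattice ι U) = Module.finrank K U := finrank_lattice U
    have h3 : 0 < Module.finrank K U := by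
      have : Nontrivial U := Submodule.nontrivial_iff_ne_bot.mpr hmin.1
      exact Module.finrank_pos (R := K) (M := U)
    exact Module.nontrivial_of_finrank_pos (R := 𝒪) (h1 ▸ h3)
  obtain ⟨ρ, hρ1, hρ2⟩ :=
    exists_galoisRepAdic_of_quadratic 𝒪 (lattice ι U) h2 r' hr' t d hd hquad' c hc hdc
  refine ⟨ρ, hρ1, fun σ hσ hdσ => hρ2 σ ?_ hdσ⟩
  have hσ' : ∀ s, Q.t (σ * s) = Q.t s := fun s => by rw [hQt, hQt, hσ s]
  have hdσ' : Q.d σ = 1 := by rw [hQd, hdσ, map_one]
  ext v
  show r σ (v : M) = (v : M)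
  apply lattice_ι_injective ι
  rw [← hQ]
  exact QuadData.apply_eq_self_of_isMinStable hmin hσ' hdσ' v.2

end MainTrace

end Fermat.Agent.P3.helper22
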