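import Fermat.Agent.P3.Interface
import Fermat.Agent.P3.helper22_QuadraticTrace

/-!
# P3 [ALG] (helper22): `AlgStatement` of BLUEPRINT P3 v1, verbatim

Also `alg_pid` : the same statement for every local principal ideal domain with `2 ≠ 0`
(discrete valuation rings of characteristic `0`, fields of characteristic `≠ 2`).
-/

set_option autoImplicit false

open Polynomial

namespace Fermat.Agent.P3.helper22

/-- `[ALG]` for a local principal ideal domain with `2 ≠ 0`, in the vocabulary of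
`Fermat.Agent.P3.Defs`. -/
theorem alg_pid (𝒪 : Type) [CommRing 𝒪] [IsDomain 𝒪] [IsPrincipalIdealRing 𝒪] [IsLocalRing 𝒪]
    (h2 : (2 : 𝒪) ≠ 0)
    (L : Type) [AddCommGroup L] [Module 𝒪 L] [Module.Free 𝒪 L] [Module.Finite 𝒪 L]
    [Nontrivial L] (r : Fermat.Agent.P3.GQ →* Module.End 𝒪 L)
    (hr : GaloisActionIsAdicContinuous 𝒪 r)
    (t : Fermat.Agent.P3.GQ → 𝒪) (d : Fermat.Agent.P3.GQ →* 𝒪ˣ)
    (hd : Fermat.Agent.P3.IsAdicContinuousChar d) (hq : Fermat.Agent.P3.QuadraticRel r t d)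
    (c : Fermat.Agent.P3.GQ) (hc : c * c = 1) (hdc : (d c : 𝒪) = -1) :
    ∃ ρ : GaloisRepAdic 𝒪,
      (∀ s : Fermat.Agent.P3.GQ,
        LinearMap.charpoly (ρ.ρ s) = X ^ 2 - C (t s) * X + C (d s : 𝒪)) ∧
      (∀ σ : Fermat.Agent.P3.GQ, (∀ s : Fermat.Agent.P3.GQ, t (σ * s) = t s) → d σ = 1 →
        ρ.ρ σ = 1) := by
  let d' : GQ →* 𝒪 := (Units.coeHom 𝒪).comp d
  have hd'apply : ∀ σ, d' σ = (d σ : 𝒪) := fun _ => rfl
  obtain ⟨ρ, h1, h3⟩ := exists_galoisRepAdic_of_quadratic_trace 𝒪 L h2 r hr t d'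
    (fun n => hd n) (fun σ => hq σ) c hc hdc
  refine ⟨ρ, fun s => h1 s, fun σ hσ hdσ => h3 σ hσ ?_⟩
  rw [hd'apply, hdσ, Units.val_one]

/-- **[ALG]** `AlgStatement` of BLUEPRINT P3 v1, verbatim. -/
theorem alg : Fermat.Agent.P3.AlgStatement := by
  intro 𝒪 _ _ _ _ L _ _ _ _ _ r hr t d hd hq c hc hdc
  exact alg_pid 𝒪 two_ne_zero L r hr t d hd hq c hc hdc

end Fermat.Agent.P3.helper22
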