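import Fermat.Agent.P3.Interface

/-!
# P3 [PSEUDO] / [PSEUDO-U] (helper22): the central trace

For a representation `r` of `G_ℚ` on a finite free module `L` over a noetherian local ring `R`
and a character `d`, put `τ s = r s + d s • r s⁻¹`.  Then `r s ^ 2 - τ s * r s + d s = 0` for
ALL `s` (trivially).  If `B ⊆ End_R L` is a subalgebra and, at every Frobenius lift `φ` at a
prime `ℓ ∉ Bad`, `d φ = ℓ` and `r φ ^ 2 - a * r φ + ℓ = 0` for some `a ∈ B` commuting with `r φ`,
then (weak Chebotarev + continuity + Krull's intersection theorem) `τ s ∈ B` for all `s`.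

* `centralTrace_mem` : the abstract statement.
* `exists_scalar_trace` : `B = R` (scalars), the shape of `PseudoStatement`.
-/

set_option autoImplicit false

namespace Fermat.Agent.P3.helper22

open IsLocalRing

section Small

variable {R : Type*} [CommRing R] {L : Type*} [AddCommGroup L] [Module R L]

/-- the endomorphisms with image in `I • L` -/
def smallEnd (I : Ideal R) : Submodule R (Module.End R L) where
  carrier := {f | ∀ v, f v ∈ I • (⊤ : Submodule R L)}
  add_mem' := fun {f g} hf hg v => by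
    rw [LinearMap.add_apply]; exact Submodule.add_mem _ (hf v) (hg v)
  zero_mem' := fun v => by rw [LinearMap.zero_apply]; exact Submodule.zero_mem _
  smul_mem' := fun a f hf v => by
    rw [LinearMap.smul_apply]; exact Submodule.smul_mem _ _ (hf v)

theorem mem_smallEnd {I : Ideal R} {f : Module.End R L} :
    f ∈ smallEnd I ↔ ∀ v, f v ∈ I • (⊤ : Submodule R L) := Iff.rfl

theorem apply_mem_smul_top (I : Ideal R) (g : Module.End R L) {x : L}
    (hx : x ∈ I • (⊤ : Submodule R L)) : g x ∈ I • (⊤ : Submodule R L) := by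
  have h : (I • (⊤ : Submodule R L)).map g ≤ I • (⊤ : Submodule R L) := by
    rw [Submodule.map_smul'']
    exact Submodule.smul_mono le_rfl le_top
  exact h (Submodule.mem_map_of_mem hx)

theorem mul_mem_smallEnd_left {I : Ideal R} (g : Module.End R L) {f : Module.End R L}
    (hf : f ∈ smallEnd I) : g * f ∈ smallEnd I := fun v => by
  rw [Module.End.mul_apply]; exact apply_mem_smul_top I g (hf v)

theorem mul_mem_smallEnd_right {I : Ideal R} (g : Module.End R L) {f : Module.End R L}
    (hf : f ∈ smallEnd I) : f * g ∈ smallEnd I := fun v => by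
  rw [Module.End.mul_apply]; exact hf (g v)

theorem smul_mem_smallEnd {I : Ideal R} {a : R} (ha : a ∈ I) (f : Module.End R L) :
    a • f ∈ smallEnd I := fun v => by
  rw [LinearMap.smul_apply]; exact Submodule.smul_mem_smul ha Submodule.mem_top

theorem smallEnd_le_smul_top [Module.Free R L] [Module.Finite R L] (I : Ideal R) :
    (smallEnd I : Submodule R (Module.End R L)) ≤ I • ⊤ := by
  classical
  intro f hf
  let b := Module.Free.chooseBasis R L
  have hsum : f = ∑ i, (LinearMap.smulRightₗ (b.coord i) : L →ₗ[R] Module.End R L) (f (b i)) := by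
    apply b.ext
    intro j
    rw [LinearMap.sum_apply]
    simp only [LinearMap.smulRightₗ_apply, LinearMap.smulRight_apply, Module.Basis.coord_apply,
      Module.Basis.repr_self]
    rw [Finset.sum_eq_single j]
    · simp
    · intro i _ hij
      rw [Finsupp.single_eq_of_ne hij, zero_smul]
    · intro h; exact absurd (Finset.mem_univ j) h
  rw [hsum]
  refine Submodule.sum_mem _ fun i _ => ?_
  have h : (I • (⊤ : Submodule R L)).map
      (LinearMap.smulRightₗ (b.coord i) : L →ₗ[R] Module.End R L) ≤ I • ⊤ := by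
    rw [Submodule.map_smul'']
    exact Submodule.smul_mono le_rfl le_top
  exact h (Submodule.mem_map_of_mem (hf (b i)))

/-- finitely generated submodules of `End L` are closed (Krull's intersection theorem) -/
theorem mem_of_forall_exists_sub_mem_smallEnd [IsLocalRing R] [IsNoetherianRing R]
    [Module.Free R L] [Module.Finite R L] (B : Submodule R (Module.End R L))
    (x : Module.End R L)
    (h : ∀ n : ℕ, ∃ b ∈ B, x - b ∈ smallEnd (maximalIdeal R ^ n)) : x ∈ B := by
  have hbot := Ideal.iInf_pow_smul_eq_bot_of_isLocalRing (R := R) (M := Module.End R L ⧸ B)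
    (maximalIdeal R) Ideal.IsPrime.ne_top'
  have hx : B.mkQ x ∈ (⨅ i : ℕ, maximalIdeal R ^ i • ⊤ : Submodule R (Module.End R L ⧸ B)) := by
    rw [Submodule.mem_iInf]
    intro n
    obtain ⟨b, hb, hxb⟩ := h n
    have h1 : B.mkQ x = B.mkQ (x - b) := by
      rw [map_sub, Submodule.mkQ_apply, Submodule.mkQ_apply,
        (Submodule.Quotient.mk_eq_zero B).mpr hb, sub_zero]
    rw [h1]
    have h2 : (maximalIdeal R ^ n • (⊤ : Submodule R (Module.End R L))).map B.mkQ
        ≤ maximalIdeal R ^ n • ⊤ := by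
      rw [Submodule.map_smul'']
      exact Submodule.smul_mono le_rfl le_top
    exact h2 (Submodule.mem_map_of_mem (smallEnd_le_smul_top _ hxb))
  rw [hbot, Submodule.mem_bot, Submodule.mkQ_apply] at hx
  exact (Submodule.Quotient.mk_eq_zero B).mp hx

end Small


section Dickson

variable {R : Type*} [CommRing R] {E : Type*} [Ring E] [Algebra R E]

/-- the Dickson step: power sums of two commuting elements with sum in `B` and scalar product -/
theorem pow_add_pow_mem (B : Subalgebra R E) {y y' : E} (c : R) (hsum : y + y' ∈ B)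
    (hprod : y * y' = c • (1 : E)) (hcomm : Commute y y') (j : ℕ) : y ^ j + y' ^ j ∈ B := by
  have hprod' : y' * y = c • (1 : E) := by rw [← hcomm.eq, hprod]
  have key : ∀ j : ℕ, y ^ j + y' ^ j ∈ B ∧ y ^ (j + 1) + y' ^ (j + 1) ∈ B := by
    intro j
    induction j with
    | zero =>
      refine ⟨?_, ?_⟩
      · rw [pow_zero, pow_zero]; exact B.add_mem B.one_mem B.one_mem
      · rw [zero_add, pow_one, pow_one]; exact hsum
    | succ j ih =>
      refine ⟨ih.2, ?_⟩
      have e : y ^ (j + 1 + 1) + y' ^ (j + 1 + 1)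
          = (y + y') * (y ^ (j + 1) + y' ^ (j + 1)) - c • (y ^ j + y' ^ j) := by
        have e1 : y * y' ^ (j + 1) = c • y' ^ j := by
          rw [pow_succ', ← mul_assoc, hprod, smul_mul_assoc, one_mul]
        have e2 : y' * y ^ (j + 1) = c • y ^ j := by
          rw [pow_succ', ← mul_assoc, hprod', smul_mul_assoc, one_mul]
        rw [add_mul, mul_add, mul_add, e1, e2, pow_succ' y (j + 1), pow_succ' y' (j + 1),
          smul_add]
        abel
      rw [e]
      exact B.sub_mem (B.mul_mem hsum ih.2) (B.smul_mem ih.1 c)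
  exact (key j).1

end Dickson

section Core

/-- **The central trace lies in `B`** (weak Chebotarev + Dickson + Krull). -/
theorem centralTrace_mem (hcheb : ChebStatement)
    {R : Type} [CommRing R] [IsLocalRing R] [IsNoetherianRing R]
    {L : Type} [AddCommGroup L] [Module R L] [Module.Free R L] [Module.Finite R L]
    (r : GQ →* Module.End R L) (hr : GaloisActionIsAdicContinuous R r)
    (d : GQ →* Rˣ) (hd : Fermat.Agent.P3.IsAdicContinuousChar d)
    (B : Subalgebra R (Module.End R L)) (Bad : Finset ℕ)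
    (hfrob : ∀ ℓ : ℕ, ℓ.Prime → ℓ ∉ Bad → ∀ A : ValuationSubring Qbar, A.LiesOverPrime ℓ →
      ∀ φ : GQ, A.IsFrobeniusAt φ ℓ → (d φ : R) = (ℓ : R) ∧
        ∃ a ∈ B, Commute a (r φ) ∧
          r φ * r φ - a * r φ + (ℓ : R) • (1 : Module.End R L) = 0)
    (s : GQ) : r s + (d s : R) • r s⁻¹ ∈ B := by
  classical
  refine mem_of_forall_exists_sub_mem_smallEnd (Subalgebra.toSubmodule B) _ fun n => ?_
  obtain ⟨L₁, hL₁, h1⟩ := hr n
  obtain ⟨L₂, hL₂, h2⟩ := hd n
  have hK : FiniteDimensional ℚ (L₁ ⊔ L₂ : IntermediateField ℚ Qbar) :=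
    IntermediateField.finiteDimensional_sup L₁ L₂
  obtain ⟨ℓ, hℓ, hℓBad, A, hA, φ, hφ, j, hj⟩ := hcheb (L₁ ⊔ L₂) hK s Bad
  obtain ⟨hdφ, a, haB, hcomm, hrel⟩ := hfrob ℓ hℓ hℓBad A hA φ hφ
  -- the Dickson step
  have hinv : r φ⁻¹ * r φ = 1 := by rw [← map_mul, inv_mul_cancel, map_one]
  have hprod : r φ * (a - r φ) = (ℓ : R) • (1 : Module.End R L) := by
    have : r φ * (a - r φ) = (ℓ : R) • (1 : Module.End R L)
        - (r φ * r φ - a * r φ + (ℓ : R) • (1 : Module.End R L)) := by
      rw [mul_sub, ← hcomm.eq]; abel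
    rw [this, hrel, sub_zero]
  have hcomm' : Commute (r φ) (a - r φ) :=
    (hcomm.symm).sub_right (Commute.refl _)
  have hy' : a - r φ = (ℓ : R) • r φ⁻¹ := by
    have := congrArg (fun f => r φ⁻¹ * f) hprod
    simp only [← mul_assoc, hinv, one_mul, mul_smul_comm, mul_one] at this
    exact this
  have hpj : r φ ^ j + (a - r φ) ^ j ∈ B :=
    pow_add_pow_mem B (ℓ : R) (by rw [add_sub_cancel]; exact haB) hprod hcomm' j
  -- `φ ^ j = s * g` with `g` fixing `L₁ ⊔ L₂`
  obtain ⟨g, hg⟩ : ∃ g : GQ, g = s⁻¹ * φ ^ j := ⟨_, rfl⟩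
  have hφj : φ ^ j = s * g := by rw [hg, mul_inv_cancel_left]
  have hgfix : ∀ x ∈ (L₁ ⊔ L₂ : IntermediateField ℚ Qbar), g x = x := by
    intro x hx
    rw [hg, AlgEquiv.mul_apply, hj x hx, ← AlgEquiv.mul_apply, inv_mul_cancel,
      AlgEquiv.one_apply]
  have hginvfix : ∀ x ∈ (L₁ ⊔ L₂ : IntermediateField ℚ Qbar), g⁻¹ x = x := by
    intro x hx
    have := hgfix x hx
    calc g⁻¹ x = g⁻¹ (g x) := by rw [this]
      _ = x := by rw [← AlgEquiv.mul_apply, inv_mul_cancel, AlgEquiv.one_apply]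
  have hsm1 : ∀ τ : GQ, (∀ x ∈ (L₁ ⊔ L₂ : IntermediateField ℚ Qbar), τ x = x) →
      (1 - r τ : Module.End R L) ∈ smallEnd (maximalIdeal R ^ n) := by
    intro τ hτ v
    have := h1 τ (fun x hx => hτ x ((le_sup_left : L₁ ≤ L₁ ⊔ L₂) hx)) v
    rw [LinearMap.sub_apply, Module.End.one_apply, ← neg_sub]
    exact Submodule.neg_mem _ this
  have hsm2 : (1 - (d g : R)) ∈ maximalIdeal R ^ n := by
    have := h2 g (fun x hx => hgfix x ((le_sup_right : L₂ ≤ L₁ ⊔ L₂) hx))
    rw [← neg_sub]
    exact Ideal.neg_mem_iff _ |>.mpr this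
  refine ⟨r φ ^ j + (a - r φ) ^ j, hpj, ?_⟩
  -- the difference
  have e1 : r φ ^ j = r s * r g := by rw [← map_pow, hφj, map_mul]
  have e2 : (a - r φ) ^ j = ((d s : R) * (d g : R)) • (r g⁻¹ * r s⁻¹) := by
    rw [hy', smul_pow, ← map_pow, inv_pow, hφj, mul_inv_rev, map_mul]
    congr 1
    have : ((ℓ : R)) ^ j = ((d (φ ^ j) : Rˣ) : R) := by
      rw [map_pow, Units.val_pow_eq_pow_val, hdφ]
    rw [this, hφj, map_mul, Units.val_mul]
  have e : r s + (d s : R) • r s⁻¹ - (r φ ^ j + (a - r φ) ^ j)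
      = r s * (1 - r g) + (d s : R) • ((1 - r g⁻¹) * r s⁻¹)
        + (d s : R) • ((1 - (d g : R)) • (r g⁻¹ * r s⁻¹)) := by
    rw [e1, e2, mul_smul]
    simp only [mul_sub, sub_mul, mul_one, one_mul, smul_sub, sub_smul, one_smul]
    abel
  rw [e]
  refine Submodule.add_mem _ (Submodule.add_mem _ ?_ ?_) ?_
  · exact mul_mem_smallEnd_left _ (hsm1 g hgfix)
  · exact Submodule.smul_mem _ _ (mul_mem_smallEnd_right _ (hsm1 g⁻¹ hginvfix))
  · exact Submodule.smul_mem _ _ (smul_mem_smallEnd hsm2 _)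

end Core


section Scalar

variable {R : Type} [CommRing R] {L : Type} [AddCommGroup L] [Module R L]

/-- the central trace satisfies the quadratic relation, by definition -/
theorem quad_of_eq (r : GQ →* Module.End R L) (d : GQ →* Rˣ) (s : GQ) (x : Module.End R L)
    (hx : x = r s + (d s : R) • r s⁻¹) :
    r s * r s - x * r s + (d s : R) • (1 : Module.End R L) = 0 := by
  have hinv : r s⁻¹ * r s = 1 := by rw [← map_mul, inv_mul_cancel, map_one]
  rw [hx, add_mul, smul_mul_assoc, hinv]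
  abel

/-- the central trace is invariant under `σ` with `r σ = 1`, `d σ = 1` -/
theorem centralTrace_mul_eq (r : GQ →* Module.End R L) (d : GQ →* Rˣ) {σ : GQ} (hσ : r σ = 1)
    (hdσ : d σ = 1) (s : GQ) :
    r (σ * s) + (d (σ * s) : R) • r (σ * s)⁻¹ = r s + (d s : R) • r s⁻¹ := by
  have hσ' : r σ⁻¹ = 1 := by
    have : r σ⁻¹ * r σ = 1 := by rw [← map_mul, inv_mul_cancel, map_one]
    rwa [hσ, mul_one] at this
  rw [map_mul, map_mul, hσ, hdσ, one_mul, one_mul, mul_inv_rev, map_mul, hσ', mul_one]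

/-- **[PSEUDO], scalar form**: if the Frobenius lifts at the primes `ℓ ∉ Bad` satisfy
`X ^ 2 - a ℓ X + ℓ` on `L` and `d` takes the value `ℓ` on them, then there is `t : G_ℚ → R` with
`t s • 1 = r s + d s • r s⁻¹` for all `s`; in particular the quadratic relation holds for all
`s`, `t` is invariant under every `σ` acting trivially, and `t φ = a ℓ` at Frobenius lifts. -/
theorem exists_scalar_trace (hcheb : ChebStatement) [IsLocalRing R] [IsNoetherianRing R]
    [Module.Free R L] [Module.Finite R L]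
    (r : GQ →* Module.End R L) (hr : GaloisActionIsAdicContinuous R r)
    (d : GQ →* Rˣ) (hd : Fermat.Agent.P3.IsAdicContinuousChar d)
    (Bad : Finset ℕ) (a : ℕ → R)
    (hfrob : ∀ ℓ : ℕ, ℓ.Prime → ℓ ∉ Bad → ∀ A : ValuationSubring Qbar, A.LiesOverPrime ℓ →
      ∀ φ : GQ, A.IsFrobeniusAt φ ℓ → (d φ : R) = (ℓ : R) ∧
        r φ * r φ - a ℓ • r φ + (ℓ : R) • (1 : Module.End R L) = 0) :
    ∃ t : GQ → R, (∀ s, t s • (1 : Module.End R L) = r s + (d s : R) • r s⁻¹) ∧
      Fermat.Agent.P3.QuadraticRel r t d ∧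
      (∀ σ, r σ = 1 → d σ = 1 → ∀ s, t (σ * s) • (1 : Module.End R L)
        = t s • (1 : Module.End R L)) := by
  have hmem : ∀ s, r s + (d s : R) • r s⁻¹ ∈ (⊥ : Subalgebra R (Module.End R L)) := by
    intro s
    refine centralTrace_mem hcheb r hr d hd ⊥ Bad (fun ℓ hℓ hℓB A hA φ hφ => ?_) s
    obtain ⟨h1, h2⟩ := hfrob ℓ hℓ hℓB A hA φ hφ
    refine ⟨h1, a ℓ • 1, ?_, ?_, ?_⟩
    · exact Subalgebra.smul_mem _ (Subalgebra.one_mem _) _
    · exact (Commute.one_left _).smul_left _
    · rw [smul_mul_assoc, one_mul]; exact h2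
  choose t ht using fun s => Algebra.mem_bot.mp (hmem s)
  have ht' : ∀ s, t s • (1 : Module.End R L) = r s + (d s : R) • r s⁻¹ := fun s => by
    rw [← ht s, Algebra.algebraMap_eq_smul_one]
  refine ⟨t, ht', fun s => ?_, fun σ hσ hdσ s => ?_⟩
  · have := quad_of_eq r d s _ (ht' s)
    rwa [smul_mul_assoc, one_mul] at this
  · rw [ht', ht', centralTrace_mul_eq r d hσ hdσ]

end Scalar

end Fermat.Agent.P3.helper22
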