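import Mathlib

/-!
# P3 [ALG] (helper22), part 3: the lattice cut out by a subspace of the generic fibre

`𝒪` a principal ideal domain with fraction field `K`, `M` a finite free `𝒪`-module, `ι : M → W` a
localisation of `M` at the nonzero elements (e.g. `W = K ⊗ M`), `W₀` a `K`-subspace of `W`.
`lattice ι W₀ = ι ⁻¹ W₀` is a saturated free submodule of `M` with an `𝒪`-basis mapping to a
`K`-basis of `W₀`; matrices and characteristic polynomials of compatible endomorphisms agree.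
-/

set_option autoImplicit false

open Polynomial Module

namespace Fermat.Agent.P3.helper22

section Lattice

variable {𝒪 : Type*} [CommRing 𝒪] [IsDomain 𝒪] [IsPrincipalIdealRing 𝒪]
  {K : Type*} [Field K] [Algebra 𝒪 K] [IsFractionRing 𝒪 K]
  {M : Type*} [AddCommGroup M] [Module 𝒪 M] [Module.Free 𝒪 M] [Module.Finite 𝒪 M]
  {W : Type*} [AddCommGroup W] [Module 𝒪 W] [Module K W] [IsScalarTower 𝒪 K W]
  (ι : M →ₗ[𝒪] W) [IsLocalizedModule (nonZeroDivisors 𝒪) ι]

/-- the lattice `ι ⁻¹ W₀` -/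
def lattice (W₀ : Submodule K W) : Submodule 𝒪 M := (W₀.restrictScalars 𝒪).comap ι

variable {ι}

@[simp]
theorem mem_lattice {W₀ : Submodule K W} {m : M} : m ∈ lattice ι W₀ ↔ ι m ∈ W₀ := Iff.rfl

theorem algebraMap_smul_eq (a : 𝒪) (w : W) : (algebraMap 𝒪 K a) • w = a • w :=
  algebraMap_smul K a w

/-- the lattice is saturated -/
theorem lattice_saturated {W₀ : Submodule K W} {a : 𝒪} (ha : a ≠ 0) {m : M}
    (h : a • m ∈ lattice ι W₀) : m ∈ lattice ι W₀ := by
  rw [mem_lattice, map_smul] at h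
  have e : a • ι m = algebraMap 𝒪 K a • ι m := (algebraMap_smul_eq _ _).symm
  rw [e] at h
  have ha' : algebraMap 𝒪 K a ≠ 0 := by
    rwa [Ne, IsFractionRing.to_map_eq_zero_iff]
  have := W₀.smul_mem (algebraMap 𝒪 K a)⁻¹ h
  rwa [smul_smul, inv_mul_cancel₀ ha', one_smul] at this

variable (ι) in
theorem lattice_ι_injective : Function.Injective ι := by
  rw [injective_iff_map_eq_zero]
  intro m hm
  obtain ⟨s, hs⟩ := (IsLocalizedModule.eq_zero_iff (nonZeroDivisors 𝒪) ι).mp hm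
  rcases smul_eq_zero.mp hs with h | h
  · exact absurd h (nonZeroDivisors.coe_ne_zero s)
  · exact h

/-- an `𝒪`-basis of the lattice mapping to a `K`-basis of the subspace -/
theorem exists_bases (W₀ : Submodule K W) :
    ∃ (n : ℕ) (b : Basis (Fin n) 𝒪 (lattice ι W₀)) (bK : Basis (Fin n) K W₀),
      ∀ i, (bK i : W) = ι (b i : M) := by
  classical
  set Λ := lattice ι W₀ with hΛ
  let b : Basis (Fin (finrank 𝒪 Λ)) 𝒪 Λ := Module.finBasis 𝒪 Λ
  -- the images
  let v : Fin (finrank 𝒪 Λ) → W₀ := fun i => ⟨ι (b i : M), (b i).2⟩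
  have hinj : Function.Injective (ι.comp Λ.subtype) :=
    (lattice_ι_injective ι).comp Subtype.val_injective
  have hli𝒪 : LinearIndependent 𝒪 (fun i => ι (b i : M)) := by
    have := b.linearIndependent.map' (ι.comp Λ.subtype) (LinearMap.ker_eq_bot.mpr hinj)
    exact this
  have hliK : LinearIndependent K (fun i => ι (b i : M)) :=
    LinearIndependent.localization K (nonZeroDivisors 𝒪) hli𝒪
  have hli : LinearIndependent K v := by
    have : (fun i => ι (b i : M)) = W₀.subtype ∘ v := rfl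
    rw [this] at hliK
    exact LinearIndependent.of_comp _ hliK
  have hsp : ⊤ ≤ Submodule.span K (Set.range v) := by
    rintro ⟨w, hw⟩ -
    obtain ⟨⟨m, s⟩, hms⟩ := IsLocalizedModule.surj (nonZeroDivisors 𝒪) ι w
    have hs0 : (s : 𝒪) ≠ 0 := nonZeroDivisors.coe_ne_zero s
    have hs0' : algebraMap 𝒪 K (s : 𝒪) ≠ 0 := by
      rwa [Ne, IsFractionRing.to_map_eq_zero_iff]
    have hmΛ : m ∈ Λ := by
      rw [hΛ, mem_lattice, ← hms]
      exact (W₀.restrictScalars 𝒪).smul_mem _ hw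
    have hsum := b.sum_repr ⟨m, hmΛ⟩
    have hsum' : ι m = ∑ i, (b.repr ⟨m, hmΛ⟩ i) • ι (b i : M) := by
      have := congrArg (fun x : Λ => ι (x : M)) hsum
      simp only [Submodule.coe_sum, Submodule.coe_smul, map_sum, map_smul] at this
      exact this.symm
    have hιm : ι m ∈ Submodule.span K (Set.range (fun i => ι (b i : M))) := by
      rw [hsum']
      refine Submodule.sum_mem _ fun i _ => ?_
      have e : (b.repr ⟨m, hmΛ⟩ i) • ι (b i : M)
          = algebraMap 𝒪 K (b.repr ⟨m, hmΛ⟩ i) • ι (b i : M) := (algebraMap_smul_eq _ _).symm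
      rw [e]
      exact Submodule.smul_mem _ _ (Submodule.subset_span ⟨i, rfl⟩)
    have hw2 : w = (algebraMap 𝒪 K (s : 𝒪))⁻¹ • ι m := by
      rw [← hms]
      change w = (algebraMap 𝒪 K (s : 𝒪))⁻¹ • ((s : 𝒪) • w)
      have e : (s : 𝒪) • w = algebraMap 𝒪 K (s : 𝒪) • w := (algebraMap_smul_eq _ _).symm
      rw [e, smul_smul, inv_mul_cancel₀ hs0', one_smul]
    have hw3 : w ∈ Submodule.span K (Set.range (fun i => ι (b i : M))) := by
      rw [hw2]; exact Submodule.smul_mem _ _ hιm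
    have hrange : Set.range (fun i => ι (b i : M)) = W₀.subtype '' Set.range v := by
      rw [← Set.range_comp]; rfl
    rw [hrange, ← Submodule.map_span] at hw3
    obtain ⟨y, hy, hyw⟩ := hw3
    have : y = ⟨w, hw⟩ := Subtype.ext hyw
    rw [← this]; exact hy
  refine ⟨finrank 𝒪 Λ, b, Basis.mk hli hsp, fun i => ?_⟩
  simp [v]

/-- compatibility of matrices -/
theorem toMatrix_restrict_eq {W₀ : Submodule K W} {n : ℕ} (b : Basis (Fin n) 𝒪 (lattice ι W₀))
    (bK : Basis (Fin n) K W₀) (hb : ∀ i, (bK i : W) = ι (b i : M))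
    (f : M →ₗ[𝒪] M) (fK : W →ₗ[K] W) (hf : ∀ m, fK (ι m) = ι (f m))
    (hK : ∀ w ∈ W₀, fK w ∈ W₀) (h𝒪 : ∀ m ∈ lattice ι W₀, f m ∈ lattice ι W₀) :
    LinearMap.toMatrix bK bK (fK.restrict hK)
      = (LinearMap.toMatrix b b (f.restrict h𝒪)).map (algebraMap 𝒪 K) := by
  classical
  ext i j
  rw [Matrix.map_apply, LinearMap.toMatrix_apply, LinearMap.toMatrix_apply]
  have hsum := b.sum_repr (f.restrict h𝒪 (b j))
  have h1 : (fK.restrict hK (bK j) : W₀)
      = ∑ i, (algebraMap 𝒪 K (b.repr (f.restrict h𝒪 (b j)) i)) • bK i := by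
    apply Subtype.ext
    have h2 := congrArg (fun x : lattice ι W₀ => ι (x : M)) hsum
    simp only [Submodule.coe_sum, Submodule.coe_smul, map_sum, map_smul,
      LinearMap.coe_restrict_apply] at h2
    rw [LinearMap.coe_restrict_apply, hb, hf, ← h2, Submodule.coe_sum]
    refine Finset.sum_congr rfl fun i _ => ?_
    rw [Submodule.coe_smul, hb, algebraMap_smul_eq]
  rw [h1, Basis.repr_sum_self]

/-- compatibility of characteristic polynomials -/
theorem charpoly_restrict_map {W₀ : Submodule K W}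
    (f : M →ₗ[𝒪] M) (fK : W →ₗ[K] W) (hf : ∀ m, fK (ι m) = ι (f m))
    (hK : ∀ w ∈ W₀, fK w ∈ W₀) (h𝒪 : ∀ m ∈ lattice ι W₀, f m ∈ lattice ι W₀)
    [Module.Finite K W₀] :
    (f.restrict h𝒪).charpoly.map (algebraMap 𝒪 K) = (fK.restrict hK).charpoly := by
  classical
  obtain ⟨n, b, bK, hb⟩ := exists_bases (ι := ι) W₀
  rw [← LinearMap.charpoly_toMatrix (f.restrict h𝒪) b,
    ← LinearMap.charpoly_toMatrix (fK.restrict hK) bK,
    toMatrix_restrict_eq b bK hb f fK hf hK h𝒪, Matrix.charpoly_map]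

/-- the rank of the lattice -/
theorem finrank_lattice (W₀ : Submodule K W) :
    finrank 𝒪 (lattice ι W₀) = finrank K W₀ := by
  obtain ⟨n, b, bK, -⟩ := exists_bases (ι := ι) W₀
  rw [finrank_eq_card_basis b, finrank_eq_card_basis bK]

/-- stability of the lattice -/
theorem lattice_stable {W₀ : Submodule K W} (f : M →ₗ[𝒪] M) (fK : W →ₗ[K] W)
    (hf : ∀ m, fK (ι m) = ι (f m)) (hK : ∀ w ∈ W₀, fK w ∈ W₀) :
    ∀ m ∈ lattice ι W₀, f m ∈ lattice ι W₀ := by
  intro m hm
  rw [mem_lattice, ← hf]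
  exact hK _ hm

end Lattice

end Fermat.Agent.P3.helper22
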