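import Mathlib

/-!
# P3 [ALG] (helper22), part 1: the algebra of a quadratic relation

Let `R : G →* End_K(W)` be a representation of a group such that every `R σ` satisfies a
quadratic relation `R σ ^ 2 - t σ • R σ + d σ = 0` with `d` multiplicative, and let `c ∈ G` be an
involution with `d c = -1`, `t c = 0` ("complex conjugation").  Then:

* `polarized_of_quad` : the polarised Cayley-Hamilton identity;
* `QuadData.E1_mul_mul_E1`, `QuadData.E2_mul_mul_E2` : `E_i S E_i` is a scalar multiple of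
  `E_i`, where `E₁ = 1 + C`, `E₂ = 1 - C`;
* (in `helper22_QuadMin.lean`) a minimal nonzero stable subspace has dimension `1` or `2` and in
  the second case the characteristic polynomial is `X ^ 2 - t σ X + d σ` exactly.

Everything is pure algebra (Mathlib only).
-/

set_option autoImplicit false

namespace Fermat.Agent.P3.helper22

section Ring

variable {K : Type*} [CommRing K] {A : Type*} [Ring A] [Algebra K A]

/-- the "complement" identity `(a - X) X = da` coming from a quadratic relation -/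
theorem quad_compl {a da : K} {X : A} (hX : X * X - a • X + da • (1 : A) = 0) :
    (a • (1 : A) - X) * X = da • (1 : A) := by
  have h1 : (a • (1 : A) - X) * X = a • X - X * X := by
    rw [sub_mul, smul_mul_assoc, one_mul]
  have h2 : a • X - X * X = da • (1 : A) - (X * X - a • X + da • (1 : A)) := by abel
  rw [h1, h2, hX, sub_zero]

/-- polarised Cayley-Hamilton identity from the three quadratic relations for `X`, `Y`, `X * Y` -/
theorem polarized_of_quad {a b s da db : K} {X Y : A}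
    (hX : X * X - a • X + da • (1 : A) = 0) (hY : Y * Y - b • Y + db • (1 : A) = 0)
    (hXY : (X * Y) * (X * Y) - s • (X * Y) + (da * db) • (1 : A) = 0)
    (hunit : IsUnit (X * Y)) :
    X * Y + Y * X = a • Y + b • X + (s - a * b) • (1 : A) := by
  have h1 := quad_compl hX
  have h2 := quad_compl hY
  have h3 := quad_compl hXY
  have key : ((b • (1 : A) - Y) * (a • (1 : A) - X) - (s • (1 : A) - X * Y)) * (X * Y) = 0 := by
    have e1 : (b • (1 : A) - Y) * (a • (1 : A) - X) * (X * Y)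
        = (b • (1 : A) - Y) * (((a • (1 : A) - X) * X) * Y) := by
      simp only [mul_assoc]
    rw [sub_mul, e1, h1, h3, smul_mul_assoc, one_mul, mul_smul_comm, h2, smul_smul, sub_self]
  have h4 := hunit.mul_left_eq_zero.mp key
  have h5 : (b • (1 : A) - Y) * (a • (1 : A) - X)
      = (a * b) • (1 : A) - b • X - a • Y + Y * X := by
    simp only [sub_mul, mul_sub, smul_mul_assoc, one_mul, mul_smul_comm, mul_one, smul_sub,
      smul_smul]
    abel
  rw [h5] at h4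
  have h6 : (s - a * b) • (1 : A) = s • (1 : A) - (a * b) • (1 : A) := sub_smul _ _ _
  rw [h6]
  have h7 : X * Y + Y * X = a • Y + b • X + (s • (1 : A) - (a * b) • (1 : A))
      + ((a * b) • (1 : A) - b • X - a • Y + Y * X - (s • (1 : A) - X * Y)) := by abel
  rw [h7, h4, add_zero]

end Ring

/-- A representation all of whose elements satisfy a quadratic relation with multiplicative
constant term, together with an involution `c` with `d c = -1` and `t c = 0`. -/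
structure QuadData (G : Type*) [Group G] (K : Type*) [CommRing K] (W : Type*) [AddCommGroup W]
    [Module K W] where
  /-- the representation -/
  R : G →* Module.End K W
  /-- the "trace" -/
  t : G → K
  /-- the "determinant" -/
  d : G → K
  quad : ∀ σ, R σ * R σ - t σ • R σ + d σ • (1 : Module.End K W) = 0
  d_mul : ∀ σ τ, d (σ * τ) = d σ * d τ
  /-- the involution -/
  c : G
  c_sq : c * c = 1
  d_c : d c = -1
  t_c : t c = 0

namespace QuadData

variable {G : Type*} [Group G] {K : Type*} [CommRing K] {W : Type*} [AddCommGroup W]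
  [Module K W] (Q : QuadData G K W)

/-- the image of the involution -/
def C : Module.End K W := Q.R Q.c

/-- twice the projector onto the `+1`-eigenspace of `C` -/
def E1 : Module.End K W := 1 + Q.C

/-- twice the projector onto the `-1`-eigenspace of `C` -/
def E2 : Module.End K W := 1 - Q.C

theorem C_mul_C : Q.C * Q.C = 1 := by
  rw [C, ← map_mul, Q.c_sq, map_one]

theorem isUnit_R (σ : G) : IsUnit (Q.R σ) :=
  ⟨⟨Q.R σ, Q.R σ⁻¹, by rw [← map_mul, mul_inv_cancel, map_one],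
    by rw [← map_mul, inv_mul_cancel, map_one]⟩, rfl⟩

/-- `C S + S C = t(σ) C + t(cσ)` -/
theorem C_mul_add_mul_C (σ : G) :
    Q.C * Q.R σ + Q.R σ * Q.C = Q.t σ • Q.C + Q.t (Q.c * σ) • (1 : Module.End K W) := by
  have hXY : (Q.C * Q.R σ) * (Q.C * Q.R σ) - Q.t (Q.c * σ) • (Q.C * Q.R σ)
      + (Q.d Q.c * Q.d σ) • (1 : Module.End K W) = 0 := by
    have := Q.quad (Q.c * σ)
    rw [map_mul, Q.d_mul] at this
    exact this
  have hu : IsUnit (Q.C * Q.R σ) := by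
    have := Q.isUnit_R (Q.c * σ)
    rwa [map_mul] at this
  have h := polarized_of_quad (Q.quad Q.c) (Q.quad σ) hXY hu
  rw [Q.t_c, zero_smul, zero_add, zero_mul, sub_zero] at h
  exact h

theorem E1_add_E2 : Q.E1 + Q.E2 = (2 : K) • (1 : Module.End K W) := by
  rw [E1, E2, two_smul]; abel

theorem C_mul_E1 : Q.C * Q.E1 = Q.E1 := by
  rw [E1, mul_add, mul_one, Q.C_mul_C, add_comm]

theorem E1_mul_C : Q.E1 * Q.C = Q.E1 := by
  rw [E1, add_mul, one_mul, Q.C_mul_C, add_comm]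

theorem C_mul_E2 : Q.C * Q.E2 = -Q.E2 := by
  rw [E2, mul_sub, mul_one, Q.C_mul_C, neg_sub]

theorem E2_mul_C : Q.E2 * Q.C = -Q.E2 := by
  rw [E2, sub_mul, one_mul, Q.C_mul_C, neg_sub]

theorem E1_mul_E1 : Q.E1 * Q.E1 = (2 : K) • Q.E1 := by
  show (1 + Q.C) * Q.E1 = _
  rw [add_mul, one_mul, Q.C_mul_E1, two_smul]

theorem E2_mul_E2 : Q.E2 * Q.E2 = (2 : K) • Q.E2 := by
  show (1 - Q.C) * Q.E2 = _
  rw [sub_mul, one_mul, Q.C_mul_E2, sub_neg_eq_add, two_smul]

theorem E1_mul_E2 : Q.E1 * Q.E2 = 0 := by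
  show (1 + Q.C) * Q.E2 = _
  rw [add_mul, one_mul, Q.C_mul_E2, add_neg_cancel]

theorem E2_mul_E1 : Q.E2 * Q.E1 = 0 := by
  show (1 - Q.C) * Q.E1 = _
  rw [sub_mul, one_mul, Q.C_mul_E1, sub_self]

/-- `E₁ S E₁ = (t(σ) + t(cσ)) E₁` -/
theorem E1_mul_mul_E1 (σ : G) :
    Q.E1 * Q.R σ * Q.E1 = (Q.t σ + Q.t (Q.c * σ)) • Q.E1 := by
  have h := Q.C_mul_add_mul_C σ
  -- `C S C = t C^2 + t_c C - C^2 S = t + t_c C - S`
  have h2 : Q.C * Q.R σ * Q.C = Q.t σ • (1 : Module.End K W) + Q.t (Q.c * σ) • Q.C - Q.R σ := by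
    have e : Q.C * Q.R σ * Q.C = Q.C * (Q.C * Q.R σ + Q.R σ * Q.C) - Q.C * Q.C * Q.R σ := by
      rw [mul_add, mul_assoc, mul_assoc]; abel
    rw [e, h, Q.C_mul_C, one_mul, mul_add, mul_smul_comm, mul_smul_comm, Q.C_mul_C, mul_one]
  have e : Q.E1 * Q.R σ * Q.E1
      = Q.R σ + (Q.C * Q.R σ + Q.R σ * Q.C) + Q.C * Q.R σ * Q.C := by
    simp only [E1, add_mul, mul_add, one_mul, mul_one]
    abel
  rw [e, h, h2, E1, smul_add, add_smul, add_smul]
  abel

/-- `E₂ S E₂ = (t(σ) - t(cσ)) E₂` -/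
theorem E2_mul_mul_E2 (σ : G) :
    Q.E2 * Q.R σ * Q.E2 = (Q.t σ - Q.t (Q.c * σ)) • Q.E2 := by
  have h := Q.C_mul_add_mul_C σ
  have h2 : Q.C * Q.R σ * Q.C = Q.t σ • (1 : Module.End K W) + Q.t (Q.c * σ) • Q.C - Q.R σ := by
    have e : Q.C * Q.R σ * Q.C = Q.C * (Q.C * Q.R σ + Q.R σ * Q.C) - Q.C * Q.C * Q.R σ := by
      rw [mul_add, mul_assoc, mul_assoc]; abel
    rw [e, h, Q.C_mul_C, one_mul, mul_add, mul_smul_comm, mul_smul_comm, Q.C_mul_C, mul_one]
  have e : Q.E2 * Q.R σ * Q.E2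
      = Q.R σ - (Q.C * Q.R σ + Q.R σ * Q.C) + Q.C * Q.R σ * Q.C := by
    simp only [E2, sub_mul, mul_sub, one_mul, mul_one]
    abel
  rw [e, h, h2, E2, smul_sub, sub_smul, sub_smul]
  abel

/-- the scalar `x(τ, σ)` with `E₁ R(τ) E₂ R(σ) E₁ = x(τ,σ) E₁` -/
def x12 (τ σ : G) : K :=
  2 * (Q.t (τ * σ) + Q.t (Q.c * (τ * σ))) - (Q.t τ + Q.t (Q.c * τ)) * (Q.t σ + Q.t (Q.c * σ))

/-- the scalar `x(τ, σ)` with `E₂ R(τ) E₁ R(σ) E₂ = x'(τ,σ) E₂` -/
def x21 (τ σ : G) : K :=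
  2 * (Q.t (τ * σ) - Q.t (Q.c * (τ * σ))) - (Q.t τ - Q.t (Q.c * τ)) * (Q.t σ - Q.t (Q.c * σ))

theorem E1_mul_E2_mul_E1 (τ σ : G) :
    Q.E1 * Q.R τ * Q.E2 * Q.R σ * Q.E1 = Q.x12 τ σ • Q.E1 := by
  have hE2 : Q.E2 = (2 : K) • (1 : Module.End K W) - Q.E1 := by
    rw [← Q.E1_add_E2]; abel
  have e : Q.E1 * Q.R τ * Q.E2 * Q.R σ * Q.E1
      = (2 : K) • (Q.E1 * Q.R (τ * σ) * Q.E1)
        - (Q.E1 * Q.R τ * Q.E1) * (Q.R σ * Q.E1) := by
    rw [hE2, map_mul]
    simp only [mul_sub, sub_mul, mul_smul_comm, smul_mul_assoc, mul_one, mul_assoc]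
  have e2 : (Q.E1 * Q.R τ * Q.E1) * (Q.R σ * Q.E1)
      = (Q.t τ + Q.t (Q.c * τ)) • (Q.E1 * Q.R σ * Q.E1) := by
    rw [Q.E1_mul_mul_E1, smul_mul_assoc, mul_assoc]
  rw [e, e2, Q.E1_mul_mul_E1, Q.E1_mul_mul_E1, smul_smul, smul_smul, ← sub_smul, x12]

theorem E2_mul_E1_mul_E2 (τ σ : G) :
    Q.E2 * Q.R τ * Q.E1 * Q.R σ * Q.E2 = Q.x21 τ σ • Q.E2 := by
  have hE1 : Q.E1 = (2 : K) • (1 : Module.End K W) - Q.E2 := by
    rw [← Q.E1_add_E2]; abel
  have e : Q.E2 * Q.R τ * Q.E1 * Q.R σ * Q.E2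
      = (2 : K) • (Q.E2 * Q.R (τ * σ) * Q.E2)
        - (Q.E2 * Q.R τ * Q.E2) * (Q.R σ * Q.E2) := by
    rw [hE1, map_mul]
    simp only [mul_sub, sub_mul, mul_smul_comm, smul_mul_assoc, mul_one, mul_assoc]
  have e2 : (Q.E2 * Q.R τ * Q.E2) * (Q.R σ * Q.E2)
      = (Q.t τ - Q.t (Q.c * τ)) • (Q.E2 * Q.R σ * Q.E2) := by
    rw [Q.E2_mul_mul_E2, smul_mul_assoc, mul_assoc]
  rw [e, e2, Q.E2_mul_mul_E2, Q.E2_mul_mul_E2, smul_smul, smul_smul, ← sub_smul, x21]

end QuadData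

end Fermat.Agent.P3.helper22
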