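import Fermat.Agent.P3.helper22_QuadAlg

/-!
# P3 [ALG] (helper22), part 2: minimal stable subspaces have dimension `≤ 2`

`K` a field with `2 ≠ 0`, `Q : QuadData G K W`, `W₀` a minimal nonzero `G`-stable subspace of `W`.
Then either `G` acts on `W₀` through a character and `finrank W₀ = 1`, or `finrank W₀ = 2` and
the characteristic polynomial of `R σ` on `W₀` is `X ^ 2 - t σ X + d σ`.
-/

set_option autoImplicit false

open Polynomial

namespace Fermat.Agent.P3.helper22

namespace QuadData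

variable {G : Type*} [Group G] {K : Type*} [Field K] {W : Type*} [AddCommGroup W]
  [Module K W] (Q : QuadData G K W)

/-- a subspace stable under the representation -/
def IsStable (U : Submodule K W) : Prop := ∀ σ : G, ∀ u ∈ U, Q.R σ u ∈ U

/-- a minimal nonzero stable subspace -/
def IsMinStable (U : Submodule K W) : Prop :=
  U ≠ ⊥ ∧ Q.IsStable U ∧ ∀ U' : Submodule K W, U' ≠ ⊥ → Q.IsStable U' → U' ≤ U → U' = U

theorem exists_isMinStable [FiniteDimensional K W] [Nontrivial W] :
    ∃ U : Submodule K W, Q.IsMinStable U := by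
  classical
  have hex : ∃ n : ℕ, ∃ U : Submodule K W, U ≠ ⊥ ∧ Q.IsStable U ∧ Module.finrank K U = n :=
    ⟨_, ⊤, top_ne_bot, fun _ _ _ => Submodule.mem_top, rfl⟩
  obtain ⟨U, hU0, hUs, hUn⟩ := Nat.find_spec hex
  refine ⟨U, hU0, hUs, fun U' hU'0 hU's hle => ?_⟩
  have h1 : Nat.find hex ≤ Module.finrank K U' := Nat.find_min' hex ⟨U', hU'0, hU's, rfl⟩
  exact Submodule.eq_of_le_of_finrank_le hle (hUn ▸ h1)

variable {Q}

theorem IsStable.C_mem {U : Submodule K W} (h : Q.IsStable U) {u : W} (hu : u ∈ U) :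
    Q.C u ∈ U := h Q.c u hu

theorem IsStable.E1_mem {U : Submodule K W} (h : Q.IsStable U) {u : W} (hu : u ∈ U) :
    Q.E1 u ∈ U := by
  show (1 + Q.C) u ∈ U
  rw [LinearMap.add_apply, Module.End.one_apply]
  exact U.add_mem hu (h.C_mem hu)

theorem IsStable.E2_mem {U : Submodule K W} (h : Q.IsStable U) {u : W} (hu : u ∈ U) :
    Q.E2 u ∈ U := by
  show (1 - Q.C) u ∈ U
  rw [LinearMap.sub_apply, Module.End.one_apply]
  exact U.sub_mem hu (h.C_mem hu)

variable (Q)

theorem E1_apply_add_E2_apply (w : W) : Q.E1 w + Q.E2 w = (2 : K) • w := by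
  have := congrArg (fun f : Module.End K W => f w) Q.E1_add_E2
  simpa using this

theorem E1_E1_apply (w : W) : Q.E1 (Q.E1 w) = (2 : K) • Q.E1 w := by
  have := congrArg (fun f : Module.End K W => f w) Q.E1_mul_E1
  simpa using this

theorem E2_E2_apply (w : W) : Q.E2 (Q.E2 w) = (2 : K) • Q.E2 w := by
  have := congrArg (fun f : Module.End K W => f w) Q.E2_mul_E2
  simpa using this

theorem E1_E2_apply (w : W) : Q.E1 (Q.E2 w) = 0 := by
  have := congrArg (fun f : Module.End K W => f w) Q.E1_mul_E2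
  simpa using this

theorem E2_E1_apply (w : W) : Q.E2 (Q.E1 w) = 0 := by
  have := congrArg (fun f : Module.End K W => f w) Q.E2_mul_E1
  simpa using this

theorem E1_R_E1_apply (σ : G) (w : W) :
    Q.E1 (Q.R σ (Q.E1 w)) = (Q.t σ + Q.t (Q.c * σ)) • Q.E1 w := by
  have := congrArg (fun f : Module.End K W => f w) (Q.E1_mul_mul_E1 σ)
  simpa using this

theorem E2_R_E2_apply (σ : G) (w : W) :
    Q.E2 (Q.R σ (Q.E2 w)) = (Q.t σ - Q.t (Q.c * σ)) • Q.E2 w := by
  have := congrArg (fun f : Module.End K W => f w) (Q.E2_mul_mul_E2 σ)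
  simpa using this

theorem E1_R_E2_R_E1_apply (τ σ : G) (w : W) :
    Q.E1 (Q.R τ (Q.E2 (Q.R σ (Q.E1 w)))) = Q.x12 τ σ • Q.E1 w := by
  have := congrArg (fun f : Module.End K W => f w) (Q.E1_mul_E2_mul_E1 τ σ)
  simpa using this

theorem E2_R_E1_R_E2_apply (τ σ : G) (w : W) :
    Q.E2 (Q.R τ (Q.E1 (Q.R σ (Q.E2 w)))) = Q.x21 τ σ • Q.E2 w := by
  have := congrArg (fun f : Module.End K W => f w) (Q.E2_mul_E1_mul_E2 τ σ)
  simpa using this

end QuadData

end Fermat.Agent.P3.helper22

namespace Fermat.Agent.P3.helper22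

namespace QuadData

variable {G : Type*} [Group G] {K : Type*} [Field K] {W : Type*} [AddCommGroup W]
  [Module K W] {Q : QuadData G K W}

/-- if `E₁` vanishes on a stable subspace, the representation is scalar there -/
theorem smul_of_E1_eq_zero (h2 : (2 : K) ≠ 0) {U : Submodule K W} (hs : Q.IsStable U)
    (hE : ∀ w ∈ U, Q.E1 w = 0) (σ : G) {w : W} (hw : w ∈ U) :
    Q.R σ w = ((Q.t σ - Q.t (Q.c * σ)) / 2) • w := by
  have e2 : ∀ u ∈ U, Q.E2 u = (2 : K) • u := fun u hu => by
    rw [← Q.E1_apply_add_E2_apply u, hE u hu, zero_add]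
  have h := Q.E2_R_E2_apply σ w
  rw [e2 w hw, map_smul, map_smul, e2 _ (hs σ w hw), smul_smul, smul_smul] at h
  have h3 : ((2 : K) * 2) • Q.R σ w = ((2 : K) * 2) • (((Q.t σ - Q.t (Q.c * σ)) / 2) • w) := by
    rw [h, smul_smul]
    congr 1
    field_simp
  exact smul_right_injective W (mul_ne_zero h2 h2) h3

/-- if `E₂` vanishes on a stable subspace, the representation is scalar there -/
theorem smul_of_E2_eq_zero (h2 : (2 : K) ≠ 0) {U : Submodule K W} (hs : Q.IsStable U)
    (hE : ∀ w ∈ U, Q.E2 w = 0) (σ : G) {w : W} (hw : w ∈ U) :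
    Q.R σ w = ((Q.t σ + Q.t (Q.c * σ)) / 2) • w := by
  have e1 : ∀ u ∈ U, Q.E1 u = (2 : K) • u := fun u hu => by
    rw [← Q.E1_apply_add_E2_apply u, hE u hu, add_zero]
  have h := Q.E1_R_E1_apply σ w
  rw [e1 w hw, map_smul, map_smul, e1 _ (hs σ w hw), smul_smul, smul_smul] at h
  have h3 : ((2 : K) * 2) • Q.R σ w = ((2 : K) * 2) • (((Q.t σ + Q.t (Q.c * σ)) / 2) • w) := by
    rw [h, smul_smul]
    congr 1
    field_simp
  exact smul_right_injective W (mul_ne_zero h2 h2) h3

/-- a minimal stable subspace on which the representation is scalar is a line -/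
theorem finrank_eq_one_of_smul {U : Submodule K W} (hmin : Q.IsMinStable U) (ψ : G → K)
    (hψ : ∀ σ : G, ∀ w ∈ U, Q.R σ w = ψ σ • w) : Module.finrank K U = 1 := by
  obtain ⟨hU0, -, hU⟩ := hmin
  obtain ⟨w, hw, hw0⟩ := (Submodule.ne_bot_iff U).mp hU0
  have hspan : Submodule.span K {w} = U := by
    refine hU _ ?_ ?_ ?_
    · rw [Ne, Submodule.span_singleton_eq_bot]; exact hw0
    · intro σ u hu
      obtain ⟨a, rfl⟩ := Submodule.mem_span_singleton.mp hu
      rw [map_smul, hψ σ w hw]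
      exact Submodule.smul_mem _ _ (Submodule.smul_mem _ _ (Submodule.mem_span_singleton_self w))
    · rw [Submodule.span_singleton_le_iff_mem]; exact hw
  rw [← hspan]
  exact finrank_span_singleton hw0

/-- in a minimal stable subspace containing a nonzero `E₁ w₁`, the image of `E₁` is the line
through `E₁ w₁` -/
theorem E1_mem_span_of_isMinStable (h2 : (2 : K) ≠ 0) {U : Submodule K W}
    (hmin : Q.IsMinStable U) {w₁ : W} (hw₁ : w₁ ∈ U) (hv₁ : Q.E1 w₁ ≠ 0) {w : W} (hw : w ∈ U) :
    Q.E1 w ∈ Submodule.span K {Q.E1 w₁} := by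
  obtain ⟨-, hs, hU⟩ := hmin
  set v₁ := Q.E1 w₁ with hv
  set S : Set W := {v₁} ∪ Set.range (fun σ : G => Q.E2 (Q.R σ v₁)) with hS
  have hv₁S : v₁ ∈ Submodule.span K S := Submodule.subset_span (Or.inl rfl)
  have hgS : ∀ σ : G, Q.E2 (Q.R σ v₁) ∈ Submodule.span K S :=
    fun σ => Submodule.subset_span (Or.inr ⟨σ, rfl⟩)
  have hhalf : ∀ u : W, u = (2 : K)⁻¹ • (Q.E1 u + Q.E2 u) := fun u => by
    rw [Q.E1_apply_add_E2_apply, smul_smul, inv_mul_cancel₀ h2, one_smul]
  have hstab : Q.IsStable (Submodule.span K S) := by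
    intro τ u hu
    have hle : (Submodule.span K S).map (Q.R τ) ≤ Submodule.span K S := by
      rw [Submodule.map_span_le]
      rintro x (hx | ⟨σ, rfl⟩)
      · rw [Set.mem_singleton_iff] at hx
        subst hx
        rw [hhalf (Q.R τ v₁)]
        refine Submodule.smul_mem _ _ (Submodule.add_mem _ ?_ (hgS τ))
        rw [hv, Q.E1_R_E1_apply]
        exact Submodule.smul_mem _ _ hv₁S
      · rw [hhalf (Q.R τ (Q.E2 (Q.R σ v₁)))]
        refine Submodule.smul_mem _ _ (Submodule.add_mem _ ?_ ?_)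
        · rw [hv, Q.E1_R_E2_R_E1_apply]
          exact Submodule.smul_mem _ _ hv₁S
        · rw [Q.E2_R_E2_apply]
          exact Submodule.smul_mem _ _ (hgS σ)
    exact hle (Submodule.mem_map_of_mem hu)
  have hv₁U : v₁ ∈ U := hs.E1_mem hw₁
  have hSU : Submodule.span K S ≤ U := by
    rw [Submodule.span_le]
    rintro x (hx | ⟨σ, rfl⟩)
    · rw [Set.mem_singleton_iff] at hx; subst hx; exact hv₁U
    · exact hs.E2_mem (hs σ _ hv₁U)
  have hne : Submodule.span K S ≠ ⊥ := by
    intro h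
    rw [h, Submodule.mem_bot] at hv₁S
    exact hv₁ hv₁S
  have hEq : Submodule.span K S = U := hU _ hne hstab hSU
  rw [← hEq] at hw
  have hle : (Submodule.span K S).map Q.E1 ≤ Submodule.span K {v₁} := by
    rw [Submodule.map_span_le]
    rintro x (hx | ⟨σ, rfl⟩)
    · rw [Set.mem_singleton_iff] at hx
      subst hx
      rw [hv, Q.E1_E1_apply]
      exact Submodule.smul_mem _ _ (Submodule.mem_span_singleton_self _)
    · rw [Q.E1_E2_apply]
      exact Submodule.zero_mem _
  exact hle (Submodule.mem_map_of_mem hw)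

/-- in a minimal stable subspace containing a nonzero `E₂ w₂`, the image of `E₂` is the line
through `E₂ w₂` -/
theorem E2_mem_span_of_isMinStable (h2 : (2 : K) ≠ 0) {U : Submodule K W}
    (hmin : Q.IsMinStable U) {w₂ : W} (hw₂ : w₂ ∈ U) (hv₂ : Q.E2 w₂ ≠ 0) {w : W} (hw : w ∈ U) :
    Q.E2 w ∈ Submodule.span K {Q.E2 w₂} := by
  obtain ⟨-, hs, hU⟩ := hmin
  set v₂ := Q.E2 w₂ with hv
  set S : Set W := {v₂} ∪ Set.range (fun σ : G => Q.E1 (Q.R σ v₂)) with hS
  have hv₂S : v₂ ∈ Submodule.span K S := Submodule.subset_span (Or.inl rfl)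
  have hgS : ∀ σ : G, Q.E1 (Q.R σ v₂) ∈ Submodule.span K S :=
    fun σ => Submodule.subset_span (Or.inr ⟨σ, rfl⟩)
  have hhalf : ∀ u : W, u = (2 : K)⁻¹ • (Q.E1 u + Q.E2 u) := fun u => by
    rw [Q.E1_apply_add_E2_apply, smul_smul, inv_mul_cancel₀ h2, one_smul]
  have hstab : Q.IsStable (Submodule.span K S) := by
    intro τ u hu
    have hle : (Submodule.span K S).map (Q.R τ) ≤ Submodule.span K S := by
      rw [Submodule.map_span_le]
      rintro x (hx | ⟨σ, rfl⟩)
      · rw [Set.mem_singleton_iff] at hx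
        subst hx
        rw [hhalf (Q.R τ v₂)]
        refine Submodule.smul_mem _ _ (Submodule.add_mem _ (hgS τ) ?_)
        rw [hv, Q.E2_R_E2_apply]
        exact Submodule.smul_mem _ _ hv₂S
      · rw [hhalf (Q.R τ (Q.E1 (Q.R σ v₂)))]
        refine Submodule.smul_mem _ _ (Submodule.add_mem _ ?_ ?_)
        · rw [Q.E1_R_E1_apply]
          exact Submodule.smul_mem _ _ (hgS σ)
        · rw [hv, Q.E2_R_E1_R_E2_apply]
          exact Submodule.smul_mem _ _ hv₂S
    exact hle (Submodule.mem_map_of_mem hu)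
  have hv₂U : v₂ ∈ U := hs.E2_mem hw₂
  have hSU : Submodule.span K S ≤ U := by
    rw [Submodule.span_le]
    rintro x (hx | ⟨σ, rfl⟩)
    · rw [Set.mem_singleton_iff] at hx; subst hx; exact hv₂U
    · exact hs.E1_mem (hs σ _ hv₂U)
  have hne : Submodule.span K S ≠ ⊥ := by
    intro h
    rw [h, Submodule.mem_bot] at hv₂S
    exact hv₂ hv₂S
  have hEq : Submodule.span K S = U := hU _ hne hstab hSU
  rw [← hEq] at hw
  have hle : (Submodule.span K S).map Q.E2 ≤ Submodule.span K {v₂} := by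
    rw [Submodule.map_span_le]
    rintro x (hx | ⟨σ, rfl⟩)
    · rw [Set.mem_singleton_iff] at hx
      subst hx
      rw [hv, Q.E2_E2_apply]
      exact Submodule.smul_mem _ _ (Submodule.mem_span_singleton_self _)
    · rw [Q.E2_E1_apply]
      exact Submodule.zero_mem _
  exact hle (Submodule.mem_map_of_mem hw)

end QuadData

end Fermat.Agent.P3.helper22

namespace Fermat.Agent.P3.helper22

namespace QuadData

variable {G : Type*} [Group G] {K : Type*} [Field K] {W : Type*} [AddCommGroup W]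
  [Module K W] {Q : QuadData G K W}

/-- the restriction of the representation to a stable subspace -/
def restrict {U : Submodule K W} (hs : Q.IsStable U) (σ : G) : Module.End K U :=
  (Q.R σ).restrict (hs σ)

@[simp]
theorem coe_restrict_apply {U : Submodule K W} (hs : Q.IsStable U) (σ : G) (u : U) :
    ((Q.restrict hs σ u : U) : W) = Q.R σ (u : W) := rfl

theorem restrict_quad {U : Submodule K W} (hs : Q.IsStable U) (σ : G) :
    Q.restrict hs σ * Q.restrict hs σ - Q.t σ • Q.restrict hs σ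
      + Q.d σ • (1 : Module.End K U) = 0 := by
  ext u
  have := congrArg (fun f : Module.End K W => f (u : W)) (Q.quad σ)
  simpa using this

/-- the two-dimensional case: dimension and characteristic polynomial -/
theorem finrank_eq_two_and_charpoly [FiniteDimensional K W] (h2 : (2 : K) ≠ 0)
    {U : Submodule K W} (hmin : Q.IsMinStable U) {w₁ w₂ : W} (hw₁ : w₁ ∈ U) (hv₁ : Q.E1 w₁ ≠ 0)
    (hw₂ : w₂ ∈ U) (hv₂ : Q.E2 w₂ ≠ 0) :
    Module.finrank K U = 2 ∧
      ∀ σ : G, (Q.restrict hmin.2.1 σ).charpoly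
        = X ^ 2 - Polynomial.C (Q.t σ) * X + Polynomial.C (Q.d σ) := by
  classical
  have hs := hmin.2.1
  set v₁ : W := Q.E1 w₁ with hv1
  set v₂ : W := Q.E2 w₂ with hv2
  have hv₁U : v₁ ∈ U := hs.E1_mem hw₁
  have hv₂U : v₂ ∈ U := hs.E2_mem hw₂
  have hE1v1 : Q.E1 v₁ = (2 : K) • v₁ := Q.E1_E1_apply w₁
  have hE2v2 : Q.E2 v₂ = (2 : K) • v₂ := Q.E2_E2_apply w₂
  have hE1v2 : Q.E1 v₂ = 0 := Q.E1_E2_apply w₂
  have hE2v1 : Q.E2 v₁ = 0 := Q.E2_E1_apply w₁
  -- linear independence
  have hli' : ∀ a b : K, a • v₁ + b • v₂ = 0 → a = 0 ∧ b = 0 := by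
    intro a b h
    have h1 := congrArg Q.E1 h
    have h1' := congrArg Q.E2 h
    rw [map_add, map_smul, map_smul, hE1v1, hE1v2, smul_zero, add_zero, map_zero, smul_smul]
      at h1
    rw [map_add, map_smul, map_smul, hE2v1, hE2v2, smul_zero, zero_add, map_zero, smul_smul]
      at h1'
    refine ⟨?_, ?_⟩
    · rcases smul_eq_zero.mp h1 with h | h
      · exact (mul_eq_zero.mp h).resolve_right h2
      · exact absurd h hv₁
    · rcases smul_eq_zero.mp h1' with h | h
      · exact (mul_eq_zero.mp h).resolve_right h2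
      · exact absurd h hv₂
  let v : Fin 2 → U := ![⟨v₁, hv₁U⟩, ⟨v₂, hv₂U⟩]
  have hli : LinearIndependent K v := by
    rw [LinearIndependent.pair_iff]
    intro a b h
    have := congrArg (Subtype.val) h
    simp only [Submodule.coe_add, Submodule.coe_smul, Submodule.coe_zero] at this
    exact hli' a b this
  have hdecomp : ∀ u ∈ U, ∃ a b : K, u = a • v₁ + b • v₂ := by
    intro u hu
    obtain ⟨a, ha⟩ := Submodule.mem_span_singleton.mp
      (E1_mem_span_of_isMinStable h2 hmin hw₁ hv₁ hu)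
    obtain ⟨b, hb⟩ := Submodule.mem_span_singleton.mp
      (E2_mem_span_of_isMinStable h2 hmin hw₂ hv₂ hu)
    refine ⟨(2 : K)⁻¹ * a, (2 : K)⁻¹ * b, ?_⟩
    have := Q.E1_apply_add_E2_apply u
    rw [← ha, ← hb] at this
    rw [mul_smul, mul_smul, ← smul_add, this, smul_smul, inv_mul_cancel₀ h2, one_smul]
  have hsp : ⊤ ≤ Submodule.span K (Set.range v) := by
    rintro ⟨u, hu⟩ -
    obtain ⟨a, b, hab⟩ := hdecomp u hu
    have : (⟨u, hu⟩ : U) = a • v 0 + b • v 1 := by
      apply Subtype.ext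
      simpa [v] using hab
    rw [this]
    exact Submodule.add_mem _
      (Submodule.smul_mem _ _ (Submodule.subset_span ⟨0, rfl⟩))
      (Submodule.smul_mem _ _ (Submodule.subset_span ⟨1, rfl⟩))
  let b : Module.Basis (Fin 2) K U := Module.Basis.mk hli hsp
  have hb0 : (b 0 : W) = v₁ := by simp [b, v]
  have hb1 : (b 1 : W) = v₂ := by simp [b, v]
  have hfin : Module.finrank K U = 2 := by
    rw [Module.finrank_eq_card_basis b, Fintype.card_fin]
  refine ⟨hfin, fun σ => ?_⟩
  set S₀ := Q.restrict hs σ with hS₀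
  set M := LinearMap.toMatrix b b S₀ with hM
  have hch : S₀.charpoly = X ^ 2 - Polynomial.C M.trace * X + Polynomial.C M.det := by
    rw [← LinearMap.charpoly_toMatrix S₀ b, Matrix.charpoly_fin_two]
  -- the diagonal entries
  have hrepr : ∀ j : Fin 2, (Q.R σ (b j : W)) = M 0 j • v₁ + M 1 j • v₂ := by
    intro j
    have h := b.sum_repr (S₀ (b j))
    rw [Fin.sum_univ_two] at h
    have h' := congrArg (Subtype.val) h
    simp only [Submodule.coe_add, Submodule.coe_smul, hb0, hb1] at h'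
    rw [hM, LinearMap.toMatrix_apply, LinearMap.toMatrix_apply]
    exact h'.symm
  have h00 : (2 : K) * M 0 0 = Q.t σ + Q.t (Q.c * σ) := by
    have h := congrArg Q.E1 (hrepr 0)
    rw [hb0, map_add, map_smul, map_smul, hE1v1, hE1v2, smul_zero, add_zero, smul_smul,
      hv1, Q.E1_R_E1_apply] at h
    have h3 : (Q.t σ + Q.t (Q.c * σ) - M 0 0 * 2) • Q.E1 w₁ = 0 := by
      rw [sub_smul, h, sub_self]
    rcases smul_eq_zero.mp h3 with h4 | h4
    · rw [mul_comm]; exact (sub_eq_zero.mp h4).symm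
    · exact absurd h4 hv₁
  have h11 : (2 : K) * M 1 1 = Q.t σ - Q.t (Q.c * σ) := by
    have h := congrArg Q.E2 (hrepr 1)
    rw [hb1, map_add, map_smul, map_smul, hE2v1, hE2v2, smul_zero, zero_add, smul_smul,
      hv2, Q.E2_R_E2_apply] at h
    have h3 : (Q.t σ - Q.t (Q.c * σ) - M 1 1 * 2) • Q.E2 w₂ = 0 := by
      rw [sub_smul, h, sub_self]
    rcases smul_eq_zero.mp h3 with h4 | h4
    · rw [mul_comm]; exact (sub_eq_zero.mp h4).symm
    · exact absurd h4 hv₂
  have htr : M.trace = Q.t σ := by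
    rw [Matrix.trace_fin_two]
    have : (2 : K) * (M 0 0 + M 1 1) = 2 * Q.t σ := by
      rw [mul_add, h00, h11]; ring
    exact mul_left_cancel₀ h2 this
  -- the determinant from Cayley-Hamilton
  have hCH := LinearMap.aeval_self_charpoly S₀
  rw [hch, htr] at hCH
  have hq := Q.restrict_quad hs σ
  have hCH' : S₀ * S₀ - Q.t σ • S₀ + M.det • (1 : Module.End K U) = 0 := by
    have : (aeval S₀) (X ^ 2 - Polynomial.C (Q.t σ) * X + Polynomial.C M.det)
        = S₀ * S₀ - Q.t σ • S₀ + M.det • (1 : Module.End K U) := by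
      simp only [map_add, map_sub, map_mul, aeval_X, aeval_C,
        Algebra.algebraMap_eq_smul_one, smul_mul_assoc, one_mul, pow_two]
    rw [← this]; exact hCH
  have hdet : M.det = Q.d σ := by
    have h5 : (M.det - Q.d σ) • (1 : Module.End K U) = 0 := by
      have : (M.det - Q.d σ) • (1 : Module.End K U)
          = (S₀ * S₀ - Q.t σ • S₀ + M.det • (1 : Module.End K U))
            - (S₀ * S₀ - Q.t σ • S₀ + Q.d σ • (1 : Module.End K U)) := by
        module
      rw [this, hCH', hq, sub_zero]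
    have h6 := congrArg (fun f : Module.End K U => f (b 0)) h5
    simp only [LinearMap.smul_apply, Module.End.one_apply, LinearMap.zero_apply] at h6
    rcases smul_eq_zero.mp h6 with h7 | h7
    · exact sub_eq_zero.mp h7
    · exact absurd h7 (b.ne_zero 0)
  rw [hch, htr, hdet]

end QuadData

end Fermat.Agent.P3.helper22
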