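import Fermat.Agent.P3.helper22_QuadMin
import Fermat.Agent.P3.helper22_Lattice
import Fermat.Prelude.Def_GaloisRep_Adic

/-!
# P3 [ALG] (helper22), part 4: from a quadratic relation to a Galois representation

Main results (namespace `Fermat.Agent.P3.helper22`):

* `exists_galoisRepAdic_of_quadratic` : `𝒪` a local principal ideal domain with `2 ≠ 0` (a
  discrete valuation ring of characteristic `0`, or a field of characteristic `≠ 2`), `M` a
  nonzero finite free `𝒪`-module with an adically continuous action `r` of `G_ℚ` such that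
  `r σ ^ 2 - t σ • r σ + d σ = 0` for all `σ`, `d` a continuous character with `d c = -1` for
  an involution `c`.  Then there is `ρ : GaloisRepAdic 𝒪` (over the SAME ring) with
  `charpoly (ρ σ) = X ^ 2 - t σ X + d σ` for ALL `σ` and `ρ σ = 1` whenever `r σ = 1`, `d σ = 1`.
* `exists_residualGaloisRep_of_quadratic` : the same over a field, with a `ResidualGaloisRep`.

The representation is the restriction of `r` to the saturated lattice cut out by a minimal
stable subspace of the generic fibre if that subspace is a plane, and `χ ⊕ d χ⁻¹` if it is a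
line with character `χ`.
-/

set_option autoImplicit false

open Polynomial

namespace Fermat.Agent.P3.helper22

/-- the absolute Galois group of `ℚ` -/
abbrev GQ : Type := AlgebraicClosure ℚ ≃ₐ[ℚ] AlgebraicClosure ℚ

section PIDLocal

variable {𝒪 : Type*} [CommRing 𝒪] [IsPrincipalIdealRing 𝒪] [IsLocalRing 𝒪]

/-- a generator of the maximal ideal of a local principal ideal ring -/
noncomputable def unif (𝒪 : Type*) [CommRing 𝒪] [IsPrincipalIdealRing 𝒪] [IsLocalRing 𝒪] : 𝒪 :=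
  Submodule.IsPrincipal.generator (IsLocalRing.maximalIdeal 𝒪)

theorem maximalIdeal_eq_span_unif :
    IsLocalRing.maximalIdeal 𝒪 = Ideal.span {unif 𝒪} :=
  (Ideal.span_singleton_generator (IsLocalRing.maximalIdeal 𝒪)).symm

theorem mem_maximalIdeal_pow_iff (n : ℕ) (a : 𝒪) :
    a ∈ IsLocalRing.maximalIdeal 𝒪 ^ n ↔ ∃ b : 𝒪, a = unif 𝒪 ^ n * b := by
  rw [maximalIdeal_eq_span_unif, Ideal.span_singleton_pow, Ideal.mem_span_singleton']
  constructor
  · rintro ⟨b, hb⟩; exact ⟨b, by rw [← hb, mul_comm]⟩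
  · rintro ⟨b, hb⟩; exact ⟨b, by rw [hb, mul_comm]⟩

theorem mem_maximalIdeal_pow_smul_top_iff {V : Type*} [AddCommGroup V] [Module 𝒪 V] (n : ℕ)
    (v : V) :
    v ∈ (IsLocalRing.maximalIdeal 𝒪 ^ n) • (⊤ : Submodule 𝒪 V) ↔ ∃ w : V, v = unif 𝒪 ^ n • w := by
  rw [maximalIdeal_eq_span_unif, Ideal.span_singleton_pow, Submodule.ideal_span_singleton_smul,
    Submodule.mem_smul_pointwise_iff_exists]
  constructor
  · rintro ⟨w, -, hw⟩; exact ⟨w, hw.symm⟩
  · rintro ⟨w, hw⟩; exact ⟨w, Submodule.mem_top, hw.symm⟩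

end PIDLocal

/-- adic continuity of a function `χ : G_ℚ → 𝒪` with `χ 1 = 1` -/
def IsAdicContinuousChar (𝒪 : Type*) [CommRing 𝒪] [IsLocalRing 𝒪] (χ : GQ → 𝒪) : Prop :=
  ∀ n : ℕ, ∃ L : IntermediateField ℚ (AlgebraicClosure ℚ), FiniteDimensional ℚ L ∧
    ∀ σ : GQ, (∀ x ∈ L, σ x = x) → χ σ - 1 ∈ IsLocalRing.maximalIdeal 𝒪 ^ n

section RankTwo

variable {𝒪 : Type} [CommRing 𝒪] [IsDomain 𝒪] [IsPrincipalIdealRing 𝒪] [IsLocalRing 𝒪]
  {K : Type*} [Field K] [Algebra 𝒪 K] [IsFractionRing 𝒪 K]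
  {M : Type} [AddCommGroup M] [Module 𝒪 M] [Module.Free 𝒪 M] [Module.Finite 𝒪 M]
  {W : Type*} [AddCommGroup W] [Module 𝒪 W] [Module K W] [IsScalarTower 𝒪 K W]
  (ι : M →ₗ[𝒪] W) [IsLocalizedModule (nonZeroDivisors 𝒪) ι]

/-- the restriction of an adically continuous action to the saturated lattice cut out by a
stable subspace of dimension `2` of the generic fibre -/
theorem exists_rep_of_finrank_two
    (r : GQ →* Module.End 𝒪 M) (hr : GaloisActionIsAdicContinuous 𝒪 r)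
    (RK : GQ → Module.End K W) (hR : ∀ σ m, RK σ (ι m) = ι (r σ m))
    (U : Submodule K W) [Module.Finite K U] (hU : ∀ σ, ∀ w ∈ U, RK σ w ∈ U)
    (hfin : Module.finrank K U = 2)
    (P : GQ → 𝒪[X])
    (hP : ∀ σ, ((RK σ).restrict (hU σ)).charpoly = (P σ).map (algebraMap 𝒪 K)) :
    ∃ ρ : GaloisRepAdic 𝒪, (∀ σ, LinearMap.charpoly (ρ.ρ σ) = P σ) ∧
      (∀ σ, r σ = 1 → ρ.ρ σ = 1) := by
  classical
  have hst : ∀ σ, ∀ m ∈ lattice ι U, r σ m ∈ lattice ι U := fun σ =>
    lattice_stable (r σ) (RK σ) (hR σ) (hU σ)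
  let ρ₀ : GQ →* Module.End 𝒪 (lattice ι U) :=
    { toFun := fun σ => (r σ).restrict (hst σ)
      map_one' := by
        ext v
        simp
      map_mul' := fun σ τ => by
        ext v
        simp }
  have hρ₀ : ∀ σ (v : lattice ι U), ((ρ₀ σ v : lattice ι U) : M) = r σ (v : M) := fun _ _ => rfl
  have hcont : GaloisActionIsAdicContinuous 𝒪 ρ₀ := by
    intro n
    obtain ⟨L, hL, h⟩ := hr n
    refine ⟨L, hL, fun σ hσ v => ?_⟩
    obtain ⟨w, hw⟩ := (mem_maximalIdeal_pow_smul_top_iff n _).mp (h σ hσ (v : M))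
    rw [mem_maximalIdeal_pow_smul_top_iff]
    by_cases hπ : unif 𝒪 ^ n = 0
    · refine ⟨0, ?_⟩
      apply Subtype.ext
      rw [smul_zero, Submodule.coe_sub, hρ₀, hw, hπ, zero_smul, Submodule.coe_zero]
    · have hwU : w ∈ lattice ι U := by
        apply lattice_saturated hπ
        rw [← hw]
        exact Submodule.sub_mem _ (hst σ _ v.2) v.2
      refine ⟨⟨w, hwU⟩, ?_⟩
      apply Subtype.ext
      rw [Submodule.coe_sub, hρ₀, hw, Submodule.coe_smul]
  refine ⟨{ V := lattice ι U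
            finrank_eq := by rw [finrank_lattice, hfin]
            ρ := ρ₀
            isAdicContinuous := hcont }, fun σ => ?_, fun σ hσ => ?_⟩
  · have hinj : Function.Injective (Polynomial.map (algebraMap 𝒪 K)) :=
      Polynomial.map_injective _ (IsFractionRing.injective 𝒪 K)
    apply hinj
    rw [← hP σ]
    exact charpoly_restrict_map (r σ) (RK σ) (hR σ) (hU σ) (hst σ)
  · ext v
    show r σ (v : M) = _
    rw [hσ]
    rfl

end RankTwo

section RankOne

variable {𝒪 : Type} [CommRing 𝒪] [IsDomain 𝒪] [IsPrincipalIdealRing 𝒪] [IsLocalRing 𝒪]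
  {K : Type*} [Field K] [Algebra 𝒪 K] [IsFractionRing 𝒪 K]
  {M : Type} [AddCommGroup M] [Module 𝒪 M] [Module.Free 𝒪 M] [Module.Finite 𝒪 M]
  {W : Type*} [AddCommGroup W] [Module 𝒪 W] [Module K W] [IsScalarTower 𝒪 K W]
  (ι : M →ₗ[𝒪] W) [IsLocalizedModule (nonZeroDivisors 𝒪) ι]

/-- a stable line of the generic fibre gives an adically continuous character -/
theorem exists_character_of_finrank_one
    (r : GQ →* Module.End 𝒪 M) (hr : GaloisActionIsAdicContinuous 𝒪 r)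
    (RK : GQ → Module.End K W) (hR : ∀ σ m, RK σ (ι m) = ι (r σ m))
    (U : Submodule K W) [Module.Finite K U] (hU : ∀ σ, ∀ w ∈ U, RK σ w ∈ U)
    (hfin : Module.finrank K U = 1) :
    ∃ (χ : GQ →* 𝒪) (m₀ : M), m₀ ≠ 0 ∧ (∀ σ, r σ m₀ = χ σ • m₀) ∧
      IsAdicContinuousChar 𝒪 χ ∧ (∀ σ, r σ = 1 → χ σ = 1) := by
  classical
  have hst : ∀ σ, ∀ m ∈ lattice ι U, r σ m ∈ lattice ι U := fun σ =>
    lattice_stable (r σ) (RK σ) (hR σ) (hU σ)
  have hrk : Module.finrank 𝒪 (lattice ι U) = 1 := by rw [finrank_lattice, hfin]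
  let b : Module.Basis (Fin 1) 𝒪 (lattice ι U) := Module.finBasisOfFinrankEq 𝒪 _ hrk
  set m₀ : M := (b 0 : M) with hm₀
  have hm₀Λ : m₀ ∈ lattice ι U := (b 0).2
  have hm₀0 : m₀ ≠ 0 := by
    intro h
    exact b.ne_zero 0 (Subtype.ext h)
  have hrepr : ∀ m ∈ lattice ι U, ∃ a : 𝒪, m = a • m₀ := by
    intro m hm
    refine ⟨b.repr ⟨m, hm⟩ 0, ?_⟩
    have h := b.sum_repr ⟨m, hm⟩
    rw [Fin.sum_univ_one] at h
    have := congrArg (Subtype.val) h
    simpa using this.symm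
  have hinj : ∀ a a' : 𝒪, a • m₀ = a' • m₀ → a = a' := by
    intro a a' h
    have h' : (a - a') • m₀ = 0 := by rw [sub_smul, h, sub_self]
    rcases smul_eq_zero.mp h' with h1 | h1
    · exact sub_eq_zero.mp h1
    · exact absurd h1 hm₀0
  choose f hf using fun σ => hrepr (r σ m₀) (hst σ m₀ hm₀Λ)
  let χ : GQ →* 𝒪 :=
    { toFun := f
      map_one' := by
        apply hinj
        rw [← hf, map_one, Module.End.one_apply, one_smul]
      map_mul' := fun σ τ => by
        apply hinj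
        rw [← hf, map_mul, Module.End.mul_apply, hf τ, map_smul, hf σ, smul_smul, mul_comm] }
  refine ⟨χ, m₀, hm₀0, hf, fun n => ?_, fun σ hσ => ?_⟩
  · obtain ⟨L, hL, h⟩ := hr n
    refine ⟨L, hL, fun σ hσ => ?_⟩
    obtain ⟨w, hw⟩ := (mem_maximalIdeal_pow_smul_top_iff n _).mp (h σ hσ m₀)
    rw [mem_maximalIdeal_pow_iff]
    by_cases hπ : unif 𝒪 ^ n = 0
    · refine ⟨0, ?_⟩
      rw [mul_zero, sub_eq_zero]
      apply hinj
      rw [one_smul]
      rw [hπ, zero_smul, sub_eq_zero] at hw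
      exact (hf σ).symm.trans hw
    · have hwU : w ∈ lattice ι U := by
        apply lattice_saturated hπ
        rw [← hw]
        exact Submodule.sub_mem _ (hst σ _ hm₀Λ) hm₀Λ
      obtain ⟨a, ha⟩ := hrepr w hwU
      refine ⟨a, ?_⟩
      apply hinj
      rw [sub_smul, one_smul, mul_smul, ← ha, ← hw]
      exact congrArg (· - m₀) (hf σ).symm
  · apply hinj
    rw [one_smul]
    have := hf σ
    rw [hσ, Module.End.one_apply] at this
    exact this.symm

end RankOne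

section Diag

variable {𝒪 : Type} [CommRing 𝒪] [IsLocalRing 𝒪]

/-- the sum of two adically continuous characters -/
theorem exists_rep_of_characters (χ₁ χ₂ : GQ →* 𝒪)
    (h₁ : IsAdicContinuousChar 𝒪 χ₁) (h₂ : IsAdicContinuousChar 𝒪 χ₂) :
    ∃ ρ : GaloisRepAdic 𝒪,
      (∀ σ, LinearMap.charpoly (ρ.ρ σ) = X ^ 2 - C (χ₁ σ + χ₂ σ) * X + C (χ₁ σ * χ₂ σ)) ∧
      (∀ σ, χ₁ σ = 1 → χ₂ σ = 1 → ρ.ρ σ = 1) := by
  classical
  let D : GQ → Matrix (Fin 2) (Fin 2) 𝒪 := fun σ => Matrix.diagonal ![χ₁ σ, χ₂ σ]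
  have hD1 : D 1 = 1 := by
    ext i j
    fin_cases i <;> fin_cases j <;> simp [D, Matrix.diagonal]
  have hDmul : ∀ σ τ, D (σ * τ) = D σ * D τ := by
    intro σ τ
    simp only [D, Matrix.diagonal_mul_diagonal]
    congr 1
    ext i
    fin_cases i <;> simp
  let ρ₀ : GQ →* Module.End 𝒪 (Fin 2 → 𝒪) :=
    { toFun := fun σ => Matrix.toLin' (D σ)
      map_one' := by rw [hD1, Matrix.toLin'_one]; rfl
      map_mul' := fun σ τ => by rw [hDmul, Matrix.toLin'_mul]; rfl }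
  have hρ₀ : ∀ σ (v : Fin 2 → 𝒪), ρ₀ σ v = ![χ₁ σ * v 0, χ₂ σ * v 1] := by
    intro σ v
    ext i
    show (Matrix.toLin' (D σ) v) i = _
    rw [Matrix.toLin'_apply]
    fin_cases i <;> simp [D, Matrix.mulVec_diagonal]
  have hcont : GaloisActionIsAdicContinuous 𝒪 ρ₀ := by
    intro n
    obtain ⟨L₁, hL₁, h1⟩ := h₁ n
    obtain ⟨L₂, hL₂, h2⟩ := h₂ n
    refine ⟨L₁ ⊔ L₂, IntermediateField.finiteDimensional_sup L₁ L₂, fun σ hσ v => ?_⟩
    have hσ1 : ∀ x ∈ L₁, σ x = x := fun x hx => hσ x ((le_sup_left : L₁ ≤ L₁ ⊔ L₂) hx)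
    have hσ2 : ∀ x ∈ L₂, σ x = x := fun x hx => hσ x ((le_sup_right : L₂ ≤ L₁ ⊔ L₂) hx)
    have e : ρ₀ σ v - v = (χ₁ σ - 1) • (Pi.single 0 (v 0) : Fin 2 → 𝒪)
        + (χ₂ σ - 1) • (Pi.single 1 (v 1) : Fin 2 → 𝒪) := by
      rw [hρ₀]
      ext i
      fin_cases i <;> simp [sub_mul]
    rw [e]
    exact Submodule.add_mem _ (Submodule.smul_mem_smul (h1 σ hσ1) Submodule.mem_top)
      (Submodule.smul_mem_smul (h2 σ hσ2) Submodule.mem_top)
  refine ⟨{ V := Fin 2 → 𝒪
            finrank_eq := Module.finrank_fin_fun 𝒪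
            ρ := ρ₀
            isAdicContinuous := hcont }, fun σ => ?_, fun σ hσ1 hσ2 => ?_⟩
  · show (Matrix.toLin' (D σ)).charpoly = _
    rw [Matrix.charpoly_toLin', Matrix.charpoly_fin_two]
    simp [D]
  · show Matrix.toLin' (D σ) = 1
    have : D σ = 1 := by
      ext i j
      fin_cases i <;> fin_cases j <;> simp [D, Matrix.diagonal, hσ1, hσ2]
    rw [this, Matrix.toLin'_one]; rfl

end Diag


section Core

variable {𝒪 : Type} [CommRing 𝒪] [IsDomain 𝒪] [IsPrincipalIdealRing 𝒪] [IsLocalRing 𝒪]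
  {K : Type*} [Field K] [Algebra 𝒪 K] [IsFractionRing 𝒪 K]
  {M : Type} [AddCommGroup M] [Module 𝒪 M] [Module.Free 𝒪 M] [Module.Finite 𝒪 M]
  {W : Type*} [AddCommGroup W] [Module 𝒪 W] [Module K W] [IsScalarTower 𝒪 K W]
  (ι : M →ₗ[𝒪] W) [IsLocalizedModule (nonZeroDivisors 𝒪) ι]

/-- the core statement, for an arbitrary model `ι : M → W` of the generic fibre -/
theorem exists_rep_core [FiniteDimensional K W] [Nontrivial W] (h2 : (2 : K) ≠ 0)
    (r : GQ →* Module.End 𝒪 M) (hr : GaloisActionIsAdicContinuous 𝒪 r)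
    (Q : QuadData GQ K W) (hQ : ∀ σ m, Q.R σ (ι m) = ι (r σ m))
    (t : GQ → 𝒪) (ht : ∀ σ, Q.t σ = algebraMap 𝒪 K (t σ))
    (d : GQ →* 𝒪) (hd' : ∀ σ, Q.d σ = algebraMap 𝒪 K (d σ))
    (hd : IsAdicContinuousChar 𝒪 d) :
    ∃ ρ : GaloisRepAdic 𝒪,
      (∀ σ, LinearMap.charpoly (ρ.ρ σ) = X ^ 2 - C (t σ) * X + C (d σ)) ∧
      (∀ σ, r σ = 1 → d σ = 1 → ρ.ρ σ = 1) := by
  classical
  obtain ⟨U, hmin⟩ := Q.exists_isMinStable
  have hs := hmin.2.1
  have hinjι := lattice_ι_injective ι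
  -- the quadratic relation over `𝒪`
  have hquad : ∀ σ (m : M), r σ (r σ m) - t σ • r σ m + d σ • m = 0 := by
    intro σ m
    apply hinjι
    have h := congrArg (fun f : Module.End K W => f (ι m)) (Q.quad σ)
    simp only [LinearMap.add_apply, LinearMap.sub_apply, LinearMap.smul_apply,
      Module.End.mul_apply, Module.End.one_apply, LinearMap.zero_apply] at h
    rw [hQ, hQ, ht, hd', algebraMap_smul_eq, algebraMap_smul_eq] at h
    rw [map_zero, map_add, map_sub, map_smul, map_smul]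
    exact h
  have key : (∃ ψ : GQ → K, ∀ σ, ∀ w ∈ U, Q.R σ w = ψ σ • w) ∨
      ((∃ w₁ ∈ U, Q.E1 w₁ ≠ 0) ∧ (∃ w₂ ∈ U, Q.E2 w₂ ≠ 0)) := by
    by_cases hE1 : ∀ w ∈ U, Q.E1 w = 0
    · exact Or.inl ⟨_, fun σ w hw => QuadData.smul_of_E1_eq_zero h2 hs hE1 σ hw⟩
    by_cases hE2 : ∀ w ∈ U, Q.E2 w = 0
    · exact Or.inl ⟨_, fun σ w hw => QuadData.smul_of_E2_eq_zero h2 hs hE2 σ hw⟩
    push Not at hE1 hE2
    exact Or.inr ⟨hE1, hE2⟩
  rcases key with ⟨ψ, hψ⟩ | ⟨⟨w₁, hw₁, hv₁⟩, ⟨w₂, hw₂, hv₂⟩⟩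
  · -- the reducible case
    have hfin : Module.finrank K U = 1 := QuadData.finrank_eq_one_of_smul hmin ψ hψ
    obtain ⟨χ, m₀, hm₀, hχ, hχc, hχ1⟩ :=
      exists_character_of_finrank_one ι r hr Q.R hQ U hs hfin
    have hinj : ∀ a a' : 𝒪, a • m₀ = a' • m₀ → a = a' := by
      intro a a' h
      have h' : (a - a') • m₀ = 0 := by rw [sub_smul, h, sub_self]
      rcases smul_eq_zero.mp h' with h1 | h1
      · exact sub_eq_zero.mp h1
      · exact absurd h1 hm₀
    have hχinv : ∀ σ, χ σ * χ σ⁻¹ = 1 := fun σ => by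
      rw [← map_mul, mul_inv_cancel, map_one]
    have hrel : ∀ σ, χ σ * χ σ - t σ * χ σ + d σ = 0 := by
      intro σ
      have h := hquad σ m₀
      rw [hχ σ, map_smul, hχ σ, smul_smul, smul_smul, ← sub_smul, ← add_smul] at h
      rcases smul_eq_zero.mp h with h1 | h1
      · exact h1
      · exact absurd h1 hm₀
    let χ₂ : GQ →* 𝒪 :=
      { toFun := fun σ => d σ * χ σ⁻¹
        map_one' := by rw [inv_one, map_one, map_one, mul_one]
        map_mul' := fun σ τ => by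
          rw [mul_inv_rev, map_mul, map_mul]; ring }
    have hχ₂ : ∀ σ, χ₂ σ = d σ * χ σ⁻¹ := fun _ => rfl
    have hsum : ∀ σ, χ σ + χ₂ σ = t σ := by
      intro σ
      have h := hrel σ
      have h3 : (χ σ * χ σ - t σ * χ σ + d σ) * χ σ⁻¹
          = (χ σ - t σ) * (χ σ * χ σ⁻¹) + d σ * χ σ⁻¹ := by ring
      rw [h, zero_mul, hχinv, mul_one] at h3
      rw [hχ₂]
      linear_combination -h3
    have hprod : ∀ σ, χ σ * χ₂ σ = d σ := by
      intro σ
      rw [hχ₂, mul_left_comm, hχinv, mul_one]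
    have hχ₂c : IsAdicContinuousChar 𝒪 χ₂ := by
      intro n
      obtain ⟨L₁, hL₁, h1⟩ := hχc n
      obtain ⟨L₂, hL₂, h2'⟩ := hd n
      refine ⟨L₁ ⊔ L₂, IntermediateField.finiteDimensional_sup L₁ L₂, fun σ hσ => ?_⟩
      have hσ2 : ∀ x ∈ L₂, σ x = x := fun x hx => hσ x ((le_sup_right : L₂ ≤ L₁ ⊔ L₂) hx)
      have hσ1 : ∀ x ∈ L₁, σ⁻¹ x = x := fun x hx => by
        have := hσ x ((le_sup_left : L₁ ≤ L₁ ⊔ L₂) hx)
        calc σ⁻¹ x = σ⁻¹ (σ x) := by rw [this]
          _ = x := by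
            show (σ⁻¹ * σ) x = x
            rw [inv_mul_cancel]; rfl
      have e : χ₂ σ - 1 = (d σ - 1) * χ σ⁻¹ + (χ σ⁻¹ - 1) := by rw [hχ₂]; ring
      rw [e]
      exact Ideal.add_mem _ (Ideal.mul_mem_right _ _ (h2' σ hσ2)) (h1 σ⁻¹ hσ1)
    obtain ⟨ρ, hρ1, hρ2⟩ := exists_rep_of_characters χ χ₂ hχc hχ₂c
    refine ⟨ρ, fun σ => ?_, fun σ hσ hdσ => ?_⟩
    · rw [hρ1, hsum, hprod]
    · refine hρ2 σ (hχ1 σ hσ) ?_
      have hσ' : r σ⁻¹ = 1 := by
        have : r σ⁻¹ * r σ = 1 := by rw [← map_mul, inv_mul_cancel, map_one]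
        rwa [hσ, mul_one] at this
      rw [hχ₂, hdσ, hχ1 _ hσ', mul_one]
  · -- the irreducible case
    obtain ⟨hfin, hch⟩ := QuadData.finrank_eq_two_and_charpoly h2 hmin hw₁ hv₁ hw₂ hv₂
    obtain ⟨ρ, hρ1, hρ2⟩ := exists_rep_of_finrank_two ι r hr Q.R hQ U hs hfin
      (fun σ => X ^ 2 - C (t σ) * X + C (d σ)) (fun σ => by
        have := hch σ
        rw [ht, hd'] at this
        rw [Polynomial.map_add, Polynomial.map_sub, Polynomial.map_mul, Polynomial.map_pow,
          Polynomial.map_X, Polynomial.map_C, Polynomial.map_C]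
        exact this)
    exact ⟨ρ, hρ1, fun σ hσ _ => hρ2 σ hσ⟩

end Core


section Main

open scoped TensorProduct

variable (𝒪 : Type) [CommRing 𝒪] [IsDomain 𝒪] [IsPrincipalIdealRing 𝒪] [IsLocalRing 𝒪]
  (M : Type) [AddCommGroup M] [Module 𝒪 M] [Module.Free 𝒪 M] [Module.Finite 𝒪 M]

/-- **P3 [ALG]**: a `G_ℚ`-action on a nonzero finite free module over a local principal ideal
domain `𝒪` with `2 ≠ 0` (e.g. a discrete valuation ring of characteristic `0`, or a field of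
characteristic `≠ 2`), all of whose elements satisfy `r σ ^ 2 - t σ • r σ + d σ = 0` with `d`
a continuous character taking the value `-1` on an involution `c`, produces a `GaloisRepAdic 𝒪`
whose characteristic polynomials are EXACTLY `X ^ 2 - t σ X + d σ`, and which is trivial on
every `σ` with `r σ = 1` and `d σ = 1`. -/
theorem exists_galoisRepAdic_of_quadratic [Nontrivial M] (h2 : (2 : 𝒪) ≠ 0)
    (r : GQ →* Module.End 𝒪 M) (hr : GaloisActionIsAdicContinuous 𝒪 r)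
    (t : GQ → 𝒪) (d : GQ →* 𝒪) (hd : IsAdicContinuousChar 𝒪 d)
    (hquad : ∀ σ, r σ * r σ - t σ • r σ + d σ • (1 : Module.End 𝒪 M) = 0)
    (c : GQ) (hc : c * c = 1) (hdc : d c = -1) :
    ∃ ρ : GaloisRepAdic 𝒪,
      (∀ σ, LinearMap.charpoly (ρ.ρ σ) = X ^ 2 - C (t σ) * X + C (d σ)) ∧
      (∀ σ, r σ = 1 → d σ = 1 → ρ.ρ σ = 1) := by
  classical
  let K := FractionRing 𝒪
  let W := K ⊗[𝒪] M
  let ι : M →ₗ[𝒪] W := TensorProduct.mk 𝒪 K M 1
  have h2K : (2 : K) ≠ 0 := by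
    have : (2 : K) = algebraMap 𝒪 K 2 := (map_ofNat (algebraMap 𝒪 K) 2).symm
    rw [this, Ne, IsFractionRing.to_map_eq_zero_iff]
    exact h2
  have : Nontrivial W := by
    have h1 : Module.finrank K W = Module.finrank 𝒪 M := Module.finrank_baseChange
    have h3 : 0 < Module.finrank 𝒪 M := Module.finrank_pos
    exact Module.nontrivial_of_finrank_pos (R := K) (h1 ▸ h3)
  -- `t c = 0`
  have htc : t c = 0 := by
    obtain ⟨m, hm⟩ := exists_ne (0 : M)
    have h := congrArg (fun f : Module.End 𝒪 M => f m) (hquad c)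
    simp only [LinearMap.add_apply, LinearMap.sub_apply, LinearMap.smul_apply,
      Module.End.mul_apply, Module.End.one_apply, LinearMap.zero_apply] at h
    have hcc : r c (r c m) = m := by
      rw [← Module.End.mul_apply, ← map_mul, hc, map_one, Module.End.one_apply]
    rw [hcc, hdc, neg_smul, one_smul] at h
    have h' : t c • r c m = 0 := by
      have : t c • r c m = -(m - t c • r c m + -m) := by abel
      rw [this, h, neg_zero]
    rcases smul_eq_zero.mp h' with h1 | h1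
    · exact h1
    · exfalso
      apply hm
      rw [← hcc, h1, map_zero]
  let Q : QuadData GQ K W :=
    { R := (Module.End.baseChangeHom 𝒪 K M).toMonoidHom.comp r
      t := fun σ => algebraMap 𝒪 K (t σ)
      d := fun σ => algebraMap 𝒪 K (d σ)
      quad := fun σ => by
        have h := congrArg (Module.End.baseChangeHom 𝒪 K M) (hquad σ)
        rw [map_zero, map_add, map_sub, map_mul, map_smul, map_smul, map_one] at h
        show Module.End.baseChangeHom 𝒪 K M (r σ) * Module.End.baseChangeHom 𝒪 K M (r σ)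
          - algebraMap 𝒪 K (t σ) • Module.End.baseChangeHom 𝒪 K M (r σ)
          + algebraMap 𝒪 K (d σ) • (1 : Module.End K W) = 0
        rw [algebraMap_smul, algebraMap_smul]
        exact h
      d_mul := fun σ τ => by rw [map_mul, map_mul]
      c := c
      c_sq := hc
      d_c := by rw [hdc, map_neg, map_one]
      t_c := by rw [htc, map_zero] }
  have hQ : ∀ σ m, Q.R σ (ι m) = ι (r σ m) := fun σ m => by
    show (r σ).baseChange K ((1 : K) ⊗ₜ[𝒪] m) = (1 : K) ⊗ₜ[𝒪] (r σ m)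
    rw [LinearMap.baseChange_tmul]
  exact exists_rep_core ι h2K r hr Q hQ t (fun _ => rfl) d (fun _ => rfl) hd

end Main


section Residual

variable (k : Type) [Field k] (M : Type) [AddCommGroup M] [Module k M] [Module.Finite k M]

/-- **P3 [ALG]**, field version: the same statement for a finite-dimensional representation over
a field of characteristic `≠ 2` factoring through a finite level. -/
theorem exists_residualGaloisRep_of_quadratic [Nontrivial M] (h2 : (2 : k) ≠ 0)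
    (r : GQ →* Module.End k M) (hr : GaloisFactorsThroughFiniteLevel r)
    (t : GQ → k) (d : GQ →* k) (hd : GaloisFactorsThroughFiniteLevel d)
    (hquad : ∀ σ, r σ * r σ - t σ • r σ + d σ • (1 : Module.End k M) = 0)
    (c : GQ) (hc : c * c = 1) (hdc : d c = -1) :
    ∃ ρ : ResidualGaloisRep k,
      (∀ σ, LinearMap.charpoly (ρ.ρ σ) = X ^ 2 - C (t σ) * X + C (d σ)) ∧
      (∀ σ, r σ = 1 → d σ = 1 → ρ.ρ σ = 1) := by
  have hr' : GaloisActionIsAdicContinuous k r := by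
    intro n
    obtain ⟨L, hL, h⟩ := hr
    refine ⟨L, hL, fun σ hσ v => ?_⟩
    rw [h σ hσ, Module.End.one_apply, sub_self]
    exact Submodule.zero_mem _
  have hd' : IsAdicContinuousChar k d := by
    intro n
    obtain ⟨L, hL, h⟩ := hd
    refine ⟨L, hL, fun σ hσ => ?_⟩
    rw [h σ hσ, sub_self]
    exact Ideal.zero_mem _
  obtain ⟨ρ, h1, h3⟩ := exists_galoisRepAdic_of_quadratic k M h2 r hr' t d hd' hquad c hc hdc
  exact ⟨ρ.toResidualGaloisRep, h1, h3⟩

end Residual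

end Fermat.Agent.P3.helper22
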