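import Fermat.Agent.P3.helper24_Zp
import Fermat.Agent.S14.helper91_Dictionary
import Fermat.Prelude.Def_GaloisRep_ComplexConjugation

/-!
# P3 / [CYC] (helper24): the `p`-adic cyclotomic character with values in a complete local ring

`cyclo : CycloStatement`.  The character is `d = (ℤ_p → R) ∘ χ_cyc`, with `χ_cyc` Mathlib's
`cyclotomicCharacter` of `ℚ̄`.

* `eq_of_pow_eq_one_of_valuation_sub_lt_one` : roots of unity of order prime to `ℓ` are
  incongruent modulo a valuation subring over `ℓ`;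
* `cycloZp p : G_ℚ →* ℤ_[p]ˣ`, `cycloZp_sub_natCast_mem` (characterisation modulo `p ^ n`);
* `cycloZp_eq_one_of_mem_inertia`, `cycloZp_frobenius`, `cycloZp_complexConjugation`.
-/

set_option autoImplicit false

namespace Fermat.Agent.P3.helper24

open Fermat.Agent.P3

/-! ## Roots of unity modulo a valuation subring -/

section Roots

variable {K : Type*} [Field K] (A : ValuationSubring K)

lemma valuation_eq_one_of_pow_eq_one {N : ℕ} (hN : N ≠ 0) {η : K} (h : η ^ N = 1) :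
    A.valuation η = 1 := by
  have h1 : (A.valuation η) ^ N = 1 := by rw [← map_pow, h, map_one]
  exact (pow_eq_one_iff_left hN).mp h1

/-- Roots of unity of order prime to `ℓ` are incongruent modulo a valuation subring in which
`ℓ` is not a unit. -/
theorem eq_of_pow_eq_one_of_valuation_sub_lt_one {ℓ : ℕ} (hℓ : ℓ.Prime)
    (hA : (ℓ : K) ∈ A.nonunits) {N : ℕ} (hN : ¬ ℓ ∣ N) {η₁ η₂ : K}
    (h1 : η₁ ^ N = 1) (h2 : η₂ ^ N = 1) (h : A.valuation (η₁ - η₂) < 1) : η₁ = η₂ := by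
  have hN0 : N ≠ 0 := by
    rintro rfl
    exact hN (dvd_zero ℓ)
  by_contra hne
  have hs : ∑ i ∈ Finset.range N, η₁ ^ i * η₂ ^ (N - 1 - i) = 0 := by
    have := geom_sum₂_mul η₁ η₂ N
    rw [h1, h2, sub_self] at this
    rcases mul_eq_zero.mp this with h | h
    · exact h
    · exact absurd (sub_eq_zero.mp h) hne
  have hv1 : A.valuation η₁ = 1 := valuation_eq_one_of_pow_eq_one A hN0 h1
  have hv2 : A.valuation η₂ = 1 := valuation_eq_one_of_pow_eq_one A hN0 h2
  -- each term is congruent to `η₂ ^ (N - 1)`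
  have hterm : ∀ i ∈ Finset.range N,
      A.valuation (η₁ ^ i * η₂ ^ (N - 1 - i) - η₂ ^ (N - 1)) < 1 := by
    intro i hi
    have hi' := Finset.mem_range.mp hi
    have e1 : η₁ ^ i * η₂ ^ (N - 1 - i) - η₂ ^ (N - 1)
        = η₂ ^ (N - 1 - i) * ((η₁ - η₂) * ∑ j ∈ Finset.range i, η₁ ^ j * η₂ ^ (i - 1 - j)) := by
      rw [mul_comm (η₁ - η₂), geom_sum₂_mul]
      have : η₂ ^ (N - 1) = η₂ ^ (N - 1 - i) * η₂ ^ i := by
        rw [← pow_add]; congr 1; omega
      rw [this]; ring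
    rw [e1, map_mul, map_mul, map_pow, hv2, one_pow, one_mul]
    have hsum : A.valuation (∑ j ∈ Finset.range i, η₁ ^ j * η₂ ^ (i - 1 - j)) ≤ 1 := by
      refine Valuation.map_sum_le _ fun j _ => ?_
      rw [map_mul, map_pow, map_pow, hv1, hv2, one_pow, one_pow, one_mul]
    calc A.valuation (η₁ - η₂) * A.valuation (∑ j ∈ Finset.range i, η₁ ^ j * η₂ ^ (i - 1 - j))
        ≤ A.valuation (η₁ - η₂) * 1 := by gcongr
      _ < 1 := by rwa [mul_one]
  have hsum : A.valuation (∑ i ∈ Finset.range N, (η₁ ^ i * η₂ ^ (N - 1 - i) - η₂ ^ (N - 1)))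
      < 1 := Valuation.map_sum_lt _ one_ne_zero hterm
  rw [Finset.sum_sub_distrib, hs, zero_sub, Finset.sum_const, Finset.card_range,
    Valuation.map_neg, nsmul_eq_mul, map_mul, map_pow, hv2, one_pow, mul_one] at hsum
  have hNv : A.valuation ((N : ℤ) : K) = 1 :=
    Fermat.Agent.S54.helper91.valuation_intCast_eq_one A hℓ hA
      (by exact_mod_cast hN)
  rw [Int.cast_natCast] at hNv
  rw [hNv] at hsum
  exact lt_irrefl _ hsum

end Roots

/-! ## The cyclotomic character with values in `ℤ_p` -/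

section Char

variable (p : ℕ) [Fact p.Prime]

lemma exists_primitiveRoot_pow (n : ℕ) : ∃ ζ : Qbar, IsPrimitiveRoot ζ (p ^ n) :=
  HasEnoughRootsOfUnity.exists_primitiveRoot Qbar (p ^ n)

/-- The `p`-adic cyclotomic character of `G_ℚ`, with values in `ℤ_p`. -/
noncomputable def cycloZp : GQ →* ℤ_[p]ˣ :=
  (cyclotomicCharacter Qbar p).comp (MulSemiringAction.toRingAut GQ Qbar)

lemma cycloZp_spec (g : GQ) {n : ℕ} {t : Qbar} (ht : t ^ p ^ n = 1) :
    g t = t ^ ((((cycloZp p g : ℤ_[p]ˣ) : ℤ_[p])).toZModPow n).val :=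
  cyclotomicCharacter.spec p (MulSemiringAction.toRingAut GQ Qbar g) t ht

lemma natCast_eq_of_pow_eq_pow {ζ : Qbar} {k : ℕ} (hk : k ≠ 0) (hζ : IsPrimitiveRoot ζ k)
    {a b : ℕ} (h : ζ ^ a = ζ ^ b) : (a : ZMod k) = (b : ZMod k) := by
  have hζ0 : ζ ≠ 0 := hζ.ne_zero hk
  have h1 : ζ ^ ((b : ℤ) - a) = 1 := by
    rw [zpow_sub₀ hζ0, zpow_natCast, zpow_natCast, h, div_self (pow_ne_zero _ hζ0)]
  have h2 : (k : ℤ) ∣ (b : ℤ) - a := (hζ.zpow_eq_one_iff_dvd _).mp h1
  have h3 := (ZMod.intCast_eq_intCast_iff_dvd_sub (a : ℤ) (b : ℤ) k).mpr h2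
  exact_mod_cast h3

/-- Characterisation of the cyclotomic character modulo `p ^ n`. -/
lemma cycloZp_sub_natCast_mem (g : GQ) (n a : ℕ)
    (h : ∀ ζ : Qbar, ζ ^ (p ^ n) = 1 → g ζ = ζ ^ a) :
    ((cycloZp p g : ℤ_[p]ˣ) : ℤ_[p]) - (a : ℤ_[p]) ∈ Ideal.span {(p : ℤ_[p]) ^ n} := by
  obtain ⟨ζ, hζ⟩ := exists_primitiveRoot_pow p n
  have h1 := cycloZp_spec p g (hζ.pow_eq_one)
  rw [h ζ hζ.pow_eq_one] at h1
  have hk : p ^ n ≠ 0 := pow_ne_zero _ (Fact.out : p.Prime).ne_zero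
  have h2 := natCast_eq_of_pow_eq_pow hk hζ h1
  rw [ZMod.natCast_zmod_val] at h2
  rw [← PadicInt.ker_toZModPow, RingHom.mem_ker, map_sub, map_natCast, sub_eq_zero]
  exact h2.symm

end Char

/-! ## The cyclotomic character with values in `R` -/

section CharR

variable (p : ℕ) [Fact p.Prime] (R : Type) [CommRing R] [IsLocalRing R]
  [IsAdicComplete (IsLocalRing.maximalIdeal R) R] (hp : (p : R) ∈ IsLocalRing.maximalIdeal R)

/-- The `p`-adic cyclotomic character with values in `R`. -/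
noncomputable def cycloChar : GQ →* Rˣ :=
  (Units.map (zpHom p R hp : ℤ_[p] →* R)).comp (cycloZp p)

lemma cycloChar_coe (g : GQ) :
    ((cycloChar p R hp g : Rˣ) : R) = zpHom p R hp ((cycloZp p g : ℤ_[p]ˣ) : ℤ_[p]) := rfl

lemma isCycloChar_cycloChar : IsCycloChar p (cycloChar p R hp) := by
  intro n g a h
  have h1 := cycloZp_sub_natCast_mem p g n a h
  rw [Ideal.mem_span_singleton] at h1 ⊢
  obtain ⟨y, hy⟩ := h1
  refine ⟨zpHom p R hp y, ?_⟩
  rw [cycloChar_coe, ← map_natCast (zpHom p R hp) a, ← map_sub, hy, map_mul, map_pow,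
    map_natCast]

omit [Fact p.Prime] [IsAdicComplete (IsLocalRing.maximalIdeal R) R] in
include hp in
lemma span_pow_le_maximalIdeal_pow (n : ℕ) :
    Ideal.span {(p : R) ^ n} ≤ IsLocalRing.maximalIdeal R ^ n := by
  rw [Ideal.span_singleton_le_iff_mem]
  exact Ideal.pow_mem_pow hp n

lemma isAdicContinuousChar_cycloChar : IsAdicContinuousChar (cycloChar p R hp) := by
  intro n
  obtain ⟨ζ, hζ⟩ := exists_primitiveRoot_pow p n
  have hk : 0 < p ^ n := pow_pos (Fact.out : p.Prime).pos _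
  refine ⟨IntermediateField.adjoin ℚ {ζ}, ?_, fun σ hσ => ?_⟩
  · exact IntermediateField.adjoin.finiteDimensional (hζ.isIntegral hk).tower_top
  · have hfix : σ ζ = ζ := hσ ζ (IntermediateField.mem_adjoin_simple_self ℚ ζ)
    have h1 : ∀ t : Qbar, t ^ (p ^ n) = 1 → σ t = t ^ 1 := by
      intro t ht
      obtain ⟨i, -, rfl⟩ := hζ.eq_pow_of_pow_eq_one ht
      rw [map_pow, hfix, pow_one]
    have h2 := isCycloChar_cycloChar p R hp n σ 1 h1
    rw [Nat.cast_one] at h2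
    exact span_pow_le_maximalIdeal_pow p R hp n h2

/-- If `g` acts on all `p`-power roots of unity as `ζ ↦ ζ ^ a`, then `d g = a`. -/
lemma cycloChar_eq_natCast (g : GQ) (a : ℕ)
    (h : ∀ (n : ℕ) (ζ : Qbar), ζ ^ (p ^ n) = 1 → g ζ = ζ ^ a) :
    ((cycloChar p R hp g : Rˣ) : R) = (a : R) := by
  rw [← sub_eq_zero]
  exact eq_zero_of_forall_mem_span_pow p R hp fun n =>
    isCycloChar_cycloChar p R hp n g a (h n)

end CharR

/-! ## Inertia, Frobenius, complex conjugation on roots of unity -/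

section Action

open Fermat.Agent.S54.helper91 (mem_valuationSubring_of_isIntegral)

variable (A : ValuationSubring Qbar) {ℓ : ℕ} (hℓ : ℓ.Prime) (hA : A.LiesOverPrime ℓ)

lemma mem_of_pow_eq_one {N : ℕ} (hN : N ≠ 0) {ζ : Qbar} (hζ : ζ ^ N = 1) : ζ ∈ A := by
  refine mem_valuationSubring_of_isIntegral A ?_
  refine IsIntegral.of_pow (Nat.pos_of_ne_zero hN) ?_
  rw [hζ]
  exact isIntegral_one

include hℓ hA in
lemma apply_eq_of_mem_inertia {N : ℕ} (hN : ¬ ℓ ∣ N) {σ : GQ}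
    (hσ : σ ∈ A.inertiaSubgroupIn ℚ) {ζ : Qbar} (hζ : ζ ^ N = 1) : σ ζ = ζ := by
  have hN0 : N ≠ 0 := by
    rintro rfl
    exact hN (dvd_zero ℓ)
  refine eq_of_pow_eq_one_of_valuation_sub_lt_one A hℓ hA hN ?_ hζ ?_
  · rw [← map_pow, hζ, map_one]
  · exact ((Fermat.Agent.S14.helper91.mem_inertiaSubgroupIn_iff_valuation A σ).mp hσ).2 ζ
      (mem_of_pow_eq_one A hN0 hζ)

include hℓ hA in
lemma apply_eq_pow_of_isFrobeniusAt {N : ℕ} (hN : ¬ ℓ ∣ N) {φ : GQ}
    (hφ : A.IsFrobeniusAt φ ℓ) {ζ : Qbar} (hζ : ζ ^ N = 1) : φ ζ = ζ ^ ℓ := by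
  have hN0 : N ≠ 0 := by
    rintro rfl
    exact hN (dvd_zero ℓ)
  refine eq_of_pow_eq_one_of_valuation_sub_lt_one A hℓ hA hN ?_ ?_ ?_
  · rw [← map_pow, hζ, map_one]
  · rw [← pow_mul, mul_comm, pow_mul, hζ, one_pow]
  · exact Fermat.Agent.S14.helper91.IsFrobeniusAt_valuation_lt_one A hφ
      (mem_of_pow_eq_one A hN0 hζ)

lemma complexConjugation_apply_of_pow_eq_one {N : ℕ} (hN : N ≠ 0) {ζ : Qbar}
    (hζ : ζ ^ N = 1) : complexConjugation ζ = ζ⁻¹ := by
  apply complexEmbedding.toRingHom.injective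
  change complexEmbedding (complexConjugation ζ) = complexEmbedding ζ⁻¹
  rw [complexEmbedding_complexConjugation, map_inv₀]
  have hz : (complexEmbedding ζ) ^ N = 1 := by rw [← map_pow, hζ, map_one]
  have hnorm : ‖complexEmbedding ζ‖ = 1 := Complex.norm_eq_one_of_pow_eq_one hz hN
  exact (Complex.inv_eq_conj hnorm).symm

end Action

/-! ## The statement -/

/-- **[CYC]** the `p`-adic cyclotomic character with values in a `p`-adically complete local
ring. -/
theorem cyclo : CycloStatement := by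
  intro p _ R _ _ _ hp
  have hpp : p.Prime := Fact.out
  refine ⟨cycloChar p R hp, isCycloChar_cycloChar p R hp,
    isAdicContinuousChar_cycloChar p R hp, ?_, complexConjugation,
    complexConjugation_mul_self, ?_⟩
  · intro ℓ hℓ hℓp A hA
    have hndvd : ∀ n : ℕ, ¬ ℓ ∣ p ^ n := fun n h =>
      hℓp ((Nat.prime_dvd_prime_iff_eq hℓ hpp).mp (hℓ.dvd_of_dvd_pow h))
    refine ⟨fun σ hσ => ?_, fun φ hφ => ?_⟩
    · apply Units.ext
      have h1 := cycloChar_eq_natCast p R hp σ 1 fun n ζ hζ => by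
        rw [pow_one]
        exact apply_eq_of_mem_inertia A hℓ hA (hndvd n) hσ hζ
      rw [h1, Nat.cast_one, Units.val_one]
    · exact cycloChar_eq_natCast p R hp φ ℓ fun n ζ hζ =>
        apply_eq_pow_of_isFrobeniusAt A hℓ hA (hndvd n) hφ hζ
  · rw [← add_eq_zero_iff_eq_neg]
    refine eq_zero_of_forall_mem_span_pow p R hp fun n => ?_
    have hk : p ^ n ≠ 0 := pow_ne_zero _ hpp.ne_zero
    have h1 := isCycloChar_cycloChar p R hp n complexConjugation (p ^ n - 1) fun ζ hζ => by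
      rw [complexConjugation_apply_of_pow_eq_one hk hζ]
      have hζ0 : ζ ≠ 0 := by
        rintro rfl
        rw [zero_pow hk] at hζ
        exact zero_ne_one hζ
      rw [eq_comm, ← mul_eq_one_iff_eq_inv₀ hζ0, ← pow_succ, Nat.sub_add_cancel
        (Nat.one_le_iff_ne_zero.mpr hk), hζ]
    have h2 : ((cycloChar p R hp complexConjugation : Rˣ) : R) + 1
        = (((cycloChar p R hp complexConjugation : Rˣ) : R) - ((p ^ n - 1 : ℕ) : R))
          + (p : R) ^ n := by
      rw [Nat.cast_sub (Nat.one_le_iff_ne_zero.mpr hk), Nat.cast_pow, Nat.cast_one]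
      ring
    rw [h2]
    exact Ideal.add_mem _ h1 (Ideal.mem_span_singleton_self _)

end Fermat.Agent.P3.helper24
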