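import Fermat.Agent.P3.Interface

/-!
# P3 / [ZP] (helper24): a `p`-adically complete local ring of residue characteristic `p` is a
`ℤ_p`-algebra

`zpHom p R hp : ℤ_[p] →+* R` for a local ring `R`, complete for its maximal ideal, with
`(p : R) ∈ 𝔪`; it is the unique ring homomorphism `ℤ_[p] →+* R` (`zpHom_unique`).
-/

set_option autoImplicit false

namespace Fermat.Agent.P3.helper24

section Basic

variable (p : ℕ) [Fact p.Prime]

/-- Two ring homomorphisms from `ℤ_p` to a ring in which `p ^ n = 0` are equal. -/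
lemma padicInt_ringHom_ext_of_pow_eq_zero {A : Type*} [Ring A] {n : ℕ}
    (h : ((p : A)) ^ n = 0) (f g : ℤ_[p] →+* A) : f = g := by
  have key : ∀ (f : ℤ_[p] →+* A) (x : ℤ_[p]), f x = ((x.appr n : ℕ) : A) := by
    intro f x
    have h1 := PadicInt.appr_spec n x
    rw [Ideal.mem_span_singleton] at h1
    obtain ⟨y, hy⟩ := h1
    have h2 : x = (x.appr n : ℤ_[p]) + (p : ℤ_[p]) ^ n * y := by
      rw [← hy]; ring
    conv_lhs => rw [h2]
    rw [map_add, map_mul, map_pow, map_natCast, map_natCast, h, zero_mul, add_zero]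
  ext x
  rw [key f x, key g x]

end Basic

section Zp

variable (p : ℕ) [Fact p.Prime] (R : Type*) [CommRing R] [IsLocalRing R]

omit [Fact p.Prime] in
/-- `p ^ n = 0` in `R ⧸ 𝔪 ^ n`. -/
lemma natCast_pow_quotient_eq_zero (hp : (p : R) ∈ IsLocalRing.maximalIdeal R) (n : ℕ) :
    ((p : R ⧸ IsLocalRing.maximalIdeal R ^ n)) ^ n = 0 := by
  have h1 : ((p : R ⧸ IsLocalRing.maximalIdeal R ^ n)) ^ n
      = Ideal.Quotient.mk (IsLocalRing.maximalIdeal R ^ n) ((p : R) ^ n) := by
    rw [map_pow, map_natCast]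
  rw [h1, Ideal.Quotient.eq_zero_iff_mem]
  exact Ideal.pow_mem_pow hp n

/-- The level-`n` map `ℤ_p → ℤ/p^n → R ⧸ 𝔪 ^ n`. -/
noncomputable def zpHomLevel (hp : (p : R) ∈ IsLocalRing.maximalIdeal R) (n : ℕ) :
    ℤ_[p] →+* R ⧸ IsLocalRing.maximalIdeal R ^ n :=
  haveI : CharP (R ⧸ IsLocalRing.maximalIdeal R ^ n)
      (ringChar (R ⧸ IsLocalRing.maximalIdeal R ^ n)) := ringChar.charP _
  (ZMod.castHom (ringChar.dvd (by
      rw [Nat.cast_pow]
      exact natCast_pow_quotient_eq_zero p R hp n) :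
    ringChar (R ⧸ IsLocalRing.maximalIdeal R ^ n) ∣ p ^ n)
    (R ⧸ IsLocalRing.maximalIdeal R ^ n)).comp (PadicInt.toZModPow n)

variable [IsAdicComplete (IsLocalRing.maximalIdeal R) R]

/-- **[ZP]** the ring homomorphism `ℤ_p → R`. -/
noncomputable def zpHom (hp : (p : R) ∈ IsLocalRing.maximalIdeal R) : ℤ_[p] →+* R :=
  IsAdicComplete.liftRingHom (IsLocalRing.maximalIdeal R) (zpHomLevel p R hp)
    (fun {m _} _ => padicInt_ringHom_ext_of_pow_eq_zero p
      (natCast_pow_quotient_eq_zero p R hp m) _ _)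

/-- Any two ring homomorphisms `ℤ_p → R` agree (`R` complete local, `p ∈ 𝔪`). -/
lemma zp_ringHom_ext (hp : (p : R) ∈ IsLocalRing.maximalIdeal R) (f g : ℤ_[p] →+* R) :
    f = g := by
  ext x
  rw [← sub_eq_zero]
  refine IsHausdorff.haus (inferInstance : IsHausdorff (IsLocalRing.maximalIdeal R) R) _
    fun n => ?_
  rw [SModEq.zero, smul_eq_mul, Ideal.mul_top, ← Ideal.Quotient.eq_zero_iff_mem, map_sub,
    sub_eq_zero]
  exact congrArg (fun φ : ℤ_[p] →+* R ⧸ IsLocalRing.maximalIdeal R ^ n => φ x)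
    (padicInt_ringHom_ext_of_pow_eq_zero p (natCast_pow_quotient_eq_zero p R hp n)
      ((Ideal.Quotient.mk _).comp f) ((Ideal.Quotient.mk _).comp g))

lemma zpHom_unique (hp : (p : R) ∈ IsLocalRing.maximalIdeal R) (f : ℤ_[p] →+* R) :
    f = zpHom p R hp := zp_ringHom_ext p R hp _ _

omit [Fact p.Prime] in
/-- An element of `R` lying in `(p ^ n)` for all `n` is zero. -/
lemma eq_zero_of_forall_mem_span_pow (hp : (p : R) ∈ IsLocalRing.maximalIdeal R) {x : R}
    (hx : ∀ n : ℕ, x ∈ Ideal.span {(p : R) ^ n}) : x = 0 := by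
  refine IsHausdorff.haus (inferInstance : IsHausdorff (IsLocalRing.maximalIdeal R) R) _
    fun n => ?_
  rw [SModEq.zero, smul_eq_mul, Ideal.mul_top]
  have h1 : Ideal.span {(p : R) ^ n} ≤ IsLocalRing.maximalIdeal R ^ n := by
    rw [Ideal.span_singleton_le_iff_mem]
    exact Ideal.pow_mem_pow hp n
  exact h1 (hx n)

end Zp

/-- **[ZP]** a `p`-adically complete local ring of residue characteristic `p` is a
`ℤ_p`-algebra. -/
theorem zpAlgebra : ZpAlgebraStatement := by
  intro p _ R _ _ _ hp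
  exact ⟨zpHom p R hp⟩

end Fermat.Agent.P3.helper24
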