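import Fermat.Agent.P3.Interface
import Fermat.Agent.P3.helper24_Zp
import Fermat.Agent.S14.helper91_Dictionary
import Fermat.Prelude.Def_GaloisRep_ComplexConjugation

/-!
# P3 / [CYC] (helper26): the `p`-adic cyclotomic character with values in a complete local ring

* `chi p : GQ →* ℤ_[p]ˣ` : Mathlib's `cyclotomicCharacter` on `ℚ̄`.
* `chi_sub_mem`, `chi_eq_natCast`, `chi_eq_neg_one` : its values from the action on the
  `p`-power roots of unity.
* `eq_of_valuation_sub_lt_one` : the `p`-power roots of unity are distinct modulo the maximal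
  ideal of a valuation subring of `ℚ̄` over `ℓ ≠ p`.
* `chi_inertia`, `chi_frobenius`, `chi_complexConjugation`.
* `cyclo_of_ringHom`, `cyclo_of_zp : ZpAlgebraStatement → CycloStatement`.
* `cycloStatement : CycloStatement` (unconditional, with `helper24.zpAlgebra`).
-/

set_option autoImplicit false

noncomputable section

namespace Fermat.Agent.P3.helper26

open Fermat.Agent.P3

/-! ## The character -/

section Char

variable (p : ℕ) [Fact p.Prime]

/-- The `p`-adic cyclotomic character of `G_ℚ`. -/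
def chi : GQ →* ℤ_[p]ˣ :=
  (cyclotomicCharacter Qbar p).comp (MulSemiringAction.toRingAut GQ Qbar)

theorem toZModPow_chi (n : ℕ) (g : GQ) (a : ℕ)
    (h : ∀ ζ : Qbar, ζ ^ (p ^ n) = 1 → g ζ = ζ ^ a) :
    PadicInt.toZModPow n (chi p g : ℤ_[p]) = (a : ZMod (p ^ n)) := by
  have h1 := cyclotomicCharacter.toZModPow (L := Qbar) p (n := n)
    (MulSemiringAction.toRingAut GQ Qbar g)
  change PadicInt.toZModPow n
    ((cyclotomicCharacter Qbar p (MulSemiringAction.toRingAut GQ Qbar g) : ℤ_[p]ˣ) : ℤ_[p]) = _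
  rw [h1]
  symm
  apply modularCyclotomicCharacter.unique
  intro t ht
  have ht1 : (t : Qbar) ^ (p ^ n) = 1 := by
    have := (mem_rootsOfUnity _ _).1 ht
    rw [← Units.val_pow_eq_pow_val, this, Units.val_one]
  have h2 : MulSemiringAction.toRingAut GQ Qbar g (t : Qbar) = g (t : Qbar) := rfl
  rw [h2, h (t : Qbar) ht1, ZMod.val_natCast]
  exact pow_eq_pow_mod a ht1

theorem chi_sub_mem (n : ℕ) (g : GQ) (a : ℕ)
    (h : ∀ ζ : Qbar, ζ ^ (p ^ n) = 1 → g ζ = ζ ^ a) :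
    ((chi p g : ℤ_[p]) - (a : ℤ_[p])) ∈ Ideal.span {(p : ℤ_[p]) ^ n} := by
  rw [← PadicInt.ker_toZModPow, RingHom.mem_ker, map_sub, toZModPow_chi p n g a h, map_natCast,
    sub_self]

theorem chi_eq_natCast (g : GQ) (a : ℕ)
    (h : ∀ (n : ℕ) (ζ : Qbar), ζ ^ (p ^ n) = 1 → g ζ = ζ ^ a) : (chi p g : ℤ_[p]) = (a : ℤ_[p]) := by
  apply PadicInt.ext_of_toZModPow.1
  intro n
  rw [toZModPow_chi p n g a (h n), map_natCast]

theorem chi_eq_one (g : GQ)
    (h : ∀ (n : ℕ) (ζ : Qbar), ζ ^ (p ^ n) = 1 → g ζ = ζ) : chi p g = 1 := by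
  apply Units.ext
  rw [chi_eq_natCast p g 1 (fun n ζ hζ => by rw [h n ζ hζ, pow_one]), Nat.cast_one, Units.val_one]

theorem chi_eq_neg_one (g : GQ)
    (h : ∀ (n : ℕ) (ζ : Qbar), ζ ^ (p ^ n) = 1 → g ζ = ζ⁻¹) : (chi p g : ℤ_[p]) = -1 := by
  apply PadicInt.ext_of_toZModPow.1
  intro n
  have hpos : 0 < p ^ n := pow_pos (Fact.out : p.Prime).pos n
  have h1 : ∀ ζ : Qbar, ζ ^ (p ^ n) = 1 → g ζ = ζ ^ (p ^ n - 1) := by
    intro ζ hζ
    rw [h n ζ hζ]
    have hζ0 : ζ ≠ 0 := by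
      rintro rfl
      rw [zero_pow hpos.ne'] at hζ
      exact zero_ne_one hζ
    apply inv_eq_of_mul_eq_one_right
    rw [← pow_succ', Nat.sub_add_cancel hpos, hζ]
  rw [toZModPow_chi p n g (p ^ n - 1) h1, map_neg, map_one, Nat.cast_sub hpos, Nat.cast_one,
    ZMod.natCast_self, zero_sub]

end Char

/-! ## Roots of unity modulo a place over `ℓ ≠ p` -/

section Val

variable (A : ValuationSubring Qbar)

theorem mem_of_pow_eq_one {ζ : Qbar} {N : ℕ} (hN : N ≠ 0) (h : ζ ^ N = 1) : ζ ∈ A := by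
  rw [← A.valuation_le_one_iff]
  by_contra hlt
  rw [not_le] at hlt
  have h1 : (1 : ValuationSubring.ValueGroup A) < A.valuation ζ ^ N := one_lt_pow₀ hlt hN
  rw [← map_pow, h, map_one] at h1
  exact lt_irrefl _ h1

theorem natCast_notMem_maximalIdeal {ℓ p : ℕ} (hℓ : ℓ.Prime) (hp : p.Prime) (hne : ℓ ≠ p)
    (hA : A.LiesOverPrime ℓ) : ((p : ℕ) : A) ∉ IsLocalRing.maximalIdeal A := by
  intro hpm
  have hℓm : ((ℓ : ℕ) : A) ∈ IsLocalRing.maximalIdeal A := by
    obtain ⟨ha, h⟩ := (A.mem_nonunits_iff_exists_mem_maximalIdeal).1 hA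
    have : (⟨(ℓ : Qbar), ha⟩ : A) = ((ℓ : ℕ) : A) := Subtype.ext (by simp)
    rwa [this] at h
  have hcop : IsCoprime ((p : ℕ) : ℤ) ((ℓ : ℕ) : ℤ) :=
    Nat.isCoprime_iff_coprime.2 ((Nat.coprime_primes hp hℓ).2 (Ne.symm hne))
  obtain ⟨u, v, huv⟩ := hcop
  have h1 : ((u * ((p : ℕ) : ℤ) + v * ((ℓ : ℕ) : ℤ) : ℤ) : A) ∈ IsLocalRing.maximalIdeal A := by
    push_cast
    exact Ideal.add_mem _ (Ideal.mul_mem_left _ _ hpm) (Ideal.mul_mem_left _ _ hℓm)
  rw [huv, Int.cast_one] at h1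
  exact (Ideal.ne_top_iff_one _).1 (IsLocalRing.maximalIdeal.isMaximal A).ne_top h1

/-- Two `p`-power roots of unity which are congruent modulo the maximal ideal of a valuation
subring over `ℓ ≠ p` are equal. -/
theorem eq_of_valuation_sub_lt_one {ℓ p : ℕ} (hℓ : ℓ.Prime) (hp : p.Prime) (hne : ℓ ≠ p)
    (hA : A.LiesOverPrime ℓ) {n : ℕ} {ζ ζ' : Qbar} (h : ζ ^ (p ^ n) = 1) (h' : ζ' ^ (p ^ n) = 1)
    (hv : A.valuation (ζ' - ζ) < 1) : ζ' = ζ := by
  have hN : p ^ n ≠ 0 := pow_ne_zero n hp.ne_zero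
  set a : A := ⟨ζ, mem_of_pow_eq_one A hN h⟩ with ha
  set a' : A := ⟨ζ', mem_of_pow_eq_one A hN h'⟩ with ha'
  have hmem : a' - a ∈ IsLocalRing.maximalIdeal A := by
    rw [A.valuation_lt_one_iff]
    exact hv
  have hres : IsLocalRing.residue A a' = IsLocalRing.residue A a := by
    rw [← sub_eq_zero, ← map_sub, IsLocalRing.residue_eq_zero_iff]
    exact hmem
  have hapow : a ^ (p ^ n) = 1 := Subtype.ext (by simpa using h)
  have ha'pow : a' ^ (p ^ n) = 1 := Subtype.ext (by simpa using h')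
  set S : A := ∑ i ∈ Finset.range (p ^ n), a' ^ i * a ^ (p ^ n - 1 - i) with hS
  have hSmul : S * (a' - a) = 0 := by
    rw [hS, (Commute.all a' a).geom_sum₂_mul, hapow, ha'pow, sub_self]
  have hSres : IsLocalRing.residue A S =
      IsLocalRing.residue A (((p ^ n : ℕ) : A) * a ^ (p ^ n - 1)) := by
    rw [hS, map_sum, map_mul, map_natCast, map_pow]
    have : ∀ i ∈ Finset.range (p ^ n),
        IsLocalRing.residue A (a' ^ i * a ^ (p ^ n - 1 - i)) =
          IsLocalRing.residue A a ^ (p ^ n - 1) := by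
      intro i hi
      rw [map_mul, map_pow, map_pow, hres, ← pow_add]
      congr 1
      have := Finset.mem_range.1 hi
      omega
    rw [Finset.sum_congr rfl this, Finset.sum_const, Finset.card_range, nsmul_eq_mul]
  have hunit : ((p ^ n : ℕ) : A) * a ^ (p ^ n - 1) ∉ IsLocalRing.maximalIdeal A := by
    intro hm
    have h1 : ((p ^ n : ℕ) : A) * a ^ (p ^ n - 1) * a ∈ IsLocalRing.maximalIdeal A :=
      Ideal.mul_mem_right _ _ hm
    rw [mul_assoc, ← pow_succ, Nat.sub_add_cancel (Nat.pos_of_ne_zero hN), hapow, mul_one,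
      Nat.cast_pow] at h1
    exact natCast_notMem_maximalIdeal A hℓ hp hne hA
      ((IsLocalRing.maximalIdeal.isMaximal A).isPrime.mem_of_pow_mem n h1)
  have hS0 : S ≠ 0 := by
    intro h0
    apply hunit
    rw [← IsLocalRing.residue_eq_zero_iff, ← hSres, h0, map_zero]
  have hsub : a' - a = 0 := (mul_eq_zero.1 hSmul).resolve_left hS0
  have := congrArg (fun x : A => (x : Qbar)) (sub_eq_zero.1 hsub)
  simpa [ha, ha'] using this

end Val

/-! ## Inertia, Frobenius, complex conjugation -/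

section Arith

variable (p : ℕ) [Fact p.Prime]

theorem chi_inertia {ℓ : ℕ} (hℓ : ℓ.Prime) (hne : ℓ ≠ p) (A : ValuationSubring Qbar)
    (hA : A.LiesOverPrime ℓ) (σ : GQ) (hσ : σ ∈ A.inertiaSubgroupIn ℚ) : chi p σ = 1 := by
  have hp : p.Prime := Fact.out
  obtain ⟨-, hval⟩ := (Fermat.Agent.S14.helper91.mem_inertiaSubgroupIn_iff_valuation A σ).1 hσ
  apply chi_eq_one
  intro n ζ hζ
  have hN : p ^ n ≠ 0 := pow_ne_zero n hp.ne_zero
  refine eq_of_valuation_sub_lt_one A hℓ hp hne hA hζ ?_ (hval ζ (mem_of_pow_eq_one A hN hζ))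
  rw [← map_pow, hζ, map_one]

theorem chi_frobenius {ℓ : ℕ} (hℓ : ℓ.Prime) (hne : ℓ ≠ p) (A : ValuationSubring Qbar)
    (hA : A.LiesOverPrime ℓ) (φ : GQ) (hφ : A.IsFrobeniusAt φ ℓ) :
    (chi p φ : ℤ_[p]) = (ℓ : ℤ_[p]) := by
  have hp : p.Prime := Fact.out
  apply chi_eq_natCast
  intro n ζ hζ
  have hN : p ^ n ≠ 0 := pow_ne_zero n hp.ne_zero
  refine eq_of_valuation_sub_lt_one A hℓ hp hne hA (n := n) ?_ ?_
    (Fermat.Agent.S14.helper91.IsFrobeniusAt_valuation_lt_one A hφ (mem_of_pow_eq_one A hN hζ))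
  · rw [← pow_mul, mul_comm, pow_mul, hζ, one_pow]
  · rw [← map_pow, hζ, map_one]

theorem complexConjugation_apply_of_pow_eq_one {ζ : Qbar} {N : ℕ} (hN : N ≠ 0)
    (h : ζ ^ N = 1) : complexConjugation ζ = ζ⁻¹ := by
  apply complexEmbedding.toRingHom.injective
  change complexEmbedding (complexConjugation ζ) = complexEmbedding ζ⁻¹
  rw [complexEmbedding_complexConjugation, map_inv₀]
  have h1 : complexEmbedding ζ ^ N = 1 := by rw [← map_pow, h, map_one]
  exact (Complex.inv_eq_conj (Complex.norm_eq_one_of_pow_eq_one h1 hN)).symm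

theorem chi_complexConjugation : (chi p complexConjugation : ℤ_[p]) = -1 := by
  have hp : p.Prime := Fact.out
  apply chi_eq_neg_one
  intro n ζ hζ
  exact complexConjugation_apply_of_pow_eq_one (pow_ne_zero n hp.ne_zero) hζ

end Arith

/-! ## The statement -/

section Main

variable (p : ℕ) [Fact p.Prime] (R : Type) [CommRing R]

/-- The cyclotomic character with values in `R`, attached to a ring homomorphism `ℤ_p → R`. -/
def chiR (f : ℤ_[p] →+* R) : GQ →* Rˣ := (Units.map (f : ℤ_[p] →* R)).comp (chi p)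

theorem coe_chiR (f : ℤ_[p] →+* R) (g : GQ) : (chiR p R f g : R) = f (chi p g : ℤ_[p]) := rfl

theorem isCycloChar_chiR (f : ℤ_[p] →+* R) : IsCycloChar p (chiR p R f) := by
  intro n g a h
  obtain ⟨y, hy⟩ := Ideal.mem_span_singleton'.1 (chi_sub_mem p n g a h)
  rw [Ideal.mem_span_singleton']
  refine ⟨f y, ?_⟩
  rw [coe_chiR, ← map_natCast f a, ← map_natCast f p, ← map_pow, ← map_mul, hy, map_sub]

variable [IsLocalRing R]

theorem isAdicContinuousChar_chiR (hpR : (p : R) ∈ IsLocalRing.maximalIdeal R)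
    (f : ℤ_[p] →+* R) : IsAdicContinuousChar (chiR p R f) := by
  have hp : p.Prime := Fact.out
  intro n
  have : NeZero (p ^ n) := ⟨pow_ne_zero n hp.ne_zero⟩
  obtain ⟨ζ, hζ⟩ := HasEnoughRootsOfUnity.exists_primitiveRoot Qbar (p ^ n)
  refine ⟨IntermediateField.adjoin ℚ {ζ}, ?_, ?_⟩
  · exact IntermediateField.adjoin.finiteDimensional
      ((hζ.isIntegral (Nat.pos_of_neZero _)).tower_top (R := ℤ))
  · intro σ hσ
    have hσζ : σ ζ = ζ := hσ ζ (IntermediateField.mem_adjoin_simple_self ℚ ζ)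
    have h1 : ∀ t : Qbar, t ^ (p ^ n) = 1 → σ t = t ^ 1 := by
      intro t ht
      obtain ⟨i, -, rfl⟩ := hζ.eq_pow_of_pow_eq_one ht
      rw [map_pow, hσζ, pow_one]
    have h2 := isCycloChar_chiR p R f n σ 1 h1
    rw [Nat.cast_one] at h2
    have h3 : Ideal.span {(p : R) ^ n} ≤ IsLocalRing.maximalIdeal R ^ n :=
      (Ideal.span_singleton_le_iff_mem _).2 (Ideal.pow_mem_pow hpR n)
    exact h3 h2

/-- **[CYC]** from any ring homomorphism `ℤ_p → R`. -/
theorem cyclo_of_ringHom (hpR : (p : R) ∈ IsLocalRing.maximalIdeal R) (f : ℤ_[p] →+* R) :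
    ∃ d : GQ →* Rˣ, IsCycloChar p d ∧ IsAdicContinuousChar d ∧
      (∀ ℓ : ℕ, ℓ.Prime → ℓ ≠ p → ∀ A : ValuationSubring Qbar, A.LiesOverPrime ℓ →
        (∀ σ ∈ A.inertiaSubgroupIn ℚ, d σ = 1) ∧
        (∀ φ : GQ, A.IsFrobeniusAt φ ℓ → (d φ : R) = (ℓ : R))) ∧
      ∃ c : GQ, c * c = 1 ∧ (d c : R) = -1 := by
  refine ⟨chiR p R f, isCycloChar_chiR p R f, isAdicContinuousChar_chiR p R hpR f, ?_, ?_⟩
  · intro ℓ hℓ hne A hA
    refine ⟨fun σ hσ => ?_, fun φ hφ => ?_⟩
    · change (Units.map (f : ℤ_[p] →* R)) (chi p σ) = 1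
      rw [chi_inertia p hℓ hne A hA σ hσ, map_one]
    · rw [coe_chiR, chi_frobenius p hℓ hne A hA φ hφ, map_natCast]
  · refine ⟨complexConjugation, complexConjugation_mul_self, ?_⟩
    rw [coe_chiR, chi_complexConjugation, map_neg, map_one]

end Main

/-- **[CYC]** conditional on **[ZP]**. -/
theorem cyclo_of_zp (h : ZpAlgebraStatement) : CycloStatement := by
  intro p _ R _ _ _ hpR
  obtain ⟨f⟩ := h p R hpR
  exact cyclo_of_ringHom p R hpR f

/-- **[CYC]**, unconditional. -/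
theorem cycloStatement : CycloStatement :=
  cyclo_of_zp Fermat.Agent.P3.helper24.zpAlgebra

end Fermat.Agent.P3.helper26

end
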