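import Mathlib

/-!
# P3 / [EIGEN] (helper57): the abstract eigen-lattice

Pure commutative algebra (Mathlib only).

* `nontrivial_tensor_field_of_faithful` : the fibre `K ⊗[A] M` of a finite faithful `A`-module at
  a field-valued point `A → K` is nonzero (support = `V(Ann)` + Nakayama);
* `exists_notMem_torsion_of_faithful` : for a domain `𝒪` and `A → 𝒪`, `𝒪 ⊗[A] M` is not torsion;
* `EigQ A M 𝒪 = (𝒪 ⊗[A] M) ⧸ torsion` and the induced action
  `eigEnd : Module.End A M →* Module.End 𝒪 (EigQ A M 𝒪)` with its properties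
  (quadratic relations, adic congruences).
-/

set_option autoImplicit false
set_option linter.style.haveILetI false

open TensorProduct

noncomputable section

namespace Fermat.Agent.P3.helper57

/-! ## The fibre at a field-valued point -/

section Fibre

variable {A : Type*} [CommRing A] {M : Type*} [AddCommGroup M] [Module A M] [Module.Finite A M]

/-- The fibre of a finite faithful module at a field-valued point is nonzero. -/
theorem nontrivial_tensor_field_of_faithful (hfaith : ∀ a : A, (∀ v : M, a • v = 0) → a = 0)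
    (K : Type*) [Field K] [Algebra A K] : Nontrivial (K ⊗[A] M) := by
  let 𝔭 : Ideal A := RingHom.ker (algebraMap A K)
  haveI h𝔭 : 𝔭.IsPrime := RingHom.ker_isPrime _
  let P : PrimeSpectrum A := ⟨𝔭, h𝔭⟩
  have hP : P ∈ Module.support A M := by
    rw [Module.mem_support_iff_of_finite]
    intro a ha
    have h0 : a = 0 := hfaith a (fun v => Module.mem_annihilator.1 ha v)
    rw [h0]
    exact zero_mem _
  have h1 : Nontrivial (𝔭.ResidueField ⊗[A] M) :=
    (Module.mem_support_iff_nontrivial_residueField_tensorProduct P).1 hP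
  let f : 𝔭.ResidueField →+* K := Ideal.ResidueField.lift 𝔭 (algebraMap A K) le_rfl (by
    intro a ha
    rw [Submonoid.mem_comap]
    have hne : algebraMap A K a ≠ 0 := fun h0 => ha (RingHom.mem_ker.2 h0)
    exact (isUnit_iff_ne_zero.2 hne))
  letI : Algebra 𝔭.ResidueField K := f.toAlgebra
  haveI : IsScalarTower A 𝔭.ResidueField K := IsScalarTower.of_algebraMap_eq (fun a => by
    rw [RingHom.algebraMap_toAlgebra]
    exact (Ideal.ResidueField.lift_algebraMap 𝔭 (algebraMap A K) le_rfl _ a).symm)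
  have h2 : Nontrivial (K ⊗[𝔭.ResidueField] (𝔭.ResidueField ⊗[A] M)) := inferInstance
  exact (TensorProduct.AlgebraTensorModule.cancelBaseChange A 𝔭.ResidueField K K M).symm.toEquiv.nontrivial

/-- For a domain `𝒪` receiving `A`, the base change `𝒪 ⊗[A] M` of a finite faithful `A`-module is
not a torsion module. -/
theorem exists_notMem_torsion_of_faithful (hfaith : ∀ a : A, (∀ v : M, a • v = 0) → a = 0)
    (𝒪 : Type*) [CommRing 𝒪] [IsDomain 𝒪] [Algebra A 𝒪] :
    ∃ x : 𝒪 ⊗[A] M, x ∉ Submodule.torsion 𝒪 (𝒪 ⊗[A] M) := by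
  by_contra hcon0
  have hcon : ∀ x : 𝒪 ⊗[A] M, x ∈ Submodule.torsion 𝒪 (𝒪 ⊗[A] M) :=
    fun x => by_contra fun hx => hcon0 ⟨x, hx⟩
  let K := FractionRing 𝒪
  have h1 : Nontrivial (K ⊗[A] M) := nontrivial_tensor_field_of_faithful hfaith K
  have h2 : Nontrivial (K ⊗[𝒪] (𝒪 ⊗[A] M)) :=
    (TensorProduct.AlgebraTensorModule.cancelBaseChange A 𝒪 K K M).toEquiv.nontrivial
  have h3 : Subsingleton (K ⊗[𝒪] (𝒪 ⊗[A] M)) := by
    refine ⟨fun s t => ?_⟩
    have key : ∀ u : K ⊗[𝒪] (𝒪 ⊗[A] M), u = 0 := by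
      intro u
      induction u using TensorProduct.induction_on with
      | zero => rfl
      | tmul k x =>
        obtain ⟨c, hc⟩ := (Submodule.mem_torsion_iff x).1 (hcon x)
        have hc0 : algebraMap 𝒪 K (c : 𝒪) ≠ 0 := by
          intro h0
          have := (IsFractionRing.injective 𝒪 K) (h0.trans (map_zero _).symm)
          exact (nonZeroDivisors.ne_zero c.2) this
        have e1 : k = (c : 𝒪) • (k / algebraMap 𝒪 K (c : 𝒪)) := by
          rw [Algebra.smul_def, mul_div_cancel₀ _ hc0]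
        have hc' : (c : 𝒪) • x = 0 := hc
        rw [e1, TensorProduct.smul_tmul, hc', TensorProduct.tmul_zero]
      | add u v hu hv => rw [hu, hv, add_zero]
    rw [key s, key t]
  exact not_subsingleton _ h3

end Fibre

/-! ## The lattice `(𝒪 ⊗[A] M) ⧸ torsion` -/

section Lattice

variable (A : Type*) [CommRing A] (M : Type*) [AddCommGroup M] [Module A M]
  (𝒪 : Type*) [CommRing 𝒪] [Algebra A 𝒪]

/-- The base change of `M` to `𝒪`, modulo its torsion. -/
abbrev EigQ : Type _ := (𝒪 ⊗[A] M) ⧸ Submodule.torsion 𝒪 (𝒪 ⊗[A] M)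

/-- the class of `c ⊗ v` in `EigQ` -/
def eigMk (c : 𝒪) (v : M) : EigQ A M 𝒪 :=
  Submodule.Quotient.mk (c ⊗ₜ[A] v)

variable {A M 𝒪}

lemma torsion_le_comap (g : (𝒪 ⊗[A] M) →ₗ[𝒪] (𝒪 ⊗[A] M)) :
    Submodule.torsion 𝒪 (𝒪 ⊗[A] M) ≤ (Submodule.torsion 𝒪 (𝒪 ⊗[A] M)).comap g := by
  intro x hx
  obtain ⟨c, hc⟩ := (Submodule.mem_torsion_iff x).1 hx
  rw [Submodule.mem_comap, Submodule.mem_torsion_iff]
  refine ⟨c, ?_⟩
  have hc' : (c : 𝒪) • x = 0 := hc
  change (c : 𝒪) • g x = 0
  rw [← map_smul, hc', map_zero]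

variable (A M 𝒪)

/-- The action of `A`-linear endomorphisms of `M` on `EigQ A M 𝒪`. -/
def eigEnd : Module.End A M →* Module.End 𝒪 (EigQ A M 𝒪) where
  toFun f := (Submodule.torsion 𝒪 (𝒪 ⊗[A] M)).mapQ (Submodule.torsion 𝒪 (𝒪 ⊗[A] M))
    (LinearMap.baseChange 𝒪 f) (torsion_le_comap _)
  map_one' := by
    apply Submodule.linearMap_qext
    ext x
    rfl
  map_mul' f g := by
    apply Submodule.linearMap_qext
    ext x
    rfl

variable {A M 𝒪}

@[simp] lemma eigEnd_eigMk (f : Module.End A M) (c : 𝒪) (v : M) :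
    eigEnd A M 𝒪 f (eigMk A M 𝒪 c v) = eigMk A M 𝒪 c (f v) := rfl

/-- induction principle for `EigQ` -/
lemma eigQ_induction {P : EigQ A M 𝒪 → Prop} (h0 : P 0)
    (hmk : ∀ (c : 𝒪) (v : M), P (eigMk A M 𝒪 c v))
    (hadd : ∀ x y, P x → P y → P (x + y)) (x : EigQ A M 𝒪) : P x := by
  induction x using Submodule.Quotient.induction_on with
  | H t =>
    induction t using TensorProduct.induction_on with
    | zero => exact h0
    | tmul c v => exact hmk c v
    | add u w hu hw =>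
      have := hadd _ _ hu hw
      rwa [← Submodule.Quotient.mk_add] at this

lemma eigMk_smul (a : A) (c : 𝒪) (v : M) :
    eigMk A M 𝒪 c (a • v) = algebraMap A 𝒪 a • eigMk A M 𝒪 c v := by
  unfold eigMk
  rw [← Submodule.Quotient.mk_smul, TensorProduct.smul_tmul', ← TensorProduct.smul_tmul,
    smul_eq_mul, Algebra.smul_def]

lemma eigMk_add (c : 𝒪) (v w : M) :
    eigMk A M 𝒪 c (v + w) = eigMk A M 𝒪 c v + eigMk A M 𝒪 c w := by
  unfold eigMk
  rw [TensorProduct.tmul_add, Submodule.Quotient.mk_add]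

lemma eigMk_sub (c : 𝒪) (v w : M) :
    eigMk A M 𝒪 c (v - w) = eigMk A M 𝒪 c v - eigMk A M 𝒪 c w := by
  unfold eigMk
  rw [TensorProduct.tmul_sub, Submodule.Quotient.mk_sub]

lemma eigMk_zero (c : 𝒪) : eigMk A M 𝒪 c (0 : M) = 0 := by
  unfold eigMk
  rw [TensorProduct.tmul_zero, Submodule.Quotient.mk_zero]

lemma eigMk_nsmul (n : ℕ) (c : 𝒪) (v : M) :
    eigMk A M 𝒪 c (n • v) = (n : 𝒪) • eigMk A M 𝒪 c v := by
  have h1 : n • v = (n : A) • v := (Nat.cast_smul_eq_nsmul A n v).symm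
  rw [h1, eigMk_smul, map_natCast]

/-- a quadratic relation on `M` gives the quadratic relation on `EigQ` -/
theorem eigEnd_quadratic (f : Module.End A M) (a : A) (n : ℕ)
    (h : ∀ v : M, f (f v) - a • f v + n • v = 0) :
    eigEnd A M 𝒪 f * eigEnd A M 𝒪 f - algebraMap A 𝒪 a • eigEnd A M 𝒪 f +
      (n : 𝒪) • (1 : Module.End 𝒪 (EigQ A M 𝒪)) = 0 := by
  refine LinearMap.ext fun x => ?_
  induction x using eigQ_induction with
  | h0 => simp
  | hmk c v =>
    simp only [LinearMap.add_apply, LinearMap.sub_apply, Module.End.mul_apply,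
      LinearMap.smul_apply, Module.End.one_apply, eigEnd_eigMk, LinearMap.zero_apply]
    rw [← eigMk_smul, ← eigMk_nsmul, ← eigMk_sub, ← eigMk_add, h v, eigMk_zero]
  | hadd x y hx hy =>
    rw [map_add, hx, hy, map_add]

/-- congruences on `M` give congruences on `EigQ` -/
theorem eigEnd_sub_mem {R₀ : Type*} [CommRing R₀] [Algebra R₀ A] [Module R₀ M]
    [IsScalarTower R₀ A M] (I₀ : Ideal R₀) (J : Ideal 𝒪)
    (hIJ : ∀ a ∈ I₀, algebraMap A 𝒪 (algebraMap R₀ A a) ∈ J)
    (f : Module.End A M) (h : ∀ v : M, f v - v ∈ I₀ • (⊤ : Submodule R₀ M)) (x : EigQ A M 𝒪) :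
    eigEnd A M 𝒪 f x - x ∈ J • (⊤ : Submodule 𝒪 (EigQ A M 𝒪)) := by
  induction x using eigQ_induction with
  | h0 => simp
  | hmk c v =>
    rw [eigEnd_eigMk, ← eigMk_sub]
    have key : ∀ w ∈ I₀ • (⊤ : Submodule R₀ M),
        eigMk A M 𝒪 c w ∈ J • (⊤ : Submodule 𝒪 (EigQ A M 𝒪)) := by
      intro w hw
      induction hw using Submodule.smul_induction_on' with
      | smul a ha u hu =>
        have e : a • u = algebraMap R₀ A a • u := (algebraMap_smul A a u).symm
        rw [e, eigMk_smul]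
        exact Submodule.smul_mem_smul (hIJ a ha) Submodule.mem_top
      | add u₁ _ u₂ _ h₁ h₂ =>
        rw [eigMk_add]
        exact Submodule.add_mem _ h₁ h₂
    exact key _ (h v)
  | hadd x y hx hy =>
    have e : eigEnd A M 𝒪 f (x + y) - (x + y) =
        (eigEnd A M 𝒪 f x - x) + (eigEnd A M 𝒪 f y - y) := by
      rw [map_add]; abel
    rw [e]
    exact Submodule.add_mem _ hx hy

/-- `EigQ` is nontrivial for a finite faithful module and a domain `𝒪` -/
theorem nontrivial_eigQ [Module.Finite A M] [IsDomain 𝒪]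
    (hfaith : ∀ a : A, (∀ v : M, a • v = 0) → a = 0) : Nontrivial (EigQ A M 𝒪) := by
  obtain ⟨x, hx⟩ := exists_notMem_torsion_of_faithful hfaith 𝒪
  refine ⟨⟨Submodule.Quotient.mk x, 0, ?_⟩⟩
  intro h
  exact hx ((Submodule.Quotient.mk_eq_zero _).1 h)

instance finite_eigQ [Module.Finite A M] : Module.Finite 𝒪 (EigQ A M 𝒪) :=
  inferInstance

instance free_eigQ [Module.Finite A M] [IsDomain 𝒪] [IsPrincipalIdealRing 𝒪] :
    Module.Free 𝒪 (EigQ A M 𝒪) :=
  inferInstance

end Lattice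

end Fermat.Agent.P3.helper57
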