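import Fermat.Agent.P3.Interface
import Fermat.Agent.P3.helper24_Zp
import Fermat.Agent.P3.helper57_EigenAbs

/-!
# P3 / [EIGEN] (helper57): the eigen-lattice of a Tate datum

`eigenStatement : Fermat.Agent.P3.EigenStatement` (unconditional; uses `[ZP]` = `helper24.zpHom`).

Construction: `𝒪` is a `ℤ_p`-algebra (`zpHom`); `Θ : 𝔸 →ₐ[ℤ_p] 𝒪` with `Θ (τ ℓ) = χ (T_ℓ)`
(`TateDatum.faithful` + `𝔸 = ℤ_p[τ]`); `L = (𝒪 ⊗[𝔸] Λ) ⧸ torsion` (finite, torsion free over a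
PID, hence free; nonzero because the fibre of the finite faithful `𝔸`-module `Λ` at the point
`𝔸 → Frac 𝒪` is nonzero); the Galois action is `1 ⊗ r`.
-/

set_option autoImplicit false
set_option linter.style.haveILetI false
set_option linter.unusedSectionVars false

open TensorProduct

noncomputable section

namespace Fermat.Agent.P3.helper57

variable {p : ℕ} [Fact p.Prime] {N : ℕ} [NeZero N] {S : Finset ℕ} {M : ℕ} {hNM : N ∣ M}
  (D : TateDatum p N S M hNM)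

/-- the Galois action on the Tate module by `𝔸`-linear maps -/
def tateEnd : GQ →* Module.End D.𝔸 D.Λ where
  toFun g :=
    { toFun := D.r g
      map_add' := fun v w => map_add _ v w
      map_smul' := fun a v => D.r_smul g a v }
  map_one' := by
    refine LinearMap.ext fun v => ?_
    change D.r 1 v = v
    rw [map_one]
    rfl
  map_mul' g h := by
    refine LinearMap.ext fun v => ?_
    change D.r (g * h) v = D.r g (D.r h v)
    rw [map_mul]
    rfl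

@[simp] lemma tateEnd_apply (g : GQ) (v : D.Λ) : tateEnd D g v = D.r g v := rfl

lemma finite_tate : Module.Finite D.𝔸 D.Λ :=
  Module.Finite.of_restrictScalars_finite ℤ_[p] D.𝔸 D.Λ

/-- evaluation of polynomials at the Hecke generators of `𝔸` -/
def tateEval : MvPolynomial (GoodPrime p M S) ℤ_[p] →ₐ[ℤ_[p]] D.𝔸 :=
  MvPolynomial.aeval D.τ

lemma tateEval_surjective : Function.Surjective (tateEval D) := by
  rw [← AlgHom.range_eq_top]
  unfold tateEval
  rw [← Algebra.adjoin_range_eq_range_aeval]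
  exact D.adjoin_τ

/-- evaluation of polynomials at the Hecke eigenvalues `χ (T_ℓ)` -/
def chiEval (hNM : N ∣ M) (𝒪 : Type) [CommRing 𝒪] [Algebra ℤ_[p] 𝒪]
    (χ : CuspForm.heckeAlgebra N 2 (↑S : Set ℕ) →+* 𝒪) :
    MvPolynomial (GoodPrime p M S) ℤ_[p] →ₐ[ℤ_[p]] 𝒪 :=
  MvPolynomial.aeval (fun ℓ => χ (goodT hNM ℓ))

lemma ker_tateEval_le (𝒪 : Type) [CommRing 𝒪] [Algebra ℤ_[p] 𝒪]
    (χ : CuspForm.heckeAlgebra N 2 (↑S : Set ℕ) →+* 𝒪) :
    RingHom.ker (tateEval D).toRingHom ≤ RingHom.ker (chiEval hNM 𝒪 χ).toRingHom := by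
  intro P hP
  rw [RingHom.mem_ker] at hP ⊢
  exact D.faithful 𝒪 χ P hP

/-- the eigen-character `Θ : 𝔸 → 𝒪` attached to `χ` -/
def tateTheta (𝒪 : Type) [CommRing 𝒪] [Algebra ℤ_[p] 𝒪]
    (χ : CuspForm.heckeAlgebra N 2 (↑S : Set ℕ) →+* 𝒪) : D.𝔸 →ₐ[ℤ_[p]] 𝒪 :=
  AlgHom.liftOfSurjective (tateEval D) (tateEval_surjective D) (chiEval hNM 𝒪 χ)
    (ker_tateEval_le D 𝒪 χ)

lemma tateTheta_τ (𝒪 : Type) [CommRing 𝒪] [Algebra ℤ_[p] 𝒪]
    (χ : CuspForm.heckeAlgebra N 2 (↑S : Set ℕ) →+* 𝒪) (ℓ : GoodPrime p M S) :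
    tateTheta D 𝒪 χ (D.τ ℓ) = χ (goodT hNM ℓ) := by
  have h := AlgHom.liftOfSurjective_apply (tateEval D) (tateEval_surjective D)
    (chiEval hNM 𝒪 χ) (ker_tateEval_le D 𝒪 χ) (MvPolynomial.X ℓ)
  have e1 : tateEval D (MvPolynomial.X ℓ) = D.τ ℓ := MvPolynomial.aeval_X _ _
  have e2 : chiEval hNM 𝒪 χ (MvPolynomial.X ℓ) = χ (goodT hNM ℓ) := MvPolynomial.aeval_X _ _
  rw [e1, e2] at h
  exact h

/-- the eigen-lattice, for a given `𝔸`-algebra structure on `𝒪` -/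
def eigenLatticeOf (𝒪 : Type) [CommRing 𝒪] [IsDomain 𝒪] [IsLocalRing 𝒪]
    [IsPrincipalIdealRing 𝒪] [Algebra D.𝔸 𝒪]
    (χ : CuspForm.heckeAlgebra N 2 (↑S : Set ℕ) →+* 𝒪)
    (hτ : ∀ ℓ, algebraMap D.𝔸 𝒪 (D.τ ℓ) = χ (goodT hNM ℓ))
    (hloc : ∀ a ∈ IsLocalRing.maximalIdeal ℤ_[p],
      algebraMap D.𝔸 𝒪 (algebraMap ℤ_[p] D.𝔸 a) ∈ IsLocalRing.maximalIdeal 𝒪) :
    EigenLattice p N S M hNM 𝒪 χ :=
  haveI := finite_tate D
  { L := EigQ D.𝔸 D.Λ 𝒪
    instAddCommGroup := inferInstance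
    instModule := inferInstance
    instFree := inferInstance
    instFinite := inferInstance
    instNontrivial := nontrivial_eigQ D.smul_faithful
    r := (eigEnd D.𝔸 D.Λ 𝒪).comp (tateEnd D)
    isAdicContinuous := by
      intro n
      obtain ⟨L, hL, h⟩ := D.isAdicContinuous n
      refine ⟨L, hL, fun σ hσ x => ?_⟩
      refine eigEnd_sub_mem (R₀ := ℤ_[p]) (IsLocalRing.maximalIdeal ℤ_[p] ^ n)
        (IsLocalRing.maximalIdeal 𝒪 ^ n) ?_ (tateEnd D σ) (fun v => h σ hσ v) x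
      intro a ha
      have h1 : (IsLocalRing.maximalIdeal ℤ_[p]).map
          ((algebraMap D.𝔸 𝒪).comp (algebraMap ℤ_[p] D.𝔸)) ≤ IsLocalRing.maximalIdeal 𝒪 := by
        rw [Ideal.map_le_iff_le_comap]
        intro b hb
        exact hloc b hb
      have h2 : ((algebraMap D.𝔸 𝒪).comp (algebraMap ℤ_[p] D.𝔸)) a ∈
          (IsLocalRing.maximalIdeal ℤ_[p] ^ n).map
            ((algebraMap D.𝔸 𝒪).comp (algebraMap ℤ_[p] D.𝔸)) :=
        Ideal.mem_map_of_mem _ ha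
      rw [Ideal.map_pow] at h2
      exact Ideal.pow_right_mono h1 n h2
    unramified := by
      intro ℓ hℓ hℓM A hA σ hσ
      have h1 : tateEnd D σ = 1 := by
        refine LinearMap.ext fun v => ?_
        change D.r σ v = v
        rw [D.unramified ℓ hℓ hℓM A hA σ hσ]
        rfl
      rw [MonoidHom.comp_apply, h1, map_one]
    frobenius := by
      intro ℓ A hA φ hφ
      have h := D.frobenius ℓ A hA φ hφ
      have h' : ∀ v : D.Λ, tateEnd D φ (tateEnd D φ v) - D.τ ℓ • tateEnd D φ v + ℓ.1 • v = 0 := by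
        intro v
        have := h v
        rw [Nat.cast_smul_eq_nsmul] at this
        exact this
      have := eigEnd_quadratic (𝒪 := 𝒪) (tateEnd D φ) (D.τ ℓ) ℓ.1 h'
      rw [hτ ℓ] at this
      exact this }

/-- **[EIGEN]** the eigen-lattice of a Tate datum. -/
theorem eigenStatement : EigenStatement := by
  intro p _ N _ S M hNM 𝒪 _ _ _ _ _ hp χ hT
  obtain ⟨D⟩ := hT
  letI : Algebra ℤ_[p] 𝒪 := (helper24.zpHom p 𝒪 hp).toAlgebra
  letI : Algebra D.𝔸 𝒪 := (tateTheta D 𝒪 χ).toRingHom.toAlgebra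
  refine ⟨eigenLatticeOf D 𝒪 χ (fun ℓ => tateTheta_τ D 𝒪 χ ℓ) ?_⟩
  intro a ha
  have e1 : algebraMap D.𝔸 𝒪 (algebraMap ℤ_[p] D.𝔸 a) = helper24.zpHom p 𝒪 hp a :=
    (tateTheta D 𝒪 χ).commutes a
  rw [e1]
  rw [PadicInt.maximalIdeal_eq_span_p, Ideal.mem_span_singleton] at ha
  obtain ⟨b, rfl⟩ := ha
  rw [map_mul, map_natCast]
  exact Ideal.mul_mem_right _ _ hp

/-- **[EIGEN]** in the shape announced in the task board (the hypothesis is not needed). -/
theorem eigenStatement_of (_hZ : ZpAlgebraStatement) : EigenStatement := eigenStatement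

end Fermat.Agent.P3.helper57
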