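import Mathlib

/-!
# P3 / [TRACE-T] (helper64): algebraic lemmas

* `trace_mem_of_forall_mem` : an endomorphism of a finite free module with image in `I • ⊤` has
  trace in `I`;
* `trace_pow_eq_dickson` : in rank 2, `tr (f ^ j) = D_j(a, b)` if `charpoly f = X² - a X + b`
  (`D_j` the Dickson polynomial of the first kind);
* `unit_pow_add_eq_dickson` : if `x² - a x + b = 0` with `x` invertible, `a` commuting with `x`,
  then `x ^ j + b ^ j x ^ (-j) = D_j(a, b)`;
* `exists_artinRees_const` : Artin-Rees for a faithful algebra of endomorphisms: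
  `a • Λ ⊆ I ^ (n + c) Λ ⇒ a ∈ I ^ n 𝔸`.
-/

set_option autoImplicit false
set_option linter.unusedSectionVars false

open Polynomial

namespace Fermat.Agent.P3.helper64

section Trace

variable {R : Type*} [CommRing R] {V : Type*} [AddCommGroup V] [Module R V]
  [Module.Free R V] [Module.Finite R V]

/-- coordinates of an element of `I • ⊤` lie in `I` -/
lemma repr_mem_of_mem_smul_top {ι : Type*} (b : Module.Basis ι R V) (I : Ideal R) {x : V}
    (hx : x ∈ I • (⊤ : Submodule R V)) (i : ι) : b.repr x i ∈ I := by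
  refine Submodule.smul_induction_on (p := fun x => b.repr x i ∈ I) hx ?_ ?_
  · intro r hr v _
    rw [map_smul, Finsupp.smul_apply, smul_eq_mul]
    exact Ideal.mul_mem_right _ _ hr
  · intro x y hx hy
    rw [map_add, Finsupp.add_apply]
    exact Ideal.add_mem _ hx hy

/-- an endomorphism with image in `I • ⊤` has trace in `I` -/
lemma trace_mem_of_forall_mem (I : Ideal R) (f : Module.End R V)
    (h : ∀ v, f v ∈ I • (⊤ : Submodule R V)) : LinearMap.trace R V f ∈ I := by
  classical
  rw [LinearMap.trace_eq_matrix_trace R (Module.Free.chooseBasis R V) f, Matrix.trace]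
  refine Ideal.sum_mem _ fun i _ => ?_
  rw [Matrix.diag_apply, LinearMap.toMatrix_apply]
  exact repr_mem_of_mem_smul_top _ I (h _) i

/-- an element of `I • ⊤` of a finite free module is a combination of basis vectors with
coefficients in `I`; consequently an endomorphism with image in `I • ⊤` lies in `I • ⊤`. -/
lemma end_mem_smul_top_of_forall_mem (I : Ideal R) (f : Module.End R V)
    (h : ∀ v, f v ∈ I • (⊤ : Submodule R V)) :
    f ∈ I • (⊤ : Submodule R (Module.End R V)) := by
  classical
  set b := Module.Free.chooseBasis R V with hb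
  have hf : f = ∑ i, ∑ j, (b.repr (f (b j)) i) •
      ((LinearMap.toMatrix b b).symm (Matrix.single i j (1 : R))) := by
    apply (LinearMap.toMatrix b b).injective
    rw [map_sum]
    simp_rw [map_sum, map_smul, LinearEquiv.apply_symm_apply]
    ext i j
    rw [LinearMap.toMatrix_apply, Matrix.sum_apply]
    simp_rw [Matrix.sum_apply, Matrix.smul_apply, Matrix.single_apply, smul_eq_mul, mul_ite,
      mul_one, mul_zero]
    rw [Finset.sum_eq_single i]
    · rw [Finset.sum_eq_single j]
      · simp
      · intro j' _ hj'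
        simp [hj']
      · intro hj
        exact absurd (Finset.mem_univ j) hj
    · intro i' _ hi'
      apply Finset.sum_eq_zero
      intro j' _
      simp [hi']
    · intro hi
      exact absurd (Finset.mem_univ i) hi
  rw [hf]
  refine Submodule.sum_mem _ fun i _ => Submodule.sum_mem _ fun j _ => ?_
  exact Submodule.smul_mem_smul (repr_mem_of_mem_smul_top b I (h _) i) Submodule.mem_top

end Trace

section Dickson

variable {R : Type*} [CommRing R]

/-- traces of powers in rank 2 are Dickson polynomials in trace and determinant -/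
lemma trace_pow_eq_dickson {V : Type*} [AddCommGroup V] [Module R V] [Module.Free R V]
    [Module.Finite R V] (hrank : Module.finrank R V = 2) (f : Module.End R V) (a b : R)
    (hf : LinearMap.charpoly f = X ^ 2 - C a * X + C b) (j : ℕ) :
    LinearMap.trace R V (f ^ j) = (dickson 1 b j).eval a := by
  classical
  rcases subsingleton_or_nontrivial R with hR | hR
  · exact Subsingleton.elim _ _
  have hCH : f ^ 2 = a • f - b • (1 : Module.End R V) := by
    have h := LinearMap.aeval_self_charpoly f
    rw [hf] at h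
    simp only [map_add, map_sub, map_mul, map_pow, aeval_X, aeval_C,
      Algebra.algebraMap_eq_smul_one] at h
    rw [smul_mul_assoc, one_mul] at h
    rw [eq_sub_iff_add_eq, ← sub_eq_zero]
    rw [← h]
    abel
  have htr1 : LinearMap.trace R V f = a := by
    have hne : Nonempty (Module.Free.ChooseBasisIndex R V) := by
      by_contra hempty
      rw [not_nonempty_iff] at hempty
      have h0 : Module.finrank R V = 0 := by
        rw [Module.finrank_eq_card_chooseBasisIndex]
        exact Fintype.card_eq_zero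
      omega
    rw [LinearMap.trace_eq_matrix_trace R (Module.Free.chooseBasis R V) f,
      Matrix.trace_eq_neg_charpoly_coeff]
    have hc : (LinearMap.toMatrix (Module.Free.chooseBasis R V) (Module.Free.chooseBasis R V)
        f).charpoly = X ^ 2 - C a * X + C b := hf
    rw [hc, ← Module.finrank_eq_card_chooseBasisIndex, hrank]
    simp [coeff_X_pow, coeff_C]
  induction j using Nat.strong_induction_on with
  | _ j ih =>
    match j with
    | 0 =>
      have hd0 : dickson 1 b 0 = 2 := by rw [dickson_zero]; norm_num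
      rw [pow_zero, LinearMap.trace_one, hrank, hd0, eval_ofNat]
      norm_num
    | 1 =>
      rw [pow_one, htr1, dickson_one, eval_X]
    | (n + 2) =>
      have h1 : f ^ (n + 2) = a • f ^ (n + 1) - b • f ^ n := by
        rw [pow_add, hCH, mul_sub, mul_smul_comm, mul_smul_comm, mul_one, ← pow_succ]
      rw [h1, map_sub, map_smul, map_smul, ih (n + 1) (by omega), ih n (by omega),
        dickson_add_two]
      simp only [eval_sub, eval_mul, eval_X, eval_C, smul_eq_mul]

/-- `x ^ j + b ^ j x ^ (-j) = D_j(a, b)` if `x² - a x + b = 0` -/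
lemma unit_pow_add_eq_dickson {E : Type*} [Ring E] [Algebra R E] (x : Eˣ) (a : E) (b : R)
    (hcomm : Commute a (x : E))
    (h : (x : E) * x - a * x + algebraMap R E b = 0) (j : ℕ) :
    (x : E) ^ j + algebraMap R E (b ^ j) * ((x⁻¹ : Eˣ) : E) ^ j = aeval a (dickson 1 b j) := by
  have hb : ∀ y : E, Commute (algebraMap R E b) y := fun y => Algebra.commute_algebraMap_left b y
  have ha : a = (x : E) + algebraMap R E b * ((x⁻¹ : Eˣ) : E) := by
    have h1 : ((x : E) * x - a * x + algebraMap R E b) * ((x⁻¹ : Eˣ) : E) = 0 := by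
      rw [h, zero_mul]
    rw [add_mul, sub_mul, mul_assoc, mul_assoc, Units.mul_inv, mul_one, mul_one,
      sub_add_eq_add_sub, sub_eq_zero] at h1
    exact h1.symm
  have hcomm' : Commute a ((x⁻¹ : Eˣ) : E) := hcomm.units_inv_right
  induction j using Nat.strong_induction_on with
  | _ j ih =>
    match j with
    | 0 =>
      have hd0 : dickson 1 b 0 = 2 := by rw [dickson_zero]; norm_num
      rw [pow_zero, pow_zero, pow_zero, map_one, mul_one, hd0, map_ofNat]
      norm_num
    | 1 =>
      rw [pow_one, pow_one, pow_one, dickson_one, aeval_X]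
      exact ha.symm
    | (n + 2) =>
      rw [dickson_add_two, map_sub, map_mul, map_mul, aeval_X, aeval_C, ← ih (n + 1) (by omega),
        ← ih n (by omega)]
      have hxx : ((x⁻¹ : Eˣ) : E) * (x : E) = 1 := Units.inv_mul x
      have hxx' : (x : E) * ((x⁻¹ : Eˣ) : E) = 1 := Units.mul_inv x
      have e1 : a * ((x : E) ^ (n + 1) + algebraMap R E (b ^ (n + 1)) * ((x⁻¹ : Eˣ) : E) ^ (n + 1))
          = (x : E) ^ (n + 2) + algebraMap R E (b ^ (n + 2)) * ((x⁻¹ : Eˣ) : E) ^ (n + 2)
            + algebraMap R E b * ((x : E) ^ n + algebraMap R E (b ^ n) * ((x⁻¹ : Eˣ) : E) ^ n) := by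
        have p1 : (x : E) * (x : E) ^ (n + 1) = (x : E) ^ (n + 2) := by rw [← pow_succ']
        have p2 : ((x⁻¹ : Eˣ) : E) * ((x⁻¹ : Eˣ) : E) ^ (n + 1) = ((x⁻¹ : Eˣ) : E) ^ (n + 2) := by
          rw [← pow_succ']
        have p3 : ((x⁻¹ : Eˣ) : E) * (x : E) ^ (n + 1) = (x : E) ^ n := by
          rw [pow_succ', ← mul_assoc, hxx, one_mul]
        have p4 : (x : E) * ((x⁻¹ : Eˣ) : E) ^ (n + 1) = ((x⁻¹ : Eˣ) : E) ^ n := by
          rw [pow_succ', ← mul_assoc, hxx', one_mul]
        have c1 : ∀ (r : R) (y : E), y * algebraMap R E r = algebraMap R E r * y := fun r y =>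
          (Algebra.commute_algebraMap_left r y).eq.symm
        rw [ha, add_mul, mul_add, mul_add, p1, ← mul_assoc (x : E), c1, mul_assoc, p4,
          mul_assoc (algebraMap R E b), p3, mul_assoc (algebraMap R E b),
          ← mul_assoc ((x⁻¹ : Eˣ) : E), c1, mul_assoc (algebraMap R E (b ^ (n + 1))), p2,
          ← mul_assoc (algebraMap R E b), ← map_mul, ← pow_succ', mul_add,
          ← mul_assoc (algebraMap R E b), ← map_mul, ← pow_succ']
        abel
      rw [e1]
      abel

end Dickson

section ArtinRees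

variable {R : Type*} [CommRing R] [IsNoetherianRing R] (I : Ideal R)
  {Λ : Type*} [AddCommGroup Λ] [Module R Λ] [Module.Free R Λ] [Module.Finite R Λ]
  {𝔸 : Type*} [CommRing 𝔸] [Algebra R 𝔸] [Module 𝔸 Λ] [IsScalarTower R 𝔸 Λ]

/-- Artin-Rees for a faithful algebra of endomorphisms of a finite free module: there is a
constant `c` such that `a • Λ ⊆ I ^ (n + c) Λ` implies `a ∈ I ^ n 𝔸`. -/
lemma exists_artinRees_const (hfaith : ∀ a : 𝔸, (∀ v : Λ, a • v = 0) → a = 0) :
    ∃ c : ℕ, ∀ (n : ℕ) (a : 𝔸), (∀ v : Λ, a • v ∈ (I ^ (n + c)) • (⊤ : Submodule R Λ)) →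
      a ∈ (I ^ n) • (⊤ : Submodule R 𝔸) := by
  let φ : 𝔸 →ₗ[R] Module.End R Λ := (Algebra.lsmul R R Λ).toLinearMap
  have hφ : ∀ (a : 𝔸) (v : Λ), φ a v = a • v := fun a v => rfl
  have hinj : Function.Injective φ := by
    rw [injective_iff_map_eq_zero]
    intro a ha
    exact hfaith a fun v => by rw [← hφ, ha, LinearMap.zero_apply]
  obtain ⟨k, hk⟩ := Ideal.exists_pow_inf_eq_pow_smul I (LinearMap.range φ)
  refine ⟨k, fun n a ha => ?_⟩
  have h1 : φ a ∈ I ^ (n + k) • (⊤ : Submodule R (Module.End R Λ)) ⊓ LinearMap.range φ :=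
    ⟨end_mem_smul_top_of_forall_mem _ _ fun v => ha v, LinearMap.mem_range_self φ a⟩
  rw [hk (n + k) (Nat.le_add_left k n), Nat.add_sub_cancel] at h1
  have h2 : φ a ∈ I ^ n • LinearMap.range φ :=
    Submodule.smul_mono le_rfl inf_le_right h1
  rw [← Submodule.map_top, ← Submodule.map_smul''] at h2
  obtain ⟨a', ha', haa'⟩ := h2
  rw [← hinj haa']
  exact ha'

end ArtinRees

end Fermat.Agent.P3.helper64
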