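import Fermat.Agent.P3.helper98_PseudoUniv
import Fermat.Agent.P3.helper64_TraceAlg

/-!
# P3 / [TRACE-T] (helper64): the trace of a Hecke-Galois datum is unramified outside `S`

`traceUnramified_of : (Tate data at the levels 4N and 9N) → PseudoUnivStatement → ChebStatement →
  CycloStatement → ZpAlgebraStatement → TraceUnramifiedStatement`.

Let `H` be a Hecke-Galois datum of level `N` away from `S` with coefficients `T`, `q ∉ S` a prime
and `M ∈ {4N, 9N}` prime to `q`.  Let `D` be the Tate datum of level `M`, `t : G_ℚ → 𝔸` its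
universal trace (`[PSEUDO-U]`), `Θ : 𝔸 → T` the `ℤ_p`-algebra map `τ_ℓ ↦ π(T_ℓ)` (faithfulness).
Then `tr ρ(s) = Θ (t s)` for all `s` (`trace_eq_of_tateDatum`: both sides are continuous and agree
on the powers of the Frobenius lifts at good primes, by the Dickson recursion), and `t (σ s) = t s`
for `σ` in an inertia group at `q` because `D.r σ = 1` and `d σ = 1`.
-/

set_option autoImplicit false
set_option linter.unusedSectionVars false
set_option linter.style.haveILetI false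

open Polynomial

namespace Fermat.Agent.P3.helper64

open Fermat.Agent.P3 Fermat.Agent.P3.helper98

section Basic

/-- an element fixing `K` pointwise fixes it after inversion -/
lemma inv_fixes {K : IntermediateField ℚ Qbar} {u : GQ} (hu : ∀ x ∈ K, u x = x) :
    ∀ x ∈ K, u⁻¹ x = x := by
  intro x hx
  have h1 : u⁻¹ (u x) = x := by
    change (u⁻¹ * u) x = x
    rw [inv_mul_cancel]
    rfl
  rw [hu x hx] at h1
  exact h1

/-- the image of `I ^ n • ⊤` under an algebra map to a local ring lies in `𝔪 ^ n`, if `I` is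
mapped into `𝔪` -/
lemma algHom_mem_pow_of_mem_smul_top {R : Type*} [CommRing R] {B : Type*} [CommRing B]
    [Algebra R B] {T : Type*} [CommRing T] [Algebra R T] (I : Ideal R) (J : Ideal T)
    (hIJ : ∀ r ∈ I, algebraMap R T r ∈ J) (Θ : B →ₐ[R] T) (n : ℕ) {a : B}
    (ha : a ∈ (I ^ n) • (⊤ : Submodule R B)) : Θ a ∈ J ^ n := by
  have hmap : ∀ r ∈ I ^ n, algebraMap R T r ∈ J ^ n := by
    intro r hr
    have h1 : (I ^ n).map (algebraMap R T) ≤ J ^ n := by
      rw [Ideal.map_pow]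
      exact Ideal.pow_right_mono (Ideal.map_le_iff_le_comap.mpr fun x hx =>
        Ideal.mem_comap.mpr (hIJ x hx)) n
    exact h1 (Ideal.mem_map_of_mem _ hr)
  refine Submodule.smul_induction_on (p := fun a => Θ a ∈ J ^ n) ha ?_ ?_
  · intro r hr b _
    rw [map_smul, Algebra.smul_def]
    exact Ideal.mul_mem_right _ _ (hmap r hr)
  · intro x y hx hy
    rw [map_add]
    exact Ideal.add_mem _ hx hy

end Basic

section Core

variable {p : ℕ} [Fact p.Prime] {N : ℕ} [NeZero N] {S : Finset ℕ} {M : ℕ} {hNM : N ∣ M}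
  (D : TateDatum p N S M hNM) (d : GQ →* ℤ_[p]ˣ) (t : GQ → D.𝔸)
  (ht : ∀ (s : GQ) (v : D.Λ), D.r s (D.r s v) - t s • D.r s v + (d s : ℤ_[p]) • v = 0)

/-- the Galois action on the Tate module, as units -/
noncomputable def rU : GQ →* (Module.End ℤ_[p] D.Λ)ˣ :=
  (Units.map D.r).comp (toUnits (G := GQ)).toMonoidHom

lemma rU_coe (g : GQ) : ((rU D g : (Module.End ℤ_[p] D.Λ)ˣ) : Module.End ℤ_[p] D.Λ) = D.r g := rfl

lemma rU_inv_coe (g : GQ) :
    (((rU D g)⁻¹ : (Module.End ℤ_[p] D.Λ)ˣ) : Module.End ℤ_[p] D.Λ) = D.r g⁻¹ := by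
  rw [← map_inv]
  rfl

lemma r_inv_apply (g : GQ) (v : D.Λ) : D.r g (D.r g⁻¹ v) = v := by
  have h : D.r g * D.r g⁻¹ = 1 := by rw [← map_mul, mul_inv_cancel, map_one]
  exact congrArg (fun f => f v) h

/-- the Hecke algebra acts faithfully -/
lemma heckeEnd_injective : Function.Injective (heckeEnd D) := by
  rw [injective_iff_map_eq_zero]
  intro a ha
  exact D.smul_faithful a fun v => by rw [← heckeEnd_apply, ha, LinearMap.zero_apply]

include ht in
/-- the universal trace acts as `r(g) + d(g) r(g)⁻¹` -/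
lemma heckeEnd_t (s : GQ) : heckeEnd D (t s) = uEnd D d s := by
  apply LinearMap.ext
  intro v
  have h := ht s (D.r s⁻¹ v)
  rw [r_inv_apply] at h
  rw [heckeEnd_apply, uEnd, LinearMap.add_apply, LinearMap.smul_apply]
  rw [sub_add_eq_add_sub, sub_eq_zero] at h
  exact h.symm

/-- on the powers of a Frobenius lift at a good prime `u` is given by the Dickson polynomials -/
lemma uEnd_pow_eq_dickson (hd : IsCycloChar p d) (ℓ : GoodPrime p M S)
    (A : ValuationSubring Qbar) (hA : A.LiesOverPrime ℓ.1) {φ : GQ}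
    (hφ : A.IsFrobeniusAt φ ℓ.1) (j : ℕ) :
    uEnd D d (φ ^ j) = heckeEnd D (aeval (D.τ ℓ) (dickson 1 (ℓ.1 : ℤ_[p]) j)) := by
  have hℓp : ℓ.1 ≠ p := by
    intro h
    have hdiv : ℓ.1 ∣ M * p := by rw [h]; exact Dvd.intro_left M rfl
    exact ℓ.2.2.1 hdiv
  have hdφ : (d φ : ℤ_[p]) = (ℓ.1 : ℤ_[p]) := cyclo_frobenius_padic hd ℓ.2.1 hℓp A hA hφ
  have hcomm : Commute (heckeEnd D (D.τ ℓ)) ((rU D φ : (Module.End ℤ_[p] D.Λ)ˣ) :
      Module.End ℤ_[p] D.Λ) := by
    apply LinearMap.ext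
    intro v
    rw [rU_coe, Module.End.mul_apply, Module.End.mul_apply, heckeEnd_apply, heckeEnd_apply,
      D.r_smul]
  have hrel : ((rU D φ : (Module.End ℤ_[p] D.Λ)ˣ) : Module.End ℤ_[p] D.Λ) * (rU D φ) -
      heckeEnd D (D.τ ℓ) * (rU D φ) + algebraMap ℤ_[p] (Module.End ℤ_[p] D.Λ) (ℓ.1 : ℤ_[p])
        = 0 := by
    apply LinearMap.ext
    intro v
    rw [rU_coe, LinearMap.add_apply, LinearMap.sub_apply, Module.End.mul_apply,
      Module.End.mul_apply, heckeEnd_apply, Module.algebraMap_end_apply, LinearMap.zero_apply]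
    exact D.frobenius ℓ A hA φ hφ v
  have h := unit_pow_add_eq_dickson (rU D φ) (heckeEnd D (D.τ ℓ)) (ℓ.1 : ℤ_[p]) hcomm hrel j
  rw [rU_coe, rU_inv_coe, Polynomial.aeval_algHom_apply] at h
  rw [← h, uEnd, map_pow, map_pow, Units.val_pow_eq_pow_val, hdφ, ← inv_pow, map_pow,
    Algebra.algebraMap_eq_smul_one, smul_mul_assoc, one_mul]

include ht in
/-- **the trace formula**: the trace of a representation with the Eichler-Shimura characteristic
polynomials is the image of the universal trace. -/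
theorem trace_eq_of_tateDatum [NeZero M] (hCheb : ChebStatement)
    (hd : IsCycloChar p d) (hdc : IsAdicContinuousChar d)
    {T : Type} [CommRing T] [IsLocalRing T] [IsNoetherianRing T] [Algebra ℤ_[p] T]
    (hpT : (p : T) ∈ IsLocalRing.maximalIdeal T)
    (Θ : D.𝔸 →ₐ[ℤ_[p]] T) (ρ : GaloisRepAdic T)
    (hρ : ∀ (ℓ : GoodPrime p M S) (A : ValuationSubring Qbar), A.LiesOverPrime ℓ.1 →
      ∀ φ : GQ, A.IsFrobeniusAt φ ℓ.1 →
        LinearMap.charpoly (ρ.ρ φ) = X ^ 2 - C (Θ (D.τ ℓ)) * X + C ((ℓ.1 : T)))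
    (s : GQ) : LinearMap.trace T ρ.V (ρ.ρ s) = Θ (t s) := by
  rw [← sub_eq_zero]
  have hK := Ideal.iInf_pow_eq_bot_of_isLocalRing (IsLocalRing.maximalIdeal T)
    (Ideal.IsPrime.ne_top inferInstance)
  have hmem : LinearMap.trace T ρ.V (ρ.ρ s) - Θ (t s) ∈
      ⨅ n : ℕ, IsLocalRing.maximalIdeal T ^ n := by
    rw [Ideal.mem_iInf]
    intro n
    obtain ⟨c, hc⟩ := exists_artinRees_const (IsLocalRing.maximalIdeal ℤ_[p]) (Λ := D.Λ)
      (𝔸 := D.𝔸) D.smul_faithful
    obtain ⟨L₁, hL₁, h₁⟩ := ρ.isAdicContinuous n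
    obtain ⟨L₂, hL₂, h₂⟩ := D.isAdicContinuous (n + c)
    obtain ⟨L₃, hL₃, h₃⟩ := hdc (n + c)
    have := hL₁
    have := hL₂
    have := hL₃
    have hMp : M * p ≠ 0 := Nat.mul_ne_zero (NeZero.ne M) (Fact.out : p.Prime).ne_zero
    obtain ⟨ℓ, hℓ, hℓBad, A, hA, φ, hφ, j, hj⟩ :=
      hCheb (L₁ ⊔ L₂ ⊔ L₃) inferInstance s (S ∪ (M * p).primeFactors)
    have hℓS : ℓ ∉ S := fun h => hℓBad (Finset.mem_union_left _ h)
    have hℓM : ¬ ℓ ∣ M * p := fun h =>
      hℓBad (Finset.mem_union_right _ (Nat.mem_primeFactors.mpr ⟨hℓ, h, hMp⟩))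
    let ℓ' : GoodPrime p M S := ⟨ℓ, hℓ, hℓM, hℓS⟩
    set g : GQ := φ ^ j with hgdef
    set h : GQ := g⁻¹ * s with hhdef
    have hs : s = g * h := by rw [hhdef, mul_inv_cancel_left]
    have hfix : ∀ x ∈ L₁ ⊔ L₂ ⊔ L₃, h x = x := by
      intro x hx
      rw [hhdef, AlgEquiv.mul_apply, ← hj x hx]
      exact AlgEquiv.symm_apply_apply g x
    have hfix' : ∀ x ∈ L₁ ⊔ L₂ ⊔ L₃, h⁻¹ x = x := inv_fixes hfix
    have hle₁ : L₁ ≤ L₁ ⊔ L₂ ⊔ L₃ := le_sup_left.trans le_sup_left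
    have hle₂ : L₂ ≤ L₁ ⊔ L₂ ⊔ L₃ := le_sup_right.trans le_sup_left
    have hle₃ : L₃ ≤ L₁ ⊔ L₂ ⊔ L₃ := le_sup_right
    -- (1) the traces of `ρ s` and `ρ g` are congruent
    have e1 : LinearMap.trace T ρ.V (ρ.ρ s) - LinearMap.trace T ρ.V (ρ.ρ g) ∈
        IsLocalRing.maximalIdeal T ^ n := by
      have h1 : ρ.ρ s - ρ.ρ g = ρ.ρ g * (ρ.ρ h - 1) := by
        rw [hs, map_mul, mul_sub, mul_one]
      rw [← map_sub, h1]
      apply trace_mem_of_forall_mem
      intro v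
      rw [Module.End.mul_apply, LinearMap.sub_apply, Module.End.one_apply]
      exact apply_mem_smul_top _ _ (h₁ h (fun x hx => hfix x (hle₁ hx)) v)
    -- (2) the universal traces of `s` and `g` are congruent
    have e2 : Θ (t s - t g) ∈ IsLocalRing.maximalIdeal T ^ n := by
      have h1 : uEnd D d (g * h) - uEnd D d g ∈
          smallEnd (Λ := D.Λ) (IsLocalRing.maximalIdeal ℤ_[p] ^ (n + c)) := by
        apply uEnd_sub_mem_smallEnd D d
        · intro v
          rw [LinearMap.sub_apply, Module.End.one_apply]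
          exact h₂ h (fun x hx => hfix x (hle₂ hx)) v
        · intro v
          rw [LinearMap.sub_apply, Module.End.one_apply]
          exact h₂ h⁻¹ (fun x hx => hfix' x (hle₂ hx)) v
        · exact h₃ h (fun x hx => hfix x (hle₃ hx))
      rw [← hs, ← heckeEnd_t D d t ht, ← heckeEnd_t D d t ht, ← map_sub] at h1
      have h2 : t s - t g ∈ (IsLocalRing.maximalIdeal ℤ_[p] ^ n) • (⊤ : Submodule ℤ_[p] D.𝔸) :=
        hc n _ fun v => h1 v
      refine algHom_mem_pow_of_mem_smul_top (IsLocalRing.maximalIdeal ℤ_[p])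
        (IsLocalRing.maximalIdeal T) ?_ Θ n h2
      intro r hr
      rw [PadicInt.maximalIdeal_eq_span_p, Ideal.mem_span_singleton] at hr
      obtain ⟨r', rfl⟩ := hr
      rw [map_mul, map_natCast]
      exact Ideal.mul_mem_right _ _ hpT
    -- (3) the traces agree at `g = φ ^ j`
    have e3 : LinearMap.trace T ρ.V (ρ.ρ g) = Θ (t g) := by
      have h1 : t g = aeval (D.τ ℓ') (dickson 1 ((ℓ : ℕ) : ℤ_[p]) j) := by
        apply heckeEnd_injective D
        rw [heckeEnd_t D d t ht, hgdef]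
        exact uEnd_pow_eq_dickson D d hd ℓ' A hA hφ j
      rw [h1, hgdef, map_pow, trace_pow_eq_dickson ρ.finrank_eq (ρ.ρ φ) _ _ (hρ ℓ' A hA φ hφ) j,
        ← Polynomial.aeval_algHom_apply, Polynomial.aeval_def, Polynomial.eval₂_eq_eval_map,
        Polynomial.map_dickson, map_natCast]
    have e4 : LinearMap.trace T ρ.V (ρ.ρ s) - Θ (t s) =
        (LinearMap.trace T ρ.V (ρ.ρ s) - LinearMap.trace T ρ.V (ρ.ρ g)) - Θ (t s - t g) := by
      rw [map_sub, e3]
      ring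
    rw [e4]
    exact Ideal.sub_mem _ e1 e2
  rw [hK] at hmem
  exact hmem

end Core

section Wrapper

/-- **[TRACE-T] at one auxiliary level**: if a Tate datum of level `M` (`N ∣ M`) exists and the
prime `q` does not divide `M p`, then the trace of every Hecke-Galois datum of level `N` away from
`S` is invariant under the inertia groups at `q`. -/
theorem traceUnramified_aux (hPU : PseudoUnivStatement) (hCheb : ChebStatement)
    (hCyc : CycloStatement) (hZp : ZpAlgebraStatement)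
    (p : ℕ) [Fact p.Prime] (N : ℕ) [NeZero N] (S : Finset ℕ) (M : ℕ) [NeZero M] (hNM : N ∣ M)
    (hTate : TateStatement p N S M hNM)
    (𝒪 : Type) [CommRing 𝒪] [IsDomain 𝒪] [IsDiscreteValuationRing 𝒪]
    [IsAdicComplete (IsLocalRing.maximalIdeal 𝒪) 𝒪]
    (hp𝒪 : (p : 𝒪) ∈ IsLocalRing.maximalIdeal 𝒪)
    (θ : CuspForm.heckeAlgebra N 2 (↑S : Set ℕ) →+* IsLocalRing.ResidueField 𝒪)
    (T : Type) [CommRing T] [IsLocalRing T] [IsNoetherianRing T]
    [IsAdicComplete (IsLocalRing.maximalIdeal T) T] [Algebra 𝒪 T]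
    [IsLocalHom (algebraMap 𝒪 T)] [Module.Finite 𝒪 T] [Module.Free 𝒪 T]
    (H : CuspForm.HeckeGaloisRepDatum N (↑S : Set ℕ) 𝒪 θ T)
    (q : ℕ) (hq : q.Prime) (hqM : ¬ q ∣ M * p)
    (A : ValuationSubring Qbar) (hA : A.LiesOverPrime q) (σ : GQ)
    (hσ : σ ∈ A.inertiaSubgroupIn ℚ) (s : GQ) :
    LinearMap.trace T H.ρ.V (H.ρ.ρ (σ * s)) = LinearMap.trace T H.ρ.V (H.ρ.ρ s) := by
  obtain ⟨D⟩ := hTate
  have hqp : q ≠ p := by
    intro h
    exact hqM (by rw [h]; exact Dvd.intro_left M rfl)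
  -- `p` lies in the maximal ideal of `T`
  have hpT : (p : T) ∈ IsLocalRing.maximalIdeal T := by
    rw [IsLocalRing.mem_maximalIdeal, mem_nonunits_iff]
    intro hu
    have h1 : IsUnit (algebraMap 𝒪 T (p : 𝒪)) := by rw [map_natCast]; exact hu
    have h2 : IsUnit (p : 𝒪) := IsUnit.of_map (algebraMap 𝒪 T) _ h1
    exact (IsLocalRing.mem_maximalIdeal _).mp hp𝒪 h2
  -- the cyclotomic character
  have hpZ : (p : ℤ_[p]) ∈ IsLocalRing.maximalIdeal ℤ_[p] := by
    rw [PadicInt.maximalIdeal_eq_span_p]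
    exact Ideal.mem_span_singleton_self _
  obtain ⟨d, hd, hdc, hdloc, -⟩ := hCyc p ℤ_[p] hpZ
  -- the universal trace
  obtain ⟨t, ht⟩ := hPU p N S M hNM D d hd hdc
  -- `T` is a `ℤ_p`-algebra
  obtain ⟨ι⟩ := hZp p T hpT
  letI : Algebra ℤ_[p] T := ι.toAlgebra
  -- the map `𝔸 → T`
  let f : MvPolynomial (GoodPrime p M S) ℤ_[p] →ₐ[ℤ_[p]] D.𝔸 := MvPolynomial.aeval D.τ
  let g : MvPolynomial (GoodPrime p M S) ℤ_[p] →ₐ[ℤ_[p]] T :=
    MvPolynomial.aeval (fun ℓ => H.π (goodT hNM ℓ))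
  have hsurj : Function.Surjective f := by
    rw [← AlgHom.range_eq_top]
    change (MvPolynomial.aeval D.τ).range = ⊤
    rw [← Algebra.adjoin_range_eq_range_aeval]
    exact D.adjoin_τ
  have hker : ∀ P ∈ RingHom.ker (f : MvPolynomial (GoodPrime p M S) ℤ_[p] →+* D.𝔸), g P = 0 := by
    intro P hP
    exact D.faithful T H.π P hP
  let Θ : D.𝔸 →ₐ[ℤ_[p]] T :=
    (Ideal.Quotient.liftₐ (RingHom.ker (f : MvPolynomial (GoodPrime p M S) ℤ_[p] →+* D.𝔸)) g
      hker).comp (Ideal.quotientKerAlgEquivOfSurjective hsurj).symm.toAlgHom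
  have hΘ : ∀ ℓ : GoodPrime p M S, Θ (D.τ ℓ) = H.π (goodT hNM ℓ) := by
    intro ℓ
    have h1 : (Ideal.quotientKerAlgEquivOfSurjective hsurj).symm (D.τ ℓ) =
        Ideal.Quotient.mk _ (MvPolynomial.X ℓ) := by
      rw [AlgEquiv.symm_apply_eq]
      change D.τ ℓ = f (MvPolynomial.X ℓ)
      exact (MvPolynomial.aeval_X D.τ ℓ).symm
    change Ideal.Quotient.liftₐ _ g hker ((Ideal.quotientKerAlgEquivOfSurjective hsurj).symm
      (D.τ ℓ)) = _
    rw [h1]
    change g (MvPolynomial.X ℓ) = _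
    exact MvPolynomial.aeval_X _ ℓ
  -- the trace formula
  have htr : ∀ s : GQ, LinearMap.trace T H.ρ.V (H.ρ.ρ s) = Θ (t s) := by
    refine trace_eq_of_tateDatum D d t ht hCheb hd hdc hpT Θ H.ρ ?_
    intro ℓ A' hA' φ hφ
    rw [hΘ]
    exact H.charpoly_frob ℓ.1 ℓ.2.1 (fun h => ℓ.2.2.1 (Dvd.dvd.mul_right (h.trans hNM) p))
      (fun h => ℓ.2.2.2 (Finset.mem_coe.mp h)) A' hA' φ hφ
  -- the universal trace is unramified at `q`
  have hrσ : D.r σ = 1 := D.unramified q hq hqM A hA σ hσ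
  have hrσ' : D.r σ⁻¹ = 1 := D.unramified q hq hqM A hA σ⁻¹ (inv_mem hσ)
  have hdσ : d σ = 1 := (hdloc q hq hqp A hA).1 σ hσ
  have htσ : t (σ * s) = t s := by
    apply heckeEnd_injective D
    rw [heckeEnd_t D d t ht, heckeEnd_t D d t ht, uEnd, uEnd, map_mul, map_mul, hrσ, hdσ,
      one_mul, one_mul, mul_inv_rev, map_mul, hrσ', mul_one]
  rw [htr, htr, htσ]

/-- **[TRACE-T]** the trace of the representation of a Hecke-Galois datum is unramified at every
prime `q ∉ S`, given the Tate data of the two auxiliary levels `4N` and `9N`. -/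
theorem traceUnramified_of
    (hTate : ∀ (p : ℕ) [Fact p.Prime] (N : ℕ) [NeZero N] (S : Finset ℕ), p ∈ S →
      (∀ q : ℕ, q.Prime → q ∣ N → q ∈ S) →
        TateStatement p N S (4 * N) (Dvd.intro_left 4 rfl) ∧
        TateStatement p N S (9 * N) (Dvd.intro_left 9 rfl))
    (hPU : PseudoUnivStatement) (hCheb : ChebStatement) (hCyc : CycloStatement)
    (hZp : ZpAlgebraStatement) : TraceUnramifiedStatement := by
  intro p _ N _ S hpS hNS 𝒪 _ _ _ _ hp𝒪 θ T _ _ _ _ _ _ _ _ H q hq hqS A hA σ hσ s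
  have hpp : p.Prime := Fact.out
  have hqp : ¬ q ∣ p := by
    intro h
    have : q = p := (Nat.prime_dvd_prime_iff_eq hq hpp).mp h
    exact hqS (this ▸ hpS)
  have hqN : ¬ q ∣ N := fun h => hqS (hNS q hq h)
  obtain ⟨h4, h9⟩ := hTate p N S hpS hNS
  by_cases hq2 : q = 2
  · -- level `9 N`
    haveI : NeZero (9 * N) := ⟨Nat.mul_ne_zero (by norm_num) (NeZero.ne N)⟩
    have hqM : ¬ q ∣ 9 * N * p := by
      intro h
      rcases (Nat.Prime.dvd_mul hq).mp h with h | h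
      · rcases (Nat.Prime.dvd_mul hq).mp h with h | h
        · rw [hq2] at h
          omega
        · exact hqN h
      · exact hqp h
    exact traceUnramified_aux hPU hCheb hCyc hZp p N S (9 * N) (Dvd.intro_left 9 rfl) h9 𝒪 hp𝒪 θ T
      H q hq hqM A hA σ hσ s
  · -- level `4 N`
    haveI : NeZero (4 * N) := ⟨Nat.mul_ne_zero (by norm_num) (NeZero.ne N)⟩
    have hqM : ¬ q ∣ 4 * N * p := by
      intro h
      rcases (Nat.Prime.dvd_mul hq).mp h with h | h
      · rcases (Nat.Prime.dvd_mul hq).mp h with h | h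
        · have h4' : q ∣ 2 ^ 2 := by norm_num; exact h
          have := (Nat.prime_dvd_prime_iff_eq hq Nat.prime_two).mp (hq.dvd_of_dvd_pow h4')
          exact hq2 this
        · exact hqN h
      · exact hqp h
    exact traceUnramified_aux hPU hCheb hCyc hZp p N S (4 * N) (Dvd.intro_left 4 rfl) h4 𝒪 hp𝒪 θ T
      H q hq hqM A hA σ hσ s

end Wrapper

end Fermat.Agent.P3.helper64
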