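import Fermat.Agent.P3.helper32_S30Chain
import Fermat.Agent.P3.helper57_Eigen
import Fermat.Agent.P3.helper64_TraceT
import Fermat.Agent.P3.helper12_TraceRigid
import Fermat.Agent.P3.helper24_Zp

/-!
# P3: S30 and S31 from `TateAtGoodLevels` alone

All algebraic packages are plugged in: [ALG] (helper22), [ALG-T] (helper12), [CHEB] (helper91,
helper40), [PSEUDO], [PSEUDO-U] (helper98), [CYC] (helper26), [ZP] (helper24), [EIGEN] (helper57),
[TRACE-T] (helper64).  The only remaining input is the existence of the Tate data at the two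
auxiliary levels `4N`, `9N`, i.e. the geometric leaves P2-CORE, [AN-KAPPA], [DESC], [FIN-C]
(see `tateAtGoodLevels_of_open`).
-/

set_option autoImplicit false

namespace Fermat.Agent.P3.helper32

open Polynomial Fermat.Agent.P3 Fermat.Agent.P3.helper16

/-- Strong S30 from the Tate data. -/
theorem strongS30_of_tate (hTate : TateAtGoodLevels) : StrongS30Statement :=
  strongS30_of_tate_eigen hTate Fermat.Agent.P3.helper57.eigenStatement

/-- [ALG-T] (helper12). -/
theorem algTStatement : AlgTStatement := fun _ _ _ ρ h σ hs =>
  Fermat.Agent.P3.helper12.rho_eq_one_of_trace_mul_eq ρ h σ hs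

/-- [TRACE-T] from the Tate data. -/
theorem traceUnramified_of_tate (hTate : TateAtGoodLevels) : TraceUnramifiedStatement :=
  Fermat.Agent.P3.helper64.traceUnramified_of hTate
    (Fermat.Agent.P3.helper98.pseudoUniv Fermat.Agent.P3.helper91.cheb)
    Fermat.Agent.P3.helper91.cheb Fermat.Agent.P3.helper26.cycloStatement
    Fermat.Agent.P3.helper24.zpAlgebra

/-- The geometric leaves, bundled. -/
structure GeomLeaves : Prop where
  p2core : ∀ (M p : ℕ) [NeZero M], GoodLevel M → p.Prime → P2CoreStatement M p
  anKappa : ∀ (M p : ℕ) [NeZero M], GoodLevel M → p.Prime → AnKappaStatement M p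
  desc : ∀ (M : ℕ) [NeZero M], GoodLevel M → DescStatement M
  finC : ∀ (M p : ℕ) [NeZero M], GoodLevel M → p.Prime → FiniteTorsionCStatement M p

/-- The Tate data from the geometric leaves. -/
theorem tateAtGoodLevels_of_geom (h : GeomLeaves) : TateAtGoodLevels :=
  tateAtGoodLevels_of_open h.p2core h.anKappa h.desc h.finC

/-- Strong S30 from the geometric leaves. -/
theorem strongS30_of_geom (h : GeomLeaves) : StrongS30Statement :=
  strongS30_of_tate (tateAtGoodLevels_of_geom h)

end Fermat.Agent.P3.helper32
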