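import Fermat.Agent.P3.helper32_P3Final
import Fermat.Agent.P3.helper16_AnUncond
import Fermat.Agent.LEF.helper99_DescUncond
import Fermat.Agent.P3.helper48_FinC
import Fermat.Agent.P2.helper93_KummerFinal

/-!
# P3: the whole chain from (INJ) at good pairs

The analytic leaves [AN-KAPPA] (helper16, helper20, helper34, helper48, helper80), [DESC]
(helper99, LEF) and [FIN-C] (helper48) are unconditional; [K] (helper93) reduces P2-CORE to
`InjStatement`.  Hence the Tate data, strong S30 and [TRACE-T] follow from the single statement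
`InjAtGoodPairs`.
-/

set_option autoImplicit false

namespace Fermat.Agent.P3.helper32

open Fermat.Agent.P3 Fermat.Agent.P3.helper16 Fermat.Agent.S18.helper19

/-- The geometric leaves from P2-CORE at good levels alone. -/
theorem geomLeaves_of_p2core
    (h : ∀ (M p : ℕ) [NeZero M], GoodLevel M → p.Prime → P2CoreStatement M p) : GeomLeaves where
  p2core := h
  anKappa := fun M p _ _ hp => Fermat.Agent.P3.helper16.anKappaStatement M p hp.pos
  desc := fun M _ _ => Fermat.Agent.LEF.helper99.descStatement_uncond M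
  finC := fun M p _ _ hp => Fermat.Agent.P3.helper48.finiteTorsionC M p hp.pos

/-- **(INJ) at good pairs**: the level is divisible by `4` or `9`, the valuation ring lies over a
prime `ℓ` not dividing the level, and `ℓ` does not divide the exponent `m`. -/
def InjAtGoodPairs : Prop :=
  ∀ (M : ℕ) [NeZero M], (4 ∣ M ∨ 9 ∣ M) → ∀ ℓ : ℕ, ℓ.Prime → ¬ ℓ ∣ M →
    ∀ A : ValuationSubring Kb, A.LiesOverPrime ℓ → ∀ m : ℕ, ¬ ℓ ∣ m → InjStatement M A m

/-- P2-CORE at good levels from (INJ) at good pairs. -/
theorem p2core_of_inj (h : InjAtGoodPairs) (M p : ℕ) [NeZero M] (hM : GoodLevel M)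
    (_hp : p.Prime) : P2CoreStatement M p :=
  Fermat.Agent.P2.helper93.p2Core_of_inj M p fun ℓ hℓ hℓMp A hA n =>
    h M hM ℓ hℓ (fun hd => hℓMp (Dvd.dvd.mul_right hd p)) A hA (p ^ n)
      (fun hd => hℓMp (Dvd.dvd.mul_left (hℓ.dvd_of_dvd_pow hd) M))

/-- The Tate data from (INJ) at good pairs. -/
theorem tateAtGoodLevels_of_inj (h : InjAtGoodPairs) : TateAtGoodLevels :=
  tateAtGoodLevels_of_geom (geomLeaves_of_p2core fun M p _ hM hp => p2core_of_inj h M p hM hp)

/-- Strong S30 from (INJ) at good pairs. -/
theorem strongS30_of_inj (h : InjAtGoodPairs) : StrongS30Statement :=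
  strongS30_of_tate (tateAtGoodLevels_of_inj h)

/-- [TRACE-T] from (INJ) at good pairs. -/
theorem traceUnramified_of_inj (h : InjAtGoodPairs) : TraceUnramifiedStatement :=
  traceUnramified_of_tate (tateAtGoodLevels_of_inj h)

end Fermat.Agent.P3.helper32
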