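import Fermat.Agent.P3.helper32_P3Final2
import Fermat.Agent.P2.helper29_Core3

/-!
# P3: the whole chain from the single open leaf of P2-CORE

`CuspRegAtGoodPairs` (regularity of reductions at the cusps different from `∞`, helper81 /
helper28) is the only input: P2-CORE (helper29 assembly) gives `P2CoreStatement` at good levels,
and the P3 chain gives the Tate data, strong S30 and [TRACE-T].
-/

set_option autoImplicit false

namespace Fermat.Agent.P3.helper32

open Fermat.Agent.P3 Fermat.Agent.S18.helper19

/-- The single open leaf of P2-CORE, at all good pairs. -/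
def CuspRegAtGoodPairs : Prop :=
  ∀ (M : ℕ) [NeZero M] (A : ValuationSubring Kb), Fermat.Agent.P2.helper29.GoodPair M A →
    Fermat.Agent.P2.helper81.CuspRegStatement M A

/-- P2-CORE at good levels from the cusp leaf. -/
theorem p2core_of_cuspReg (h : CuspRegAtGoodPairs) (M p : ℕ) [NeZero M] (hM : GoodLevel M)
    (hp : p.Prime) : P2CoreStatement M p :=
  Fermat.Agent.P2.helper29.p2Core_of_cuspReg M p hM hp (fun A hA => h M A hA)

/-- The Tate data from the cusp leaf. -/
theorem tateAtGoodLevels_of_cuspReg (h : CuspRegAtGoodPairs) : TateAtGoodLevels :=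
  tateAtGoodLevels_of_geom
    (geomLeaves_of_p2core fun M p _ hM hp => p2core_of_cuspReg h M p hM hp)

/-- Strong S30 from the cusp leaf. -/
theorem strongS30_of_cuspReg (h : CuspRegAtGoodPairs) : StrongS30Statement :=
  strongS30_of_tate (tateAtGoodLevels_of_cuspReg h)

/-- [TRACE-T] from the cusp leaf. -/
theorem traceUnramified_of_cuspReg (h : CuspRegAtGoodPairs) : TraceUnramifiedStatement :=
  traceUnramified_of_tate (tateAtGoodLevels_of_cuspReg h)

end Fermat.Agent.P3.helper32
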