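import Fermat.Agent.P3.helper32_P3Final3
import Fermat.Agent.P2.helper81_CuspReg

/-!
# P3, UNCONDITIONAL: the Tate data, strong S30 and [TRACE-T]

The last leaf of P2-CORE (`helper81.cuspRegStatement`) closes the chain.
-/

set_option autoImplicit false

namespace Fermat.Agent.P3.helper32

open Fermat.Agent.P3

/-- The cusp leaf at all good pairs (helper81, helper28). -/
theorem cuspRegAtGoodPairs : CuspRegAtGoodPairs := fun M _ A h =>
  Fermat.Agent.P2.helper81.cuspRegStatement_of_goodPair M A h

/-- The Tate data at the auxiliary levels `4N`, `9N`, unconditional. -/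
theorem tateAtGoodLevels : TateAtGoodLevels :=
  tateAtGoodLevels_of_cuspReg cuspRegAtGoodPairs

/-- Strong S30, unconditional. -/
theorem strongS30 : StrongS30Statement :=
  strongS30_of_cuspReg cuspRegAtGoodPairs

/-- [TRACE-T], unconditional. -/
theorem traceUnramified : TraceUnramifiedStatement :=
  traceUnramified_of_cuspReg cuspRegAtGoodPairs

end Fermat.Agent.P3.helper32
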