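import Mathlib
import Fermat.Agent.P3.Interface
import Fermat.Agent.S24.helper75_FFCore
import Fermat.Agent.S24.helper75_FFCore2
import Fermat.Agent.S24.helper77_Degree

/-!
# P3 package [CONT] (helper85): every point of `J₀(M)` is fixed by an open subgroup of `G_ℚ`

* `exists_numberField_fixing_series` : every element of `laurentBaseChange ℚ̄ F₀` is fixed
  (coefficientwise) by all `g ∈ G_ℚ` fixing a suitable number field.
* `place_eq_of_primeOfPlace_le`, `smul_place_eq_of_fixes` : a place of a function field is
  determined by finitely many generators of the corresponding maximal ideal of a Dedekind chart.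
* `exists_numberField_fixing_place` : every place of `ℚ̄ · F_M` has an open stabiliser.
* `exists_numberField_fixing_divisor`, `torsionContinuity`.
-/

set_option autoImplicit false
set_option linter.unusedSectionVars false
set_option linter.style.haveILetI false
set_option linter.deprecated false

namespace Fermat.Agent.P3.helper85

open AlgebraicCurve ModularCurve IntermediateField IsDedekindDomain
open Fermat.Agent.S24 Fermat.Agent.S24.helper75
open scoped IntermediateField.algebraAdjoinAdjoin

noncomputable section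

/-! ## (F) elements of the base-changed field are defined over a number field -/

section Series

variable (F₀ : IntermediateField ℚ (LaurentSeries ℚ))

/-- The property "fixed by all Galois elements fixing some number field". -/
def FixedByOpen (x : LaurentSeries Qbar) : Prop :=
  ∃ K : IntermediateField ℚ Qbar, FiniteDimensional ℚ K ∧
    ∀ g : GQ, (∀ y ∈ K, g y = y) → coeffMap ((g : Qbar ≃ₐ[ℚ] Qbar) : Qbar →+* Qbar) x = x

theorem fixedByOpen_sup {x y : LaurentSeries Qbar} (hx : FixedByOpen x) (hy : FixedByOpen y) :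
    ∃ K : IntermediateField ℚ Qbar, FiniteDimensional ℚ K ∧
      ∀ g : GQ, (∀ z ∈ K, g z = z) →
        coeffMap ((g : Qbar ≃ₐ[ℚ] Qbar) : Qbar →+* Qbar) x = x ∧
        coeffMap ((g : Qbar ≃ₐ[ℚ] Qbar) : Qbar →+* Qbar) y = y := by
  obtain ⟨K₁, h₁, hK₁⟩ := hx
  obtain ⟨K₂, h₂, hK₂⟩ := hy
  refine ⟨K₁ ⊔ K₂, IntermediateField.finiteDimensional_sup K₁ K₂, fun g hg => ⟨?_, ?_⟩⟩
  · exact hK₁ g fun z hz => hg z ((le_sup_left : K₁ ≤ K₁ ⊔ K₂) hz)
  · exact hK₂ g fun z hz => hg z ((le_sup_right : K₂ ≤ K₁ ⊔ K₂) hz)

theorem exists_numberField_fixing_series {x : LaurentSeries Qbar}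
    (hx : x ∈ laurentBaseChange Qbar F₀) : FixedByOpen x := by
  rw [mem_laurentBaseChange_iff] at hx
  induction hx using Subfield.closure_induction with
  | mem y hy =>
      rcases hy with ⟨a, rfl⟩ | ⟨z, hz, rfl⟩
      · have ha : IsIntegral ℚ a :=
          (AlgebraicClosure.isAlgebraic ℚ).isIntegral.isIntegral a
        refine ⟨ℚ⟮a⟯, IntermediateField.adjoin.finiteDimensional ha, fun g hg => ?_⟩
        rw [coeffMap_algebraMap]
        congr 1
        exact hg a (IntermediateField.mem_adjoin_simple_self ℚ a)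
      · exact ⟨⊥, inferInstance, fun g _ => coeffMap_coeffEmb g z⟩
  | one => exact ⟨⊥, inferInstance, fun g _ => map_one _⟩
  | add x y _ _ hx hy =>
      obtain ⟨K, hK, h⟩ := fixedByOpen_sup hx hy
      exact ⟨K, hK, fun g hg => by rw [map_add, (h g hg).1, (h g hg).2]⟩
  | neg x _ hx =>
      obtain ⟨K, hK, h⟩ := hx
      exact ⟨K, hK, fun g hg => by rw [map_neg, h g hg]⟩
  | inv x _ hx =>
      obtain ⟨K, hK, h⟩ := hx
      exact ⟨K, hK, fun g hg => by rw [map_inv₀, h g hg]⟩
  | mul x y _ _ hx hy =>
      obtain ⟨K, hK, h⟩ := fixedByOpen_sup hx hy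
      exact ⟨K, hK, fun g hg => by rw [map_mul, (h g hg).1, (h g hg).2]⟩

/-- Every element of `ℚ̄ · F₀` is fixed by the arithmetic Galois action of an open subgroup. -/
theorem exists_numberField_fixing (f : laurentBaseChange Qbar F₀) :
    ∃ K : IntermediateField ℚ Qbar, FiniteDimensional ℚ K ∧
      ∀ g : GQ, (∀ y ∈ K, g y = y) → arithmeticGalois F₀ g • f = f := by
  obtain ⟨K, hK, h⟩ := exists_numberField_fixing_series F₀ f.2
  exact ⟨K, hK, fun g hg => Subtype.ext (h g hg)⟩

/-- A finite family of elements of `ℚ̄ · F₀` is fixed by an open subgroup. -/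
theorem exists_numberField_fixing_finset {ι : Type*} (s : Finset ι)
    (f : ι → laurentBaseChange Qbar F₀) :
    ∃ K : IntermediateField ℚ Qbar, FiniteDimensional ℚ K ∧
      ∀ g : GQ, (∀ y ∈ K, g y = y) → ∀ i ∈ s, arithmeticGalois F₀ g • f i = f i := by
  classical
  induction s using Finset.induction_on with
  | empty => exact ⟨⊥, inferInstance, fun g _ i hi => absurd hi (Finset.notMem_empty i)⟩
  | insert a s _ ih =>
      obtain ⟨K₁, h₁, hK₁⟩ := ih
      obtain ⟨K₂, h₂, hK₂⟩ := exists_numberField_fixing F₀ (f a)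
      refine ⟨K₁ ⊔ K₂, IntermediateField.finiteDimensional_sup K₁ K₂, fun g hg i hi => ?_⟩
      rcases Finset.mem_insert.mp hi with rfl | hi
      · exact hK₂ g fun z hz => hg z ((le_sup_right : K₂ ≤ K₁ ⊔ K₂) hz)
      · exact hK₁ g (fun z hz => hg z ((le_sup_left : K₁ ≤ K₁ ⊔ K₂) hz)) i hi

end Series

/-! ## (A') a place is determined by generators of its prime in a Dedekind chart -/

section Chart

variable {K F : Type*} [Field K] [Field F] [Algebra K F] [CharZero K]
variable (t : F) [FiniteDimensional K⟮t⟯ F]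

theorem place_eq_of_primeOfPlace_le (v w : Place K F) (hv : t ∈ v.toValuationSubring)
    (hw : t ∈ w.toValuationSubring) (h : primeOfPlace t v hv ≤ primeOfPlace t w hw) :
    w = v := by
  have hmax : (primeOfPlace t v hv).IsMaximal :=
    (primeOfPlace_isPrime t v hv).isMaximal (primeOfPlace_ne_bot t v hv)
  have heq : primeOfPlace t v hv = primeOfPlace t w hw :=
    hmax.eq_of_le (primeOfPlace_isPrime t w hw).ne_top h
  have hH : heightOneOfPlace t v hv = heightOneOfPlace t w hw :=
    HeightOneSpectrum.ext heq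
  rw [← ofHeightOneSpectrum_heightOneOfPlace t w hw, ← hH,
    ofHeightOneSpectrum_heightOneOfPlace t v hv]

theorem smul_place_eq_of_fixes (v : Place K F) (hv : t ∈ v.toValuationSubring)
    (s : Set (intClosure (K := K) t)) (hs : Ideal.span s = primeOfPlace t v hv)
    (g : SemilinearAut K F) (ht : g • t = t) (hb : ∀ b ∈ s, g • (b : F) = (b : F)) :
    g • v = v := by
  have hw : t ∈ (g • v).toValuationSubring := by
    rw [SemilinearAut.smul_toValuationSubring]
    have := ValuationSubring.smul_mem_pointwise_smul g t v.toValuationSubring hv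
    rwa [ht] at this
  refine place_eq_of_primeOfPlace_le t v (g • v) hv hw ?_
  rw [← hs, Ideal.span_le]
  intro b hbs
  have hbv : b ∈ primeOfPlace t v hv := hs ▸ Ideal.subset_span hbs
  rw [mem_primeOfPlace] at hbv
  rw [SetLike.mem_coe, mem_primeOfPlace]
  rcases hbv with h0 | hpos
  · exact Or.inl h0
  · right
    have := SemilinearAut.ord_smul g v (b : F)
    rw [hb b hbs] at this
    rw [this]
    exact hpos

theorem primeOfPlace_fg (v : Place K F) (hv : t ∈ v.toValuationSubring) :
    (primeOfPlace t v hv).FG :=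
  IsNoetherian.noetherian _

end Chart

/-! ## (A) places of the modular function field have open stabilisers -/

section Modular

variable (M : ℕ) [NeZero M]

theorem arithmeticGalois_smul_xJ (g : GQ) :
    arithmeticGalois (modularFunctionFieldFull M) g • (xJ M) = xJ M :=
  Subtype.ext (coeffMap_coeffEmb g _)

theorem exists_numberField_fixing_place_of_mem (t : FN M) [FiniteDimensional Kbar⟮t⟯ (FN M)]
    (ht : ∀ g : GQ, arithmeticGalois (modularFunctionFieldFull M) g • t = t)
    (v : Place Kbar (FN M)) (hv : t ∈ v.toValuationSubring) :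
    ∃ K : IntermediateField ℚ Qbar, FiniteDimensional ℚ K ∧
      ∀ g : GQ, (∀ y ∈ K, g y = y) →
        arithmeticGalois (modularFunctionFieldFull M) g • v = v := by
  classical
  obtain ⟨s, hs⟩ := primeOfPlace_fg t v hv
  obtain ⟨K, hK, h⟩ := exists_numberField_fixing_finset (modularFunctionFieldFull M) s
    (fun b => (b : FN M))
  refine ⟨K, hK, fun g hg => ?_⟩
  exact smul_place_eq_of_fixes t v hv (s : Set _) hs _ (ht g) (fun b hb => h g hg b hb)

theorem exists_numberField_fixing_place (v : Place Kbar (FN M)) :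
    ∃ K : IntermediateField ℚ Qbar, FiniteDimensional ℚ K ∧
      ∀ g : GQ, (∀ y ∈ K, g y = y) →
        arithmeticGalois (modularFunctionFieldFull M) g • v = v := by
  haveI := helper77.an_finiteDimensional M
  rcases v.toValuationSubring.mem_or_inv_mem (xJ M) with h | h
  · exact exists_numberField_fixing_place_of_mem M (xJ M)
      (arithmeticGalois_smul_xJ M) v h
  · haveI := finiteDimensional_adjoin_inv (K := Kbar) (xJ M)
    refine exists_numberField_fixing_place_of_mem M (xJ M)⁻¹ (fun g => ?_) v h
    rw [smul_inv'', arithmeticGalois_smul_xJ]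

theorem exists_numberField_fixing_divisor (D : Divisor Kbar (FN M)) :
    ∃ K : IntermediateField ℚ Qbar, FiniteDimensional ℚ K ∧
      ∀ g : GQ, (∀ y ∈ K, g y = y) →
        arithmeticGalois (modularFunctionFieldFull M) g • D = D := by
  classical
  induction D using Finsupp.induction with
  | zero => exact ⟨⊥, inferInstance, fun g _ => smul_zero _⟩
  | single_add v n D _ _ ih =>
      obtain ⟨K₁, h₁, hK₁⟩ := ih
      obtain ⟨K₂, h₂, hK₂⟩ := exists_numberField_fixing_place M v
      refine ⟨K₁ ⊔ K₂, IntermediateField.finiteDimensional_sup K₁ K₂, fun g hg => ?_⟩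
      rw [smul_add, SemilinearAut.smul_single,
        hK₂ g fun z hz => hg z ((le_sup_right : K₂ ≤ K₁ ⊔ K₂) hz),
        hK₁ g fun z hz => hg z ((le_sup_left : K₁ ≤ K₁ ⊔ K₂) hz)]

/-- **[CONT]** every point of `J₀(M)` is fixed by an open subgroup of `G_ℚ`. -/
theorem torsionContinuity : TorsionContinuityStatement M := by
  intro x
  obtain ⟨D, rfl⟩ := Pic0.mk_surjective x
  obtain ⟨K, hK, h⟩ := exists_numberField_fixing_divisor M (D : Divisor Kbar (FN M))
  refine ⟨K, hK, fun g hg => ?_⟩
  rw [galois_smul_pic0_def, SemilinearAut.pic0_smul_mk]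
  exact congrArg Pic0.mk (Subtype.ext (h g hg))

end Modular

end

end Fermat.Agent.P3.helper85
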