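import Fermat.Agent.P3.Interface3
import Fermat.Agent.P3.helper16_Kappa
import Fermat.Agent.P3.helper10_GalHecke
import Fermat.Agent.P3.helper85_Cont

/-!
# P3: wiring of the geometric side

* `finiteTorsion_of_desc` : [FIN] from [DESC] (injectivity of the conorm) and [FIN-C].
* `tateStatement_of` : the Tate datum of level `M` from [TATE-2], P2-CORE, [AN-KAPPA], [DESC],
  [FIN-C]; the packages [GALH] (helper10), [CONT] (helper85), [KAPPA]-assembly (helper16) are
  plugged in.
* `tateAtGoodLevels_of` : `TateAtGoodLevels`.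
-/

set_option autoImplicit false

noncomputable section

namespace Fermat.Agent.P3.helper32

open Fermat.Agent.P3 Fermat.Agent.P3.helper16

/-- **[FIN]**: finiteness of `J₀(M)[p]` from the injectivity of the conorm to `Pic⁰(F_ℂ)` and the
finiteness of `Pic⁰(F_ℂ)[p]`. -/
theorem finiteTorsion_of_desc (M p : ℕ) [NeZero M] (hD : DescStatement M)
    (hF : FiniteTorsionCStatement M p) : FiniteTorsionStatement M p := by
  obtain ⟨con, hinj, -, -⟩ := hD
  haveI : Finite (nsmulAddMonoidHom (α := JC M) p).ker := hF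
  let f : JTors M p 1 → (nsmulAddMonoidHom (α := JC M) p).ker := fun x =>
    ⟨con x.1, by
      have hx : p ^ 1 • (x.1 : ModularCurve.JZero M) = 0 := x.2
      rw [pow_one] at hx
      show p • con x.1 = 0
      rw [← map_nsmul, hx, map_zero]⟩
  have hf : Function.Injective f := fun x y hxy =>
    Subtype.ext (hinj (congrArg Subtype.val hxy))
  exact Finite.of_injective f hf

/-- The Tate datum of level `M` from the packages. -/
theorem tateStatement_of (hAsm : TateAssemblyStatement2) (p : ℕ) [Fact p.Prime] (N : ℕ)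
    [NeZero N] (S : Finset ℕ) (M : ℕ) [NeZero M] (hNM : N ∣ M) (hpS : p ∈ S)
    (hP2 : P2CoreStatement M p) (hAN : AnKappaStatement M p) (hD : DescStatement M)
    (hF : FiniteTorsionCStatement M p) : TateStatement p N S M hNM :=
  hAsm p N S M hNM hpS hP2 (Fermat.Agent.P3.helper10.galHeckeComm M)
    (Fermat.Agent.P3.helper85.torsionContinuity M) (finiteTorsion_of_desc M p hD hF)
    (kappa_of_an_desc M p N S hNM (Fact.out : p.Prime).pos hAN hD)

/-- **`TateAtGoodLevels`** from [TATE-2], P2-CORE at the good levels, [AN-KAPPA], [DESC],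
[FIN-C]. -/
theorem tateAtGoodLevels_of (hAsm : TateAssemblyStatement2)
    (hP2 : ∀ (M p : ℕ) [NeZero M], GoodLevel M → p.Prime → P2CoreStatement M p)
    (hAN : ∀ (M p : ℕ) [NeZero M], GoodLevel M → p.Prime → AnKappaStatement M p)
    (hD : ∀ (M : ℕ) [NeZero M], GoodLevel M → DescStatement M)
    (hF : ∀ (M p : ℕ) [NeZero M], GoodLevel M → p.Prime → FiniteTorsionCStatement M p) :
    TateAtGoodLevels := by
  intro p _ N _ S hpS _
  have hp : p.Prime := Fact.out
  haveI : NeZero (4 * N) := ⟨mul_ne_zero (by norm_num) (NeZero.ne N)⟩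
  haveI : NeZero (9 * N) := ⟨mul_ne_zero (by norm_num) (NeZero.ne N)⟩
  have h4 : GoodLevel (4 * N) := Or.inl (Dvd.intro N rfl)
  have h9 : GoodLevel (9 * N) := Or.inr (Dvd.intro N rfl)
  exact ⟨tateStatement_of hAsm p N S (4 * N) _ hpS (hP2 _ p h4 hp) (hAN _ p h4 hp) (hD _ h4)
      (hF _ p h4 hp),
    tateStatement_of hAsm p N S (9 * N) _ hpS (hP2 _ p h9 hp) (hAN _ p h9 hp) (hD _ h9)
      (hF _ p h9 hp)⟩

end Fermat.Agent.P3.helper32

end
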