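import Fermat.Agent.P3.helper32_S30Cond
import Fermat.Agent.P3.helper32_TateWire
import Fermat.Agent.P3.helper1_TateAssembly

/-!
# P3: S30 (strong form and frozen form) from the OPEN leaves

Open leaves: [TATE-2] `TateAssemblyStatement2`, [EIGEN] `EigenStatement`, P2-CORE
`P2CoreStatement` at the good levels, [AN-KAPPA], [DESC], [FIN-C].
-/

set_option autoImplicit false

namespace Fermat.Agent.P3.helper32

open Fermat.Agent.P3 Fermat.Agent.P3.helper16

/-- Strong S30 from the open leaves of BLUEPRINT P3. -/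
theorem strongS30_of_leaves (hAsm : TateAssemblyStatement2) (hEig : EigenStatement)
    (hP2 : ∀ (M p : ℕ) [NeZero M], GoodLevel M → p.Prime → P2CoreStatement M p)
    (hAN : ∀ (M p : ℕ) [NeZero M], GoodLevel M → p.Prime → AnKappaStatement M p)
    (hD : ∀ (M : ℕ) [NeZero M], GoodLevel M → DescStatement M)
    (hF : ∀ (M p : ℕ) [NeZero M], GoodLevel M → p.Prime → FiniteTorsionCStatement M p) :
    StrongS30Statement :=
  strongS30_of_tate_eigen (tateAtGoodLevels_of hAsm hP2 hAN hD hF) hEig

/-- Strong S30 from the leaves which are still open after [TATE-2] (helper1) has landed: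
[EIGEN], P2-CORE at the good levels, [AN-KAPPA], [DESC], [FIN-C]. -/
theorem strongS30_of_open (hEig : EigenStatement)
    (hP2 : ∀ (M p : ℕ) [NeZero M], GoodLevel M → p.Prime → P2CoreStatement M p)
    (hAN : ∀ (M p : ℕ) [NeZero M], GoodLevel M → p.Prime → AnKappaStatement M p)
    (hD : ∀ (M : ℕ) [NeZero M], GoodLevel M → DescStatement M)
    (hF : ∀ (M p : ℕ) [NeZero M], GoodLevel M → p.Prime → FiniteTorsionCStatement M p) :
    StrongS30Statement :=
  strongS30_of_leaves Fermat.Agent.P3.helper1.tateAssembly2 hEig hP2 hAN hD hF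

/-- `TateAtGoodLevels` from the open geometric leaves. -/
theorem tateAtGoodLevels_of_open
    (hP2 : ∀ (M p : ℕ) [NeZero M], GoodLevel M → p.Prime → P2CoreStatement M p)
    (hAN : ∀ (M p : ℕ) [NeZero M], GoodLevel M → p.Prime → AnKappaStatement M p)
    (hD : ∀ (M : ℕ) [NeZero M], GoodLevel M → DescStatement M)
    (hF : ∀ (M p : ℕ) [NeZero M], GoodLevel M → p.Prime → FiniteTorsionCStatement M p) :
    TateAtGoodLevels :=
  tateAtGoodLevels_of Fermat.Agent.P3.helper1.tateAssembly2 hP2 hAN hD hF

end Fermat.Agent.P3.helper32
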