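import Fermat.Agent.P3.Interface
import Fermat.Agent.Cheb.helper91_ChebWFinal

/-!
# P3 [CHEB]: `ChebStatement` (helper91)

The consumer form of the weak Chebotarev theorem of the P3 interface, from
`Fermat.Agent.Cheb.helper91.weakChebotarev_finite`.
-/

set_option autoImplicit false
set_option linter.style.haveILetI false

namespace Fermat.Agent.P3.helper91

/-- **[CHEB]** of BLUEPRINT P3 v1. -/
theorem cheb : Fermat.Agent.P3.ChebStatement := by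
  intro K hK g Bad
  haveI := hK
  obtain ⟨ℓ, A, φ, hℓ, hℓB, hA, hφ, -, ⟨j, hj⟩, -⟩ :=
    Fermat.Agent.Cheb.helper91.weakChebotarev_finite K g Bad
  exact ⟨ℓ, hℓ, hℓB, A, hA, φ, hφ, j, hj⟩

/-- **[CHEB]**, strengthened consumer form: in addition the inertia group at `A` fixes `K`
pointwise (`K` is unramified at `A`) and `φ` is a power of `g` on `K`. -/
theorem cheb_strong (K : IntermediateField ℚ Fermat.Agent.P3.Qbar)
    (hK : FiniteDimensional ℚ K) (g : Fermat.Agent.P3.GQ) (Bad : Finset ℕ) :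
    ∃ ℓ : ℕ, ℓ.Prime ∧ ℓ ∉ Bad ∧ ∃ A : ValuationSubring Fermat.Agent.P3.Qbar,
      A.LiesOverPrime ℓ ∧ (∀ τ ∈ A.inertiaSubgroupIn ℚ, ∀ x ∈ K, τ x = x) ∧
      ∃ φ : Fermat.Agent.P3.GQ, A.IsFrobeniusAt φ ℓ ∧ (∃ j : ℕ, ∀ x ∈ K, (φ ^ j) x = g x) ∧
        ∃ k : ℕ, ∀ x ∈ K, (g ^ k) x = φ x := by
  haveI := hK
  obtain ⟨ℓ, A, φ, hℓ, hℓB, hA, hφ, hin, hj, hk⟩ :=
    Fermat.Agent.Cheb.helper91.weakChebotarev_finite K g Bad
  exact ⟨ℓ, hℓ, hℓB, A, hA, hin, φ, hφ, hj, hk⟩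

end Fermat.Agent.P3.helper91
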