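import Fermat.Agent.P3.Interface
import Fermat.Agent.P3.helper98_FrobRoots

/-!
# P3 [PSEUDO-U]: the universal trace on a Tate datum (helper98)

`pseudoUniv : ChebStatement → PseudoUnivStatement`.

Let `D` be a Tate datum, `E := End_{ℤ_p}(Λ)`, `B ⊆ E` the image of the Hecke algebra `𝔸`
(a `ℤ_p`-subalgebra), and `u s := r s + d s • r s⁻¹ ∈ E`.

1. `u φ = τ_ℓ ∈ B` for every Frobenius lift `φ` at a good prime `ℓ` (Eichler-Shimura relation
   and `d φ = ℓ`).
2. (Dickson, without polynomials) `u g ∈ B → u (g ^ j) ∈ B`: with `Φ = r g`, `Ψ = d g • r g⁻¹`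
   one has `u (g ^ j) = Φ ^ j + Ψ ^ j`, and `P_{j+2} = (Φ + Ψ) P_{j+1} - Φ Ψ P_j`.
3. If `g = s` on a number field `K_n` adapted to `r`, `d` and `n`, then
   `u s - u g` is `p ^ n`-small.
4. `B` is `p`-adically closed in `E` (Krull's intersection theorem on `E ⧸ B`).
5. By weak Chebotarev `u s ∈ B` for all `s`, and `r s ^ 2 - u s * r s + d s = 0` identically.
-/

set_option autoImplicit false

noncomputable section

namespace Fermat.Agent.P3.helper98

open Fermat.Agent.P3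

/-! ### Pointwise small endomorphisms -/

section Small

variable {R : Type*} [CommRing R] {Λ : Type*} [AddCommGroup Λ] [Module R Λ]

/-- The endomorphisms of `Λ` with values in `J Λ`. -/
def smallEnd (J : Ideal R) : Submodule R (Module.End R Λ) where
  carrier := {y | ∀ v, y v ∈ J • (⊤ : Submodule R Λ)}
  add_mem' := fun {a b} ha hb v => by
    rw [LinearMap.add_apply]; exact Submodule.add_mem _ (ha v) (hb v)
  zero_mem' := fun v => by rw [LinearMap.zero_apply]; exact Submodule.zero_mem _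
  smul_mem' := fun c {a} ha v => by
    rw [LinearMap.smul_apply]; exact Submodule.smul_mem _ c (ha v)

theorem mem_smallEnd {J : Ideal R} {y : Module.End R Λ} :
    y ∈ smallEnd (Λ := Λ) J ↔ ∀ v, y v ∈ J • (⊤ : Submodule R Λ) := Iff.rfl

theorem apply_mem_smul_top (J : Ideal R) (e : Module.End R Λ) {w : Λ}
    (hw : w ∈ J • (⊤ : Submodule R Λ)) : e w ∈ J • (⊤ : Submodule R Λ) := by
  have h : (J • (⊤ : Submodule R Λ)).map e ≤ J • (⊤ : Submodule R Λ) := by
    rw [Submodule.map_smul'']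
    exact Submodule.smul_mono le_rfl le_top
  exact h (Submodule.mem_map_of_mem hw)

theorem mul_mem_smallEnd_left {J : Ideal R} (e : Module.End R Λ) {y : Module.End R Λ}
    (hy : y ∈ smallEnd (Λ := Λ) J) : e * y ∈ smallEnd (Λ := Λ) J := fun v => by
  rw [Module.End.mul_apply]; exact apply_mem_smul_top J e (hy v)

theorem mul_mem_smallEnd_right {J : Ideal R} (e : Module.End R Λ) {y : Module.End R Λ}
    (hy : y ∈ smallEnd (Λ := Λ) J) : y * e ∈ smallEnd (Λ := Λ) J := fun v => by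
  rw [Module.End.mul_apply]; exact hy (e v)

theorem smul_one_mem_smallEnd {J : Ideal R} {c : R} (hc : c ∈ J) :
    c • (1 : Module.End R Λ) ∈ smallEnd (Λ := Λ) J := fun v => by
  rw [LinearMap.smul_apply, Module.End.one_apply]
  exact Submodule.smul_mem_smul hc Submodule.mem_top

/-- For a finite free module, pointwise small endomorphisms are small. -/
theorem smallEnd_le [Module.Free R Λ] [Module.Finite R Λ] (J : Ideal R) :
    smallEnd (Λ := Λ) J ≤ J • (⊤ : Submodule R (Module.End R Λ)) := by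
  intro y hy
  classical
  let b := Module.Free.chooseBasis R Λ
  have hsum : y = ∑ i, LinearMap.smulRightₗ (b.coord i) (y (b i)) := by
    apply b.ext
    intro k
    rw [LinearMap.sum_apply]
    simp only [LinearMap.smulRightₗ_apply]
    rw [Finset.sum_eq_single k]
    · rw [LinearMap.smulRight_apply, b.coord_apply, b.repr_self, Finsupp.single_eq_same,
        one_smul]
    · intro i _ hik
      rw [LinearMap.smulRight_apply, b.coord_apply, b.repr_self,
        Finsupp.single_eq_of_ne hik, zero_smul]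
    · intro h; exact absurd (Finset.mem_univ k) h
  rw [hsum]
  apply Submodule.sum_mem
  intro i _
  have h : (J • (⊤ : Submodule R Λ)).map (LinearMap.smulRightₗ (b.coord i)) ≤
      J • (⊤ : Submodule R (Module.End R Λ)) := by
    rw [Submodule.map_smul'']
    exact Submodule.smul_mono le_rfl le_top
  exact h (Submodule.mem_map_of_mem (hy (b i)))

/-- **Closedness**: a submodule of `End Λ` (`Λ` finite free over a noetherian local ring)
contains every endomorphism which it approximates pointwise modulo all powers of the maximal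
ideal. -/
theorem mem_of_forall_exists_sub_mem_smallEnd [IsNoetherianRing R] [IsLocalRing R]
    [Module.Free R Λ] [Module.Finite R Λ] (B : Submodule R (Module.End R Λ))
    (x : Module.End R Λ)
    (h : ∀ n : ℕ, ∃ b ∈ B, x - b ∈ smallEnd (Λ := Λ) (IsLocalRing.maximalIdeal R ^ n)) :
    x ∈ B := by
  have hK := Ideal.iInf_pow_smul_eq_bot_of_isLocalRing (R := R) (M := Module.End R Λ ⧸ B)
    (IsLocalRing.maximalIdeal R) (Ideal.IsPrime.ne_top inferInstance)
  have hx : B.mkQ x ∈ (⨅ i : ℕ, IsLocalRing.maximalIdeal R ^ i •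
      (⊤ : Submodule R (Module.End R Λ ⧸ B))) := by
    rw [Submodule.mem_iInf]
    intro n
    obtain ⟨b, hb, hxb⟩ := h n
    have h1 : B.mkQ x = B.mkQ (x - b) := by
      rw [map_sub, Submodule.mkQ_apply, Submodule.mkQ_apply,
        (Submodule.Quotient.mk_eq_zero B).mpr hb, sub_zero]
    rw [h1]
    have h2 : (IsLocalRing.maximalIdeal R ^ n • (⊤ : Submodule R (Module.End R Λ))).map B.mkQ ≤
        IsLocalRing.maximalIdeal R ^ n • (⊤ : Submodule R (Module.End R Λ ⧸ B)) := by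
      rw [Submodule.map_smul'']
      exact Submodule.smul_mono le_rfl le_top
    exact h2 (Submodule.mem_map_of_mem (smallEnd_le _ hxb))
  rw [hK, Submodule.mem_bot, Submodule.mkQ_apply, Submodule.Quotient.mk_eq_zero] at hx
  exact hx

end Small

/-! ### Dickson without polynomials -/

section Dickson

variable {E : Type*} [Ring E]

/-- If `Φ` and `Ψ` commute and `Φ + Ψ`, `Φ Ψ` lie in a subring `B`, then so do all power sums
`Φ ^ j + Ψ ^ j`. -/
theorem pow_add_pow_mem (B : Subring E) {Φ Ψ : E} (hc : Ψ * Φ = Φ * Ψ) (hs : Φ + Ψ ∈ B)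
    (hp : Φ * Ψ ∈ B) : ∀ j : ℕ, Φ ^ j + Ψ ^ j ∈ B := by
  have hrec : ∀ j : ℕ, Φ ^ (j + 2) + Ψ ^ (j + 2) =
      (Φ + Ψ) * (Φ ^ (j + 1) + Ψ ^ (j + 1)) - Φ * Ψ * (Φ ^ j + Ψ ^ j) := by
    intro j
    have h1 : Ψ * Φ ^ (j + 1) = Φ * Ψ * Φ ^ j := by
      rw [pow_succ', ← mul_assoc, hc]
    have h2 : Φ * Ψ ^ (j + 1) = Φ * Ψ * Ψ ^ j := by
      rw [pow_succ', ← mul_assoc]
    rw [add_mul, mul_add, mul_add, mul_add, h1, h2, pow_succ' Φ (j + 1), pow_succ' Ψ (j + 1)]
    abel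
  have key : ∀ j : ℕ, Φ ^ j + Ψ ^ j ∈ B ∧ Φ ^ (j + 1) + Ψ ^ (j + 1) ∈ B := by
    intro j
    induction j with
    | zero =>
      refine ⟨?_, ?_⟩
      · rw [pow_zero, pow_zero]; exact B.add_mem B.one_mem B.one_mem
      · rw [zero_add, pow_one, pow_one]; exact hs
    | succ j ih =>
      refine ⟨ih.2, ?_⟩
      rw [hrec j]
      exact B.sub_mem (B.mul_mem hs ih.2) (B.mul_mem hp ih.1)
  exact fun j => (key j).1

end Dickson

/-! ### The main theorem -/

section Main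

variable {p : ℕ} [Fact p.Prime] {N : ℕ} [NeZero N] {S : Finset ℕ} {M : ℕ} {hNM : N ∣ M}
  (D : TateDatum p N S M hNM) (d : GQ →* ℤ_[p]ˣ)

/-- The Hecke algebra inside the endomorphisms of the Tate module. -/
def heckeEnd : D.𝔸 →ₐ[ℤ_[p]] Module.End ℤ_[p] D.Λ :=
  Algebra.lsmul ℤ_[p] ℤ_[p] D.Λ

@[simp] theorem heckeEnd_apply (a : D.𝔸) (v : D.Λ) : heckeEnd D a v = a • v := rfl

/-- `u s = r s + d s • r s⁻¹`. -/
def uEnd (s : GQ) : Module.End ℤ_[p] D.Λ := D.r s + (d s : ℤ_[p]) • D.r s⁻¹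

theorem r_mul_r_inv (s : GQ) : D.r s * D.r s⁻¹ = 1 := by
  rw [← map_mul, mul_inv_cancel, map_one]

theorem r_inv_mul_r (s : GQ) : D.r s⁻¹ * D.r s = 1 := by
  rw [← map_mul, inv_mul_cancel, map_one]

/-- Step 1: on a Frobenius lift at a good prime, `u φ = τ_ℓ`. -/
theorem uEnd_frobenius (hd : IsCycloChar p d) (ℓ : GoodPrime p M S)
    (A : ValuationSubring Qbar) (hA : A.LiesOverPrime ℓ.1) {φ : GQ}
    (hφ : A.IsFrobeniusAt φ ℓ.1) : uEnd D d φ = heckeEnd D (D.τ ℓ) := by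
  have hℓp : ℓ.1 ≠ p := by
    intro h
    have hdiv : ℓ.1 ∣ M * p := by rw [h]; exact Dvd.intro_left M rfl
    exact ℓ.2.2.1 hdiv
  have hdφ : (d φ : ℤ_[p]) = (ℓ.1 : ℤ_[p]) := cyclo_frobenius_padic hd ℓ.2.1 hℓp A hA hφ
  apply LinearMap.ext
  intro w
  have h := D.frobenius ℓ A hA φ hφ (D.r φ⁻¹ w)
  have h1 : D.r φ (D.r φ⁻¹ w) = w := by
    rw [← Module.End.mul_apply, r_mul_r_inv, Module.End.one_apply]
  rw [h1] at h
  rw [uEnd, heckeEnd_apply, LinearMap.add_apply, LinearMap.smul_apply, hdφ]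
  rw [sub_add_eq_add_sub, sub_eq_zero] at h
  exact h

/-- Step 2: `u (g ^ j)` lies in every subalgebra containing `u g`. -/
theorem uEnd_pow_mem (B : Subalgebra ℤ_[p] (Module.End ℤ_[p] D.Λ)) {g : GQ}
    (hg : uEnd D d g ∈ B) (j : ℕ) : uEnd D d (g ^ j) ∈ B := by
  have hΦΨ : D.r g * ((d g : ℤ_[p]) • D.r g⁻¹) = algebraMap ℤ_[p] _ (d g : ℤ_[p]) := by
    rw [mul_smul_comm, r_mul_r_inv, Algebra.algebraMap_eq_smul_one]
  have hΨΦ : ((d g : ℤ_[p]) • D.r g⁻¹) * D.r g = algebraMap ℤ_[p] _ (d g : ℤ_[p]) := by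
    rw [smul_mul_assoc, r_inv_mul_r, Algebra.algebraMap_eq_smul_one]
  have h := pow_add_pow_mem B.toSubring (Φ := D.r g) (Ψ := (d g : ℤ_[p]) • D.r g⁻¹)
    (by rw [hΦΨ, hΨΦ]) hg (by rw [hΦΨ]; exact B.algebraMap_mem _) j
  have hu : uEnd D d (g ^ j) = D.r g ^ j + ((d g : ℤ_[p]) • D.r g⁻¹) ^ j := by
    rw [uEnd, map_pow, map_pow, Units.val_pow_eq_pow_val, smul_pow, ← inv_pow, map_pow]
  rw [hu]
  exact h

/-- Step 3: `u` is continuous. -/
theorem uEnd_sub_mem_smallEnd {n : ℕ} {g h : GQ}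
    (hr : D.r h - 1 ∈ smallEnd (Λ := D.Λ) (IsLocalRing.maximalIdeal ℤ_[p] ^ n))
    (hr' : D.r h⁻¹ - 1 ∈ smallEnd (Λ := D.Λ) (IsLocalRing.maximalIdeal ℤ_[p] ^ n))
    (hdh : (d h : ℤ_[p]) - 1 ∈ IsLocalRing.maximalIdeal ℤ_[p] ^ n) :
    uEnd D d (g * h) - uEnd D d g ∈
      smallEnd (Λ := D.Λ) (IsLocalRing.maximalIdeal ℤ_[p] ^ n) := by
  have key : uEnd D d (g * h) - uEnd D d g =
      D.r g * (D.r h - 1) +
        (d g : ℤ_[p]) • (((d h : ℤ_[p]) • (D.r h⁻¹ - 1) +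
          ((d h : ℤ_[p]) - 1) • (1 : Module.End ℤ_[p] D.Λ)) * D.r g⁻¹) := by
    rw [uEnd, uEnd, map_mul, map_mul, Units.val_mul, mul_inv_rev, map_mul]
    simp only [mul_sub, sub_mul, add_mul, mul_one, one_mul, smul_mul_assoc, smul_sub, smul_add,
      sub_smul, one_smul, mul_smul]
    abel
  rw [key]
  refine Submodule.add_mem _ (mul_mem_smallEnd_left _ hr) (Submodule.smul_mem _ _ ?_)
  refine mul_mem_smallEnd_right _ (Submodule.add_mem _ (Submodule.smul_mem _ _ hr') ?_)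
  exact smul_one_mem_smallEnd hdh

/-- Step 5: `u s` lies in the image of the Hecke algebra, for all `s`. -/
theorem uEnd_mem_range [NeZero M] (hC : ChebStatement) (hd : IsCycloChar p d)
    (hdc : IsAdicContinuousChar d) (s : GQ) : uEnd D d s ∈ (heckeEnd D).range := by
  apply mem_of_forall_exists_sub_mem_smallEnd (Subalgebra.toSubmodule (heckeEnd D).range)
  intro n
  obtain ⟨L₁, hL₁, h₁⟩ := D.isAdicContinuous n
  obtain ⟨L₂, hL₂, h₂⟩ := hdc n
  have := hL₁
  have := hL₂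
  have hMp : M * p ≠ 0 := Nat.mul_ne_zero (NeZero.ne M) (Fact.out : p.Prime).ne_zero
  obtain ⟨ℓ, hℓ, hℓBad, A, hA, φ, hφ, j, hj⟩ :=
    hC (L₁ ⊔ L₂) inferInstance s (S ∪ (M * p).primeFactors)
  have hℓS : ℓ ∉ S := fun h => hℓBad (Finset.mem_union_left _ h)
  have hℓM : ¬ ℓ ∣ M * p := fun h =>
    hℓBad (Finset.mem_union_right _ (Nat.mem_primeFactors.mpr ⟨hℓ, h, hMp⟩))
  let ℓ' : GoodPrime p M S := ⟨ℓ, hℓ, hℓM, hℓS⟩
  have hφB : uEnd D d φ ∈ (heckeEnd D).range :=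
    ⟨D.τ ℓ', (uEnd_frobenius D d hd ℓ' A hA hφ).symm⟩
  have hgB : uEnd D d (φ ^ j) ∈ (heckeEnd D).range := uEnd_pow_mem D d _ hφB j
  refine ⟨uEnd D d (φ ^ j), hgB, ?_⟩
  -- `s = g * h` with `h` fixing `L₁ ⊔ L₂`
  set g : GQ := φ ^ j with hgdef
  set h : GQ := g⁻¹ * s with hhdef
  have hs : s = g * h := by rw [hhdef, mul_inv_cancel_left]
  have hfix : ∀ x ∈ L₁ ⊔ L₂, h x = x := by
    intro x hx
    rw [hhdef, AlgEquiv.mul_apply, ← hj x hx]
    exact AlgEquiv.symm_apply_apply g x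
  have hfix' : ∀ x ∈ L₁ ⊔ L₂, h⁻¹ x = x := by
    intro x hx
    have := hfix x hx
    calc h⁻¹ x = h⁻¹ (h x) := by rw [this]
      _ = x := AlgEquiv.symm_apply_apply h x
  have hle₁ : L₁ ≤ L₁ ⊔ L₂ := le_sup_left
  have hle₂ : L₂ ≤ L₁ ⊔ L₂ := le_sup_right
  rw [hs]
  apply uEnd_sub_mem_smallEnd D d
  · intro v
    rw [LinearMap.sub_apply, Module.End.one_apply]
    exact h₁ h (fun x hx => hfix x (hle₁ hx)) v
  · intro v
    rw [LinearMap.sub_apply, Module.End.one_apply]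
    exact h₁ h⁻¹ (fun x hx => hfix' x (hle₁ hx)) v
  · exact h₂ h (fun x hx => hfix x (hle₂ hx))

end Main

/-- **[PSEUDO-U]** the universal trace on a Tate datum. -/
theorem pseudoUniv (hC : ChebStatement) : PseudoUnivStatement := by
  intro p _ N _ S M _ hNM D d hd hdc
  have key : ∀ s : GQ, ∃ t : D.𝔸, heckeEnd D t = uEnd D d s := fun s =>
    uEnd_mem_range D d hC hd hdc s
  choose t ht using key
  refine ⟨t, fun s v => ?_⟩
  have h1 : t s • D.r s v = uEnd D d s (D.r s v) := by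
    rw [← ht s, heckeEnd_apply]
  have h2 : D.r s⁻¹ (D.r s v) = v := by
    rw [← Module.End.mul_apply, r_inv_mul_r, Module.End.one_apply]
  rw [h1, uEnd, LinearMap.add_apply, LinearMap.smul_apply, h2]
  abel

end Fermat.Agent.P3.helper98

end
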