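import Fermat.Agent.P3.Interface
import Fermat.Agent.P3.helper98_PseudoUniv

/-!
# P3 [PSEUDO]: the central-trace trick, abstract core and scalar form (helper98)

For a noetherian local ring `R`, a finite free `R`-module `L`, an adic-continuous action
`r : G_ℚ →* End_R L` and an adic-continuous character `d : G_ℚ →* Rˣ` put
`uGen r d s := r s + d s • r s⁻¹`.  Then `r s ^ 2 - uGen r d s * r s + d s = 0` identically, and

* `uGen_mem_of_frobenius` : if `uGen r d φ ∈ B` (`B` a subalgebra of `End_R L`) for all Frobenius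
  lifts `φ` at the primes outside a finite set, then `uGen r d s ∈ B` for all `s`
  (weak Chebotarev + Dickson recursion + Krull's intersection theorem);
* `uGen_continuous` : `uGen r d` is adically continuous;
* `pseudo : ChebStatement → PseudoStatement` (verbatim from `Interface.lean`), together with
  `pseudo_strong` which also gives `t φ = a ℓ` at the Frobenius lifts and the continuity of `t`.
-/

set_option autoImplicit false

noncomputable section

namespace Fermat.Agent.P3.helper98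

open Fermat.Agent.P3

section Core

variable {R : Type} [CommRing R] {L : Type} [AddCommGroup L] [Module R L]
  (r : GQ →* Module.End R L) (d : GQ →* Rˣ)

/-- `uGen r d s = r s + d s • r s⁻¹`, the only possible "trace" of `r s`. -/
def uGen (s : GQ) : Module.End R L := r s + (d s : R) • r s⁻¹

theorem gen_mul_inv (s : GQ) : r s * r s⁻¹ = 1 := by
  rw [← map_mul, mul_inv_cancel, map_one]

theorem gen_inv_mul (s : GQ) : r s⁻¹ * r s = 1 := by
  rw [← map_mul, inv_mul_cancel, map_one]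

/-- The quadratic relation holds identically for `uGen`. -/
theorem uGen_quadratic (s : GQ) :
    r s * r s - uGen r d s * r s + (d s : R) • (1 : Module.End R L) = 0 := by
  rw [uGen, add_mul, smul_mul_assoc, gen_inv_mul]
  abel

/-- A quadratic relation `r φ ^ 2 - a r φ + c = 0` with `c = d φ` forces `uGen r d φ = a`. -/
theorem uGen_eq_of_quadratic {φ : GQ} {a c : R} (hc : (d φ : R) = c)
    (h : r φ * r φ - a • r φ + c • (1 : Module.End R L) = 0) :
    uGen r d φ = algebraMap R (Module.End R L) a := by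
  have h1 := congrArg (fun x => x * r φ⁻¹) h
  simp only [add_mul, sub_mul, zero_mul, mul_assoc, smul_mul_assoc, gen_mul_inv, mul_one,
    one_mul] at h1
  rw [uGen, hc, Algebra.algebraMap_eq_smul_one]
  rw [sub_add_eq_add_sub, sub_eq_zero] at h1
  exact h1

/-- Dickson: `uGen (g ^ j)` lies in every subalgebra containing `uGen g`. -/
theorem uGen_pow_mem (B : Subalgebra R (Module.End R L)) {g : GQ}
    (hg : uGen r d g ∈ B) (j : ℕ) : uGen r d (g ^ j) ∈ B := by
  have hΦΨ : r g * ((d g : R) • r g⁻¹) = algebraMap R _ (d g : R) := by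
    rw [mul_smul_comm, gen_mul_inv, Algebra.algebraMap_eq_smul_one]
  have hΨΦ : ((d g : R) • r g⁻¹) * r g = algebraMap R _ (d g : R) := by
    rw [smul_mul_assoc, gen_inv_mul, Algebra.algebraMap_eq_smul_one]
  have h := pow_add_pow_mem B.toSubring (Φ := r g) (Ψ := (d g : R) • r g⁻¹)
    (by rw [hΦΨ, hΨΦ]) hg (by rw [hΦΨ]; exact B.algebraMap_mem _) j
  have hu : uGen r d (g ^ j) = r g ^ j + ((d g : R) • r g⁻¹) ^ j := by
    rw [uGen, map_pow, map_pow, Units.val_pow_eq_pow_val, smul_pow, ← inv_pow, map_pow]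
  rw [hu]
  exact h

/-- The basic estimate behind the continuity of `uGen`. -/
theorem uGen_sub_mem_smallEnd {J : Ideal R} {g h : GQ}
    (hr : r h - 1 ∈ smallEnd (Λ := L) J) (hr' : r h⁻¹ - 1 ∈ smallEnd (Λ := L) J)
    (hdh : (d h : R) - 1 ∈ J) :
    uGen r d (g * h) - uGen r d g ∈ smallEnd (Λ := L) J := by
  have key : uGen r d (g * h) - uGen r d g =
      r g * (r h - 1) +
        (d g : R) • (((d h : R) • (r h⁻¹ - 1) +
          ((d h : R) - 1) • (1 : Module.End R L)) * r g⁻¹) := by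
    rw [uGen, uGen, map_mul, map_mul, Units.val_mul, mul_inv_rev, map_mul]
    simp only [mul_sub, sub_mul, add_mul, mul_one, one_mul, smul_mul_assoc, smul_sub, smul_add,
      sub_smul, one_smul, mul_smul]
    abel
  rw [key]
  refine Submodule.add_mem _ (mul_mem_smallEnd_left _ hr) (Submodule.smul_mem _ _ ?_)
  refine mul_mem_smallEnd_right _ (Submodule.add_mem _ (Submodule.smul_mem _ _ hr') ?_)
  exact smul_one_mem_smallEnd hdh

variable [IsLocalRing R]

/-- A common level for `r` and `d`. -/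
theorem exists_level (hr : GaloisActionIsAdicContinuous R r) (hd : IsAdicContinuousChar d)
    (n : ℕ) : ∃ K : IntermediateField ℚ Qbar, FiniteDimensional ℚ K ∧
      ∀ h : GQ, (∀ x ∈ K, h x = x) →
        r h - 1 ∈ smallEnd (Λ := L) (IsLocalRing.maximalIdeal R ^ n) ∧
        r h⁻¹ - 1 ∈ smallEnd (Λ := L) (IsLocalRing.maximalIdeal R ^ n) ∧
        (d h : R) - 1 ∈ IsLocalRing.maximalIdeal R ^ n := by
  obtain ⟨L₁, hL₁, h₁⟩ := hr n
  obtain ⟨L₂, hL₂, h₂⟩ := hd n
  have := hL₁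
  have := hL₂
  refine ⟨L₁ ⊔ L₂, inferInstance, fun h hfix => ?_⟩
  have hfix' : ∀ x ∈ L₁ ⊔ L₂, h⁻¹ x = x := by
    intro x hx
    have := hfix x hx
    calc h⁻¹ x = h⁻¹ (h x) := by rw [this]
      _ = x := AlgEquiv.symm_apply_apply h x
  have hle₁ : L₁ ≤ L₁ ⊔ L₂ := le_sup_left
  have hle₂ : L₂ ≤ L₁ ⊔ L₂ := le_sup_right
  refine ⟨fun v => ?_, fun v => ?_, h₂ h (fun x hx => hfix x (hle₂ hx))⟩
  · rw [LinearMap.sub_apply, Module.End.one_apply]
    exact h₁ h (fun x hx => hfix x (hle₁ hx)) v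
  · rw [LinearMap.sub_apply, Module.End.one_apply]
    exact h₁ h⁻¹ (fun x hx => hfix' x (hle₁ hx)) v

/-- `uGen r d` is adically continuous. -/
theorem uGen_continuous (hr : GaloisActionIsAdicContinuous R r) (hd : IsAdicContinuousChar d)
    (n : ℕ) : ∃ K : IntermediateField ℚ Qbar, FiniteDimensional ℚ K ∧
      ∀ s h : GQ, (∀ x ∈ K, h x = x) →
        uGen r d (s * h) - uGen r d s ∈ smallEnd (Λ := L) (IsLocalRing.maximalIdeal R ^ n) := by
  obtain ⟨K, hK, hlev⟩ := exists_level r d hr hd n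
  refine ⟨K, hK, fun s h hfix => ?_⟩
  obtain ⟨h1, h2, h3⟩ := hlev h hfix
  exact uGen_sub_mem_smallEnd r d h1 h2 h3

/-- **The central-trace trick, abstract core.**  If `uGen r d φ` lies in the subalgebra `B` for
all Frobenius lifts at the primes outside a finite set, then `uGen r d s ∈ B` for all `s`. -/
theorem uGen_mem_of_frobenius [IsNoetherianRing R] [Module.Free R L] [Module.Finite R L]
    (hC : ChebStatement) (hr : GaloisActionIsAdicContinuous R r) (hd : IsAdicContinuousChar d)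
    (B : Subalgebra R (Module.End R L)) (Bad : Finset ℕ)
    (hB : ∀ ℓ : ℕ, ℓ.Prime → ℓ ∉ Bad → ∀ A : ValuationSubring Qbar, A.LiesOverPrime ℓ →
      ∀ φ : GQ, A.IsFrobeniusAt φ ℓ → uGen r d φ ∈ B) (s : GQ) : uGen r d s ∈ B := by
  apply mem_of_forall_exists_sub_mem_smallEnd (Subalgebra.toSubmodule B)
  intro n
  obtain ⟨K, hK, hlev⟩ := exists_level r d hr hd n
  obtain ⟨ℓ, hℓ, hℓBad, A, hA, φ, hφ, j, hj⟩ := hC K hK s Bad
  have hgB : uGen r d (φ ^ j) ∈ B := uGen_pow_mem r d B (hB ℓ hℓ hℓBad A hA φ hφ) j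
  refine ⟨uGen r d (φ ^ j), hgB, ?_⟩
  set g : GQ := φ ^ j with hgdef
  set h : GQ := g⁻¹ * s with hhdef
  have hs : s = g * h := by rw [hhdef, mul_inv_cancel_left]
  have hfix : ∀ x ∈ K, h x = x := by
    intro x hx
    rw [hhdef, AlgEquiv.mul_apply, ← hj x hx]
    exact AlgEquiv.symm_apply_apply g x
  obtain ⟨h1, h2, h3⟩ := hlev h hfix
  rw [hs]
  exact uGen_sub_mem_smallEnd r d h1 h2 h3

end Core

/-! ### The scalar form -/

/-- In a noetherian local ring with `p` in the maximal ideal, `⋂ (p ^ n) = 0`. -/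
theorem eq_zero_of_forall_mem_span_pow {R : Type*} [CommRing R] [IsLocalRing R]
    [IsNoetherianRing R] {p : ℕ} (hp : (p : R) ∈ IsLocalRing.maximalIdeal R) (x : R)
    (hx : ∀ n : ℕ, x ∈ Ideal.span {(p : R) ^ n}) : x = 0 := by
  have hK := Ideal.iInf_pow_eq_bot_of_isLocalRing (IsLocalRing.maximalIdeal R)
    (Ideal.IsPrime.ne_top inferInstance)
  have hx' : x ∈ ⨅ i : ℕ, IsLocalRing.maximalIdeal R ^ i := by
    rw [Ideal.mem_iInf]
    intro n
    have h1 : Ideal.span {(p : R) ^ n} ≤ IsLocalRing.maximalIdeal R ^ n := by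
      rw [Ideal.span_singleton_le_iff_mem]
      exact Ideal.pow_mem_pow hp n
    exact h1 (hx n)
  rw [hK] at hx'
  exact hx'

/-- **[PSEUDO], strong form**: the function `t` with `QuadraticRel r t d`, its values at the
Frobenius lifts, its characterisation `t s • 1 = r s + d s • r s⁻¹` and (hence) its
continuity. -/
theorem pseudo_strong (hC : ChebStatement) (p : ℕ) [Fact p.Prime] (𝒪 : Type) [CommRing 𝒪]
    [IsLocalRing 𝒪] [IsNoetherianRing 𝒪] (hp : (p : 𝒪) ∈ IsLocalRing.maximalIdeal 𝒪)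
    (L : Type) [AddCommGroup L] [Module 𝒪 L] [Module.Free 𝒪 L] [Module.Finite 𝒪 L]
    [Nontrivial L] (r : GQ →* Module.End 𝒪 L) (hr : GaloisActionIsAdicContinuous 𝒪 r)
    (d : GQ →* 𝒪ˣ) (hd : IsCycloChar p d) (hdc : IsAdicContinuousChar d)
    (Bad : Finset ℕ) (a : ℕ → 𝒪)
    (ha : ∀ ℓ : ℕ, ℓ.Prime → ℓ ∉ Bad → ∀ A : ValuationSubring Qbar, A.LiesOverPrime ℓ →
      ∀ φ : GQ, A.IsFrobeniusAt φ ℓ →
        r φ * r φ - a ℓ • r φ + (ℓ : 𝒪) • (1 : Module.End 𝒪 L) = 0) :
    ∃ t : GQ → 𝒪, QuadraticRel r t d ∧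
      (∀ s : GQ, algebraMap 𝒪 (Module.End 𝒪 L) (t s) = uGen r d s) ∧
      (∀ ℓ : ℕ, ℓ.Prime → ℓ ∉ Bad → ℓ ≠ p → ∀ A : ValuationSubring Qbar, A.LiesOverPrime ℓ →
        ∀ φ : GQ, A.IsFrobeniusAt φ ℓ → t φ = a ℓ) := by
  have hinj : Function.Injective (algebraMap 𝒪 (Module.End 𝒪 L)) :=
    FaithfulSMul.algebraMap_injective 𝒪 (Module.End 𝒪 L)
  have hfrob : ∀ ℓ : ℕ, ℓ.Prime → ℓ ∉ Bad → ℓ ≠ p → ∀ A : ValuationSubring Qbar,
      A.LiesOverPrime ℓ → ∀ φ : GQ, A.IsFrobeniusAt φ ℓ →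
        uGen r d φ = algebraMap 𝒪 (Module.End 𝒪 L) (a ℓ) := by
    intro ℓ hℓ hℓBad hℓp A hA φ hφ
    have hdφ : (d φ : 𝒪) = (ℓ : 𝒪) :=
      cyclo_frobenius (Fact.out : p.Prime) (eq_zero_of_forall_mem_span_pow hp) hd hℓ hℓp A hA hφ
    exact uGen_eq_of_quadratic r d hdφ (ha ℓ hℓ hℓBad A hA φ hφ)
  have key : ∀ s : GQ, uGen r d s ∈ (⊥ : Subalgebra 𝒪 (Module.End 𝒪 L)) := by
    intro s
    apply uGen_mem_of_frobenius r d hC hr hdc ⊥ (Bad ∪ {p})
    intro ℓ hℓ hℓBad A hA φ hφ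
    have h1 : ℓ ∉ Bad := fun h => hℓBad (Finset.mem_union_left _ h)
    have h2 : ℓ ≠ p := fun h => hℓBad (Finset.mem_union_right _ (Finset.mem_singleton.mpr h))
    rw [hfrob ℓ hℓ h1 h2 A hA φ hφ]
    exact Subalgebra.algebraMap_mem _ _
  have key' : ∀ s : GQ, ∃ t : 𝒪, algebraMap 𝒪 (Module.End 𝒪 L) t = uGen r d s := fun s =>
    Algebra.mem_bot.mp (key s)
  choose t ht using key'
  refine ⟨t, fun s => ?_, ht, fun ℓ hℓ hℓBad hℓp A hA φ hφ => ?_⟩
  · have h := uGen_quadratic r d s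
    rw [← ht s, Algebra.algebraMap_eq_smul_one, smul_mul_assoc, one_mul] at h
    exact h
  · apply hinj
    rw [ht φ, hfrob ℓ hℓ hℓBad hℓp A hA φ hφ]

/-- **[PSEUDO]** the central-trace trick, verbatim from `Interface.lean`. -/
theorem pseudo (hC : ChebStatement) : PseudoStatement := by
  intro p _ 𝒪 _ _ _ _ _ hp L _ _ _ _ _ r hr d hd hdc Bad a ha
  obtain ⟨t, ht, -⟩ := pseudo_strong hC p 𝒪 hp L r hr d hd hdc Bad a ha
  exact ⟨t, ht⟩

end Fermat.Agent.P3.helper98

end
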