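import Fermat.Agent.P3.helper32_WireS30Final
import Fermat.Agent.P3.helper22_Alg
import Fermat.Agent.P3.helper91_Cheb
import Fermat.Agent.P3.helper98_Pseudo
import Fermat.Agent.P3.helper26_Cyclo

/-!
# P3: S30 (strong form) from the two remaining packages [TATE] and [EIGEN]

All algebraic packages ([ALG], [CHEB], [PSEUDO], [CYC]) are plugged in.
-/

set_option autoImplicit false

namespace Fermat.Agent.P3.helper32

open Fermat.Agent.P3

/-- Strong S30 from Tate data at the auxiliary levels and the eigen-lattice package. -/
theorem strongS30_of_tate_eigen (hTate : TateAtGoodLevels) (hEig : EigenStatement) :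
    StrongS30Statement :=
  strongS30_of_packages hTate hEig Fermat.Agent.P3.helper26.cycloStatement
    (Fermat.Agent.P3.helper98.pseudo Fermat.Agent.P3.helper91.cheb) Fermat.Agent.P3.helper22.alg

end Fermat.Agent.P3.helper32
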