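import Fermat.Agent.P3.Interface3

/-!
# P3 [WIRE-30]: the strong form of S30 from the packages

`strongS30_of` : Tate data at levels `4N`, `9N` + [EIGEN] + [CYC] + [PSEUDO] + [ALG-3]
  ⟹ `StrongS30Statement`.
-/

set_option autoImplicit false

noncomputable section

namespace Fermat.Agent.P3.helper32

open Polynomial Fermat.Agent.P3

section Product

variable {𝒪 : Type} [CommRing 𝒪] {L₁ L₂ : Type} [AddCommGroup L₁] [Module 𝒪 L₁]
  [AddCommGroup L₂] [Module 𝒪 L₂]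

/-- The product of two representations. -/
def prodRep (r₁ : GQ →* Module.End 𝒪 L₁) (r₂ : GQ →* Module.End 𝒪 L₂) :
    GQ →* Module.End 𝒪 (L₁ × L₂) where
  toFun g := (r₁ g).prodMap (r₂ g)
  map_one' := by
    rw [map_one, map_one]
    exact LinearMap.prodMap_one
  map_mul' g h := by
    rw [map_mul, map_mul]
    exact (LinearMap.prodMap_mul _ _ _ _).symm

theorem prodRep_apply (r₁ : GQ →* Module.End 𝒪 L₁) (r₂ : GQ →* Module.End 𝒪 L₂) (g : GQ)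
    (v : L₁ × L₂) : prodRep r₁ r₂ g v = (r₁ g v.1, r₂ g v.2) := rfl

theorem inl_mem_smul_top (I : Ideal 𝒪) {x : L₁} (hx : x ∈ I • (⊤ : Submodule 𝒪 L₁)) :
    ((x, 0) : L₁ × L₂) ∈ I • (⊤ : Submodule 𝒪 (L₁ × L₂)) := by
  have h : (LinearMap.inl 𝒪 L₁ L₂) x ∈ (I • (⊤ : Submodule 𝒪 L₁)).map (LinearMap.inl 𝒪 L₁ L₂) :=
    Submodule.mem_map_of_mem hx
  rw [Submodule.map_smul''] at h
  exact Submodule.smul_mono le_rfl le_top h

theorem inr_mem_smul_top (I : Ideal 𝒪) {x : L₂} (hx : x ∈ I • (⊤ : Submodule 𝒪 L₂)) :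
    ((0, x) : L₁ × L₂) ∈ I • (⊤ : Submodule 𝒪 (L₁ × L₂)) := by
  have h : (LinearMap.inr 𝒪 L₁ L₂) x ∈ (I • (⊤ : Submodule 𝒪 L₂)).map (LinearMap.inr 𝒪 L₁ L₂) :=
    Submodule.mem_map_of_mem hx
  rw [Submodule.map_smul''] at h
  exact Submodule.smul_mono le_rfl le_top h

theorem prodRep_isAdicContinuous [IsLocalRing 𝒪] (r₁ : GQ →* Module.End 𝒪 L₁)
    (r₂ : GQ →* Module.End 𝒪 L₂) (h₁ : GaloisActionIsAdicContinuous 𝒪 r₁)
    (h₂ : GaloisActionIsAdicContinuous 𝒪 r₂) :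
    GaloisActionIsAdicContinuous 𝒪 (prodRep r₁ r₂) := by
  intro n
  obtain ⟨K₁, hK₁, hr₁⟩ := h₁ n
  obtain ⟨K₂, hK₂, hr₂⟩ := h₂ n
  refine ⟨K₁ ⊔ K₂, IntermediateField.finiteDimensional_sup K₁ K₂, fun σ hσ v => ?_⟩
  have e : prodRep r₁ r₂ σ v - v = (r₁ σ v.1 - v.1, 0) + (0, r₂ σ v.2 - v.2) := by
    rw [prodRep_apply]
    ext <;> simp
  rw [e]
  refine Submodule.add_mem _ (inl_mem_smul_top _ (hr₁ σ (fun x hx => hσ x ?_) v.1))
    (inr_mem_smul_top _ (hr₂ σ (fun x hx => hσ x ?_) v.2))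
  · exact (le_sup_left : K₁ ≤ K₁ ⊔ K₂) hx
  · exact (le_sup_right : K₂ ≤ K₁ ⊔ K₂) hx

end Product

section Uniqueness

variable {𝒪 : Type} [CommRing 𝒪] [IsDomain 𝒪] {L : Type} [AddCommGroup L] [Module 𝒪 L]
  [Module.Free 𝒪 L] [Nontrivial L]

/-- Uniqueness of the trace in a quadratic relation with the same constant term. -/
theorem trace_unique (r : GQ →* Module.End 𝒪 L) (s : GQ) (a a' b : 𝒪)
    (h : r s * r s - a • r s + b • (1 : Module.End 𝒪 L) = 0)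
    (h' : r s * r s - a' • r s + b • (1 : Module.End 𝒪 L) = 0) : a = a' := by
  have h1 : (a - a') • r s = 0 := by
    have := sub_eq_zero.mpr (h'.trans h.symm)
    rw [sub_smul]
    rw [← this]
    abel
  obtain ⟨v, hv⟩ := exists_ne (0 : L)
  have h2 : (a - a') • (r s (r s⁻¹ v)) = 0 := by
    have := congrArg (fun f : Module.End 𝒪 L => f (r s⁻¹ v)) h1
    simpa using this
  have h3 : r s (r s⁻¹ v) = v := by
    rw [← Module.End.mul_apply, ← map_mul, mul_inv_cancel, map_one, Module.End.one_apply]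
  rw [h3] at h2
  rcases smul_eq_zero.mp h2 with h4 | h4
  · exact sub_eq_zero.mp h4
  · exact absurd h4 hv

end Uniqueness

section Arith

theorem not_dvd_four_mul {ℓ p N : ℕ} (hℓ : ℓ.Prime) (h2 : ℓ ≠ 2) (hN : ¬ ℓ ∣ N)
    (hp : ¬ ℓ ∣ p) : ¬ ℓ ∣ 4 * N * p := by
  intro h
  rcases (Nat.Prime.dvd_mul hℓ).mp h with h | h
  · rcases (Nat.Prime.dvd_mul hℓ).mp h with h | h
    · have h4 : ℓ ∣ 2 ^ 2 := by simpa using h
      exact h2 ((Nat.prime_dvd_prime_iff_eq hℓ Nat.prime_two).mp (hℓ.dvd_of_dvd_pow h4))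
    · exact hN h
  · exact hp h

theorem not_dvd_nine_mul {ℓ p N : ℕ} (hℓ : ℓ.Prime) (h3 : ℓ ≠ 3) (hN : ¬ ℓ ∣ N)
    (hp : ¬ ℓ ∣ p) : ¬ ℓ ∣ 9 * N * p := by
  intro h
  rcases (Nat.Prime.dvd_mul hℓ).mp h with h | h
  · rcases (Nat.Prime.dvd_mul hℓ).mp h with h | h
    · have h9 : ℓ ∣ 3 ^ 2 := by simpa using h
      exact h3 ((Nat.prime_dvd_prime_iff_eq hℓ Nat.prime_three).mp (hℓ.dvd_of_dvd_pow h9))
    · exact hN h
  · exact hp h

end Arith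

/-- **[WIRE-30]** the strong form of S30 from the packages of BLUEPRINT P3. -/
theorem strongS30_of (hTate : TateAtGoodLevels) (hEig : EigenStatement) (hCyc : CycloStatement)
    (hPseudo : PseudoFrobStatement) (hAlg : AlgTraceStatement) : StrongS30Statement := by
  intro p _ N _ S hpS hNS 𝒪' _ _ _ _ _ _ hp𝒪' χ
  have hpprime : p.Prime := Fact.out
  obtain ⟨hT₁, hT₂⟩ := hTate p N S hpS hNS
  obtain ⟨E₁⟩ := hEig p N S (4 * N) (Dvd.intro_left 4 rfl) 𝒪' hp𝒪' χ hT₁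
  obtain ⟨E₂⟩ := hEig p N S (9 * N) (Dvd.intro_left 9 rfl) 𝒪' hp𝒪' χ hT₂
  obtain ⟨d, -, hdcont, hdloc, c, hc, hdc⟩ := hCyc p 𝒪' hp𝒪'
  -- the product lattice
  have hr : GaloisActionIsAdicContinuous 𝒪' (prodRep E₁.r E₂.r) :=
    prodRep_isAdicContinuous _ _ E₁.isAdicContinuous E₂.isAdicContinuous
  classical
  -- the Frobenius relations on the product lattice
  have hfrob : ∀ ℓ : ℕ, ℓ.Prime → ℓ ∉ insert 2 (insert 3 S) →
      ∀ A : ValuationSubring Qbar, A.LiesOverPrime ℓ → ∀ φ : GQ, A.IsFrobeniusAt φ ℓ →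
        (d φ : 𝒪') = (ℓ : 𝒪') ∧
          prodRep E₁.r E₂.r φ * prodRep E₁.r E₂.r φ
            - (if h : ℓ.Prime ∧ ¬ ℓ ∣ N ∧ ℓ ∉ (↑S : Set ℕ) then
                χ (CuspForm.heckeAlgebra.T h.1 h.2.1 h.2.2) else 0) • prodRep E₁.r E₂.r φ
            + (ℓ : 𝒪') • (1 : Module.End 𝒪' (E₁.L × E₂.L)) = 0 := by
    intro ℓ hℓ hℓBad A hA φ hφ
    have hℓ2 : ℓ ≠ 2 := fun h => hℓBad (h ▸ Finset.mem_insert_self _ _)
    have hℓ3 : ℓ ≠ 3 := fun h =>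
      hℓBad (h ▸ Finset.mem_insert_of_mem (Finset.mem_insert_self _ _))
    have hℓS : ℓ ∉ S := fun h =>
      hℓBad (Finset.mem_insert_of_mem (Finset.mem_insert_of_mem h))
    have hℓN : ¬ ℓ ∣ N := fun h => hℓS (hNS ℓ hℓ h)
    have hℓp : ℓ ≠ p := fun h => hℓS (h ▸ hpS)
    have hℓp' : ¬ ℓ ∣ p := fun h => hℓp ((Nat.prime_dvd_prime_iff_eq hℓ hpprime).mp h)
    refine ⟨(hdloc ℓ hℓ hℓp A hA).2 φ hφ, ?_⟩
    rw [dif_pos ⟨hℓ, hℓN, fun h => hℓS (Finset.mem_coe.mp h)⟩]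
    have e₁ := E₁.frobenius ⟨ℓ, hℓ, not_dvd_four_mul hℓ hℓ2 hℓN hℓp', hℓS⟩ A hA φ hφ
    have e₂ := E₂.frobenius ⟨ℓ, hℓ, not_dvd_nine_mul hℓ hℓ3 hℓN hℓp', hℓS⟩ A hA φ hφ
    refine LinearMap.ext fun v => ?_
    have e₁' := congrArg (fun f : Module.End 𝒪' E₁.L => f v.1) e₁
    have e₂' := congrArg (fun f : Module.End 𝒪' E₂.L => f v.2) e₂
    simp only [LinearMap.add_apply, LinearMap.sub_apply, LinearMap.smul_apply,
      Module.End.mul_apply, Module.End.one_apply, LinearMap.zero_apply] at e₁' e₂' ⊢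
    ext
    · simpa [prodRep_apply, goodT] using e₁'
    · simpa [prodRep_apply, goodT] using e₂'
  obtain ⟨t, ht⟩ := hPseudo 𝒪' (E₁.L × E₂.L) (prodRep E₁.r E₂.r) hr d hdcont
    (insert 2 (insert 3 S)) _ hfrob
  -- the quadratic relation on each summand
  have ht₁ : ∀ s : GQ, E₁.r s * E₁.r s - t s • E₁.r s
      + (d s : 𝒪') • (1 : Module.End 𝒪' E₁.L) = 0 := by
    intro s
    refine LinearMap.ext fun v => ?_
    have e := congrArg (fun f : Module.End 𝒪' (E₁.L × E₂.L) => (f (v, 0)).1) (ht s)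
    simpa [prodRep_apply] using e
  have ht₂ : ∀ s : GQ, E₂.r s * E₂.r s - t s • E₂.r s
      + (d s : 𝒪') • (1 : Module.End 𝒪' E₂.L) = 0 := by
    intro s
    refine LinearMap.ext fun v => ?_
    have e := congrArg (fun f : Module.End 𝒪' (E₁.L × E₂.L) => (f (0, v)).2) (ht s)
    simpa [prodRep_apply] using e
  obtain ⟨ρ, hchar, htriv⟩ := hAlg 𝒪' (E₁.L × E₂.L) two_ne_zero (prodRep E₁.r E₂.r) hr t
    ((Units.coeHom 𝒪').comp d) hdcont ht c hc hdc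
  refine ⟨ρ, ?_, ?_⟩
  · intro ℓ hℓ hℓN hℓS A hA σ hσ
    have hℓS' : ℓ ∉ S := fun h => hℓS (Finset.mem_coe.mpr h)
    have hℓp : ℓ ≠ p := fun h => hℓS' (h ▸ hpS)
    have hℓp' : ¬ ℓ ∣ p := fun h => hℓp ((Nat.prime_dvd_prime_iff_eq hℓ hpprime).mp h)
    have hd : (d σ : 𝒪') = (ℓ : 𝒪') := (hdloc ℓ hℓ hℓp A hA).2 σ hσ
    have htσ : t σ = χ (CuspForm.heckeAlgebra.T hℓ hℓN hℓS) := by
      by_cases h2 : ℓ = 2
      · have h3 : ℓ ≠ 3 := by rw [h2]; decide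
        have e := E₂.frobenius ⟨ℓ, hℓ, not_dvd_nine_mul hℓ h3 hℓN hℓp', hℓS'⟩ A hA σ hσ
        exact trace_unique E₂.r σ _ _ (ℓ : 𝒪') (hd ▸ ht₂ σ) e
      · have e := E₁.frobenius ⟨ℓ, hℓ, not_dvd_four_mul hℓ h2 hℓN hℓp', hℓS'⟩ A hA σ hσ
        exact trace_unique E₁.r σ _ _ (ℓ : 𝒪') (hd ▸ ht₁ σ) e
    rw [hchar σ, htσ]
    show _ - _ + C ((d σ : 𝒪')) = _
    rw [hd]
  · intro q hq hqN hqp A hA σ hσ
    have hqp' : ¬ q ∣ p := fun h => hqp ((Nat.prime_dvd_prime_iff_eq hq hpprime).mp h)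
    have hdσ : d σ = 1 := (hdloc q hq hqp A hA).1 σ hσ
    refine htriv σ (fun s => ?_) ?_
    · have hds : d (σ * s) = d s := by rw [map_mul, hdσ, one_mul]
      by_cases h2 : q = 2
      · have h3 : q ≠ 3 := by rw [h2]; decide
        have h1 : E₂.r σ = 1 := E₂.unramified q hq (not_dvd_nine_mul hq h3 hqN hqp') A hA σ hσ
        have e1 := ht₂ (σ * s)
        rw [map_mul, h1, one_mul, hds] at e1
        exact trace_unique E₂.r s _ _ _ e1 (ht₂ s)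
      · have h1 : E₁.r σ = 1 := E₁.unramified q hq (not_dvd_four_mul hq h2 hqN hqp') A hA σ hσ
        have e1 := ht₁ (σ * s)
        rw [map_mul, h1, one_mul, hds] at e1
        exact trace_unique E₁.r s _ _ _ e1 (ht₁ s)
    · show ((d σ : 𝒪'ˣ) : 𝒪') = 1
      rw [hdσ, Units.val_one]


/-- **[WIRE-30]**, final form: the strong form of S30 from the packages of BLUEPRINT P3 with
their VERBATIM interface statements (`Interface.lean`). -/
theorem strongS30_of_packages (hTate : TateAtGoodLevels) (hEig : EigenStatement)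
    (hCyc : CycloStatement) (hPseudo : PseudoStatement) (hAlg : AlgStatement) :
    StrongS30Statement := by
  intro p _ N _ S hpS hNS 𝒪' _ _ _ _ _ _ hp𝒪' χ
  have hpprime : p.Prime := Fact.out
  obtain ⟨hT₁, hT₂⟩ := hTate p N S hpS hNS
  obtain ⟨E₁⟩ := hEig p N S (4 * N) (Dvd.intro_left 4 rfl) 𝒪' hp𝒪' χ hT₁
  obtain ⟨E₂⟩ := hEig p N S (9 * N) (Dvd.intro_left 9 rfl) 𝒪' hp𝒪' χ hT₂
  obtain ⟨d, hdcyc, hdcont, hdloc, c, hc, hdc⟩ := hCyc p 𝒪' hp𝒪'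
  -- the product lattice
  have hr : GaloisActionIsAdicContinuous 𝒪' (prodRep E₁.r E₂.r) :=
    prodRep_isAdicContinuous _ _ E₁.isAdicContinuous E₂.isAdicContinuous
  classical
  -- the Frobenius relations on the product lattice
  have hfrob : ∀ ℓ : ℕ, ℓ.Prime → ℓ ∉ insert 2 (insert 3 S) →
      ∀ A : ValuationSubring Qbar, A.LiesOverPrime ℓ → ∀ φ : GQ, A.IsFrobeniusAt φ ℓ →
        prodRep E₁.r E₂.r φ * prodRep E₁.r E₂.r φ
            - (if h : ℓ.Prime ∧ ¬ ℓ ∣ N ∧ ℓ ∉ (↑S : Set ℕ) then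
                χ (CuspForm.heckeAlgebra.T h.1 h.2.1 h.2.2) else 0) • prodRep E₁.r E₂.r φ
            + (ℓ : 𝒪') • (1 : Module.End 𝒪' (E₁.L × E₂.L)) = 0 := by
    intro ℓ hℓ hℓBad A hA φ hφ
    have hℓ2 : ℓ ≠ 2 := fun h => hℓBad (h ▸ Finset.mem_insert_self _ _)
    have hℓ3 : ℓ ≠ 3 := fun h =>
      hℓBad (h ▸ Finset.mem_insert_of_mem (Finset.mem_insert_self _ _))
    have hℓS : ℓ ∉ S := fun h =>
      hℓBad (Finset.mem_insert_of_mem (Finset.mem_insert_of_mem h))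
    have hℓN : ¬ ℓ ∣ N := fun h => hℓS (hNS ℓ hℓ h)
    have hℓp : ℓ ≠ p := fun h => hℓS (h ▸ hpS)
    have hℓp' : ¬ ℓ ∣ p := fun h => hℓp ((Nat.prime_dvd_prime_iff_eq hℓ hpprime).mp h)
    rw [dif_pos ⟨hℓ, hℓN, fun h => hℓS (Finset.mem_coe.mp h)⟩]
    have e₁ := E₁.frobenius ⟨ℓ, hℓ, not_dvd_four_mul hℓ hℓ2 hℓN hℓp', hℓS⟩ A hA φ hφ
    have e₂ := E₂.frobenius ⟨ℓ, hℓ, not_dvd_nine_mul hℓ hℓ3 hℓN hℓp', hℓS⟩ A hA φ hφ
    refine LinearMap.ext fun v => ?_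
    have e₁' := congrArg (fun f : Module.End 𝒪' E₁.L => f v.1) e₁
    have e₂' := congrArg (fun f : Module.End 𝒪' E₂.L => f v.2) e₂
    simp only [LinearMap.add_apply, LinearMap.sub_apply, LinearMap.smul_apply,
      Module.End.mul_apply, Module.End.one_apply, LinearMap.zero_apply] at e₁' e₂' ⊢
    ext
    · simpa [prodRep_apply, goodT] using e₁'
    · simpa [prodRep_apply, goodT] using e₂'
  obtain ⟨t, ht⟩ := hPseudo p 𝒪' hp𝒪' (E₁.L × E₂.L) (prodRep E₁.r E₂.r) hr d hdcyc hdcont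
    (insert 2 (insert 3 S)) _ hfrob
  -- the quadratic relation on each summand
  have ht₁ : ∀ s : GQ, E₁.r s * E₁.r s - t s • E₁.r s
      + (d s : 𝒪') • (1 : Module.End 𝒪' E₁.L) = 0 := by
    intro s
    refine LinearMap.ext fun v => ?_
    have e := congrArg (fun f : Module.End 𝒪' (E₁.L × E₂.L) => (f (v, 0)).1) (ht s)
    simpa [prodRep_apply] using e
  have ht₂ : ∀ s : GQ, E₂.r s * E₂.r s - t s • E₂.r s
      + (d s : 𝒪') • (1 : Module.End 𝒪' E₂.L) = 0 := by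
    intro s
    refine LinearMap.ext fun v => ?_
    have e := congrArg (fun f : Module.End 𝒪' (E₁.L × E₂.L) => (f (0, v)).2) (ht s)
    simpa [prodRep_apply] using e
  obtain ⟨ρ, hchar, htriv⟩ := hAlg 𝒪' (E₁.L × E₂.L) (prodRep E₁.r E₂.r) hr t d hdcont ht c hc hdc
  refine ⟨ρ, ?_, ?_⟩
  · intro ℓ hℓ hℓN hℓS A hA σ hσ
    have hℓS' : ℓ ∉ S := fun h => hℓS (Finset.mem_coe.mpr h)
    have hℓp : ℓ ≠ p := fun h => hℓS' (h ▸ hpS)
    have hℓp' : ¬ ℓ ∣ p := fun h => hℓp ((Nat.prime_dvd_prime_iff_eq hℓ hpprime).mp h)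
    have hd : (d σ : 𝒪') = (ℓ : 𝒪') := (hdloc ℓ hℓ hℓp A hA).2 σ hσ
    have htσ : t σ = χ (CuspForm.heckeAlgebra.T hℓ hℓN hℓS) := by
      by_cases h2 : ℓ = 2
      · have h3 : ℓ ≠ 3 := by rw [h2]; decide
        have e := E₂.frobenius ⟨ℓ, hℓ, not_dvd_nine_mul hℓ h3 hℓN hℓp', hℓS'⟩ A hA σ hσ
        exact trace_unique E₂.r σ _ _ (ℓ : 𝒪') (hd ▸ ht₂ σ) e
      · have e := E₁.frobenius ⟨ℓ, hℓ, not_dvd_four_mul hℓ h2 hℓN hℓp', hℓS'⟩ A hA σ hσ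
        exact trace_unique E₁.r σ _ _ (ℓ : 𝒪') (hd ▸ ht₁ σ) e
    rw [hchar σ, htσ, hd]
  · intro q hq hqN hqp A hA σ hσ
    have hqp' : ¬ q ∣ p := fun h => hqp ((Nat.prime_dvd_prime_iff_eq hq hpprime).mp h)
    have hdσ : d σ = 1 := (hdloc q hq hqp A hA).1 σ hσ
    refine htriv σ (fun s => ?_) ?_
    · have hds : d (σ * s) = d s := by rw [map_mul, hdσ, one_mul]
      by_cases h2 : q = 2
      · have h3 : q ≠ 3 := by rw [h2]; decide
        have h1 : E₂.r σ = 1 := E₂.unramified q hq (not_dvd_nine_mul hq h3 hqN hqp') A hA σ hσ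
        have e1 := ht₂ (σ * s)
        rw [map_mul, h1, one_mul, hds] at e1
        exact trace_unique E₂.r s _ _ _ e1 (ht₂ s)
      · have h1 : E₁.r σ = 1 := E₁.unramified q hq (not_dvd_four_mul hq h2 hqN hqp') A hA σ hσ
        have e1 := ht₁ (σ * s)
        rw [map_mul, h1, one_mul, hds] at e1
        exact trace_unique E₁.r s _ _ _ e1 (ht₁ s)
    · exact hdσ

end Fermat.Agent.P3.helper32

end
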