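import Mathlib
import Fermat.Agent.Cheb.helper40_ChebFinal
import Fermat.Agent.P3.Interface

/-!
# P3 [CHEB]: `ChebStatement`, unconditional (helper40)

The consumer form of weak Chebotarev of BLUEPRINT P3 v1 (`Fermat.Agent.P3.ChebStatement`),
deduced from `Fermat.Agent.Cheb.helper40.chebW_finite_uncond`.
-/

set_option autoImplicit false

namespace Fermat.Agent.P3.helper40

/-- **[CHEB]** of BLUEPRINT P3 v1, unconditional. -/
theorem chebStatement : Fermat.Agent.P3.ChebStatement := by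
  intro K hK g Bad
  haveI : FiniteDimensional ℚ K := hK
  obtain ⟨ℓ, A, φ, hℓ, hℓS, hA, hφ, _, ⟨j, hj⟩, _⟩ :=
    Fermat.Agent.Cheb.helper40.chebW_finite_uncond K g Bad
  exact ⟨ℓ, hℓ, hℓS, A, hA, φ, hφ, j, hj⟩

end Fermat.Agent.P3.helper40
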