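import Mathlib

/-!
# P3 [TATE-1]: the abstract `p`-adic Tate module of an abelian group

For an additive commutative group `J` and a prime `p`, `Tp p J` is the group of compatible
sequences `x : ℕ → J`, `x 0 = 0`, `p • x (n + 1) = x n` (so `p ^ n • x n = 0`), with its natural
`ℤ_[p]`-module structure.

Main results (namespace `Fermat.Agent.P3.helper44`):

* `Tp.proj n : Tp p J →+ J`, `Tp.pow_smul_proj`, `Tp.smul_proj_succ`, `Tp.ext`,
  `Tp.eq_zero_of_proj`, `Tp.proj_eq_zero_iff` (kernel of `proj n` = `p ^ n • Tp`),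
  `Tp.exists_proj_eq`, `Tp.kerProj_eq`;
* `Tp.proj_smul_appr`, `Tp.proj_natCast_smul`, `Tp.proj_intCast_smul`, `Tp.proj_smul_congr`;
* `Tp.isTorsionFree`, `Tp.isHausdorff`, and if `J[p]` is finite: `Tp.moduleFinite`,
  `Tp.moduleFree`;
* `finite_torsion_pow'` : `Finite J[p] → Finite J[p ^ n]`.

The packaging as a `helper1.TateModel` is in `helper44_Tate1Model.lean`.
-/

set_option autoImplicit false

noncomputable section

namespace Fermat.Agent.P3.helper44

open PadicInt

/-! ## Congruences and torsion -/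

section Congr

variable {J : Type*} [AddCommGroup J]

theorem nsmul_eq_of_natCast_eq {N : ℕ} {y : J} (hy : N • y = 0) {a b : ℕ}
    (hab : (a : ZMod N) = (b : ZMod N)) : a • y = b • y := by
  have h := (ZMod.natCast_eq_natCast_iff a b N).1 hab
  have h' : (a : ℤ) ≡ (b : ℤ) [ZMOD (N : ℤ)] := Int.natCast_modEq_iff.2 h
  obtain ⟨c, hc⟩ := h'.symm.dvd
  have h2 : ((a : ℤ) - b) • y = 0 := by
    rw [hc, mul_smul, natCast_zsmul, smul_comm, hy, smul_zero]
  rw [sub_smul, sub_eq_zero, natCast_zsmul, natCast_zsmul] at h2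
  exact h2

end Congr

/-! ## The Tate module -/

section Def

variable (p : ℕ) (J : Type*) [AddCommGroup J]

/-- The underlying additive subgroup of `ℕ → J` of the Tate module. -/
def tpSub : AddSubgroup (ℕ → J) where
  carrier := {x | x 0 = 0 ∧ ∀ n, p • x (n + 1) = x n}
  zero_mem' := ⟨rfl, fun n => by simp⟩
  add_mem' := fun {x y} hx hy =>
    ⟨by simp [hx.1, hy.1], fun n => by simp [smul_add, hx.2 n, hy.2 n]⟩
  neg_mem' := fun {x} hx => ⟨by simp [hx.1], fun n => by simp [hx.2 n]⟩

/-- The `p`-adic Tate module of an additive commutative group `J`: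
compatible sequences `x n ∈ J[p ^ n]`, `p • x (n + 1) = x n`. -/
def Tp : Type _ := ↥(tpSub p J)

instance : AddCommGroup (Tp p J) := inferInstanceAs (AddCommGroup ↥(tpSub p J))

end Def

namespace Tp

section Basic

variable {p : ℕ} {J : Type*} [AddCommGroup J]

/-- The `n`-th component. -/
def proj (n : ℕ) : Tp p J →+ J :=
  (Pi.evalAddMonoidHom (fun _ : ℕ => J) n).comp (tpSub p J).subtype

theorem proj_apply (n : ℕ) (x : Tp p J) : proj n x = x.1 n := rfl

@[simp] theorem proj_zero_index (x : Tp p J) : proj 0 x = 0 := x.2.1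

@[simp] theorem smul_proj_succ (n : ℕ) (x : Tp p J) : p • proj (n + 1) x = proj n x := x.2.2 n

theorem pow_smul_proj_add (k n : ℕ) (x : Tp p J) : p ^ k • proj (n + k) x = proj n x := by
  induction k with
  | zero => simp
  | succ k ih => rw [pow_succ, mul_smul, ← add_assoc, smul_proj_succ, ih]

@[simp] theorem pow_smul_proj (n : ℕ) (x : Tp p J) : p ^ n • proj n x = 0 := by
  have := pow_smul_proj_add n 0 x
  rwa [zero_add, proj_zero_index] at this

theorem proj_mem_ker (n : ℕ) (x : Tp p J) :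
    proj n x ∈ (nsmulAddMonoidHom (α := J) (p ^ n)).ker := by
  rw [AddMonoidHom.mem_ker]; exact pow_smul_proj n x

@[ext] theorem ext {x y : Tp p J} (h : ∀ n, proj n x = proj n y) : x = y :=
  Subtype.ext (funext h)

theorem eq_zero_of_proj (x : Tp p J) (h : ∀ n, proj n x = 0) : x = 0 :=
  ext fun n => by rw [h n, map_zero]

/-- Constructor from a compatible sequence. -/
def mk (x : ℕ → J) (h0 : x 0 = 0) (h : ∀ n, p • x (n + 1) = x n) : Tp p J := ⟨x, h0, h⟩

@[simp] theorem proj_mk (x : ℕ → J) (h0 : x 0 = 0) (h : ∀ n, p • x (n + 1) = x n) (n : ℕ) :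
    proj n (mk x h0 h : Tp p J) = x n := rfl

/-- The shift `x ↦ (x (n + k))_k`, defined on the kernel of `proj n`: "division by `p ^ n`". -/
def shift (n : ℕ) (x : Tp p J) (hx : proj n x = 0) : Tp p J :=
  mk (fun k => proj (n + k) x) (by simpa using hx) (fun k => by
    rw [← add_assoc, smul_proj_succ])

@[simp] theorem proj_shift (n : ℕ) (x : Tp p J) (hx : proj n x = 0) (k : ℕ) :
    proj k (shift n x hx) = proj (n + k) x := rfl

end Basic

/-! ## The `ℤ_[p]`-module structure -/

section Module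

variable {p : ℕ} [Fact p.Prime] {J : Type*} [AddCommGroup J]

theorem appr_smul_congr (n : ℕ) {y : J} (hy : p ^ n • y = 0) {a : ℤ_[p]} {b : ℕ}
    (h : toZModPow n a = (b : ZMod (p ^ n))) : a.appr n • y = b • y :=
  nsmul_eq_of_natCast_eq hy h

instance : SMul ℤ_[p] (Tp p J) where
  smul a x := mk (fun n => a.appr n • proj n x) (by simp) (fun n => by
    rw [smul_comm, smul_proj_succ]
    refine nsmul_eq_of_natCast_eq (pow_smul_proj n x) ?_
    have h := cast_toZModPow n (n + 1) n.le_succ a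
    change ((((a.appr (n + 1) : ℕ) : ZMod (p ^ (n + 1))) ).cast : ZMod (p ^ n)) =
      ((a.appr n : ℕ) : ZMod (p ^ n)) at h
    rwa [ZMod.cast_natCast (pow_dvd_pow p n.le_succ)] at h)

theorem proj_smul_appr (n : ℕ) (a : ℤ_[p]) (x : Tp p J) :
    proj n (a • x) = a.appr n • proj n x := rfl

theorem proj_smul_of_eq (n : ℕ) (a : ℤ_[p]) (x : Tp p J) {b : ℕ}
    (h : toZModPow n a = (b : ZMod (p ^ n))) : proj n (a • x) = b • proj n x :=
  appr_smul_congr n (pow_smul_proj n x) h

instance : Module ℤ_[p] (Tp p J) where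
  one_smul x := by
    ext n
    rw [proj_smul_of_eq n 1 x (b := 1) (by simp), one_smul]
  mul_smul a b x := by
    ext n
    rw [proj_smul_of_eq n (a * b) x (b := a.appr n * b.appr n) (by
      rw [map_mul, Nat.cast_mul]; rfl), mul_smul, proj_smul_appr, proj_smul_appr]
  smul_zero a := by
    ext n
    rw [proj_smul_appr, map_zero, smul_zero]
  smul_add a x y := by
    ext n
    rw [proj_smul_appr, map_add, map_add, smul_add, proj_smul_appr, proj_smul_appr]
  add_smul a b x := by
    ext n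
    rw [proj_smul_of_eq n (a + b) x (b := a.appr n + b.appr n) (by
      rw [map_add, Nat.cast_add]; rfl), add_smul, map_add, proj_smul_appr, proj_smul_appr]
  zero_smul x := by
    ext n
    rw [proj_smul_of_eq n 0 x (b := 0) (by simp), zero_smul, map_zero]

@[simp] theorem proj_natCast_smul (n : ℕ) (a : ℕ) (x : Tp p J) :
    proj n ((a : ℤ_[p]) • x) = a • proj n x :=
  proj_smul_of_eq n _ x (by rw [map_natCast])

@[simp] theorem proj_intCast_smul (n : ℕ) (a : ℤ) (x : Tp p J) :
    proj n ((a : ℤ_[p]) • x) = a • proj n x := by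
  rw [Int.cast_smul_eq_zsmul, map_zsmul]

theorem proj_pow_smul (n k : ℕ) (x : Tp p J) :
    proj n (((p : ℤ_[p]) ^ k) • x) = p ^ k • proj n x := by
  rw [← Nat.cast_pow, proj_natCast_smul]

/-- `proj n (a • x)` only depends on `a` modulo `p ^ n`. -/
theorem proj_smul_congr (n : ℕ) {a b : ℤ_[p]}
    (h : a - b ∈ Ideal.span {(p : ℤ_[p]) ^ n}) (x : Tp p J) :
    proj n (a • x) = proj n (b • x) := by
  rw [← ker_toZModPow, RingHom.mem_ker, map_sub, sub_eq_zero] at h
  rw [proj_smul_appr n b, proj_smul_of_eq n a x (b := b.appr n) (by rw [h]; rfl)]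

theorem proj_smul_eq_zero_of_mem (n : ℕ) {a : ℤ_[p]}
    (h : a ∈ Ideal.span {(p : ℤ_[p]) ^ n}) (x : Tp p J) : proj n (a • x) = 0 := by
  rw [proj_smul_congr n (b := 0) (by simpa using h), zero_smul, map_zero]

/-- The kernel of `proj n` is `p ^ n • Tp`. -/
theorem exists_smul_of_proj_eq_zero (n : ℕ) (x : Tp p J) (hx : proj n x = 0) :
    ∃ w : Tp p J, x = (p : ℤ_[p]) ^ n • w := by
  refine ⟨shift n x hx, ?_⟩
  ext k
  rw [proj_pow_smul, proj_shift, add_comm, pow_smul_proj_add]

theorem proj_eq_zero_iff (n : ℕ) (x : Tp p J) :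
    proj n x = 0 ↔ ∃ w : Tp p J, x = (p : ℤ_[p]) ^ n • w := by
  constructor
  · exact exists_smul_of_proj_eq_zero n x
  · rintro ⟨w, rfl⟩
    rw [proj_pow_smul, pow_smul_proj]

omit [Fact p.Prime] in
/-- Every compatible sequence comes from an element of the Tate module. -/
theorem exists_proj_eq (x : ℕ → J) (h0 : ∀ n, p ^ n • x n = 0)
    (h : ∀ n, p • x (n + 1) = x n) : ∃ v : Tp p J, ∀ n, proj n v = x n :=
  ⟨mk x (by simpa using h0 0) h, fun _ => rfl⟩

/-- The kernel of `proj n` as a submodule. -/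
def kerProj (n : ℕ) : Submodule ℤ_[p] (Tp p J) where
  carrier := {x | proj n x = 0}
  zero_mem' := map_zero _
  add_mem' := fun {x y} hx hy => by
    change proj n (x + y) = 0
    rw [map_add, hx, hy, add_zero]
  smul_mem' := fun a x hx => by
    change proj n (a • x) = 0
    rw [proj_smul_appr, hx, smul_zero]

theorem mem_kerProj {n : ℕ} {x : Tp p J} : x ∈ kerProj n ↔ proj n x = 0 := Iff.rfl

theorem maximalIdeal_pow_eq (n : ℕ) :
    IsLocalRing.maximalIdeal ℤ_[p] ^ n = Ideal.span {(p : ℤ_[p]) ^ n} := by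
  rw [maximalIdeal_eq_span_p, Ideal.span_singleton_pow]

theorem kerProj_eq (n : ℕ) :
    (kerProj n : Submodule ℤ_[p] (Tp p J)) =
      (IsLocalRing.maximalIdeal ℤ_[p] ^ n) • (⊤ : Submodule ℤ_[p] (Tp p J)) := by
  apply le_antisymm
  · intro x hx
    obtain ⟨w, rfl⟩ := exists_smul_of_proj_eq_zero n x hx
    refine Submodule.smul_mem_smul ?_ Submodule.mem_top
    rw [maximalIdeal_pow_eq]
    exact Ideal.mem_span_singleton_self _
  · rw [Submodule.smul_le]
    intro r hr x _
    rw [maximalIdeal_pow_eq] at hr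
    exact proj_smul_eq_zero_of_mem n hr x

/-! ## Torsion-freeness -/

theorem eq_zero_of_pow_smul_eq_zero (k : ℕ) (x : Tp p J)
    (h : ((p : ℤ_[p]) ^ k) • x = 0) : x = 0 := by
  apply eq_zero_of_proj
  intro n
  rw [← pow_smul_proj_add k n x, ← proj_pow_smul, h, map_zero]

theorem eq_zero_of_smul_eq_zero {a : ℤ_[p]} (ha : a ≠ 0) (x : Tp p J) (h : a • x = 0) :
    x = 0 := by
  have hs := unitCoeff_spec ha
  rw [hs, mul_smul] at h
  have h2 : ((p : ℤ_[p]) ^ a.valuation) • x = 0 := by
    have := congrArg (fun y => ((unitCoeff ha)⁻¹ : ℤ_[p]ˣ) • y) h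
    simpa [Units.smul_def, smul_smul] using this
  exact eq_zero_of_pow_smul_eq_zero _ x h2

instance isTorsionFree : Module.IsTorsionFree ℤ_[p] (Tp p J) where
  isSMulRegular r hr := by
    intro x y hxy
    have hr0 : r ≠ 0 := hr.ne_zero
    have h : r • (x - y) = 0 := by
      rw [smul_sub]; exact sub_eq_zero.2 hxy
    exact sub_eq_zero.1 (eq_zero_of_smul_eq_zero hr0 _ h)

/-! ## Separatedness -/

instance isHausdorff : IsHausdorff (IsLocalRing.maximalIdeal ℤ_[p]) (Tp p J) where
  haus' x hx := by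
    apply eq_zero_of_proj
    intro n
    have h := hx n
    rw [SModEq.zero, ← kerProj_eq] at h
    exact h

/-! ## Finiteness -/

theorem finite_quotient (hfin : Finite (nsmulAddMonoidHom (α := J) (p ^ 1)).ker) :
    Finite (Tp p J ⧸ (IsLocalRing.maximalIdeal ℤ_[p] • ⊤ : Submodule ℤ_[p] (Tp p J))) := by
  have hS : (IsLocalRing.maximalIdeal ℤ_[p] • ⊤ : Submodule ℤ_[p] (Tp p J)) = kerProj 1 := by
    rw [kerProj_eq, pow_one]
  have hfinR : (Set.range (proj 1 : Tp p J → J)).Finite := by
    have h1 : ((nsmulAddMonoidHom (α := J) (p ^ 1)).ker : Set J).Finite := Set.toFinite _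
    refine h1.subset ?_
    rintro _ ⟨x, rfl⟩
    exact proj_mem_ker 1 x
  have : Finite (Set.range (proj 1 : Tp p J → J)) := hfinR.to_subtype
  refine Finite.of_surjective
    (fun j : Set.range (proj 1 : Tp p J → J) =>
      (Submodule.Quotient.mk (Classical.choose j.2) :
        Tp p J ⧸ (IsLocalRing.maximalIdeal ℤ_[p] • ⊤ : Submodule ℤ_[p] (Tp p J)))) ?_
  intro q
  obtain ⟨x, rfl⟩ := Submodule.Quotient.mk_surjective _ q
  refine ⟨⟨proj 1 x, x, rfl⟩, ?_⟩
  rw [Submodule.Quotient.eq, hS, mem_kerProj, map_sub, sub_eq_zero]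
  exact Classical.choose_spec (⟨x, rfl⟩ : ∃ y, proj 1 y = proj 1 x)

theorem isPrecomplete_pi_padic (r : ℕ) :
    IsPrecomplete (IsLocalRing.maximalIdeal ℤ_[p]) (Fin r → ℤ_[p]) := by
  rw [← AdicCompletion.of_surjective_iff]
  intro z
  choose x hx using fun j =>
    AdicCompletion.of_surjective (IsLocalRing.maximalIdeal ℤ_[p]) ℤ_[p]
      (AdicCompletion.piEquivOfFintype (IsLocalRing.maximalIdeal ℤ_[p])
        (fun _ : Fin r => ℤ_[p]) z j)
  refine ⟨x, (AdicCompletion.piEquivOfFintype (IsLocalRing.maximalIdeal ℤ_[p])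
    (fun _ : Fin r => ℤ_[p])).injective ?_⟩
  funext j
  rw [AdicCompletion.piEquivOfFintype_apply, ← hx j]
  change AdicCompletion.map (IsLocalRing.maximalIdeal ℤ_[p]) (LinearMap.proj j)
    (AdicCompletion.of (IsLocalRing.maximalIdeal ℤ_[p]) (Fin r → ℤ_[p]) x) = _
  rw [AdicCompletion.map_of]
  rfl

theorem moduleFinite (hfin : Finite (nsmulAddMonoidHom (α := J) (p ^ 1)).ker) :
    Module.Finite ℤ_[p] (Tp p J) := by
  have := finite_quotient hfin
  have : Module.Finite ℤ_[p]
      (Tp p J ⧸ (IsLocalRing.maximalIdeal ℤ_[p] • ⊤ : Submodule ℤ_[p] (Tp p J))) :=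
    Module.Finite.of_finite
  obtain ⟨r, g, hg⟩ := Module.Finite.exists_fin' ℤ_[p]
    (Tp p J ⧸ (IsLocalRing.maximalIdeal ℤ_[p] • ⊤ : Submodule ℤ_[p] (Tp p J)))
  obtain ⟨f, hf⟩ := Module.projective_lifting_property
    (Submodule.mkQ (IsLocalRing.maximalIdeal ℤ_[p] • ⊤ : Submodule ℤ_[p] (Tp p J))) g
    (Submodule.mkQ_surjective _)
  have := isPrecomplete_pi_padic (p := p) r
  have hsurj : Function.Surjective f := by
    apply surjective_of_mkQ_comp_surjective (I := IsLocalRing.maximalIdeal ℤ_[p])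
    rw [hf]
    exact hg
  exact Module.Finite.of_surjective f hsurj

theorem moduleFree (hfin : Finite (nsmulAddMonoidHom (α := J) (p ^ 1)).ker) :
    Module.Free ℤ_[p] (Tp p J) := by
  have := moduleFinite hfin
  exact Module.free_of_finite_type_torsion_free'

end Module

end Tp

/-! ## Finiteness of the `p ^ n`-torsion -/

theorem finite_torsion_pow' (p : ℕ) (J : Type*) [AddCommGroup J]
    (hfin : Finite (nsmulAddMonoidHom (α := J) (p ^ 1)).ker) (n : ℕ) :
    Finite (nsmulAddMonoidHom (α := J) (p ^ n)).ker := by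
  induction n with
  | zero =>
    have : (nsmulAddMonoidHom (α := J) (p ^ 0)).ker = ⊥ := by
      ext x; simp [AddMonoidHom.mem_ker]
    rw [this]
    infer_instance
  | succ n ih =>
    have h1 : ((nsmulAddMonoidHom (α := J) (p ^ n)).ker : Set J).Finite := Set.toFinite _
    have hp : ((nsmulAddMonoidHom (α := J) (p ^ 1)).ker : Set J).Finite := Set.toFinite _
    have h2 : ((fun x : J => p • x) ⁻¹' ((nsmulAddMonoidHom (α := J) (p ^ n)).ker : Set J)).Finite := by
      apply Set.Finite.preimage' h1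
      intro b _
      by_cases hb : ∃ x₀ : J, p • x₀ = b
      · obtain ⟨x₀, rfl⟩ := hb
        refine (hp.image (fun t => x₀ + t)).subset ?_
        intro x hx
        refine ⟨x - x₀, ?_, by simp⟩
        have hx' : p • x = p • x₀ := hx
        simp only [SetLike.mem_coe, AddMonoidHom.mem_ker, nsmulAddMonoidHom_apply, pow_one]
        rw [smul_sub, hx', sub_self]
      · have : (fun x : J => p • x) ⁻¹' {b} = ∅ := by
          ext x
          simp only [Set.mem_preimage, Set.mem_singleton_iff, Set.mem_empty_iff_false, iff_false]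
          exact fun h => hb ⟨x, h⟩
        rw [this]
        exact Set.finite_empty
    have h3 : ((nsmulAddMonoidHom (α := J) (p ^ (n + 1))).ker : Set J).Finite := by
      refine h2.subset ?_
      intro x hx
      simp only [SetLike.mem_coe, AddMonoidHom.mem_ker, nsmulAddMonoidHom_apply] at hx
      simp only [Set.mem_preimage, SetLike.mem_coe, AddMonoidHom.mem_ker, nsmulAddMonoidHom_apply]
      rw [← mul_smul, ← pow_succ]
      exact hx
    exact h3.to_subtype

end Fermat.Agent.P3.helper44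

end
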