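import Mathlib

/-!
# P3 [EIG-DVR] (a): the completion of a Dedekind domain at a prime is a complete DVR

For a Dedekind domain `R` with fraction field `K` and a height-one prime `v`, the ring
`v.adicCompletionIntegers K` is a discrete valuation ring (Mathlib).  We add what the Prelude's
Galois-representation statements ask of a coefficient ring:

* `isAdicComplete_integers` : it is `IsAdicComplete` for its maximal ideal;
* `comap_maximalIdeal` : the maximal ideal contracts to `v`;
* `residue_comp_algebraMap_surjective` : `R → ResidueField` is onto;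
* `finite_residueField`, `charZero_integers`;
* `exists_completeDVR` : the packaged statement for a maximal ideal of the ring of integers of a
  number field.
-/

set_option autoImplicit false

open IsDedekindDomain IsLocalRing WithZero

namespace Fermat.Agent.P3.helper54

section Dedekind

variable {R : Type*} [CommRing R] [IsDedekindDomain R] (K : Type*) [Field K] [Algebra R K]
  [IsFractionRing R K] (v : HeightOneSpectrum R)

local notation "Kv" => v.adicCompletion K
local notation "Ov" => v.adicCompletionIntegers K

theorem completeSpace_integers : CompleteSpace Ov :=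
  IsClosed.completeSpace_coe (hs := Valued.isClosed_valuationSubring (v.adicCompletion K))

theorem isTopologicalRing_integers : IsTopologicalRing Ov :=
  inferInstanceAs (IsTopologicalRing (v.adicCompletionIntegers K).toSubring)

theorem isUniformAddGroup_integers : IsUniformAddGroup Ov :=
  inferInstanceAs (IsUniformAddGroup (v.adicCompletionIntegers K).toSubring.toAddSubgroup)

theorem mem_maximalIdeal_integers_iff (x : Ov) :
    x ∈ maximalIdeal Ov ↔ Valued.v (x : Kv) < 1 :=
  Valuation.mem_maximalIdeal_iff _ _

theorem valued_algebraMap (k : K) : Valued.v (algebraMap K Kv k) = v.valuation K k :=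
  HeightOneSpectrum.valuedAdicCompletion_eq_valuation' v k

theorem coe_algebraMap_integers (a : R) :
    ((algebraMap R Ov a : Ov) : Kv) = algebraMap K Kv (algebraMap R K a) := rfl

/-- The maximal ideal of the completed integers contracts to the prime `v`. -/
theorem comap_maximalIdeal :
    (maximalIdeal Ov).comap (algebraMap R Ov) = v.asIdeal := by
  ext r
  rw [Ideal.mem_comap, mem_maximalIdeal_integers_iff, coe_algebraMap_integers, valued_algebraMap,
    HeightOneSpectrum.valuation_lt_one_iff_mem]

theorem isOpen_ball_one (x : Kv) : IsOpen {y : Kv | Valued.v (y - x) < 1} := by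
  have h := (Valued.isOpen_ball (v.adicCompletion K) 1).preimage
    (continuous_id.sub (continuous_const (y := x)))
  convert h using 1
  ext y
  simp [Valuation.restrict_lt_one_iff]

/-- Every element of the completed integers is congruent to a global integer modulo the maximal
ideal. -/
theorem exists_sub_mem_maximalIdeal (x : Ov) :
    ∃ a : R, x - algebraMap R Ov a ∈ maximalIdeal Ov := by
  have hd := HeightOneSpectrum.denseRange_algebraMap (K := K) v
  obtain ⟨k, hk⟩ := hd.exists_mem_open (isOpen_ball_one K v (x : Kv)) ⟨(x : Kv), by simp⟩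
  have hk' : Valued.v (algebraMap K Kv k - (x : Kv)) < 1 := hk
  have hk1 : v.valuation K k ≤ 1 := by
    rw [← valued_algebraMap]
    have : algebraMap K Kv k = (algebraMap K Kv k - (x : Kv)) + (x : Kv) := by ring
    rw [this]
    exact (Valuation.map_add _ _ _).trans (max_le hk'.le x.2)
  obtain ⟨a, ha⟩ := HeightOneSpectrum.exists_valuation_sub_lt_of_integer v hk1 1
  refine ⟨a, ?_⟩
  rw [mem_maximalIdeal_integers_iff]
  have e : ((x - algebraMap R Ov a : Ov) : Kv) =
      -((algebraMap K Kv k - (x : Kv))) + algebraMap K Kv (k - algebraMap R K a) := by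
    rw [map_sub, ← coe_algebraMap_integers]
    push_cast
    ring
  rw [e]
  refine lt_of_le_of_lt (Valuation.map_add _ _ _) (max_lt ?_ ?_)
  · rwa [Valuation.map_neg]
  · rw [valued_algebraMap, Valuation.map_sub_swap]
    simpa using ha

/-- `R → ResidueField (completed integers)` is surjective. -/
theorem residue_comp_algebraMap_surjective :
    Function.Surjective (residue Ov ∘ algebraMap R Ov) := by
  intro y
  obtain ⟨x, rfl⟩ := residue_surjective y
  obtain ⟨a, ha⟩ := exists_sub_mem_maximalIdeal K v x
  refine ⟨a, ?_⟩
  rw [Function.comp_apply, eq_comm, ← sub_eq_zero, ← map_sub, residue_eq_zero_iff]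
  exact ha

theorem finite_residueField [Finite (R ⧸ v.asIdeal)] : Finite (ResidueField Ov) := by
  have hker : v.asIdeal ≤ RingHom.ker ((residue Ov).comp (algebraMap R Ov)) := by
    intro r hr
    rw [RingHom.mem_ker, RingHom.comp_apply, residue_eq_zero_iff, ← Ideal.mem_comap,
      comap_maximalIdeal]
    exact hr
  let f : R ⧸ v.asIdeal →+* ResidueField Ov := Ideal.Quotient.lift _ _ (fun r hr => hker hr)
  have hf : Function.Surjective f := by
    intro y
    obtain ⟨a, ha⟩ := residue_comp_algebraMap_surjective K v y
    exact ⟨Ideal.Quotient.mk _ a, ha⟩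
  exact Finite.of_surjective f hf

theorem charZero_integers [CharZero K] : CharZero Ov := by
  have h1 : Function.Injective (algebraMap K Kv) := (algebraMap K Kv).injective
  have : CharZero Kv := charZero_of_injective_algebraMap h1
  exact RingHom.charZero (v.adicCompletionIntegers K).subtype

/-- The topology of the completed integers is the adic topology of the maximal ideal. -/
theorem isAdic_maximalIdeal : IsAdic (maximalIdeal Ov) := by
  have _i1 := isTopologicalRing_integers K v
  obtain ⟨ϖ, hϖ⟩ := IsDiscreteValuationRing.exists_irreducible Ov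
  have hint := HeightOneSpectrum.adicCompletionIntegers.integers K v
  have hpow : ∀ n : ℕ, ((maximalIdeal Ov ^ n : Ideal Ov) : Set Ov) =
      {y : Ov | Valued.v (y : Kv) ≤ Valued.v (ϖ : Kv) ^ n} := fun n =>
    hint.maximalIdeal_pow_eq_setOfPred_le_v_algebraMap_pow hϖ n
  have hϖ0 : (ϖ : Kv) ≠ 0 := by
    intro h
    exact hϖ.ne_zero (Subtype.ext h)
  have hϖ1 : Valued.v (ϖ : Kv) < 1 := by
    rw [← mem_maximalIdeal_integers_iff]
    exact hϖ.not_isUnit
  rw [isAdic_iff]
  constructor
  · intro n
    rw [hpow n]
    have hr : (Valued.v : Valuation Kv ℤᵐ⁰).restrict ((ϖ : Kv) ^ n) ≠ 0 := by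
      simp [hϖ0]
    have h := (Valued.isOpen_closedBall (v.adicCompletion K) hr).preimage
      (continuous_subtype_val (p := fun x => x ∈ v.adicCompletionIntegers K))
    convert h using 1
    ext y
    show Valued.v (y : Kv) ≤ Valued.v (ϖ : Kv) ^ n ↔
      (Valued.v : Valuation Kv ℤᵐ⁰).restrict (y : Kv) ≤
        (Valued.v : Valuation Kv ℤᵐ⁰).restrict ((ϖ : Kv) ^ n)
    rw [Valuation.restrict_le_iff, map_pow]
  · intro s hs
    rw [mem_nhds_subtype] at hs
    obtain ⟨t, ht, hts⟩ := hs
    rw [Valued.mem_nhds] at ht
    obtain ⟨γ, hγ⟩ := ht
    obtain ⟨n, hn⟩ := exists_pow_lt₀ hϖ1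
      (Units.map (MonoidWithZeroHom.ValueGroup₀.embedding
        (f := (.ofClass (Valued.v : Valuation Kv ℤᵐ⁰)))) γ)
    refine ⟨n, ?_⟩
    rw [hpow n]
    intro y hy
    apply hts
    apply hγ
    show (Valued.v : Valuation Kv ℤᵐ⁰).restrict ((y : Kv) - ((0 : Ov) : Kv)) < γ.1
    rw [Valuation.restrict_lt_iff_lt_embedding]
    have hy' : Valued.v (y : Kv) ≤ Valued.v (ϖ : Kv) ^ n := hy
    simpa using lt_of_le_of_lt hy' hn

/-- The completed integers are adically complete for their maximal ideal. -/
theorem isAdicComplete_integers : IsAdicComplete (maximalIdeal Ov) Ov := by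
  have _i1 := completeSpace_integers K v
  have _i2 := isTopologicalRing_integers K v
  have _i3 := isUniformAddGroup_integers K v
  exact (isAdic_maximalIdeal K v).isAdicComplete_iff.mpr ⟨inferInstance, inferInstance⟩

end Dedekind

section Packaged

/-- **Complete DVR at a prime of a Dedekind domain** (general form).  For a Dedekind domain `R`
with fraction field `K` of characteristic zero and a height-one prime `v` with finite residue
field there is a complete discrete valuation ring `O` of characteristic zero with finite residue
field receiving `R` injectively, with `𝔪_O ∩ R = v` and `R → O/𝔪_O` onto. -/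
theorem exists_completeDVR_of_heightOne {R : Type} [CommRing R] [IsDedekindDomain R]
    (K : Type) [Field K] [Algebra R K] [IsFractionRing R K] [CharZero K]
    (v : HeightOneSpectrum R) [Finite (R ⧸ v.asIdeal)] :
    ∃ (O : Type) (_ : CommRing O) (_ : IsDomain O) (_ : IsDiscreteValuationRing O)
      (_ : IsAdicComplete (maximalIdeal O) O) (_ : Finite (ResidueField O)) (_ : CharZero O)
      (ι : R →+* O), Function.Injective ι ∧ (maximalIdeal O).comap ι = v.asIdeal ∧
        Function.Surjective (residue O ∘ ι) :=
  ⟨v.adicCompletionIntegers K, inferInstance, inferInstance, inferInstance,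
    isAdicComplete_integers K v, finite_residueField K v, charZero_integers K v,
    algebraMap R (v.adicCompletionIntegers K),
    FaithfulSMul.algebraMap_injective R (v.adicCompletionIntegers K),
    comap_maximalIdeal K v, residue_comp_algebraMap_surjective K v⟩

open NumberField in
/-- **Complete DVR at a prime of a number ring.**  For a maximal ideal `P` of the ring of integers
of a number field `K` there is a complete discrete valuation ring `O` of characteristic zero with
finite residue field and an injective ring homomorphism `ι : 𝓞 K → O` with `ι⁻¹ 𝔪_O = P` and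
`𝓞 K → O/𝔪_O` onto. -/
theorem exists_completeDVR (K : Type) [Field K] [NumberField K] (P : Ideal (𝓞 K))
    [hP : P.IsMaximal] :
    ∃ (O : Type) (_ : CommRing O) (_ : IsDomain O) (_ : IsDiscreteValuationRing O)
      (_ : IsAdicComplete (maximalIdeal O) O) (_ : Finite (ResidueField O)) (_ : CharZero O)
      (ι : 𝓞 K →+* O), Function.Injective ι ∧ (maximalIdeal O).comap ι = P ∧
        Function.Surjective (residue O ∘ ι) := by
  have hP0 : P ≠ ⊥ := Ring.ne_bot_of_isMaximal_of_not_isField hP (RingOfIntegers.not_isField K)
  let v : HeightOneSpectrum (𝓞 K) := ⟨P, hP.isPrime, hP0⟩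
  have _i1 : Finite (𝓞 K ⧸ v.asIdeal) := Ideal.finiteQuotientOfFreeOfNeBot P hP0
  exact exists_completeDVR_of_heightOne K v

/-- In the situation of `exists_completeDVR`: a natural number lying in `P` lies in the maximal
ideal of `O`. -/
theorem natCast_mem_maximalIdeal_of_comap {R O : Type*} [CommRing R] [CommRing O] [IsLocalRing O]
    (ι : R →+* O) (P : Ideal R) (h : (maximalIdeal O).comap ι = P) (p : ℕ) (hp : (p : R) ∈ P) :
    (p : O) ∈ maximalIdeal O := by
  rw [← h, Ideal.mem_comap, map_natCast] at hp
  exact hp

end Packaged

end Fermat.Agent.P3.helper54
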