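import Mathlib
import Fermat.Agent.S49.QCoeff
import Fermat.Agent.S22
import Fermat.Agent.P3.Interface

/-!
# P3 [EIGVAL]: the eigencharacter of a normalised eigenform

The Prelude's `CuspForm.IsNormalizedEigenform` is a list of relations between q-coefficients.
We show that such a form is an eigenvector of every `T_ℓ` (`ℓ ∤ N`) and `U_q` (`q ∣ N`) with
eigenvalue `a_ℓ`, `a_q` (q-expansion principle), hence of the whole Hecke algebra
`heckeAlgebra N 2 S`, and that the eigenvalues are algebraic integers (`S22`).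

* `heckeT_eigen`, `heckeU_eigen`
* `eigenCharC : heckeAlgebra N 2 S →+* ℂ`, `eigenCharC_spec`, `eigenCharC_T`, `eigenCharC_U`
* `eigenChar : heckeAlgebra N 2 S →+* integralClosure ℤ ℂ`
* `eigenCharStatement : EigenCharStatement` (verbatim from `Interface.lean`)
-/

set_option autoImplicit false

open CuspForm CongruenceSubgroup ModularFormClass UpperHalfPlane

namespace Fermat.Agent.P3.helper54

open Fermat.Agent.S49

variable {N : ℕ}

/-- `a_{ℓ^{r+1} m} = a_{ℓ^{r+1}} a_m` etc.: the coefficient at `ℓ^r * m` with `ℓ ∤ m`. -/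
theorem qCoeff_pow_mul (g : CuspForm (Gamma0 N) 2) (hg : g.IsNormalizedEigenform)
    {ℓ : ℕ} (hℓ : ℓ.Prime) (r m : ℕ) (hm : ¬ ℓ ∣ m) :
    qCoeff ⇑g (ℓ ^ r * m) = qCoeff ⇑g (ℓ ^ r) * qCoeff ⇑g m :=
  hg.qCoeff_mul_of_coprime _ _ (Nat.Coprime.pow_left r ((Nat.Prime.coprime_iff_not_dvd hℓ).mpr hm))

theorem heckeT_eigen (g : CuspForm (Gamma0 N) 2) (hg : g.IsNormalizedEigenform)
    {ℓ : ℕ} (hℓ : ℓ.Prime) (hℓN : ¬ ℓ ∣ N) :
    CuspForm.heckeTLin 2 hℓ hℓN g = qCoeff ⇑g ℓ • g := by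
  apply eq_of_forall_qc
  intro n
  rw [qc_heckeT, qc_smul]
  have h21 : ((ℓ : ℂ)) ^ ((2 : ℤ) - 1) = (ℓ : ℂ) := by norm_num
  rw [h21]
  rcases Nat.eq_zero_or_pos n with rfl | hn
  · simp [qc_cusp_zero]
  obtain ⟨r, m, hm, rfl⟩ := Nat.exists_eq_pow_mul_and_not_dvd hn.ne' ℓ hℓ.ne_one
  rcases r with _ | r
  · simp only [pow_zero, one_mul]
    rw [if_neg hm, add_zero, mul_comm m ℓ]
    have := qCoeff_pow_mul g hg hℓ 1 m hm
    simpa using this
  · have e1 : ℓ ^ (r + 1) * m * ℓ = ℓ ^ (r + 2) * m := by ring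
    have e2 : ℓ ^ (r + 1) * m / ℓ = ℓ ^ r * m := by
      rw [pow_succ, mul_assoc, mul_comm ℓ m, ← mul_assoc]
      exact Nat.mul_div_cancel _ hℓ.pos
    have hd : ℓ ∣ ℓ ^ (r + 1) * m := Dvd.dvd.mul_right (dvd_pow_self ℓ (Nat.succ_ne_zero r)) m
    rw [if_pos hd, e1, e2, qCoeff_pow_mul g hg hℓ _ m hm, qCoeff_pow_mul g hg hℓ _ m hm,
      qCoeff_pow_mul g hg hℓ _ m hm, hg.qCoeff_prime_pow_of_not_dvd ℓ r hℓ hℓN]
    ring

theorem heckeU_eigen [NeZero N] (g : CuspForm (Gamma0 N) 2) (hg : g.IsNormalizedEigenform)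
    {q : ℕ} (hq : q.Prime) (hqN : q ∣ N) :
    CuspForm.heckeULin 2 hqN g = qCoeff ⇑g q • g := by
  apply eq_of_forall_qc
  intro n
  rw [qc_heckeU hq, qc_smul]
  rcases Nat.eq_zero_or_pos n with rfl | hn
  · simp [qc_cusp_zero]
  obtain ⟨r, m, hm, rfl⟩ := Nat.exists_eq_pow_mul_and_not_dvd hn.ne' q hq.ne_one
  rcases r with _ | r
  · simp only [pow_zero, one_mul]
    rw [mul_comm m q]
    have := qCoeff_pow_mul g hg hq 1 m hm
    simpa using this
  · have e1 : q ^ (r + 1) * m * q = q ^ (r + 2) * m := by ring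
    rw [e1, qCoeff_pow_mul g hg hq _ m hm, qCoeff_pow_mul g hg hq _ m hm,
      hg.qCoeff_prime_pow_of_dvd q r hq hqN]
    ring

/-- Every element of the Hecke algebra acts on a normalised eigenform by a scalar. -/
theorem exists_eigenvalue [NeZero N] (S : Set ℕ) (g : CuspForm (Gamma0 N) 2)
    (hg : g.IsNormalizedEigenform)
    (t : Module.End ℂ (CuspForm (Gamma0 N) 2)) (ht : t ∈ CuspForm.heckeAlgebra N 2 S) :
    ∃ c : ℂ, t g = c • g := by
  induction ht using Algebra.adjoin_induction with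
  | mem x hx =>
    rcases hx with ⟨ℓ, hℓ, hℓN, -, rfl⟩ | ⟨q, hqN, hq, -, rfl⟩
    · exact ⟨_, heckeT_eigen g hg hℓ hℓN⟩
    · exact ⟨_, heckeU_eigen g hg hq hqN⟩
  | algebraMap r =>
    refine ⟨(r : ℂ), ?_⟩
    rw [Algebra.algebraMap_eq_smul_one, LinearMap.smul_apply, Module.End.one_apply,
      Int.cast_smul_eq_zsmul]
  | add x y _ _ hx hy =>
    obtain ⟨a, ha⟩ := hx
    obtain ⟨b, hb⟩ := hy
    exact ⟨a + b, by rw [LinearMap.add_apply, ha, hb, add_smul]⟩
  | mul x y _ _ hx hy =>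
    obtain ⟨a, ha⟩ := hx
    obtain ⟨b, hb⟩ := hy
    exact ⟨b * a, by rw [Module.End.mul_apply, hb, map_smul, ha, smul_smul]⟩

/-- The eigenvalue of `t` on `g`, read off from the first q-coefficient. -/
theorem eigen_eq_qCoeff_one [NeZero N] (S : Set ℕ) (g : CuspForm (Gamma0 N) 2)
    (hg : g.IsNormalizedEigenform) (t : CuspForm.heckeAlgebra N 2 S) :
    (t : Module.End ℂ (CuspForm (Gamma0 N) 2)) g =
      qCoeff ⇑((t : Module.End ℂ (CuspForm (Gamma0 N) 2)) g) 1 • g := by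
  obtain ⟨c, hc⟩ := exists_eigenvalue S g hg t.1 t.2
  rw [hc, qc_smul, hg.qCoeff_one, mul_one]

theorem ne_zero_of_isNormalizedEigenform (g : CuspForm (Gamma0 N) 2)
    (hg : g.IsNormalizedEigenform) : g ≠ 0 := by
  rintro rfl
  have := hg.qCoeff_one
  rw [qc_zero] at this
  exact zero_ne_one this

/-- The eigencharacter with values in `ℂ`. -/
noncomputable def eigenCharC [NeZero N] (S : Set ℕ) (g : CuspForm (Gamma0 N) 2)
    (hg : g.IsNormalizedEigenform) : CuspForm.heckeAlgebra N 2 S →+* ℂ where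
  toFun t := qCoeff ⇑((t : Module.End ℂ (CuspForm (Gamma0 N) 2)) g) 1
  map_one' := by
    show qCoeff ⇑((1 : Module.End ℂ (CuspForm (Gamma0 N) 2)) g) 1 = 1
    rw [Module.End.one_apply, hg.qCoeff_one]
  map_mul' s t := by
    show qCoeff ⇑(((s : Module.End ℂ (CuspForm (Gamma0 N) 2)) *
      (t : Module.End ℂ (CuspForm (Gamma0 N) 2))) g) 1 = _
    rw [Module.End.mul_apply, eigen_eq_qCoeff_one S g hg t, map_smul, qc_smul, mul_comm]
    congr 1
    rw [← eigen_eq_qCoeff_one S g hg t]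
  map_zero' := by
    show qCoeff ⇑((0 : Module.End ℂ (CuspForm (Gamma0 N) 2)) g) 1 = 0
    rw [LinearMap.zero_apply, qc_zero]
  map_add' s t := by
    show qCoeff ⇑(((s : Module.End ℂ (CuspForm (Gamma0 N) 2)) +
      (t : Module.End ℂ (CuspForm (Gamma0 N) 2))) g) 1 = _
    rw [LinearMap.add_apply, qc_add]

theorem eigenCharC_spec [NeZero N] (S : Set ℕ) (g : CuspForm (Gamma0 N) 2)
    (hg : g.IsNormalizedEigenform) (t : CuspForm.heckeAlgebra N 2 S) :
    (t : Module.End ℂ (CuspForm (Gamma0 N) 2)) g = eigenCharC S g hg t • g :=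
  eigen_eq_qCoeff_one S g hg t

theorem eigenCharC_T [NeZero N] (S : Set ℕ) (g : CuspForm (Gamma0 N) 2)
    (hg : g.IsNormalizedEigenform) {ℓ : ℕ} (hℓ : ℓ.Prime) (hℓN : ¬ ℓ ∣ N) (hℓS : ℓ ∉ S) :
    eigenCharC S g hg (CuspForm.heckeAlgebra.T hℓ hℓN hℓS) = qCoeff ⇑g ℓ := by
  show qCoeff ⇑(CuspForm.heckeTLin 2 hℓ hℓN g) 1 = _
  rw [heckeT_eigen g hg hℓ hℓN, qc_smul, hg.qCoeff_one, mul_one]

theorem eigenCharC_U [NeZero N] (S : Set ℕ) (g : CuspForm (Gamma0 N) 2)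
    (hg : g.IsNormalizedEigenform) {q : ℕ} (hq : q.Prime) (hqN : q ∣ N) (hqS : q ∉ S) :
    eigenCharC S g hg (CuspForm.heckeAlgebra.U hq hqN hqS) = qCoeff ⇑g q := by
  show qCoeff ⇑(CuspForm.heckeULin 2 hqN g) 1 = _
  rw [heckeU_eigen g hg hq hqN, qc_smul, hg.qCoeff_one, mul_one]

/-- The values of the eigencharacter are algebraic integers. -/
theorem isIntegral_eigenCharC [NeZero N] (S : Set ℕ) (g : CuspForm (Gamma0 N) 2)
    (hg : g.IsNormalizedEigenform) (t : CuspForm.heckeAlgebra N 2 S) :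
    IsIntegral ℤ (eigenCharC S g hg t) := by
  have _i : Module.Finite ℤ (CuspForm.heckeAlgebra N 2 S) := Fermat.Agent.S22.result N 2 S
  have h : IsIntegral ℤ t := IsIntegral.of_finite ℤ t
  exact h.map (eigenCharC S g hg).toIntAlgHom

/-- The eigencharacter with values in the ring of algebraic integers. -/
noncomputable def eigenChar [NeZero N] (S : Set ℕ) (g : CuspForm (Gamma0 N) 2)
    (hg : g.IsNormalizedEigenform) : CuspForm.heckeAlgebra N 2 S →+* integralClosure ℤ ℂ :=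
  (eigenCharC S g hg).codRestrict (integralClosure ℤ ℂ).toSubring
    (fun t => isIntegral_eigenCharC S g hg t)

theorem coe_eigenChar [NeZero N] (S : Set ℕ) (g : CuspForm (Gamma0 N) 2)
    (hg : g.IsNormalizedEigenform) (t : CuspForm.heckeAlgebra N 2 S) :
    ((eigenChar S g hg t : integralClosure ℤ ℂ) : ℂ) = eigenCharC S g hg t := rfl

/-- **[EIGVAL]** verbatim. -/
theorem eigenCharStatement : EigenCharStatement := by
  intro N _ S _ g hg
  refine ⟨eigenChar (↑S : Set ℕ) g hg, fun ℓ hℓ hℓN hℓS => ?_⟩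
  rw [coe_eigenChar, eigenCharC_T]

end Fermat.Agent.P3.helper54
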