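import Mathlib
import Fermat.Agent.P3.helper54_CompleteDVR
import Fermat.Agent.P3.helper54_EigenChar

/-!
# P3 [EIG-DVR] (c): from an eigenform and a residue map `ℤ̄ → k` to a point of the Hecke algebra
with values in a complete DVR

`S30` starts from a complete discrete valuation ring `𝒪'` and `χ : 𝕋 → 𝒪'`; `S29` and `S42` start
from a normalised eigenform `g` and a ring homomorphism `φ : ℤ̄ → k` (`k` a field of
characteristic `p`).  This file builds the former from the latter:

* `exists_dvr_point_of_finite` : the abstract statement for a finite `ℤ`-algebra `A` and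
  `χ₀ : A → ℤ̄`;
* `exists_dvr_point` : the statement for `A = heckeAlgebra N 2 S` and the eigencharacter of `g`;
* `exists_dvr_point_T` : the same, spelled out at the operators `T_ℓ` in the shape used by the
  Prelude's `ResidualGaloisRep.IsAttachedTo`.
-/

set_option autoImplicit false

open CuspForm CongruenceSubgroup ModularFormClass UpperHalfPlane IsLocalRing NumberField

namespace Fermat.Agent.P3.helper54

section RingPoint

/-- **A point of a finite `ℤ`-algebra with values in `ℤ̄` factors through a complete DVR.**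
Let `A` be a commutative ring, finite as a `ℤ`-module, `χ₀ : A → ℤ̄` a ring homomorphism and
`φ : ℤ̄ → k` a ring homomorphism to a field of characteristic `p`.  Then there are a complete
discrete valuation ring `O` of characteristic zero with finite residue field and `p ∈ 𝔪_O`, a ring
homomorphism `χ : A → O` and an embedding `j : O/𝔪_O → k` with `j (χ t mod 𝔪_O) = φ (χ₀ t)`. -/
theorem exists_dvr_point_of_finite (A : Type*) [CommRing A] [Module.Finite ℤ A]
    (χ₀ : A →+* integralClosure ℤ ℂ) (p : ℕ) [Fact p.Prime] (k : Type*) [Field k] [CharP k p]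
    (φ : integralClosure ℤ ℂ →+* k) :
    ∃ (O : Type) (_ : CommRing O) (_ : IsDomain O) (_ : IsDiscreteValuationRing O)
      (_ : IsAdicComplete (maximalIdeal O) O) (_ : Finite (ResidueField O)) (_ : CharZero O)
      (_ : (p : O) ∈ maximalIdeal O)
      (χ : A →+* O) (j : ResidueField O →+* k),
      ∀ t : A, j (residue O (χ t)) = φ (χ₀ t) := by
  classical
  -- the complex-valued character
  let χC : A →+* ℂ := (integralClosure ℤ ℂ).toSubring.subtype.comp χ₀
  have hχC : ∀ t, χC t = ((χ₀ t : integralClosure ℤ ℂ) : ℂ) := fun t => rfl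
  have hint : ∀ t, IsIntegral ℤ (χC t) := fun t => (χ₀ t).2
  -- a finite generating set
  obtain ⟨s, hs⟩ := (Module.Finite.fg_top : (⊤ : Submodule ℤ A).FG)
  let K : IntermediateField ℚ ℂ := IntermediateField.adjoin ℚ (χC '' (s : Set A))
  have hfin : Finite (χC '' (s : Set A)) := (s.finite_toSet.image _).to_subtype
  have hfd : FiniteDimensional ℚ K :=
    IntermediateField.finiteDimensional_adjoin (fun x hx => by
      obtain ⟨t, -, rfl⟩ := hx
      exact (hint t).tower_top)
  have _iNF : NumberField K := ⟨⟩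
  have hmem : ∀ t : A, χC t ∈ K := by
    intro t
    have ht : t ∈ Submodule.span ℤ (s : Set A) := by rw [hs]; trivial
    induction ht using Submodule.span_induction with
    | mem x hx => exact IntermediateField.subset_adjoin _ _ ⟨x, hx, rfl⟩
    | zero => rw [map_zero]; exact zero_mem _
    | add x y _ _ hx hy => rw [map_add]; exact add_mem hx hy
    | smul a x _ hx =>
      rw [zsmul_eq_mul, map_mul, map_intCast]
      exact mul_mem (intCast_mem K a) hx
  -- the character with values in `K` and in `𝓞 K`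
  let χK : A →+* K := χC.codRestrict K hmem
  have hχK : ∀ t, ((χK t : K) : ℂ) = χC t := fun t => rfl
  have hintK : ∀ t, IsIntegral ℤ (χK t) := by
    intro t
    have h := hint t
    rw [← hχK] at h
    exact (isIntegral_algebraMap_iff (algebraMap K ℂ).injective).mp h
  let χO : A →+* 𝓞 K :=
    { toFun := fun t => ⟨χK t, hintK t⟩
      map_one' := RingOfIntegers.ext (map_one χK)
      map_mul' := fun a b => RingOfIntegers.ext (map_mul χK a b)
      map_zero' := RingOfIntegers.ext (map_zero χK)
      map_add' := fun a b => RingOfIntegers.ext (map_add χK a b) }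
  -- the inclusion of `𝓞 K` into `ℤ̄`
  let e : 𝓞 K →+* integralClosure ℤ ℂ :=
    ((algebraMap K ℂ).comp (algebraMap (𝓞 K) K)).codRestrict (integralClosure ℤ ℂ).toSubring
      (fun x => (RingOfIntegers.isIntegral_coe x).map (IsScalarTower.toAlgHom ℤ K ℂ))
  have heχ : ∀ t, e (χO t) = χ₀ t := fun t => Subtype.ext rfl
  -- the prime
  let P : Ideal (𝓞 K) := RingHom.ker (φ.comp e)
  have hPprime : P.IsPrime := RingHom.ker_isPrime _
  have hpP : (p : 𝓞 K) ∈ P := by
    show (φ.comp e) (p : 𝓞 K) = 0
    rw [map_natCast]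
    exact CharP.cast_eq_zero k p
  have hP0 : P ≠ ⊥ := by
    intro h
    rw [h, Ideal.mem_bot] at hpP
    exact (Nat.cast_ne_zero.mpr (Fact.out : p.Prime).ne_zero) hpP
  have hPmax : P.IsMaximal := hPprime.isMaximal hP0
  obtain ⟨O, i1, i2, i3, i4, i5, i6, ι, -, hcomap, hsurj⟩ := exists_completeDVR K P
  refine ⟨O, i1, i2, i3, i4, i5, i6,
    natCast_mem_maximalIdeal_of_comap ι P hcomap p hpP, ι.comp χO, ?_⟩
  -- the residue embedding
  let π : 𝓞 K →+* ResidueField O := (residue O).comp ι
  have hπsurj : Function.Surjective π := hsurj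
  have hker : RingHom.ker π ≤ RingHom.ker (φ.comp e) := by
    intro x hx
    have : x ∈ (maximalIdeal O).comap ι := by
      rw [Ideal.mem_comap, ← residue_eq_zero_iff]
      exact hx
    rw [hcomap] at this
    exact this
  refine ⟨π.liftOfSurjective hπsurj ⟨φ.comp e, hker⟩, fun t => ?_⟩
  have := RingHom.liftOfSurjective_comp_apply π hπsurj ⟨φ.comp e, hker⟩ (χO t)
  rw [show (residue O) ((ι.comp χO) t) = π (χO t) from rfl, this]
  show φ (e (χO t)) = _
  rw [heχ]

end RingPoint

section Eigenform

variable {N : ℕ} [NeZero N]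

/-- **From an eigenform to a point with values in a complete DVR.**  For a normalised eigenform
`g` of level `N`, a prime `p` and `φ : ℤ̄ → k` (`k` of characteristic `p`), there are a complete
discrete valuation ring `O` (characteristic zero, finite residue field, `p ∈ 𝔪_O`), a ring
homomorphism `χ : heckeAlgebra N 2 S → O` and `j : O/𝔪_O → k` such that
`j (χ t mod 𝔪_O) = φ (eigenvalue of t on g)` for every `t`. -/
theorem exists_dvr_point (S : Set ℕ) (g : CuspForm (Gamma0 N) 2) (hg : g.IsNormalizedEigenform)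
    (p : ℕ) [Fact p.Prime] (k : Type*) [Field k] [CharP k p] (φ : integralClosure ℤ ℂ →+* k) :
    ∃ (O : Type) (_ : CommRing O) (_ : IsDomain O) (_ : IsDiscreteValuationRing O)
      (_ : IsAdicComplete (maximalIdeal O) O) (_ : Finite (ResidueField O)) (_ : CharZero O)
      (_ : (p : O) ∈ maximalIdeal O)
      (χ : CuspForm.heckeAlgebra N 2 S →+* O) (j : ResidueField O →+* k),
      ∀ t : CuspForm.heckeAlgebra N 2 S, j (residue O (χ t)) = φ (eigenChar S g hg t) := by
  have _i : Module.Finite ℤ (CuspForm.heckeAlgebra N 2 S) := Fermat.Agent.S22.result N 2 S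
  exact exists_dvr_point_of_finite (CuspForm.heckeAlgebra N 2 S) (eigenChar S g hg) p k φ

/-- `exists_dvr_point` at the operators `T_ℓ`, in the shape of `ResidualGaloisRep.IsAttachedTo`:
the reduction of `χ (T_ℓ)` is `φ a` for an algebraic integer `a` with `a = a_ℓ(g)`. -/
theorem exists_dvr_point_T (S : Set ℕ) (g : CuspForm (Gamma0 N) 2) (hg : g.IsNormalizedEigenform)
    (p : ℕ) [Fact p.Prime] (k : Type*) [Field k] [CharP k p] (φ : integralClosure ℤ ℂ →+* k) :
    ∃ (O : Type) (_ : CommRing O) (_ : IsDomain O) (_ : IsDiscreteValuationRing O)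
      (_ : IsAdicComplete (maximalIdeal O) O) (_ : Finite (ResidueField O)) (_ : CharZero O)
      (_ : (p : O) ∈ maximalIdeal O)
      (χ : CuspForm.heckeAlgebra N 2 S →+* O) (j : ResidueField O →+* k),
      ∀ (ℓ : ℕ) (hℓ : ℓ.Prime) (hℓN : ¬ ℓ ∣ N) (hℓS : ℓ ∉ S),
        ∃ a : integralClosure ℤ ℂ, (a : ℂ) = qCoeff ⇑g ℓ ∧
          j (residue O (χ (CuspForm.heckeAlgebra.T hℓ hℓN hℓS))) = φ a := by
  obtain ⟨O, i1, i2, i3, i4, i5, i6, hp, χ, j, h⟩ := exists_dvr_point S g hg p k φ
  refine ⟨O, i1, i2, i3, i4, i5, i6, hp, χ, j, fun ℓ hℓ hℓN hℓS => ?_⟩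
  refine ⟨eigenChar S g hg (CuspForm.heckeAlgebra.T hℓ hℓN hℓS), ?_, h _⟩
  rw [coe_eigenChar, eigenCharC_T]

/-- The `q`-coefficient `a_ℓ(g)` of a normalised eigenform at a prime `ℓ ∤ N` is an algebraic
integer. -/
theorem isIntegral_qCoeff_prime (g : CuspForm (Gamma0 N) 2) (hg : g.IsNormalizedEigenform)
    {ℓ : ℕ} (hℓ : ℓ.Prime) (hℓN : ¬ ℓ ∣ N) : IsIntegral ℤ (qCoeff ⇑g ℓ) := by
  have h := isIntegral_eigenCharC (∅ : Set ℕ) g hg
    (CuspForm.heckeAlgebra.T hℓ hℓN (Set.notMem_empty ℓ))
  rwa [eigenCharC_T] at h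

end Eigenform

end Fermat.Agent.P3.helper54
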