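import Mathlib
import Fermat.Agent.P3.Interface3
import Fermat.Agent.P3.helper54_DvrPoint

/-!
# P3 final wiring: `S29` from `StrongS30Statement`

`s29_of_strongS30 : StrongS30Statement → S29Statement`, where `S29Statement` is the type of the
frozen statement `S29` (a normalised eigenform has an attached mod-`p` representation, unramified
outside `N p`).

Route: `N = 0` is vacuous (trivial representation).  For `N > 0` let `S := {p} ∪ {q ∣ N}`;
`exists_dvr_point_T` gives a complete DVR `O`, `χ : 𝕋 → O` and `j : O/𝔪 → k` with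
`j (χ T_ℓ mod 𝔪) = φ a_ℓ`; the strong form of `S30` gives `ρ` over `O`; reduce and base change
along `j`.
-/

set_option autoImplicit false

open CuspForm CongruenceSubgroup ModularFormClass UpperHalfPlane IsLocalRing Polynomial
open scoped TensorProduct

namespace Fermat.Agent.P3.helper54

/-- The trivial two-dimensional residual representation. -/
noncomputable def trivialResidualRep (k : Type) [Field k] : ResidualGaloisRep k where
  V := Fin 2 → k
  finrank_eq := by simp
  ρ := 1
  factorsThroughFiniteLevel := ⟨⊥, inferInstance, fun _ _ => rfl⟩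

/-- The type of the frozen statement `S29`. -/
def S29Statement : Prop :=
  ∀ {N : ℕ} {g : CuspForm (CongruenceSubgroup.Gamma0 N) 2} (_hg : g.IsNormalizedEigenform)
    {p : ℕ} (_hp : p.Prime) {k : Type} [Field k] [CharP k p]
    (φ : integralClosure ℤ ℂ →+* k),
    ∃ ρ : ResidualGaloisRep k, ρ.IsAttachedTo g φ ∧
      ∀ ℓ : ℕ, ℓ.Prime → ¬ ℓ ∣ N * p → ρ.IsUnramifiedAt ℓ

/-- Reduction and base change of an adic representation along `j : ResidueField O → k`. -/
noncomputable def reduceAlong {O : Type} [CommRing O] [IsLocalRing O] {k : Type} [Field k]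
    (j : ResidueField O →+* k) (ρ : GaloisRepAdic O) : ResidualGaloisRep k :=
  ρ.residual.baseChangeAlong j

theorem reduceAlong_eq_one {O : Type} [CommRing O] [IsLocalRing O] {k : Type} [Field k]
    (j : ResidueField O →+* k) (ρ : GaloisRepAdic O)
    (σ : AlgebraicClosure ℚ ≃ₐ[ℚ] AlgebraicClosure ℚ) (h : ρ.ρ σ = 1) :
    (reduceAlong j ρ).ρ σ = 1 := by
  let _ia : Algebra (ResidueField O) k := j.toAlgebra
  show ((ρ.ρ σ).baseChange (ResidueField O)).baseChange k = 1
  rw [h, LinearMap.baseChange_one, LinearMap.baseChange_one]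

theorem charpoly_reduceAlong {O : Type} [CommRing O] [IsLocalRing O] {k : Type} [Field k]
    (j : ResidueField O →+* k) (ρ : GaloisRepAdic O)
    (σ : AlgebraicClosure ℚ ≃ₐ[ℚ] AlgebraicClosure ℚ) :
    LinearMap.charpoly ((reduceAlong j ρ).ρ σ) =
      (LinearMap.charpoly (ρ.ρ σ)).map (j.comp (residue O)) := by
  let _ia : Algebra (ResidueField O) k := j.toAlgebra
  show LinearMap.charpoly (((ρ.ρ σ).baseChange (ResidueField O)).baseChange k) = _
  rw [LinearMap.charpoly_baseChange, LinearMap.charpoly_baseChange, Polynomial.map_map]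
  rfl

theorem s29_of_strongS30 (h : StrongS30Statement) : S29Statement := by
  intro N g hg p hp k _ _ φ
  rcases Nat.eq_zero_or_pos N with rfl | hN
  · refine ⟨trivialResidualRep k, ?_, ?_⟩
    · intro ℓ _ hℓN
      exact absurd (dvd_zero ℓ) hℓN
    · intro ℓ _ _ A _ σ _
      rfl
  have _i1 : NeZero N := ⟨hN.ne'⟩
  have _i2 : Fact p.Prime := ⟨hp⟩
  let S : Finset ℕ := insert p N.primeFactors
  have hpS : p ∈ S := Finset.mem_insert_self _ _
  have hNS : ∀ q : ℕ, q.Prime → q ∣ N → q ∈ S := fun q hq hqN =>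
    Finset.mem_insert_of_mem (Nat.mem_primeFactors.mpr ⟨hq, hqN, hN.ne'⟩)
  obtain ⟨O, i1, i2, i3, i4, i5, i6, hpO, χ, j, hχ⟩ :=
    exists_dvr_point_T (↑S : Set ℕ) g hg p k φ
  obtain ⟨ρ, hchar, hunr⟩ := h p N S hpS hNS O hpO χ
  refine ⟨reduceAlong j ρ, ?_, ?_⟩
  · intro ℓ hℓ hℓN hℓk A hA σ hσ
    have hℓp : ℓ ≠ p := by
      rintro rfl
      exact hℓk (CharP.cast_eq_zero k ℓ)
    have hℓS : ℓ ∉ (↑S : Set ℕ) := by
      intro hmem
      rcases Finset.mem_insert.mp (Finset.mem_coe.mp hmem) with h1 | h1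
      · exact hℓp h1
      · exact hℓN (Nat.dvd_of_mem_primeFactors h1)
    obtain ⟨a, ha, hja⟩ := hχ ℓ hℓ hℓN hℓS
    refine ⟨a, ha, ?_⟩
    rw [charpoly_reduceAlong, hchar ℓ hℓ hℓN hℓS A hA σ hσ, ← hja]
    simp
  · intro ℓ hℓ hℓNp A hA σ hσ
    have hℓN : ¬ ℓ ∣ N := fun h1 => hℓNp (Dvd.dvd.mul_right h1 p)
    have hℓp : ℓ ≠ p := by
      rintro rfl
      exact hℓNp (Dvd.intro_left N rfl)
    exact reduceAlong_eq_one j ρ σ (hunr ℓ hℓ hℓN hℓp A hA σ hσ)

end Fermat.Agent.P3.helper54
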