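import Mathlib
import Fermat.Prelude.Def_FreyPackage_EigenformResidualAttachment
import Fermat.Prelude.Def_GaloisRep_Residual
import Fermat.Agent.S13.helper64_TorsionSmall
import Fermat.Agent.P3.helper54_Wire29

/-!
# P3 final wiring: `S42` from `S29`

`s42_of_s29 : S29Statement → S42Statement` and `s42_of_strongS30`, where `S42Statement` is the
type of the frozen statement `S42` (`EigenformResidualAttachmentAt M` for every `M > 0`).

Ingredients:
* `factorsThroughFiniteLevel_of_finite` : the Galois action on a finite `E[n]` factors through the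
  finite extension generated by the coordinates of the torsion points;
* `exists_galois_level` : two finite subextensions of `ℚ̄` lie in a finite normal one;
* `trace_of_charpoly`, `det_of_charpoly` : trace and determinant of an endomorphism of a plane
  from its characteristic polynomial;
* residue field `K := ℤ̄ ⧸ 𝔪`, `ψ :=` the quotient map.
-/

set_option autoImplicit false

open Polynomial WeierstrassCurve WeierstrassCurve.Affine
open scoped WeierstrassCurve.Affine

namespace Fermat.Agent.P3.helper54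

local notation "Qb" => AlgebraicClosure ℚ
local notation "Zb" => integralClosure ℤ ℂ

theorem isAlgebraic_Qb : Algebra.IsAlgebraic ℚ Qb := AlgebraicClosure.isAlgebraic ℚ

theorem isAlgClosure_Qb : IsAlgClosure ℚ Qb :=
  have := isAlgebraic_Qb
  (isAlgClosure_iff (k := ℚ) Qb).mpr ⟨inferInstance, inferInstance⟩

theorem normal_Qb : Normal ℚ Qb :=
  have := isAlgClosure_Qb
  IsAlgClosure.normal ℚ Qb

/-- The coordinates of a point. -/
def pointCoords {W : Affine Qb} : W.Point → Set Qb
  | .zero => ∅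
  | .some x y _ => {x, y}

theorem finite_pointCoords {W : Affine Qb} (P : W.Point) : (pointCoords P).Finite := by
  cases P with
  | zero => exact Set.finite_empty
  | some x y h => exact (Set.finite_singleton y).insert x

/-- An automorphism fixing the coordinates of a point fixes the point. -/
theorem smul_eq_self_of_fixes_coords (W : Affine ℚ) (σ : Qb ≃ₐ[ℚ] Qb) (P : (W⁄Qb).Point)
    (h : ∀ z ∈ pointCoords P, σ z = z) : σ • P = P := by
  cases P with
  | zero => rfl
  | some x y hxy =>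
    have hx : σ x = x := h x (by simp [pointCoords])
    have hy : σ y = y := h y (by simp [pointCoords])
    rw [Point.algEquiv_smul_def]
    simp [Point.map, hx, hy]

/-- The Galois action on the `n`-torsion of a Weierstrass curve over `ℚ` factors through a finite
level as soon as the `n`-torsion is finite. -/
theorem factorsThroughFiniteLevel_of_finite (W : Affine ℚ) (n : ℕ)
    [hfin : Finite (Submodule.torsionBy ℤ (W⁄Qb).Point n)] :
    GaloisFactorsThroughFiniteLevel
      (Point.galoisRepModuleEnd (S := ℚ) (K := Qb) W n) := by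
  classical
  let C : Set Qb := ⋃ P : Submodule.torsionBy ℤ (W⁄Qb).Point n, pointCoords (P : (W⁄Qb).Point)
  have hC : C.Finite := Set.finite_iUnion fun P => finite_pointCoords _
  have hCf : Finite C := hC.to_subtype
  refine ⟨IntermediateField.adjoin ℚ C, ?_, fun σ hσ => ?_⟩
  · have := isAlgebraic_Qb
    exact IntermediateField.finiteDimensional_adjoin fun x _ =>
      (Algebra.IsAlgebraic.isAlgebraic (R := ℚ) x).isIntegral
  · refine LinearMap.ext fun P => Subtype.ext ?_
    rw [Point.galoisRepModuleEnd_apply, Module.End.one_apply]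
    show σ • (P : (W⁄Qb).Point) = P
    refine smul_eq_self_of_fixes_coords W σ _ fun z hz => hσ z ?_
    exact IntermediateField.subset_adjoin ℚ C (Set.mem_iUnion.mpr ⟨P, hz⟩)

section TraceDet

variable {K : Type*} [Field K] {V : Type*} [AddCommGroup V] [Module K V] [Module.Finite K V]

theorem det_of_charpoly (hV : Module.finrank K V = 2) (f : Module.End K V) (t d : K)
    (h : LinearMap.charpoly f = X ^ 2 - C t * X + C d) : LinearMap.det f = d := by
  rw [LinearMap.det_eq_sign_charpoly_coeff, hV, h]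
  simp [coeff_X]

theorem trace_of_charpoly (hV : Module.finrank K V = 2) (f : Module.End K V) (t d : K)
    (h : LinearMap.charpoly f = X ^ 2 - C t * X + C d) : LinearMap.trace K V f = t := by
  classical
  let b := Module.Free.chooseBasis K V
  have hcard : Fintype.card (Module.Free.ChooseBasisIndex K V) = 2 := by
    rw [← Module.finrank_eq_card_chooseBasisIndex, hV]
  have _i : Nonempty (Module.Free.ChooseBasisIndex K V) := by
    rw [← Fintype.card_pos_iff, hcard]
    norm_num
  rw [LinearMap.trace_eq_matrix_trace K b f, Matrix.trace_eq_neg_charpoly_coeff,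
    LinearMap.charpoly_toMatrix, hcard, h]
  simp

end TraceDet

/-- The type of the frozen statement `S42`. -/
def S42Statement : Prop :=
  ∀ (P : FreyPackage), ∀ M : ℕ, 0 < M → P.EigenformResidualAttachmentAt M

/-- A finite Galois number field inside `ℚ̄` containing two given finite subextensions. -/
theorem exists_galois_level (L₁ L₂ : IntermediateField ℚ Qb) [FiniteDimensional ℚ L₁]
    [FiniteDimensional ℚ L₂] :
    ∃ E : IntermediateField ℚ Qb, FiniteDimensional ℚ E ∧ Normal ℚ E ∧ L₁ ≤ E ∧ L₂ ≤ E := by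
  have := isAlgebraic_Qb
  have := normal_Qb
  have hfd : FiniteDimensional ℚ ↥(L₁ ⊔ L₂) := IntermediateField.finiteDimensional_sup L₁ L₂
  refine ⟨IntermediateField.normalClosure ℚ ↥(L₁ ⊔ L₂) Qb, ?_, ?_, ?_, ?_⟩
  · exact normalClosure.is_finiteDimensional ℚ ↥(L₁ ⊔ L₂) Qb
  · have h := normalClosure.normal ℚ ↥(L₁ ⊔ L₂) Qb
    convert h
    exact Subsingleton.elim _ _
  · exact le_sup_left.trans (IntermediateField.le_normalClosure (L₁ ⊔ L₂))
  · exact le_sup_right.trans (IntermediateField.le_normalClosure (L₁ ⊔ L₂))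

/-- An automorphism restricting to the identity on a normal subfield fixes it pointwise. -/
theorem fixes_of_mem_ker_restrictNormalHom (E : IntermediateField ℚ Qb) [Normal ℚ E]
    (σ : Qb ≃ₐ[ℚ] Qb) (hσ : σ ∈ (AlgEquiv.restrictNormalHom (F := ℚ) (K₁ := Qb) E).ker)
    (x : Qb) (hx : x ∈ E) : σ x = x := by
  have h1 : AlgEquiv.restrictNormalHom (F := ℚ) (K₁ := Qb) E σ = 1 := hσ
  have h2 := AlgEquiv.restrictNormal_commutes σ E ⟨x, hx⟩
  have h3 : σ.restrictNormal E = 1 := h1
  rw [h3] at h2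
  exact h2.symm

theorem s42_of_s29 (h : S29Statement) : S42Statement := by
  intro P M hM g hg 𝔪 h𝔪 hp𝔪
  have _i0 := h𝔪
  letI iF : Field (Zb ⧸ 𝔪) := Ideal.Quotient.field 𝔪
  have hp0 : ((P.p : ℕ) : Zb ⧸ 𝔪) = 0 := by
    have : (Ideal.Quotient.mk 𝔪) (P.p : Zb) = 0 := Ideal.Quotient.eq_zero_iff_mem.mpr hp𝔪
    simpa using this
  have hchar : CharP (Zb ⧸ 𝔪) P.p :=
    ringChar.of_eq (CharP.ringChar_of_prime_eq_zero P.pp hp0)
  letI iA : Algebra (ZMod P.p) (Zb ⧸ 𝔪) := ZMod.algebra _ P.p
  obtain ⟨ρ, hatt, -⟩ := h hg P.pp (k := Zb ⧸ 𝔪) (Ideal.Quotient.mk 𝔪)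
  obtain ⟨L₁, hL₁, h₁⟩ := ρ.factorsThroughFiniteLevel
  have _i1 : Finite (Submodule.torsionBy ℤ (P.freyCurve⁄Qb).Point P.p) :=
    (Fermat.Agent.S13.helper64.frey_torsionSmall P).2.1
  obtain ⟨L₂, hL₂, h₂⟩ := factorsThroughFiniteLevel_of_finite P.freyCurve P.p
  obtain ⟨E, hEfd, hEn, hE₁, hE₂⟩ := exists_galois_level L₁ L₂
  have _i2 : NumberField E := ⟨⟩
  have _i3 : IsGalois ℚ E := ⟨⟩
  have hne : ∀ ℓ : ℕ, ℓ.Prime → ℓ ≠ P.p → ((ℓ : ℕ) : Zb ⧸ 𝔪) ≠ 0 := by
    intro ℓ hℓ hℓp h0
    have := (CharP.cast_eq_zero_iff (Zb ⧸ 𝔪) P.p ℓ).mp h0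
    exact hℓp ((Nat.prime_dvd_prime_iff_eq P.pp hℓ).mp this).symm
  refine ⟨Zb ⧸ 𝔪, iF, iA, ρ.V, inferInstance, inferInstance, ρ.ρ, Ideal.Quotient.mk 𝔪,
    E, inferInstance, inferInstance, inferInstance, inferInstance, inferInstance,
    ?_, ρ.finrank_eq, ?_, ?_, ?_⟩
  · intro x hx
    exact Ideal.Quotient.eq_zero_iff_mem.mpr hx
  · intro σ hσ
    have hfix := fixes_of_mem_ker_restrictNormalHom E σ hσ
    refine ⟨h₂ σ fun x hx => hfix x (hE₂ hx), h₁ σ fun x hx => hfix x (hE₁ hx)⟩
  · intro ℓ hℓ hℓM hℓp A hA τ hτ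
    obtain ⟨a, ha, hc⟩ := hatt ℓ hℓ hℓM (hne ℓ hℓ hℓp) A hA τ hτ
    exact ⟨a, ha, trace_of_charpoly ρ.finrank_eq _ _ _ hc⟩
  · intro ℓ hℓ hℓM hℓp A hA τ hτ
    obtain ⟨a, ha, hc⟩ := hatt ℓ hℓ hℓM (hne ℓ hℓ hℓp) A hA τ hτ
    exact det_of_charpoly ρ.finrank_eq _ _ _ hc


theorem s42_of_strongS30 (h : StrongS30Statement) : S42Statement :=
  s42_of_s29 (s29_of_strongS30 h)

end Fermat.Agent.P3.helper54
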