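import Fermat.Agent.P3.Interface3
import Fermat.Agent.P3.helper64_TraceT
import Fermat.Agent.P3.helper40_Cheb
import Fermat.Agent.P3.helper24_Zp
import Fermat.Agent.P3.helper24_Cyclo

/-!
# P3 / [TRACE-T] (helper64): final form

`traceUnramified_of_tate : TateAtGoodLevels → TraceUnramifiedStatement`, i.e. [TRACE-T] is
conditional only on the existence of the Tate data at the auxiliary levels `4N` and `9N`
([CHEB], [PSEUDO-U], [CYC], [ZP] are on main unconditionally).
-/

set_option autoImplicit false

namespace Fermat.Agent.P3.helper64

open Fermat.Agent.P3

/-- **[TRACE-T]** from the Tate data at the levels `4N` and `9N` alone. -/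
theorem traceUnramified_of_tate (hTate : TateAtGoodLevels) : TraceUnramifiedStatement :=
  traceUnramified_of hTate (helper98.pseudoUniv helper40.chebStatement) helper40.chebStatement
    helper24.cyclo helper24.zpAlgebra

end Fermat.Agent.P3.helper64
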