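import Fermat.Agent.P3.Interface

/-!
# P3 [PSEUDO]: the central-trace trick (`ChebStatement → PseudoStatement`)

If the Frobenius lifts at almost all primes satisfy `X² - a_ℓ X + ℓ` on a nonzero finite free
lattice over a complete local ring, then every `s ∈ G_ℚ` satisfies `X² - t(s) X + d(s)`,
where `d` is the cyclotomic character.

Steps:
* `frob_pow_rootOfUnity` : a Frobenius lift at `ℓ` raises roots of unity of order prime to `ℓ`
  to the power `ℓ`;
* `exists_quad_pow` : `y² - a y + c = 0` implies `(y^j)² - t y^j + c^j = 0` for some scalar `t`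
  (conjugate root `z = a - y`, `y^j + z^j` is a scalar);
* `IsSmall` : the two-sided ideal of endomorphisms with image in `𝔪^n L`; uniqueness of the
  middle coefficient modulo `𝔪^n`; limit by completeness.
-/

set_option autoImplicit false

noncomputable section

namespace Fermat.Agent.P3.helper65

open IsLocalRing

/-! ## 1. Frobenius lifts on roots of unity -/

/-- The Frobenius congruence in valuation form. -/
theorem frob_valuation_lt_one (A : ValuationSubring Qbar) {ℓ : ℕ} {σ : GQ}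
    (hσ : A.IsFrobeniusAt σ ℓ) {a : Qbar} (ha : a ∈ A) : A.valuation (σ a - a ^ ℓ) < 1 := by
  have h1 := hσ.smul_residue_eq (IsLocalRing.residue A ⟨a, ha⟩)
  rw [← IsLocalRing.ResidueField.residue_smul, ← map_pow, ← sub_eq_zero, ← map_sub,
    IsLocalRing.residue_eq_zero_iff, A.valuation_lt_one_iff] at h1
  exact h1

theorem valuation_intCast_le_one (A : ValuationSubring Qbar) (n : ℤ) :
    A.valuation (n : Qbar) ≤ 1 :=
  (A.valuation_le_one_iff _).mpr (intCast_mem A n)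

theorem valuation_eq_one_of_pow_eq_one (A : ValuationSubring Qbar) {N : ℕ} (hN : N ≠ 0)
    {η : Qbar} (hη : η ^ N = 1) : A.valuation η = 1 := by
  have h : A.valuation η ^ N = 1 := by rw [← map_pow, hη, map_one]
  exact (pow_eq_one_iff_left hN).mp h

/-- An `N`-th root of unity congruent to `1` modulo a place over `ℓ`, `ℓ` prime to `N`,
is `1`. -/
theorem eq_one_of_valuation_sub_lt_one (A : ValuationSubring Qbar) {ℓ N : ℕ}
    (hA : A.LiesOverPrime ℓ) (hN : Nat.Coprime N ℓ) {u : Qbar} (hu : u ^ N = 1)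
    (h : A.valuation (u - 1) < 1) : u = 1 := by
  have hℓ : A.valuation (ℓ : Qbar) < 1 := by
    have := hA
    rwa [ValuationSubring.LiesOverPrime, A.mem_nonunits_iff] at this
  have hN0 : N ≠ 0 := by
    rintro rfl
    rw [Nat.coprime_zero_left] at hN
    subst hN
    simp at hℓ
  have hvu : A.valuation u = 1 := valuation_eq_one_of_pow_eq_one A hN0 hu
  by_contra hne
  have hsum : ∑ i ∈ Finset.range N, u ^ i = 0 := by
    have h1 := mul_geom_sum u N
    rw [hu, sub_self] at h1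
    rcases mul_eq_zero.mp h1 with h2 | h2
    · exact absurd (sub_eq_zero.mp h2) hne
    · exact h2
  -- each `u ^ i - 1` is small
  have hsmall : ∀ i : ℕ, A.valuation (u ^ i - 1) < 1 := by
    intro i
    rw [← mul_geom_sum, map_mul]
    have h2 : A.valuation (∑ k ∈ Finset.range i, u ^ k) ≤ 1 := by
      apply Valuation.map_sum_le
      intro k _
      rw [map_pow, hvu, one_pow]
    calc A.valuation (u - 1) * A.valuation (∑ k ∈ Finset.range i, u ^ k)
        ≤ A.valuation (u - 1) * 1 := by gcongr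
      _ < 1 := by rwa [mul_one]
  have hNv : A.valuation (N : Qbar) < 1 := by
    have h3 : (N : Qbar) = - ∑ i ∈ Finset.range N, (u ^ i - 1) := by
      rw [Finset.sum_sub_distrib, hsum]
      simp
    rw [h3, Valuation.map_neg]
    exact Valuation.map_sum_lt _ one_ne_zero (fun i _ => hsmall i)
  have hbez := Nat.gcd_eq_gcd_ab N ℓ
  rw [Nat.Coprime] at hN
  rw [hN] at hbez
  have h4 : (1 : Qbar) = (N : Qbar) * ((N.gcdA ℓ : ℤ) : Qbar) + (ℓ : Qbar) * ((N.gcdB ℓ : ℤ) : Qbar) := by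
    have := congrArg (Int.cast : ℤ → Qbar) hbez
    push_cast at this
    exact this
  have h5 : A.valuation (1 : Qbar) < 1 := by
    rw [h4]
    apply Valuation.map_add_lt
    · rw [map_mul]
      calc A.valuation (N : Qbar) * A.valuation ((N.gcdA ℓ : ℤ) : Qbar)
          ≤ A.valuation (N : Qbar) * 1 := by gcongr; exact valuation_intCast_le_one A _
        _ < 1 := by rwa [mul_one]
    · rw [map_mul]
      calc A.valuation (ℓ : Qbar) * A.valuation ((N.gcdB ℓ : ℤ) : Qbar)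
          ≤ A.valuation (ℓ : Qbar) * 1 := by gcongr; exact valuation_intCast_le_one A _
        _ < 1 := by rwa [mul_one]
  rw [map_one] at h5
  exact lt_irrefl _ h5

/-- A Frobenius lift at a place over `ℓ` raises every root of unity of order prime to `ℓ` to
the power `ℓ`. -/
theorem frob_rootOfUnity (A : ValuationSubring Qbar) {ℓ N : ℕ} (hA : A.LiesOverPrime ℓ)
    (hN : Nat.Coprime N ℓ) {φ : GQ} (hφ : A.IsFrobeniusAt φ ℓ) (ζ : Qbar) (hζ : ζ ^ N = 1) :
    φ ζ = ζ ^ ℓ := by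
  have hℓ : A.valuation (ℓ : Qbar) < 1 := by
    have := hA
    rwa [ValuationSubring.LiesOverPrime, A.mem_nonunits_iff] at this
  have hN0 : N ≠ 0 := by
    rintro rfl
    rw [Nat.coprime_zero_left] at hN
    subst hN
    simp at hℓ
  have hvζ : A.valuation ζ = 1 := valuation_eq_one_of_pow_eq_one A hN0 hζ
  have hζA : ζ ∈ A := (A.valuation_le_one_iff _).mp hvζ.le
  have h1 := frob_valuation_lt_one A hφ hζA
  have hζ0 : ζ ≠ 0 := by
    rintro rfl
    rw [zero_pow hN0] at hζ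
    exact zero_ne_one hζ
  set η : Qbar := ζ ^ ℓ with hη
  have hη0 : η ≠ 0 := pow_ne_zero _ hζ0
  have hηN : η ^ N = 1 := by rw [hη, ← pow_mul, mul_comm, pow_mul, hζ, one_pow]
  have hφN : (φ ζ) ^ N = 1 := by rw [← map_pow, hζ, map_one]
  have hvη : A.valuation η = 1 := valuation_eq_one_of_pow_eq_one A hN0 hηN
  have hu : (φ ζ * η⁻¹) ^ N = 1 := by rw [mul_pow, inv_pow, hφN, hηN, inv_one, mul_one]
  have h2 : A.valuation (φ ζ * η⁻¹ - 1) < 1 := by
    have h3 : φ ζ * η⁻¹ - 1 = (φ ζ - η) * η⁻¹ := by field_simp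
    rw [h3, map_mul, map_inv₀, hvη, inv_one, mul_one]
    exact h1
  have h4 := eq_one_of_valuation_sub_lt_one A hA hN hu h2
  field_simp at h4
  exact h4

theorem frob_pow_rootOfUnity (A : ValuationSubring Qbar) {ℓ N : ℕ} (hA : A.LiesOverPrime ℓ)
    (hN : Nat.Coprime N ℓ) {φ : GQ} (hφ : A.IsFrobeniusAt φ ℓ) (j : ℕ) (ζ : Qbar)
    (hζ : ζ ^ N = 1) : (φ ^ j) ζ = ζ ^ (ℓ ^ j) := by
  induction j with
  | zero => simp
  | succ j ih =>
    rw [pow_succ', AlgEquiv.mul_apply, ih]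
    have h1 : (ζ ^ ℓ ^ j) ^ N = 1 := by rw [← pow_mul, mul_comm, pow_mul, hζ, one_pow]
    rw [frob_rootOfUnity A hA hN hφ _ h1, ← pow_mul, pow_succ]

/-! ## 2. Powers of a root of a quadratic -/

section Quad

variable {R E : Type*} [CommRing R] [Ring E] [Algebra R E]

/-- If `y² - a y + c = 0`, then with `z = a - y` the power sums `y^j + z^j` are scalars. -/
theorem exists_pow_add_pow (y : E) (a c : R)
    (h : y * y - a • y + c • (1 : E) = 0) (j : ℕ) :
    ∃ t : R, y ^ j + (a • (1 : E) - y) ^ j = t • (1 : E) ∧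
      ∃ t' : R, y ^ (j + 1) + (a • (1 : E) - y) ^ (j + 1) = t' • (1 : E) := by
  have hyz : y * (a • (1 : E) - y) = c • (1 : E) := by
    have : y * (a • (1 : E) - y) = - (y * y - a • y + c • (1 : E)) + c • (1 : E) := by
      rw [mul_sub, mul_smul_comm, mul_one]; abel
    rw [this, h, neg_zero, zero_add]
  have hcomm : Commute y (a • (1 : E) - y) :=
    ((Commute.one_right y).smul_right a).sub_right (Commute.refl y)
  induction j with
  | zero =>
    refine ⟨2, ?_, a, ?_⟩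
    · rw [pow_zero, pow_zero, two_smul]
    · rw [zero_add, pow_one, pow_one]; abel
  | succ j ih =>
    obtain ⟨t, ht, t', ht'⟩ := ih
    refine ⟨t', ht', a * t' - c * t, ?_⟩
    set z : E := a • (1 : E) - y with hz
    have h1 : (y + z) * (y ^ (j + 1) + z ^ (j + 1)) =
        y ^ (j + 1 + 1) + z ^ (j + 1 + 1) + (y * z) * (y ^ j + z ^ j) := by
      have e1 : z * y ^ (j + 1) = (y * z) * y ^ j := by
        rw [pow_succ', ← mul_assoc, hcomm.eq]
      have e2 : y * z ^ (j + 1) = (y * z) * z ^ j := by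
        rw [pow_succ', ← mul_assoc]
      rw [add_mul, mul_add, mul_add, e1, e2, mul_add, ← pow_succ', ← pow_succ']
      abel
    have h2 : y + z = a • (1 : E) := by rw [hz]; abel
    rw [h2, ht', hyz, ht] at h1
    have h3 : y ^ (j + 1 + 1) + z ^ (j + 1 + 1) =
        a • (1 : E) * t' • (1 : E) - c • (1 : E) * t • (1 : E) := by
      rw [h1]; abel
    rw [h3, sub_smul, mul_smul, mul_smul]
    simp only [smul_mul_assoc, one_mul]

/-- If `y² - a y + c = 0`, then `(y^j)² - t y^j + c^j = 0` for some scalar `t`. -/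
theorem exists_quad_pow (y : E) (a c : R)
    (h : y * y - a • y + c • (1 : E) = 0) (j : ℕ) :
    ∃ t : R, y ^ j * y ^ j - t • y ^ j + (c ^ j) • (1 : E) = 0 := by
  have hyz : y * (a • (1 : E) - y) = c • (1 : E) := by
    have : y * (a • (1 : E) - y) = - (y * y - a • y + c • (1 : E)) + c • (1 : E) := by
      rw [mul_sub, mul_smul_comm, mul_one]; abel
    rw [this, h, neg_zero, zero_add]
  have hcomm : Commute y (a • (1 : E) - y) :=
    ((Commute.one_right y).smul_right a).sub_right (Commute.refl y)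
  obtain ⟨t, ht, -⟩ := exists_pow_add_pow y a c h j
  refine ⟨t, ?_⟩
  have h1 : t • y ^ j = (y ^ j + (a • (1 : E) - y) ^ j) * y ^ j := by
    rw [ht, smul_mul_assoc, one_mul]
  have h2 : (c ^ j) • (1 : E) = y ^ j * (a • (1 : E) - y) ^ j := by
    rw [← hcomm.mul_pow, hyz, smul_pow, one_pow]
  rw [h1, h2, add_mul, (hcomm.pow_pow j j).eq]
  abel

end Quad

/-! ## 3. Endomorphisms with image in `I L` -/

section Small

variable {𝒪 : Type} [CommRing 𝒪] {L : Type} [AddCommGroup L] [Module 𝒪 L]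

/-- `f` maps `L` into `I L`. -/
def IsSmall (I : Ideal 𝒪) (f : Module.End 𝒪 L) : Prop :=
  ∀ v : L, f v ∈ I • (⊤ : Submodule 𝒪 L)

theorem IsSmall.mono {I J : Ideal 𝒪} (hIJ : I ≤ J) {f : Module.End 𝒪 L} (h : IsSmall I f) :
    IsSmall J f :=
  fun v => Submodule.smul_mono_left hIJ (h v)

theorem isSmall_zero (I : Ideal 𝒪) : IsSmall I (0 : Module.End 𝒪 L) :=
  fun _ => Submodule.zero_mem _

theorem IsSmall.add {I : Ideal 𝒪} {f g : Module.End 𝒪 L} (hf : IsSmall I f)
    (hg : IsSmall I g) : IsSmall I (f + g) :=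
  fun v => Submodule.add_mem _ (hf v) (hg v)

theorem IsSmall.neg {I : Ideal 𝒪} {f : Module.End 𝒪 L} (hf : IsSmall I f) : IsSmall I (-f) :=
  fun v => Submodule.neg_mem _ (hf v)

theorem IsSmall.sub {I : Ideal 𝒪} {f g : Module.End 𝒪 L} (hf : IsSmall I f)
    (hg : IsSmall I g) : IsSmall I (f - g) :=
  fun v => Submodule.sub_mem _ (hf v) (hg v)

theorem IsSmall.smul {I : Ideal 𝒪} {f : Module.End 𝒪 L} (hf : IsSmall I f) (c : 𝒪) :
    IsSmall I (c • f) :=
  fun v => Submodule.smul_mem _ c (hf v)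

theorem IsSmall.mul_right {I : Ideal 𝒪} {f : Module.End 𝒪 L} (hf : IsSmall I f)
    (g : Module.End 𝒪 L) : IsSmall I (f * g) :=
  fun v => hf (g v)

theorem map_mem_smul_top {I : Ideal 𝒪} {M : Type*} [AddCommGroup M] [Module 𝒪 M]
    (g : L →ₗ[𝒪] M) {x : L} (hx : x ∈ I • (⊤ : Submodule 𝒪 L)) :
    g x ∈ I • (⊤ : Submodule 𝒪 M) := by
  refine Submodule.smul_induction_on (p := fun x => g x ∈ I • (⊤ : Submodule 𝒪 M)) hx ?_ ?_
  · intro r hr n _
    rw [map_smul]
    exact Submodule.smul_mem_smul hr Submodule.mem_top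
  · intro x y hx hy
    rw [map_add]
    exact Submodule.add_mem _ hx hy

theorem IsSmall.mul_left {I : Ideal 𝒪} {f : Module.End 𝒪 L} (hf : IsSmall I f)
    (g : Module.End 𝒪 L) : IsSmall I (g * f) :=
  fun v => map_mem_smul_top g (hf v)

theorem isSmall_smul_of_mem {I : Ideal 𝒪} {c : 𝒪} (hc : c ∈ I) (f : Module.End 𝒪 L) :
    IsSmall I (c • f) :=
  fun _ => Submodule.smul_mem_smul hc Submodule.mem_top

theorem functional_mem {I : Ideal 𝒪} (g : L →ₗ[𝒪] 𝒪) {x : L}
    (hx : x ∈ I • (⊤ : Submodule 𝒪 L)) : g x ∈ I := by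
  have h := map_mem_smul_top g hx
  rwa [smul_eq_mul, Ideal.mul_top] at h

/-- On a nonzero free module, a scalar which maps `L` into `I L` lies in `I`. -/
theorem mem_of_isSmall_smul_one [Module.Free 𝒪 L] [Nontrivial L] {I : Ideal 𝒪} {c : 𝒪}
    (h : IsSmall I (c • (1 : Module.End 𝒪 L))) : c ∈ I := by
  classical
  let b := Module.Free.chooseBasis 𝒪 L
  obtain ⟨i⟩ : Nonempty (Module.Free.ChooseBasisIndex 𝒪 L) := b.index_nonempty
  have h1 := functional_mem (b.coord i) (h (b i))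
  simpa using h1

/-- On a free module over a Hausdorff ring, an endomorphism with image in all `I^n L` is 0. -/
theorem eq_zero_of_forall_isSmall [Module.Free 𝒪 L] {I : Ideal 𝒪} [IsHausdorff I 𝒪]
    {f : Module.End 𝒪 L} (h : ∀ n : ℕ, IsSmall (I ^ n) f) : f = 0 := by
  classical
  let b := Module.Free.chooseBasis 𝒪 L
  ext v
  rw [LinearMap.zero_apply]
  apply b.repr.injective
  ext i
  rw [map_zero, Finsupp.zero_apply]
  apply IsHausdorff.haus (I := I) (M := 𝒪) inferInstance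
  intro n
  rw [SModEq.zero, smul_eq_mul, Ideal.mul_top]
  exact functional_mem (b.coord i) (h n v)

end Small


/-! ## 4. The central-trace trick -/

section Main

variable {𝒪 : Type} [CommRing 𝒪] [IsLocalRing 𝒪] {L : Type} [AddCommGroup L] [Module 𝒪 L]

omit [IsLocalRing 𝒪] in
/-- Uniqueness of the middle coefficient modulo `I`. -/
theorem sub_mem_of_isSmall [Module.Free 𝒪 L] [Nontrivial L] {I : Ideal 𝒪}
    {f g : Module.End 𝒪 L} (hfg : f * g = 1) {c t t' : 𝒪}
    (h : IsSmall I (f * f - t • f + c • (1 : Module.End 𝒪 L)))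
    (h' : IsSmall I (f * f - t' • f + c • (1 : Module.End 𝒪 L))) : t - t' ∈ I := by
  have h1 : IsSmall I ((t - t') • f) := by
    have e : (t - t') • f = (f * f - t' • f + c • (1 : Module.End 𝒪 L)) -
        (f * f - t • f + c • (1 : Module.End 𝒪 L)) := by
      rw [sub_smul]; abel
    rw [e]
    exact h'.sub h
  have h2 : IsSmall I ((t - t') • (1 : Module.End 𝒪 L)) := by
    have e : (t - t') • (1 : Module.End 𝒪 L) = ((t - t') • f) * g := by
      rw [smul_mul_assoc, hfg]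
    rw [e]
    exact h1.mul_right g
  exact mem_of_isSmall_smul_one h2

/-- The approximate quadratic relation modulo `𝔪^n` for every `s`. -/
theorem exists_approx (hcheb : ChebStatement) (p : ℕ) [Fact p.Prime]
    (hp : (p : 𝒪) ∈ maximalIdeal 𝒪)
    (r : GQ →* Module.End 𝒪 L) (hr : GaloisActionIsAdicContinuous 𝒪 r)
    (d : GQ →* 𝒪ˣ) (hd : IsCycloChar p d) (hdc : IsAdicContinuousChar d)
    (Bad : Finset ℕ) (a : ℕ → 𝒪)
    (hfrob : ∀ ℓ : ℕ, ℓ.Prime → ℓ ∉ Bad → ∀ A : ValuationSubring Qbar, A.LiesOverPrime ℓ →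
        ∀ φ : GQ, A.IsFrobeniusAt φ ℓ →
          r φ * r φ - a ℓ • r φ + (ℓ : 𝒪) • (1 : Module.End 𝒪 L) = 0)
    (s : GQ) (n : ℕ) :
    ∃ t : 𝒪, IsSmall (maximalIdeal 𝒪 ^ n)
      (r s * r s - t • r s + (d s : 𝒪) • (1 : Module.End 𝒪 L)) := by
  classical
  obtain ⟨K₁, hK₁, h₁⟩ := hr n
  obtain ⟨K₂, hK₂, h₂⟩ := hdc n
  have := hK₁
  have := hK₂
  obtain ⟨ℓ, hℓ, hℓBad, A, hA, φ, hφ, j, hj⟩ :=
    hcheb (K₁ ⊔ K₂) inferInstance s (insert p Bad)
  have hℓp : ℓ ≠ p := fun h => hℓBad (h ▸ Finset.mem_insert_self _ _)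
  have hℓB : ℓ ∉ Bad := fun h => hℓBad (Finset.mem_insert_of_mem h)
  -- the correction `σ`
  set σ : GQ := s⁻¹ * φ ^ j with hσ
  have hσfix : ∀ x ∈ K₁ ⊔ K₂, σ x = x := by
    intro x hx
    rw [hσ, AlgEquiv.mul_apply, hj x hx]
    exact AlgEquiv.symm_apply_apply s x
  have hφj : φ ^ j = s * σ := by rw [hσ, mul_inv_cancel_left]
  have hsm₁ : IsSmall (maximalIdeal 𝒪 ^ n) (r σ - 1) := by
    intro v
    have := h₁ σ (fun x hx => hσfix x ((le_sup_left : K₁ ≤ K₁ ⊔ K₂) hx)) v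
    simpa using this
  have hsm₂ : ((d σ : 𝒪) - 1) ∈ maximalIdeal 𝒪 ^ n :=
    h₂ σ (fun x hx => hσfix x ((le_sup_right : K₂ ≤ K₁ ⊔ K₂) hx))
  -- the cyclotomic character on `φ ^ j`
  have hcop : Nat.Coprime (p ^ n) ℓ :=
    Nat.Coprime.pow_left n ((Nat.coprime_primes (Fact.out : p.Prime) hℓ).mpr (Ne.symm hℓp))
  have hdφ : ((d (φ ^ j) : 𝒪) - ((ℓ ^ j : ℕ) : 𝒪)) ∈ maximalIdeal 𝒪 ^ n := by
    have h3 := hd n (φ ^ j) (ℓ ^ j)
      (fun ζ hζ => frob_pow_rootOfUnity A hA hcop hφ j ζ hζ)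
    have h4 : Ideal.span {(p : 𝒪) ^ n} ≤ maximalIdeal 𝒪 ^ n := by
      rw [← Ideal.span_singleton_pow]
      exact Ideal.pow_right_mono ((Ideal.span_singleton_le_iff_mem _).mpr hp) n
    exact h4 h3
  -- the quadratic relation for `Y = r (φ ^ j)`
  obtain ⟨t, ht⟩ := exists_quad_pow (r φ) (a ℓ) (ℓ : 𝒪) (hfrob ℓ hℓ hℓB A hA φ hφ) j
  rw [← map_pow, hφj, map_mul] at ht
  refine ⟨t, ?_⟩
  set f := r s with hf
  set e : Module.End 𝒪 L := f * (r σ - 1) with he
  have hes : IsSmall (maximalIdeal 𝒪 ^ n) e := hsm₁.mul_left f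
  have hY : f * r σ = f + e := by rw [he, mul_sub, mul_one]; abel
  rw [hY] at ht
  have hc : ((d s : 𝒪) - (ℓ : 𝒪) ^ j) ∈ maximalIdeal 𝒪 ^ n := by
    have e1 : (d s : 𝒪) - (ℓ : 𝒪) ^ j =
        ((d (φ ^ j) : 𝒪) - ((ℓ ^ j : ℕ) : 𝒪)) - (d s : 𝒪) * ((d σ : 𝒪) - 1) := by
      rw [hφj, map_mul, Units.val_mul]
      push_cast
      ring
    rw [e1]
    exact Ideal.sub_mem _ hdφ (Ideal.mul_mem_left _ _ hsm₂)
  have key : f * f - t • f + (d s : 𝒪) • (1 : Module.End 𝒪 L) =
      ((d s : 𝒪) - (ℓ : 𝒪) ^ j) • (1 : Module.End 𝒪 L) + t • e - (f * e + e * f + e * e) := by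
    have e2 : f * f - t • f + (d s : 𝒪) • (1 : Module.End 𝒪 L) =
        (f * f - t • f + (d s : 𝒪) • (1 : Module.End 𝒪 L)) -
          ((f + e) * (f + e) - t • (f + e) + (ℓ : 𝒪) ^ j • (1 : Module.End 𝒪 L)) := by
      rw [ht, sub_zero]
    rw [e2, sub_smul, smul_add, add_mul, mul_add, mul_add]
    abel
  rw [key]
  exact ((isSmall_smul_of_mem hc 1).add (hes.smul t)).sub
    (((hes.mul_left f).add (hes.mul_right f)).add (hes.mul_right e))

/-- **[PSEUDO]** from weak Chebotarev. -/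
theorem pseudo (hcheb : ChebStatement) : PseudoStatement := by
  intro p _ 𝒪 _ _ _ _ _ hp L _ _ _ _ _ r hr d hd hdc Bad a hfrob
  have key := exists_approx hcheb p hp r hr d hd hdc Bad a hfrob
  choose T hT using key
  have hinv : ∀ s : GQ, r s * r s⁻¹ = 1 := fun s => by rw [← map_mul, mul_inv_cancel, map_one]
  -- the approximations are compatible
  have hcauchy : ∀ (s : GQ) {m n : ℕ}, m ≤ n →
      T s m ≡ T s n [SMOD (maximalIdeal 𝒪 ^ m • ⊤ : Submodule 𝒪 𝒪)] := by
    intro s m n hmn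
    rw [SModEq.sub_mem, smul_eq_mul, Ideal.mul_top]
    exact sub_mem_of_isSmall (hinv s) (hT s m) ((hT s n).mono (Ideal.pow_le_pow_right hmn))
  have hlim : ∀ s : GQ, ∃ t : 𝒪, ∀ n : ℕ, T s n - t ∈ maximalIdeal 𝒪 ^ n := by
    intro s
    obtain ⟨t, ht⟩ := IsPrecomplete.prec (I := maximalIdeal 𝒪) (M := 𝒪) inferInstance
      (fun {m n} hmn => hcauchy s hmn)
    refine ⟨t, fun n => ?_⟩
    have := ht n
    rwa [SModEq.sub_mem, smul_eq_mul, Ideal.mul_top] at this
  choose t ht using hlim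
  refine ⟨t, fun s => ?_⟩
  apply eq_zero_of_forall_isSmall (I := maximalIdeal 𝒪)
  intro n
  have e : r s * r s - t s • r s + (d s : 𝒪) • (1 : Module.End 𝒪 L) =
      (r s * r s - T s n • r s + (d s : 𝒪) • (1 : Module.End 𝒪 L)) + (T s n - t s) • r s := by
    rw [sub_smul]; abel
  rw [e]
  exact (hT s n).add (isSmall_smul_of_mem (ht s n) _)

end Main

end Fermat.Agent.P3.helper65

end
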