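import Fermat.Agent.P3.helper1_TateAssembly

/-!
# P3 [TATE-GEOM] (helper67, task 641): the Tate datum with its link to `J₀(M)` exposed

`TateDatum` (the output of [TATE-2]) forgets that `Λ` is the Tate module of `J₀(M)`.
`TateGeom` extends it by the projections `proj n : Λ → J₀(M)[p^n]` together with their
compatibility with the Galois action, the Hecke operators and the `ℤ_p`-module structure.

* `tateGeom_of` : same hypotheses as `TateAssemblyStatement2` give `Nonempty (TateGeom ..)`;
* `TateGeom.Lifts E e` : the endomorphism `E` of `Λ` lifts the additive endomorphism `e` of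
  `J₀(M)` (closed under `1`, `*`, `+`, `-`, integer multiples, Galois, Hecke);
* `TateGeom.eq_zero_of_lifts` : **transfer principle** - if `e` kills the `p`-power torsion of
  `J₀(M)` then `E = 0`;
* `TateGeom.cut f` : the `ℤ_p`-submodule of `Λ` cut out by additive maps `f i` out of `J₀(M)`,
  and the relative transfer principle `TateGeom.apply_eq_zero_of_lifts_of_mem_cut`;
* `TateGeom.sq_eq_zero_of_torsion` : `(r s - 1)² = 0` on `Λ` as soon as `(s - 1)² = 0` on the
  `p`-power torsion (the shape needed for S34).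
-/

set_option autoImplicit false
set_option linter.style.haveILetI false

noncomputable section

namespace Fermat.Agent.P3.helper67

open ModularCurve Fermat.Agent.P3 Fermat.Agent.P3.helper1

/-- **The Tate datum of level `M` with the projections to the torsion of `J₀(M)`.** -/
structure TateGeom (p : ℕ) [Fact p.Prime] (N : ℕ) [NeZero N] (S : Finset ℕ) (M : ℕ) [NeZero M]
    (hNM : N ∣ M) extends TateDatum p N S M hNM where
  /-- the projection of the Tate module to the `p^n`-torsion of `J₀(M)` -/
  proj : ℕ → Λ →+ JZero M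
  pow_smul_proj : ∀ (n : ℕ) (v : Λ), p ^ n • proj n v = 0
  smul_proj_succ : ∀ (n : ℕ) (v : Λ), p • proj (n + 1) v = proj n v
  eq_zero_of_proj : ∀ v : Λ, (∀ n, proj n v = 0) → v = 0
  exists_smul_of_proj_eq_zero : ∀ (n : ℕ) (v : Λ), proj n v = 0 →
    ∃ w : Λ, v = (p : ℤ_[p]) ^ n • w
  exists_proj_eq : ∀ x : ℕ → JZero M, (∀ n, p ^ n • x n = 0) → (∀ n, p • x (n + 1) = x n) →
    ∃ v : Λ, ∀ n, proj n v = x n
  proj_r : ∀ (n : ℕ) (g : GQ) (v : Λ), proj n (r g v) = g • proj n v
  proj_τ : ∀ (n : ℕ) (ℓ : GoodPrime p M S) (v : Λ),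
    proj n (τ ℓ • v) = heckeOperatorBar M ℓ.toPrimes (proj n v)

/-- **[TATE-GEOM]** (statement form): same hypotheses as `TateAssemblyStatement2`. -/
def TateGeomAssemblyStatement : Prop :=
  ∀ (p : ℕ) [Fact p.Prime] (N : ℕ) [NeZero N] (S : Finset ℕ) (M : ℕ) [NeZero M] (hNM : N ∣ M),
    p ∈ S → P2CoreStatement M p → GalHeckeCommStatement M → TorsionContinuityStatement M →
      FiniteTorsionStatement M p → KappaStatement p N M S hNM → Nonempty (TateGeom p N S M hNM)

set_option maxHeartbeats 1600000 in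
/-- **[TATE-GEOM]** the Tate datum with its projections, from P2-CORE, Galois-Hecke commutation,
continuity, finiteness of the `p`-torsion and `κ`. -/
theorem tateGeomAssembly : TateGeomAssemblyStatement := by
  intro p _ N _ S M _ hNM _ hP2 hG hC hF hK
  obtain ⟨X, iX1, iX2, iX3, Tst, κ, h1, h2, h3, h4, h5⟩ := hK
  have hfin1 : Finite (nsmulAddMonoidHom (α := JZero M) (p ^ 1)).ker := hF
  let T : TateModel p (JZero M) := Fermat.Agent.P3.helper44.tateModel p (JZero M) hfin1
  have hfin := Fermat.Agent.P3.helper44.finite_torsion_pow p (JZero M) hfin1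
  letI : CommRing (heckeSub S T) := heckeSubCommRing S T hP2 hG
  refine ⟨{ Λ := T.Λ
            𝔸 := heckeSub S T
            r := galRep T
            τ := tauGen S T
            isAdicContinuous := galRep_isAdicContinuous T hC hfin
            smul_faithful := heckeSub_smul_faithful S T
            adjoin_τ := adjoin_tauGen S T
            r_smul := fun g a v => galRep_heckeSub S T hG g a v
            unramified := fun ℓ hℓ hℓM A hA σ hσ =>
              galRep_unramified T hP2 ℓ hℓ hℓM A hA σ hσ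
            frobenius := fun ℓ A hA φ hφ v => galRep_frobenius S T hP2 ℓ A hA φ hφ v
            faithful := ?_
            proj := T.proj
            pow_smul_proj := T.pow_smul_proj
            smul_proj_succ := T.smul_proj_succ
            eq_zero_of_proj := T.eq_zero_of_proj
            exists_smul_of_proj_eq_zero := T.exists_smul_of_proj_eq_zero
            exists_proj_eq := T.exists_proj_eq
            proj_r := ?_
            proj_τ := ?_ }⟩
  rotate_left
  · intro n g v
    exact proj_galRep T g n v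
  · intro n ℓ v
    exact proj_tauEnd T ℓ.toPrimes n v
  intro R _ _ π P hP
  refine faithful_of_kappa T Tst κ h1 h2 h3 h4 hNM h5 R π P fun v => ?_
  have h0 : ((MvPolynomial.aeval (tauGen S T) P : heckeSub S T) :
      Module.End ℤ_[p] T.Λ) v = 0 := by
    rw [hP]
    rfl
  rw [aeval_eq_sum_words] at h0
  rw [← h0]
  rw [AddSubmonoidClass.coe_finsetSum, LinearMap.sum_apply]
  refine Finset.sum_congr rfl fun m _ => ?_
  rw [MulMemClass.coe_mul, coe_list_prod_tauGen, Module.End.mul_apply]
  rfl

/-- **[TATE-GEOM]**, explicit form. -/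
theorem tateGeom_of (p : ℕ) [Fact p.Prime] (N : ℕ) [NeZero N] (S : Finset ℕ) (M : ℕ) [NeZero M]
    (hNM : N ∣ M) (hpS : p ∈ S) (hP2 : P2CoreStatement M p) (hG : GalHeckeCommStatement M)
    (hC : TorsionContinuityStatement M) (hF : FiniteTorsionStatement M p)
    (hK : KappaStatement p N M S hNM) : Nonempty (TateGeom p N S M hNM) :=
  tateGeomAssembly p N S M hNM hpS hP2 hG hC hF hK

/-- The geometric Tate datum gives back `TateStatement`. -/
theorem tateStatement_of_tateGeom {p : ℕ} [Fact p.Prime] {N : ℕ} [NeZero N] {S : Finset ℕ}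
    {M : ℕ} [NeZero M] {hNM : N ∣ M} (h : Nonempty (TateGeom p N S M hNM)) :
    TateStatement p N S M hNM :=
  h.elim fun D => ⟨D.toTateDatum⟩

/-! ## The transfer principle -/

namespace TateGeom

variable {p : ℕ} [Fact p.Prime] {N : ℕ} [NeZero N] {S : Finset ℕ} {M : ℕ} [NeZero M]
  {hNM : N ∣ M} (D : TateGeom p N S M hNM)

/-- The underlying abstract Tate model of `J₀(M)`. -/
def toTateModel : TateModel p (JZero M) where
  Λ := D.Λ
  proj := D.proj
  pow_smul_proj := D.pow_smul_proj
  smul_proj_succ := D.smul_proj_succ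
  eq_zero_of_proj := D.eq_zero_of_proj
  exists_smul_of_proj_eq_zero := D.exists_smul_of_proj_eq_zero
  exists_proj_eq := D.exists_proj_eq

theorem ext_proj {v w : D.Λ} (h : ∀ n, D.proj n v = D.proj n w) : v = w :=
  D.toTateModel.ext_proj h

theorem isPTors_proj (n : ℕ) (v : D.Λ) : IsPTors p (D.proj n v) := ⟨n, D.pow_smul_proj n v⟩

theorem proj_eq_zero_iff (n : ℕ) (v : D.Λ) :
    D.proj n v = 0 ↔ ∃ w : D.Λ, v = (p : ℤ_[p]) ^ n • w :=
  D.toTateModel.proj_eq_zero_iff n v

theorem proj_smul_appr (n : ℕ) (a : ℤ_[p]) (v : D.Λ) :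
    D.proj n (a • v) = a.appr n • D.proj n v :=
  D.toTateModel.proj_smul_appr n a v

theorem proj_natCast_smul (n : ℕ) (c : ℕ) (v : D.Λ) :
    D.proj n ((c : ℤ_[p]) • v) = c • D.proj n v :=
  D.toTateModel.proj_natCast_smul n c v

theorem proj_intCast_smul (n : ℕ) (c : ℤ) (v : D.Λ) :
    D.proj n ((c : ℤ_[p]) • v) = c • D.proj n v :=
  D.toTateModel.proj_intCast_smul n c v

/-- `proj n` is onto the `p^n`-torsion as soon as the `p`-power torsion of `J₀(M)` is
`p`-divisible. -/
theorem exists_proj_eq_of_divisible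
    (hdiv : ∀ x : JZero M, IsPTors p x → ∃ y : JZero M, p • y = x)
    (n : ℕ) (x : JZero M) (hx : p ^ n • x = 0) : ∃ v : D.Λ, D.proj n v = x := by
  classical
  -- a `p`-divisible tower above `x`
  have hdiv' : ∀ x : JZero M, IsPTors p x → ∃ y : JZero M, IsPTors p y ∧ p • y = x := by
    intro x hx
    obtain ⟨y, hy⟩ := hdiv x hx
    obtain ⟨k, hk⟩ := hx
    exact ⟨y, ⟨k + 1, by rw [pow_succ, mul_smul, hy, hk]⟩, hy⟩
  let step : {y : JZero M // IsPTors p y} → {y : JZero M // IsPTors p y} := fun y =>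
    ⟨(hdiv' y.1 y.2).choose, (hdiv' y.1 y.2).choose_spec.1⟩
  have hstep : ∀ y : {y : JZero M // IsPTors p y}, p • (step y).1 = y.1 := fun y =>
    (hdiv' y.1 y.2).choose_spec.2
  let w : ℕ → {y : JZero M // IsPTors p y} := fun k => step^[k] ⟨x, n, hx⟩
  have hw0 : (w 0).1 = x := rfl
  have hw : ∀ k, p • (w (k + 1)).1 = (w k).1 := by
    intro k
    change p • (step^[k + 1] ⟨x, n, hx⟩).1 = _
    rw [Function.iterate_succ_apply']
    exact hstep _
  have hpow : ∀ k j, p ^ k • (w (j + k)).1 = (w j).1 := by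
    intro k
    induction k with
    | zero => intro j; simp
    | succ k ih =>
      intro j
      rw [pow_succ, mul_smul, ← add_assoc, hw, ih]
  have htors : ∀ k, p ^ (n + k) • (w k).1 = 0 := by
    intro k
    have h := hpow k 0
    rw [zero_add] at h
    rw [pow_add, mul_smul, h, hw0, hx]
  obtain ⟨v, hv⟩ := D.exists_proj_eq (fun m => p ^ n • (w m).1)
    (fun m => by
      rw [← mul_smul, ← pow_add, add_comm]
      exact htors m)
    (fun m => by
      rw [smul_comm, hw])
  refine ⟨v, ?_⟩
  rw [hv n]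
  have h := hpow n 0
  rw [zero_add] at h
  exact h.trans hw0

/-- The Hecke algebra acting on the Tate module by `ℤ_p`-linear endomorphisms. -/
def act : D.𝔸 →ₐ[ℤ_[p]] Module.End ℤ_[p] D.Λ := Algebra.lsmul ℤ_[p] ℤ_[p] D.Λ

@[simp]
theorem act_apply (a : D.𝔸) (v : D.Λ) : D.act a v = a • v := rfl

/-- The endomorphism `E` of the Tate module lifts the additive endomorphism `e` of `J₀(M)`:
`proj n ∘ E = e ∘ proj n` for all `n`. -/
def Lifts (E : Module.End ℤ_[p] D.Λ) (e : AddMonoid.End (JZero M)) : Prop :=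
  ∀ (n : ℕ) (v : D.Λ), D.proj n (E v) = e (D.proj n v)

theorem lifts_r (g : GQ) : D.Lifts (D.r g) (DistribMulAction.toAddMonoidEnd GQ (JZero M) g) :=
  fun n v => D.proj_r n g v

theorem lifts_τ (ℓ : GoodPrime p M S) :
    D.Lifts (D.act (D.τ ℓ)) (heckeOperatorBar M ℓ.toPrimes).toAddMonoidHom :=
  fun n v => D.proj_τ n ℓ v

theorem lifts_one : D.Lifts 1 1 := fun _ _ => rfl

theorem lifts_zero : D.Lifts 0 0 := fun n _ => map_zero (D.proj n)

variable {D}

theorem Lifts.mul {E E' : Module.End ℤ_[p] D.Λ} {e e' : AddMonoid.End (JZero M)}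
    (h : D.Lifts E e) (h' : D.Lifts E' e') : D.Lifts (E * E') (e * e') := fun n v => by
  rw [Module.End.mul_apply, h n, h' n]
  rfl

theorem Lifts.add {E E' : Module.End ℤ_[p] D.Λ} {e e' : AddMonoid.End (JZero M)}
    (h : D.Lifts E e) (h' : D.Lifts E' e') : D.Lifts (E + E') (e + e') := fun n v => by
  rw [LinearMap.add_apply, map_add, h n, h' n]
  rfl

theorem Lifts.neg {E : Module.End ℤ_[p] D.Λ} {e : AddMonoid.End (JZero M)}
    (h : D.Lifts E e) : D.Lifts (-E) (-e) := fun n v => by
  rw [LinearMap.neg_apply, map_neg, h n]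
  rfl

theorem Lifts.sub {E E' : Module.End ℤ_[p] D.Λ} {e e' : AddMonoid.End (JZero M)}
    (h : D.Lifts E e) (h' : D.Lifts E' e') : D.Lifts (E - E') (e - e') := fun n v => by
  rw [LinearMap.sub_apply, map_sub, h n, h' n]
  rfl

theorem Lifts.pow {E : Module.End ℤ_[p] D.Λ} {e : AddMonoid.End (JZero M)}
    (h : D.Lifts E e) (k : ℕ) : D.Lifts (E ^ k) (e ^ k) := by
  induction k with
  | zero => simpa using D.lifts_one
  | succ k ih => rw [pow_succ, pow_succ]; exact ih.mul h

theorem Lifts.natCast_smul {E : Module.End ℤ_[p] D.Λ} {e : AddMonoid.End (JZero M)}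
    (h : D.Lifts E e) (c : ℕ) : D.Lifts ((c : ℤ_[p]) • E) (c • e) := fun n v => by
  rw [LinearMap.smul_apply, D.proj_natCast_smul, h n]
  rfl

theorem Lifts.intCast_smul {E : Module.End ℤ_[p] D.Λ} {e : AddMonoid.End (JZero M)}
    (h : D.Lifts E e) (c : ℤ) : D.Lifts ((c : ℤ_[p]) • E) (c • e) := fun n v => by
  rw [LinearMap.smul_apply, D.proj_intCast_smul, h n]
  rfl

/-- **Transfer principle**: an endomorphism of the Tate module lifting an endomorphism of
`J₀(M)` which kills the `p`-power torsion is zero. -/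
theorem eq_zero_of_lifts {E : Module.End ℤ_[p] D.Λ} {e : AddMonoid.End (JZero M)}
    (h : D.Lifts E e) (he : ∀ x : JZero M, IsPTors p x → e x = 0) : E = 0 := by
  refine LinearMap.ext fun v => D.ext_proj fun n => ?_
  rw [h n, he _ (D.isPTors_proj n v), LinearMap.zero_apply, map_zero]

/-- Transfer of an equality of operators. -/
theorem eq_of_lifts {E E' : Module.End ℤ_[p] D.Λ} {e e' : AddMonoid.End (JZero M)}
    (h : D.Lifts E e) (h' : D.Lifts E' e')
    (he : ∀ x : JZero M, IsPTors p x → e x = e' x) : E = E' := by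
  refine LinearMap.ext fun v => D.ext_proj fun n => ?_
  rw [h n, h' n, he _ (D.isPTors_proj n v)]

variable (D)

/-- The `ℤ_p`-submodule of the Tate module cut out by an additive map `f` out of `J₀(M)`:
the `v` all of whose projections are killed by `f` (e.g. `f` = the pair of degeneracy maps, giving
the new part). -/
def cut {Y : Type*} [AddCommGroup Y] (f : JZero M →+ Y) : Submodule ℤ_[p] D.Λ where
  carrier := {v | ∀ n, f (D.proj n v) = 0}
  add_mem' := by
    intro a b ha hb n
    rw [map_add, map_add, ha n, hb n, add_zero]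
  zero_mem' := by
    intro n
    rw [map_zero, map_zero]
  smul_mem' := by
    intro c v hv n
    rw [D.proj_smul_appr, map_nsmul, hv n, smul_zero]

theorem mem_cut {Y : Type*} [AddCommGroup Y] (f : JZero M →+ Y) {v : D.Λ} :
    v ∈ D.cut f ↔ ∀ n, f (D.proj n v) = 0 := Iff.rfl

variable {D}

/-- **Relative transfer principle**: if `e` kills the `p`-power torsion of `ker f`, then a lift
`E` of `e` kills `cut f`. -/
theorem apply_eq_zero_of_lifts_of_mem_cut {Y : Type*} [AddCommGroup Y] (f : JZero M →+ Y)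
    {E : Module.End ℤ_[p] D.Λ} {e : AddMonoid.End (JZero M)} (h : D.Lifts E e)
    (he : ∀ x : JZero M, IsPTors p x → f x = 0 → e x = 0) {v : D.Λ} (hv : v ∈ D.cut f) :
    E v = 0 := by
  refine D.ext_proj fun n => ?_
  rw [h n, he _ (D.isPTors_proj n v) (hv n), map_zero]

/-- A lift of an endomorphism preserving the `p`-power torsion of `ker f` preserves `cut f`. -/
theorem apply_mem_cut_of_lifts {Y : Type*} [AddCommGroup Y] (f : JZero M →+ Y)
    {E : Module.End ℤ_[p] D.Λ} {e : AddMonoid.End (JZero M)} (h : D.Lifts E e)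
    (he : ∀ x : JZero M, IsPTors p x → f x = 0 → f (e x) = 0) {v : D.Λ} (hv : v ∈ D.cut f) :
    E v ∈ D.cut f := by
  intro n
  rw [h n]
  exact he _ (D.isPTors_proj n v) (hv n)

variable (D)

/-- The Galois action preserves `cut f` when `ker f` is Galois stable. -/
theorem r_mem_cut {Y : Type*} [AddCommGroup Y] (f : JZero M →+ Y) (g : GQ)
    (hf : ∀ x : JZero M, IsPTors p x → f x = 0 → f (g • x) = 0) {v : D.Λ}
    (hv : v ∈ D.cut f) : D.r g v ∈ D.cut f :=
  apply_mem_cut_of_lifts f (D.lifts_r g) hf hv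

/-- The shape needed for S34: `(r s - 1)² = 0` on the Tate module as soon as `(s - 1)² = 0` on
the `p`-power torsion of `J₀(M)`. -/
theorem sq_eq_zero_of_torsion (s : GQ)
    (h : ∀ x : JZero M, IsPTors p x → s • s • x - 2 • (s • x) + x = 0) :
    (D.r s - 1) * (D.r s - 1) = 0 := by
  refine LinearMap.ext fun v => D.ext_proj fun n => ?_
  have e : ((D.r s - 1) * (D.r s - 1)) v = D.r s (D.r s v) - 2 • D.r s v + v := by
    simp only [Module.End.mul_apply, LinearMap.sub_apply, Module.End.one_apply, map_sub]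
    rw [two_smul]
    abel
  rw [e, map_add, map_sub, map_nsmul, D.proj_r, D.proj_r, LinearMap.zero_apply, map_zero]
  exact h _ (D.isPTors_proj n v)

/-- Relative version on `cut f` (e.g. the new part). -/
theorem sq_apply_eq_zero_of_torsion {Y : Type*} [AddCommGroup Y] (f : JZero M →+ Y) (s : GQ)
    (h : ∀ x : JZero M, IsPTors p x → f x = 0 → s • s • x - 2 • (s • x) + x = 0)
    {v : D.Λ} (hv : v ∈ D.cut f) : ((D.r s - 1) * (D.r s - 1)) v = 0 := by
  refine D.ext_proj fun n => ?_
  have e : ((D.r s - 1) * (D.r s - 1)) v = D.r s (D.r s v) - 2 • D.r s v + v := by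
    simp only [Module.End.mul_apply, LinearMap.sub_apply, Module.End.one_apply, map_sub]
    rw [two_smul]
    abel
  rw [e, map_add, map_sub, map_nsmul, D.proj_r, D.proj_r, map_zero]
  exact h _ (D.isPTors_proj n v) (hv n)

end TateGeom

end Fermat.Agent.P3.helper67

end
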