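import Mathlib

/-!
# P3 / WIRE (helper68): the completion of a discrete valuation ring is a complete DVR

Mathlib-only.  For a discrete valuation ring `R` the ring
`AdicCompletion (maximalIdeal R) R` is local, complete for its maximal ideal and has the same
residue field (all in Mathlib).  Here we add: it is a domain, a discrete valuation ring, of
characteristic zero if `R` is, with finite residue field if `R` has one.
-/

set_option autoImplicit false
set_option linter.style.haveILetI false

namespace Fermat.Agent.P3.helper68

open IsLocalRing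

section Abstract

variable {A : Type*} [CommRing A] [IsLocalRing A]

/-- In a local ring with principal maximal ideal `(π)` that is Hausdorff for the adic topology,
every nonzero element is a unit times a power of `π`. -/
theorem exists_unit_mul_pow_of_principal (π : A) (hπ : maximalIdeal A = Ideal.span {π})
    [IsHausdorff (maximalIdeal A) A] {x : A} (hx : x ≠ 0) :
    ∃ (n : ℕ) (u : Aˣ), x = u * π ^ n := by
  classical
  have hex : ∃ n : ℕ, x ∉ maximalIdeal A ^ n := by
    by_contra hcon
    push Not at hcon
    apply hx
    refine IsHausdorff.haus (I := maximalIdeal A) inferInstance x fun n => ?_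
    rw [SModEq.zero]
    simpa using hcon n
  have hn0 : Nat.find hex ≠ 0 := by
    intro h0
    have := Nat.find_spec hex
    rw [h0, pow_zero, Ideal.one_eq_top] at this
    exact this Submodule.mem_top
  obtain ⟨k, hk⟩ := Nat.exists_eq_succ_of_ne_zero hn0
  have hmem : x ∈ maximalIdeal A ^ k := by
    by_contra hcon
    have := Nat.find_min' hex hcon
    omega
  have hnot : x ∉ maximalIdeal A ^ (k + 1) := by
    have := Nat.find_spec hex
    rwa [hk] at this
  rw [hπ, Ideal.span_singleton_pow, Ideal.mem_span_singleton'] at hmem
  obtain ⟨y, hy⟩ := hmem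
  have hyu : IsUnit y := by
    by_contra hcon
    apply hnot
    have hym : y ∈ maximalIdeal A := (IsLocalRing.mem_maximalIdeal y).mpr hcon
    have hπm : π ∈ maximalIdeal A := by rw [hπ]; exact Ideal.mem_span_singleton_self π
    have h1 : π ^ k * y ∈ maximalIdeal A ^ k * maximalIdeal A :=
      Ideal.mul_mem_mul (Ideal.pow_mem_pow hπm k) hym
    rw [pow_succ, ← hy, mul_comm y]
    exact h1
  exact ⟨k, hyu.unit, by rw [← hy]; rfl⟩

/-- A local ring with principal maximal ideal `(π)`, adically Hausdorff, with `π` not nilpotent,
is a domain. -/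
theorem isDomain_of_principal (π : A) (hπ : maximalIdeal A = Ideal.span {π})
    [IsHausdorff (maximalIdeal A) A] (hpow : ∀ n : ℕ, π ^ n ≠ 0) : IsDomain A := by
  have hnz : NoZeroDivisors A := by
    refine ⟨fun {a b} hab => ?_⟩
    by_contra hcon
    push Not at hcon
    obtain ⟨n, u, hu⟩ := exists_unit_mul_pow_of_principal π hπ hcon.1
    obtain ⟨m, v, hv⟩ := exists_unit_mul_pow_of_principal π hπ hcon.2
    have h1 : ((u * v : Aˣ) : A) * π ^ (n + m) = 0 := by
      rw [← hab, hu, hv, pow_add]; push_cast; ring
    exact hpow (n + m) ((Units.mul_right_eq_zero (u * v)).mp h1)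
  exact NoZeroDivisors.to_isDomain A

/-- A local ring with principal maximal ideal `(π)`, adically Hausdorff, with `π` not nilpotent,
is a discrete valuation ring. -/
theorem isDiscreteValuationRing_of_principal (π : A) (hπ : maximalIdeal A = Ideal.span {π})
    [IsHausdorff (maximalIdeal A) A] (hpow : ∀ n : ℕ, π ^ n ≠ 0) :
    letI := isDomain_of_principal π hπ hpow
    IsDiscreteValuationRing A := by
  have := isDomain_of_principal π hπ hpow
  have hπm : π ∈ maximalIdeal A := by rw [hπ]; exact Ideal.mem_span_singleton_self π
  have hπnu : ¬ IsUnit π := (IsLocalRing.mem_maximalIdeal π).mp hπm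
  have hπ0 : π ≠ 0 := by simpa using hpow 1
  have hirr : Irreducible π := by
    refine ⟨hπnu, fun a b hab => ?_⟩
    by_contra hcon
    push Not at hcon
    have ha : a ∈ maximalIdeal A := (IsLocalRing.mem_maximalIdeal a).mpr hcon.1
    have hb : b ∈ maximalIdeal A := (IsLocalRing.mem_maximalIdeal b).mpr hcon.2
    rw [hπ, Ideal.mem_span_singleton'] at ha hb
    obtain ⟨a', rfl⟩ := ha
    obtain ⟨b', rfl⟩ := hb
    have h1 : π * (1 - a' * b' * π) = 0 := by
      have : π = a' * π * (b' * π) := hab
      linear_combination this
    have h2 : 1 - a' * b' * π = 0 := (mul_eq_zero.mp h1).resolve_left hπ0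
    have h3 : IsUnit (a' * b' * π) := by
      have : a' * b' * π = 1 := by linear_combination -h2
      rw [this]; exact isUnit_one
    exact hπnu (isUnit_of_mul_isUnit_right h3)
  refine IsDiscreteValuationRing.ofHasUnitMulPowIrreducibleFactorization ⟨π, hirr, ?_⟩
  intro x hx
  obtain ⟨n, u, hu⟩ := exists_unit_mul_pow_of_principal π hπ hx
  exact ⟨n, u, by rw [hu, mul_comm]⟩

end Abstract

section Completion

variable (R : Type*) [CommRing R] [IsDomain R] [IsDiscreteValuationRing R]

/-- The completion of a discrete valuation ring at its maximal ideal. -/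
abbrev CompletedDVR : Type _ := AdicCompletion (maximalIdeal R) R

theorem algebraMap_completedDVR_injective :
    Function.Injective (algebraMap R (CompletedDVR R)) := by
  have h : Function.Injective (AdicCompletion.of (maximalIdeal R) R) :=
    AdicCompletion.of_injective (maximalIdeal R) R
  intro x y hxy
  apply h
  simpa [AdicCompletion.algebraMap_apply] using hxy

theorem completedDVR_maximalIdeal_eq_span {π : R} (hπ : Irreducible π) :
    maximalIdeal (CompletedDVR R) = Ideal.span {algebraMap R (CompletedDVR R) π} := by
  have h : ∀ J : Ideal R, J = Ideal.span {π} →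
      Ideal.map (algebraMap R (CompletedDVR R)) J
        = Ideal.span {algebraMap R (CompletedDVR R) π} := by
    intro J hJ
    subst hJ
    rw [Ideal.map_span, Set.image_singleton]
  rw [AdicCompletion.maximalIdeal_eq_map]
  exact h _ hπ.maximalIdeal_eq

theorem completedDVR_pow_ne_zero {π : R} (hπ : Irreducible π) (n : ℕ) :
    (algebraMap R (CompletedDVR R) π) ^ n ≠ 0 := by
  rw [← map_pow]
  intro h
  have h0 : π ^ n = 0 := algebraMap_completedDVR_injective R (by rw [h, map_zero])
  exact hπ.ne_zero (pow_eq_zero_iff (by
    rintro rfl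
    simp at h0) |>.mp h0)

instance completedDVR_isDomain : IsDomain (CompletedDVR R) := by
  obtain ⟨π, hπ⟩ := IsDiscreteValuationRing.exists_irreducible R
  exact isDomain_of_principal _ (completedDVR_maximalIdeal_eq_span R hπ)
    (completedDVR_pow_ne_zero R hπ)

instance completedDVR_isDiscreteValuationRing : IsDiscreteValuationRing (CompletedDVR R) := by
  obtain ⟨π, hπ⟩ := IsDiscreteValuationRing.exists_irreducible R
  exact isDiscreteValuationRing_of_principal _ (completedDVR_maximalIdeal_eq_span R hπ)
    (completedDVR_pow_ne_zero R hπ)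

instance completedDVR_charZero [CharZero R] : CharZero (CompletedDVR R) :=
  charZero_of_injective_algebraMap (algebraMap_completedDVR_injective R)

theorem completedDVR_finite_residueField [Finite (ResidueField R)] :
    Finite (ResidueField (CompletedDVR R)) :=
  Finite.of_surjective _ (AdicCompletion.residueField_map_bijective R).2

/-- An element of the maximal ideal of `R` maps into the maximal ideal of the completion. -/
theorem algebraMap_mem_maximalIdeal_completedDVR {x : R} (hx : x ∈ maximalIdeal R) :
    algebraMap R (CompletedDVR R) x ∈ maximalIdeal (CompletedDVR R) := by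
  rw [AdicCompletion.maximalIdeal_eq_map]
  exact Ideal.mem_map_of_mem _ hx

end Completion

section Dedekind

attribute [local instance] Ideal.Quotient.field

/-- For a maximal ideal `𝔭 ≠ ⊥` of a Dedekind domain `D` of characteristic zero with finite
residue field there is a complete discrete valuation ring `𝒪` of characteristic zero with finite
residue field, a ring hom `f : D → 𝒪` and a reduction map `r : 𝒪 → D ⧸ 𝔭` with
`r ∘ f = mk` that kills the maximal ideal. -/
theorem exists_completeDVR (D : Type) [CommRing D] [IsDedekindDomain D] [CharZero D]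
    (𝔭 : Ideal D) [h𝔭 : 𝔭.IsMaximal] (h0 : 𝔭 ≠ ⊥) [Finite (D ⧸ 𝔭)] :
    ∃ (𝒪 : Type) (_ : CommRing 𝒪) (_ : IsDomain 𝒪) (_ : IsDiscreteValuationRing 𝒪)
      (_ : IsAdicComplete (maximalIdeal 𝒪) 𝒪) (_ : Finite (ResidueField 𝒪)) (_ : CharZero 𝒪)
      (f : D →+* 𝒪) (r : 𝒪 →+* D ⧸ 𝔭),
      (∀ x, r (f x) = Ideal.Quotient.mk 𝔭 x) ∧ (∀ x ∈ maximalIdeal 𝒪, r x = 0) := by
  haveI : 𝔭.IsPrime := h𝔭.isPrime
  let R := Localization.AtPrime 𝔭
  haveI : IsDomain R := IsLocalization.isDomain_localization 𝔭.primeCompl_le_nonZeroDivisors
  haveI : IsDiscreteValuationRing R :=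
    IsLocalization.AtPrime.isDiscreteValuationRing_of_dedekind_domain D h0 R
  haveI : CharZero R :=
    charZero_of_injective_algebraMap
      (IsLocalization.injective R 𝔭.primeCompl_le_nonZeroDivisors)
  let e : D ⧸ 𝔭 ≃+* R ⧸ maximalIdeal R := IsLocalization.AtPrime.equivQuotMaximalIdeal 𝔭 R
  haveI : Finite (ResidueField R) := Finite.of_equiv (D ⧸ 𝔭) e.toEquiv
  let ev : CompletedDVR R →+* R ⧸ maximalIdeal R :=
    (AdicCompletion.evalOneₐ (maximalIdeal R)).toRingHom
  have hev : Function.Surjective ev := AdicCompletion.evalOneₐ_surjective (maximalIdeal R)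
  refine ⟨CompletedDVR R, inferInstance, inferInstance, inferInstance, inferInstance,
    completedDVR_finite_residueField R, inferInstance,
    (algebraMap R (CompletedDVR R)).comp (algebraMap D R),
    (e.symm : R ⧸ maximalIdeal R →+* D ⧸ 𝔭).comp ev, ?_, ?_⟩
  · intro x
    have h1 : ev (algebraMap R (CompletedDVR R) (algebraMap D R x))
        = Ideal.Quotient.mk _ (algebraMap D R x) := by
      rw [AdicCompletion.algebraMap_apply]
      exact AdicCompletion.evalOneₐ_of (maximalIdeal R) _
    rw [RingHom.comp_apply, RingHom.comp_apply, h1]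
    exact (RingEquiv.symm_apply_eq e).mpr
      (IsLocalization.AtPrime.equivQuotMaximalIdeal_apply_mk 𝔭 R x).symm
  · intro x hx
    have hker : RingHom.ker ev = maximalIdeal (CompletedDVR R) := by
      haveI : (RingHom.ker ev).IsMaximal := RingHom.ker_isMaximal_of_surjective ev hev
      exact IsLocalRing.eq_maximalIdeal inferInstance
    have : ev x = 0 := by
      rw [← RingHom.mem_ker, hker]; exact hx
    rw [RingHom.comp_apply, this, map_zero]

end Dedekind

end Fermat.Agent.P3.helper68
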