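import Fermat.Agent.P3.helper68_Eigenchar

/-!
# P3 / WIRE (helper68): the coefficient field of a normalised eigenform

The eigencharacter of a normalised eigenform takes its values in the ring of integers of a
number field `K ⊆ ℂ`.
-/

set_option autoImplicit false
set_option linter.style.haveILetI false

namespace Fermat.Agent.P3.helper68

open CuspForm CongruenceSubgroup ModularFormClass NumberField

/-- A ring hom from a finitely generated `ℤ`-module to `ℂ` with integral values takes its values
in a number field. -/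
theorem exists_numberField_of_fg {T : Type*} [CommRing T] [Module.Finite ℤ T] (χ : T →+* ℂ)
    (hint : ∀ t, IsIntegral ℤ (χ t)) :
    ∃ K : IntermediateField ℚ ℂ, FiniteDimensional ℚ K ∧ ∀ t, χ t ∈ K := by
  classical
  obtain ⟨s, hs⟩ := (Module.finite_def (R := ℤ) (M := T)).mp inferInstance
  let G : Set ℂ := χ '' (s : Set T)
  have hGfin : G.Finite := (Finset.finite_toSet s).image _
  have : Finite G := hGfin.to_subtype
  refine ⟨IntermediateField.adjoin ℚ G, ?_, ?_⟩
  · apply IntermediateField.finiteDimensional_adjoin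
    rintro x ⟨t, -, rfl⟩
    exact (hint t).tower_top
  · intro t
    have ht : t ∈ Submodule.span ℤ (s : Set T) := by rw [hs]; exact Submodule.mem_top
    induction ht using Submodule.span_induction with
    | mem x hx => exact IntermediateField.subset_adjoin ℚ G ⟨x, hx, rfl⟩
    | zero => rw [map_zero]; exact zero_mem _
    | add x y _ _ hx hy => rw [map_add]; exact add_mem hx hy
    | smul a x _ hx =>
      rw [zsmul_eq_mul, map_mul, map_intCast]
      exact mul_mem (intCast_mem _ a) hx

section Field

variable (K : IntermediateField ℚ ℂ)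

/-- The inclusion of the ring of integers of a subfield of `ℂ` into `ℤ̄`. -/
noncomputable def ringOfIntegersToZbar : 𝓞 K →+* Zbar where
  toFun x := ⟨((x : K) : ℂ), map_isIntegral_int (algebraMap K ℂ) (RingOfIntegers.isIntegral_coe x)⟩
  map_one' := Subtype.ext (by simp)
  map_mul' x y := Subtype.ext (by simp)
  map_zero' := Subtype.ext (by simp)
  map_add' x y := Subtype.ext (by simp)

theorem coe_ringOfIntegersToZbar (x : 𝓞 K) :
    ((ringOfIntegersToZbar K x : Zbar) : ℂ) = ((x : K) : ℂ) := rfl

theorem ringOfIntegersToZbar_injective : Function.Injective (ringOfIntegersToZbar K) := by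
  intro x y h
  have h1 : (((x : K) : ℂ)) = ((y : K) : ℂ) := congrArg (fun z : Zbar => (z : ℂ)) h
  exact RingOfIntegers.ext (Subtype.ext h1)

/-- Corestriction of a ring hom with integral values in `K` to the ring of integers. -/
noncomputable def toRingOfIntegers {T : Type*} [CommRing T] (χ : T →+* ℂ)
    (hint : ∀ t, IsIntegral ℤ (χ t)) (hK : ∀ t, χ t ∈ K) : T →+* 𝓞 K where
  toFun t := RingOfIntegers.restrict (fun t => (⟨χ t, hK t⟩ : K))
    (fun t => (isIntegral_algebraMap_iff (algebraMap K ℂ).injective).mp (hint t)) t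
  map_one' := RingOfIntegers.ext (by
    show (⟨χ 1, hK 1⟩ : K) = 1
    exact Subtype.ext (map_one χ))
  map_mul' x y := RingOfIntegers.ext (by
    show (⟨χ (x * y), hK (x * y)⟩ : K) = (⟨χ x, hK x⟩ : K) * (⟨χ y, hK y⟩ : K)
    exact Subtype.ext (map_mul χ x y))
  map_zero' := RingOfIntegers.ext (by
    show (⟨χ 0, hK 0⟩ : K) = 0
    exact Subtype.ext (map_zero χ))
  map_add' x y := RingOfIntegers.ext (by
    show (⟨χ (x + y), hK (x + y)⟩ : K) = (⟨χ x, hK x⟩ : K) + (⟨χ y, hK y⟩ : K)
    exact Subtype.ext (map_add χ x y))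

theorem coe_toRingOfIntegers {T : Type*} [CommRing T] (χ : T →+* ℂ)
    (hint : ∀ t, IsIntegral ℤ (χ t)) (hK : ∀ t, χ t ∈ K) (t : T) :
    (((toRingOfIntegers K χ hint hK t : 𝓞 K) : K) : ℂ) = χ t := rfl

end Field

end Fermat.Agent.P3.helper68
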