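import Mathlib

/-!
# P3 / WIRE (helper68): residue fields of `ℤ̄ = integralClosure ℤ ℂ`

* `ker_isMaximal` : the kernel of a ring hom `ℤ̄ → k` into a field of characteristic `p > 0`
  is a maximal ideal;
* `isAlgClosed_quotient` : `ℤ̄ ⧸ 𝔪` is algebraically closed for every maximal ideal `𝔪`.

Mathlib-only.
-/

set_option autoImplicit false
set_option linter.style.haveILetI false

namespace Fermat.Agent.P3.helper68

open Polynomial

/-- The ring of all algebraic integers. -/
abbrev Zbar : Type := integralClosure ℤ ℂ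

instance zbar_isIntegral : Algebra.IsIntegral ℤ Zbar :=
  integralClosure.AlgebraIsIntegral

theorem ker_isMaximal {k : Type*} [Field k] {p : ℕ} (hp : p.Prime) [CharP k p]
    (φ : Zbar →+* k) : (RingHom.ker φ).IsMaximal := by
  have hprime : (RingHom.ker φ).IsPrime := RingHom.ker_isPrime φ
  have hcomap : ((RingHom.ker φ).comap (algebraMap ℤ Zbar)).IsPrime := Ideal.comap_isPrime _ _
  have hpmem : (p : ℤ) ∈ (RingHom.ker φ).comap (algebraMap ℤ Zbar) := by
    rw [Ideal.mem_comap, RingHom.mem_ker]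
    simp only [algebraMap_int_eq, map_natCast]
    exact CharP.cast_eq_zero k p
  have hne : (RingHom.ker φ).comap (algebraMap ℤ Zbar) ≠ ⊥ := by
    intro h
    rw [h, Ideal.mem_bot] at hpmem
    exact hp.ne_zero (by exact_mod_cast hpmem)
  have hmax : ((RingHom.ker φ).comap (algebraMap ℤ Zbar)).IsMaximal := hcomap.isMaximal hne
  exact Ideal.isMaximal_of_isIntegral_of_isMaximal_comap (R := ℤ) (RingHom.ker φ) hmax

theorem isAlgClosed_quotient (𝔪 : Ideal Zbar) [h𝔪 : 𝔪.IsMaximal] :
    letI := Ideal.Quotient.field 𝔪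
    IsAlgClosed (Zbar ⧸ 𝔪) := by
  let _ := Ideal.Quotient.field 𝔪
  refine IsAlgClosed.of_exists_root _ fun f hf hirr => ?_
  have hlift : f ∈ Polynomial.lifts (Ideal.Quotient.mk 𝔪) := by
    rw [Polynomial.mem_lifts]
    exact Polynomial.map_surjective _ Ideal.Quotient.mk_surjective f
  obtain ⟨F, hFmap, hFdeg, hFmonic⟩ := Polynomial.lifts_and_natDegree_eq_and_monic hlift hf
  have hdeg : (F.map (algebraMap Zbar ℂ)).degree ≠ 0 := by
    rw [Polynomial.degree_map_eq_of_injective (FaithfulSMul.algebraMap_injective Zbar ℂ)]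
    rw [Polynomial.degree_eq_natDegree hFmonic.ne_zero, hFdeg]
    have := hirr.natDegree_pos
    intro h
    have h' : f.natDegree = 0 := by exact_mod_cast h
    omega
  obtain ⟨z, hz⟩ := IsAlgClosed.exists_root _ hdeg
  have hzint : IsIntegral Zbar z := ⟨F, hFmonic, by
    rw [← Polynomial.eval_map]; exact hz⟩
  have hzint' : IsIntegral ℤ z := isIntegral_trans z hzint
  let z' : Zbar := ⟨z, hzint'⟩
  have hFz : F.eval z' = 0 := by
    apply FaithfulSMul.algebraMap_injective Zbar ℂ
    rw [map_zero, ← Polynomial.eval₂_at_apply, ← Polynomial.eval_map]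
    exact hz
  refine ⟨Ideal.Quotient.mk 𝔪 z', ?_⟩
  rw [← hFmap, Polynomial.eval_map, Polynomial.eval₂_at_apply, hFz, map_zero]

end Fermat.Agent.P3.helper68
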