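import Fermat.Agent.S49.QCoeff
import Fermat.Agent.S22
import Fermat.Agent.P3.helper68_ZbarQuot

/-!
# P3 / WIRE (helper68): the eigencharacter of a normalised eigenform

For a normalised eigenform `g` (in the Prelude sense: multiplicative `q`-coefficients) of level
`N ≠ 0` we show that `g` is an eigenvector of all Hecke operators `T_ℓ` (`ℓ ∤ N`) and `U_q`
(`q ∣ N`) and construct the eigencharacter `heckeAlgebra N 2 S →+* ℤ̄`, `T_ℓ ↦ a_ℓ(g)`.
-/

set_option autoImplicit false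
set_option linter.style.haveILetI false

namespace Fermat.Agent.P3.helper68

open CuspForm CongruenceSubgroup ModularFormClass Fermat.Agent.S49

variable {N : ℕ} {g : CuspForm (Gamma0 N) 2}

theorem qc_zero_of_cusp (g : CuspForm (Gamma0 N) 2) : qCoeff ⇑g 0 = 0 := qc_cusp_zero g

/-- `a(q^(r+1)) = a(q) a(q^r)` for `q ∣ N`. -/
theorem qCoeff_pow_succ_of_dvd (hg : g.IsNormalizedEigenform) {q : ℕ} (hq : q.Prime)
    (hqN : q ∣ N) (r : ℕ) :
    qCoeff ⇑g (q ^ (r + 1)) = qCoeff ⇑g q * qCoeff ⇑g (q ^ r) := by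
  rcases r with _ | r
  · simp [hg.qCoeff_one]
  · exact hg.qCoeff_prime_pow_of_dvd q r hq hqN

/-- The Hecke relation at a prime `ℓ ∤ N`. -/
theorem qCoeff_hecke_rel (hg : g.IsNormalizedEigenform) {ℓ : ℕ} (hℓ : ℓ.Prime) (hℓN : ¬ ℓ ∣ N)
    (n : ℕ) :
    qCoeff ⇑g (n * ℓ) + (if ℓ ∣ n then (ℓ : ℂ) ^ ((2 : ℤ) - 1) * qCoeff ⇑g (n / ℓ) else 0)
      = qCoeff ⇑g ℓ * qCoeff ⇑g n := by
  have hpow : (ℓ : ℂ) ^ ((2 : ℤ) - 1) = ℓ := by norm_num
  rw [hpow]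
  rcases Nat.eq_zero_or_pos n with rfl | hn
  · simp [qc_zero_of_cusp]
  obtain ⟨r, m, hm, rfl⟩ := Nat.exists_eq_pow_mul_and_not_dvd hn.ne' ℓ hℓ.ne_one
  have hcop : ∀ s : ℕ, (ℓ ^ s).Coprime m :=
    fun s => Nat.Coprime.pow_left s ((Nat.Prime.coprime_iff_not_dvd hℓ).mpr hm)
  rcases r with _ | r
  · have hnd : ¬ ℓ ∣ ℓ ^ 0 * m := by simpa using hm
    rw [if_neg hnd]
    have h1 : ℓ ^ 0 * m * ℓ = ℓ ^ 1 * m := by ring
    rw [h1, hg.qCoeff_mul_of_coprime _ _ (hcop 1), add_zero, pow_zero, one_mul, pow_one]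
  · have hd : ℓ ∣ ℓ ^ (r + 1) * m := Dvd.dvd.mul_right (dvd_pow_self ℓ (Nat.succ_ne_zero r)) m
    rw [if_pos hd]
    have h1 : ℓ ^ (r + 1) * m * ℓ = ℓ ^ (r + 2) * m := by ring
    have h2 : ℓ ^ (r + 1) * m / ℓ = ℓ ^ r * m := by
      rw [pow_succ, mul_assoc, mul_comm ℓ m, ← mul_assoc]
      exact Nat.mul_div_cancel _ hℓ.pos
    rw [h1, h2, hg.qCoeff_mul_of_coprime _ _ (hcop (r + 2)),
      hg.qCoeff_mul_of_coprime _ _ (hcop (r + 1)), hg.qCoeff_mul_of_coprime _ _ (hcop r),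
      hg.qCoeff_prime_pow_of_not_dvd ℓ r hℓ hℓN]
    ring

/-- The Hecke relation at a prime `q ∣ N`. -/
theorem qCoeff_heckeU_rel (hg : g.IsNormalizedEigenform) {q : ℕ} (hq : q.Prime) (hqN : q ∣ N)
    (n : ℕ) : qCoeff ⇑g (n * q) = qCoeff ⇑g q * qCoeff ⇑g n := by
  rcases Nat.eq_zero_or_pos n with rfl | hn
  · simp [qc_zero_of_cusp]
  obtain ⟨r, m, hm, rfl⟩ := Nat.exists_eq_pow_mul_and_not_dvd hn.ne' q hq.ne_one
  have hcop : ∀ s : ℕ, (q ^ s).Coprime m :=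
    fun s => Nat.Coprime.pow_left s ((Nat.Prime.coprime_iff_not_dvd hq).mpr hm)
  have h1 : q ^ r * m * q = q ^ (r + 1) * m := by ring
  rw [h1, hg.qCoeff_mul_of_coprime _ _ (hcop (r + 1)), hg.qCoeff_mul_of_coprime _ _ (hcop r),
    qCoeff_pow_succ_of_dvd hg hq hqN r]
  ring

theorem heckeTLin_eigen (hg : g.IsNormalizedEigenform) {ℓ : ℕ} (hℓ : ℓ.Prime) (hℓN : ¬ ℓ ∣ N) :
    CuspForm.heckeTLin 2 hℓ hℓN g = qCoeff ⇑g ℓ • g := by
  apply eq_of_forall_qc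
  intro n
  rw [qc_heckeT hℓ hℓN g n, qc_smul, qCoeff_hecke_rel hg hℓ hℓN n]

theorem heckeULin_eigen [NeZero N] (hg : g.IsNormalizedEigenform) {q : ℕ} (hq : q.Prime)
    (hqN : q ∣ N) :
    CuspForm.heckeULin 2 hqN g = qCoeff ⇑g q • g := by
  apply eq_of_forall_qc
  intro n
  rw [qc_heckeU hq hqN g n, qc_smul, qCoeff_heckeU_rel hg hq hqN n]

section Char

variable [NeZero N] (S : Set ℕ)

/-- The subalgebra of endomorphisms having `g` as an eigenvector. -/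
def eigenSubalgebra (g : CuspForm (Gamma0 N) 2) :
    Subalgebra ℤ (Module.End ℂ (CuspForm (Gamma0 N) 2)) where
  carrier := {T | ∃ c : ℂ, T g = c • g}
  mul_mem' := by
    rintro S T ⟨c, hc⟩ ⟨d, hd⟩
    refine ⟨d * c, ?_⟩
    rw [Module.End.mul_apply, hd, map_smul, hc, smul_smul]
  one_mem' := ⟨1, by simp⟩
  add_mem' := by
    rintro S T ⟨c, hc⟩ ⟨d, hd⟩
    exact ⟨c + d, by rw [LinearMap.add_apply, hc, hd, add_smul]⟩
  zero_mem' := ⟨0, by simp⟩
  algebraMap_mem' := by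
    intro r
    refine ⟨(r : ℂ), ?_⟩
    rw [Algebra.algebraMap_eq_smul_one, LinearMap.smul_apply, Module.End.one_apply,
      Int.cast_smul_eq_zsmul]

theorem heckeAlgebra_le_eigenSubalgebra (hg : g.IsNormalizedEigenform) :
    CuspForm.heckeAlgebra N 2 S ≤ eigenSubalgebra g := by
  apply Algebra.adjoin_le
  rintro T (⟨ℓ, hℓ, hℓN, -, rfl⟩ | ⟨q, hqN, hq, -, rfl⟩)
  · exact ⟨_, heckeTLin_eigen hg hℓ hℓN⟩
  · exact ⟨_, heckeULin_eigen hg hq hqN⟩

theorem heckeAlgebra_apply_eq (hg : g.IsNormalizedEigenform) (T : CuspForm.heckeAlgebra N 2 S) :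
    (T : Module.End ℂ (CuspForm (Gamma0 N) 2)) g
      = qCoeff ⇑((T : Module.End ℂ (CuspForm (Gamma0 N) 2)) g) 1 • g := by
  obtain ⟨c, hc⟩ := heckeAlgebra_le_eigenSubalgebra S hg T.2
  rw [hc, qc_smul, hg.qCoeff_one, mul_one]

/-- The eigencharacter of a normalised eigenform, with values in `ℂ`. -/
noncomputable def eigenCharC (hg : g.IsNormalizedEigenform) :
    CuspForm.heckeAlgebra N 2 S →+* ℂ where
  toFun T := qCoeff ⇑((T : Module.End ℂ (CuspForm (Gamma0 N) 2)) g) 1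
  map_one' := by
    show qCoeff ⇑(((1 : CuspForm.heckeAlgebra N 2 S) :
      Module.End ℂ (CuspForm (Gamma0 N) 2)) g) 1 = 1
    rw [OneMemClass.coe_one, Module.End.one_apply, hg.qCoeff_one]
  map_mul' A B := by
    show qCoeff ⇑(((A * B : CuspForm.heckeAlgebra N 2 S) :
      Module.End ℂ (CuspForm (Gamma0 N) 2)) g) 1 = _
    have hB := heckeAlgebra_apply_eq S hg B
    rw [MulMemClass.coe_mul, Module.End.mul_apply]
    conv_lhs => rw [hB, map_smul, qc_smul]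
    exact mul_comm _ _
  map_zero' := by
    show qCoeff ⇑(((0 : CuspForm.heckeAlgebra N 2 S) :
      Module.End ℂ (CuspForm (Gamma0 N) 2)) g) 1 = 0
    rw [ZeroMemClass.coe_zero, LinearMap.zero_apply, qc_zero]
  map_add' A B := by
    show qCoeff ⇑(((A + B : CuspForm.heckeAlgebra N 2 S) :
      Module.End ℂ (CuspForm (Gamma0 N) 2)) g) 1 = _
    rw [AddMemClass.coe_add, LinearMap.add_apply, qc_add]

theorem eigenCharC_T (hg : g.IsNormalizedEigenform) {ℓ : ℕ} (hℓ : ℓ.Prime) (hℓN : ¬ ℓ ∣ N)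
    (hℓS : ℓ ∉ S) :
    eigenCharC S hg (CuspForm.heckeAlgebra.T hℓ hℓN hℓS) = qCoeff ⇑g ℓ := by
  show qCoeff ⇑(((CuspForm.heckeAlgebra.T hℓ hℓN hℓS : CuspForm.heckeAlgebra N 2 S) :
      Module.End ℂ (CuspForm (Gamma0 N) 2)) g) 1 = _
  rw [CuspForm.heckeAlgebra.coe_T, heckeTLin_eigen hg hℓ hℓN, qc_smul, hg.qCoeff_one, mul_one]

theorem isIntegral_eigenCharC (hg : g.IsNormalizedEigenform) (T : CuspForm.heckeAlgebra N 2 S) :
    IsIntegral ℤ (eigenCharC S hg T) := by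
  have : Module.Finite ℤ (CuspForm.heckeAlgebra N 2 S) := Fermat.Agent.S22.result N 2 S
  have h : IsIntegral ℤ T := Algebra.IsIntegral.isIntegral T
  exact h.map (eigenCharC S hg).toIntAlgHom

/-- The eigencharacter of a normalised eigenform, with values in `ℤ̄`. -/
noncomputable def eigenChar (hg : g.IsNormalizedEigenform) :
    CuspForm.heckeAlgebra N 2 S →+* Zbar where
  toFun T := ⟨eigenCharC S hg T, isIntegral_eigenCharC S hg T⟩
  map_one' := Subtype.ext (map_one (eigenCharC S hg))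
  map_mul' A B := Subtype.ext (map_mul (eigenCharC S hg) A B)
  map_zero' := Subtype.ext (map_zero (eigenCharC S hg))
  map_add' A B := Subtype.ext (map_add (eigenCharC S hg) A B)

theorem coe_eigenChar (hg : g.IsNormalizedEigenform) (T : CuspForm.heckeAlgebra N 2 S) :
    ((eigenChar S hg T : Zbar) : ℂ) = eigenCharC S hg T := rfl

theorem coe_eigenChar_T (hg : g.IsNormalizedEigenform) {ℓ : ℕ} (hℓ : ℓ.Prime) (hℓN : ¬ ℓ ∣ N)
    (hℓS : ℓ ∉ S) :
    ((eigenChar S hg (CuspForm.heckeAlgebra.T hℓ hℓN hℓS) : Zbar) : ℂ) = qCoeff ⇑g ℓ :=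
  eigenCharC_T S hg hℓ hℓN hℓS

end Char

end Fermat.Agent.P3.helper68
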