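import Mathlib

/-!
# P3 / WIRE (helper68): extending a residue map along a local homomorphism

Mathlib-only.  Let `A → B` be a local homomorphism of local rings, `B` with finite residue field,
`Ω` an algebraically closed field and `r : A → Ω` a ring hom killing the maximal ideal of `A`.
Then `r` extends to `j : B → Ω` killing the maximal ideal of `B`.
-/

set_option autoImplicit false
set_option linter.style.haveILetI false

namespace Fermat.Agent.P3.helper68

open IsLocalRing

theorem isLocalHom_of_maximalIdeal_le_ker {A : Type*} [CommRing A] [IsLocalRing A]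
    {Ω : Type*} [Field Ω] (r : A →+* Ω) (hr : ∀ x ∈ maximalIdeal A, r x = 0) :
    IsLocalHom r := by
  refine ⟨fun a ha => ?_⟩
  by_contra hcon
  have h0 : r a = 0 := hr a ((IsLocalRing.mem_maximalIdeal a).mpr hcon)
  rw [h0] at ha
  exact not_isUnit_zero ha

theorem exists_extension_of_isAlgClosed {A B : Type*} [CommRing A] [IsLocalRing A] [CommRing B]
    [IsLocalRing B] [Algebra A B] [IsLocalHom (algebraMap A B)] [Finite (ResidueField B)]
    {Ω : Type*} [Field Ω] [IsAlgClosed Ω] (r : A →+* Ω)
    (hr : ∀ x ∈ maximalIdeal A, r x = 0) :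
    ∃ j : B →+* Ω, (∀ a, j (algebraMap A B a) = r a) ∧ (∀ x ∈ maximalIdeal B, j x = 0) := by
  haveI hloc : IsLocalHom r := isLocalHom_of_maximalIdeal_le_ker r hr
  letI : Algebra (ResidueField A) Ω := (ResidueField.lift r).toAlgebra
  haveI : Module.Finite (ResidueField A) (ResidueField B) := Module.Finite.of_finite
  haveI : Algebra.IsAlgebraic (ResidueField A) (ResidueField B) := Algebra.IsAlgebraic.of_finite _ _
  let f : ResidueField B →ₐ[ResidueField A] Ω := IsAlgClosed.lift
  refine ⟨(f : ResidueField B →+* Ω).comp (residue B), fun a => ?_, fun x hx => ?_⟩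
  · have h1 : residue B (algebraMap A B a)
        = algebraMap (ResidueField A) (ResidueField B) (residue A a) := rfl
    rw [RingHom.comp_apply, h1]
    have h2 : f (algebraMap (ResidueField A) (ResidueField B) (residue A a))
        = algebraMap (ResidueField A) Ω (residue A a) := f.commutes _
    rw [AlgHom.coe_toRingHom, h2]
    rfl
  · rw [RingHom.comp_apply, (IsLocalRing.residue_eq_zero_iff x).mpr hx, map_zero]

end Fermat.Agent.P3.helper68
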