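import Fermat.Prelude.Def_GaloisRep_Adic

/-!
# P3 / WIRE (helper68): reduction of an adic Galois representation along a local ring hom
into a field
-/

set_option autoImplicit false
set_option linter.style.haveILetI false

namespace Fermat.Agent.P3.helper68

open Polynomial

/-- The reduction of `ρ : GaloisRepAdic A` along a local ring hom `j : A → k` into a field. -/
noncomputable def reduceAlong {A : Type} [CommRing A] [IsLocalRing A] (ρ : GaloisRepAdic A)
    {k : Type} [Field k] (j : A →+* k) (hj : IsLocalHom j) : ResidualGaloisRep k :=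
  (ρ.baseChangeAlong j hj).toResidualGaloisRep

theorem charpoly_reduceAlong {A : Type} [CommRing A] [IsLocalRing A] (ρ : GaloisRepAdic A)
    {k : Type} [Field k] (j : A →+* k) (hj : IsLocalHom j)
    (σ : AlgebraicClosure ℚ ≃ₐ[ℚ] AlgebraicClosure ℚ) :
    LinearMap.charpoly ((reduceAlong ρ j hj).ρ σ) = (LinearMap.charpoly (ρ.ρ σ)).map j := by
  letI : Algebra A k := j.toAlgebra
  exact LinearMap.charpoly_baseChange (ρ.ρ σ) k

theorem reduceAlong_eq_one {A : Type} [CommRing A] [IsLocalRing A] (ρ : GaloisRepAdic A)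
    {k : Type} [Field k] (j : A →+* k) (hj : IsLocalHom j)
    (σ : AlgebraicClosure ℚ ≃ₐ[ℚ] AlgebraicClosure ℚ) (h : ρ.ρ σ = 1) :
    (reduceAlong ρ j hj).ρ σ = 1 := by
  letI : Algebra A k := j.toAlgebra
  show (ρ.ρ σ).baseChange k = 1
  rw [h, LinearMap.baseChange_one]

theorem isUnramifiedAt_reduceAlong {A : Type} [CommRing A] [IsLocalRing A] (ρ : GaloisRepAdic A)
    {k : Type} [Field k] (j : A →+* k) (hj : IsLocalHom j) {q : ℕ} (h : ρ.IsUnramifiedAt q) :
    (reduceAlong ρ j hj).IsUnramifiedAt q :=
  fun P hP σ hσ => reduceAlong_eq_one ρ j hj σ (h P hP σ hσ)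

/-- The trivial two-dimensional representation. -/
noncomputable def trivialResidualRep (k : Type) [Field k] : ResidualGaloisRep k where
  V := Fin 2 → k
  finrank_eq := by simp
  ρ := 1
  factorsThroughFiniteLevel := ⟨⊥, inferInstance, fun _ _ => rfl⟩

end Fermat.Agent.P3.helper68
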