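import Fermat.Prelude.Def_CuspForm_HeckeGaloisRepDatum
import Fermat.Agent.P3.helper68_EigenField
import Fermat.Agent.P3.helper68_CompleteDVR
import Fermat.Agent.P3.helper68_Extend
import Fermat.Agent.P3.helper68_Residual

/-!
# P3 / WIRE (helper68): S29 from the frozen S30 statement

`S30Statement` is the type of the frozen statement S30, verbatim.  `s29_of_s30` derives the
frozen statement S29 from it (pure algebra: eigencharacter, completion of the ring of integers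
of the coefficient field at the prime cut out by `φ`, reduction).
-/

set_option autoImplicit false
set_option linter.style.haveILetI false

open Polynomial

namespace Fermat.Agent.P3.helper68

/-- The frozen statement S30, verbatim. -/
def S30Statement : Prop :=
    ∀ (p : ℕ) [Fact p.Prime] (N : ℕ) [NeZero N] (S : Finset ℕ)
      (_hpS : p ∈ S) (_hNS : ∀ q : ℕ, q.Prime → q ∣ N → q ∈ S)
      (𝒪' : Type) [CommRing 𝒪'] [IsDomain 𝒪'] [IsDiscreteValuationRing 𝒪']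
      [IsAdicComplete (IsLocalRing.maximalIdeal 𝒪') 𝒪'] [Finite (IsLocalRing.ResidueField 𝒪')]
      [CharZero 𝒪'] (_hp𝒪' : (p : 𝒪') ∈ IsLocalRing.maximalIdeal 𝒪')
      (χ : CuspForm.heckeAlgebra N 2 (↑S : Set ℕ) →+* 𝒪'),
      ∃ (𝒪'' : Type) (_ : CommRing 𝒪'') (_ : IsDomain 𝒪'') (_ : IsDiscreteValuationRing 𝒪'')
        (_ : IsAdicComplete (IsLocalRing.maximalIdeal 𝒪'') 𝒪'')
        (_ : Finite (IsLocalRing.ResidueField 𝒪'')) (_ : CharZero 𝒪'')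
        (_ : Algebra 𝒪' 𝒪'') (_ : Module.Finite 𝒪' 𝒪'') (_ : IsLocalHom (algebraMap 𝒪' 𝒪'')),
      Function.Injective (algebraMap 𝒪' 𝒪'') ∧
      ∃ ρ : GaloisRepAdic 𝒪'',
        (∀ (ℓ : ℕ) (hℓ : ℓ.Prime) (hℓN : ¬ ℓ ∣ N) (hℓS : ℓ ∉ (↑S : Set ℕ)),
          ∀ A : ValuationSubring (AlgebraicClosure ℚ), A.LiesOverPrime ℓ →
            ∀ σ : AlgebraicClosure ℚ ≃ₐ[ℚ] AlgebraicClosure ℚ, A.IsFrobeniusAt σ ℓ →
              LinearMap.charpoly (ρ.ρ σ) =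
                X ^ 2 - C (algebraMap 𝒪' 𝒪'' (χ (CuspForm.heckeAlgebra.T hℓ hℓN hℓS))) * X
                  + C ((ℓ : 𝒪''))) ∧
        (∀ q : ℕ, q.Prime → ¬ q ∣ N → q ≠ p → ρ.IsUnramifiedAt q)

/-- The frozen statement S29, verbatim. -/
def S29Statement : Prop :=
    ∀ {N : ℕ} {g : CuspForm (CongruenceSubgroup.Gamma0 N) 2} (_hg : g.IsNormalizedEigenform)
    {p : ℕ} (_hp : p.Prime) {k : Type} [Field k] [CharP k p]
    (φ : integralClosure ℤ ℂ →+* k),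
    ∃ ρ : ResidualGaloisRep k, ρ.IsAttachedTo g φ ∧
      ∀ ℓ : ℕ, ℓ.Prime → ¬ ℓ ∣ N * p → ρ.IsUnramifiedAt ℓ

attribute [local instance] Ideal.Quotient.field

/-- Existence of a complete DVR receiving the eigenvalues of `g`, with a compatible reduction
map to `ℤ̄ ⧸ ker φ`. -/
theorem exists_dvr_point {N : ℕ} [NeZero N] {g : CuspForm (CongruenceSubgroup.Gamma0 N) 2}
    (hg : g.IsNormalizedEigenform) (S : Set ℕ) {p : ℕ} (hp : p.Prime)
    (𝔪 : Ideal Zbar) [h𝔪 : 𝔪.IsMaximal] (hp𝔪 : (p : Zbar) ∈ 𝔪) :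
    ∃ (𝒪 : Type) (_ : CommRing 𝒪) (_ : IsDomain 𝒪) (_ : IsDiscreteValuationRing 𝒪)
      (_ : IsAdicComplete (IsLocalRing.maximalIdeal 𝒪) 𝒪)
      (_ : Finite (IsLocalRing.ResidueField 𝒪)) (_ : CharZero 𝒪)
      (χ : CuspForm.heckeAlgebra N 2 S →+* 𝒪) (r : 𝒪 →+* Zbar ⧸ 𝔪),
      (∀ t, r (χ t) = Ideal.Quotient.mk 𝔪 (eigenChar S hg t)) ∧
      (∀ x ∈ IsLocalRing.maximalIdeal 𝒪, r x = 0) ∧
      (p : 𝒪) ∈ IsLocalRing.maximalIdeal 𝒪 := by
  haveI : Module.Finite ℤ (CuspForm.heckeAlgebra N 2 S) := Fermat.Agent.S22.result N 2 S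
  obtain ⟨K, hKfin, hK⟩ :=
    exists_numberField_of_fg (eigenCharC S hg) (isIntegral_eigenCharC S hg)
  haveI : NumberField K := { to_charZero := inferInstance, to_finiteDimensional := hKfin }
  let χK : CuspForm.heckeAlgebra N 2 S →+* NumberField.RingOfIntegers K :=
    toRingOfIntegers K (eigenCharC S hg) (isIntegral_eigenCharC S hg) hK
  let ι : NumberField.RingOfIntegers K →+* Zbar := ringOfIntegersToZbar K
  have hι : ∀ t, ι (χK t) = eigenChar S hg t := fun t => Subtype.ext rfl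
  let 𝔭 : Ideal (NumberField.RingOfIntegers K) := 𝔪.comap ι
  haveI h𝔭prime : 𝔭.IsPrime := Ideal.comap_isPrime ι 𝔪
  have hp𝔭 : (p : NumberField.RingOfIntegers K) ∈ 𝔭 := by
    show ι (p : NumberField.RingOfIntegers K) ∈ 𝔪
    rw [map_natCast]; exact hp𝔪
  have h0 : 𝔭 ≠ ⊥ := by
    intro h
    rw [h, Ideal.mem_bot] at hp𝔭
    exact hp.ne_zero (by exact_mod_cast hp𝔭)
  haveI h𝔭max : 𝔭.IsMaximal := h𝔭prime.isMaximal h0
  haveI : Finite (NumberField.RingOfIntegers K ⧸ 𝔭) := Ideal.finiteQuotientOfFreeOfNeBot 𝔭 h0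
  obtain ⟨𝒪, i1, i2, i3, i4, i5, i6, f, r, hrf, hrm⟩ :=
    exists_completeDVR (NumberField.RingOfIntegers K) 𝔭 h0
  let θ : NumberField.RingOfIntegers K ⧸ 𝔭 →+* Zbar ⧸ 𝔪 :=
    Ideal.quotientMap 𝔪 ι (le_refl _)
  refine ⟨𝒪, i1, i2, i3, i4, i5, i6, f.comp χK, θ.comp r, ?_, ?_, ?_⟩
  · intro t
    rw [RingHom.comp_apply, RingHom.comp_apply, hrf, Ideal.quotientMap_mk, hι]
  · intro x hx
    rw [RingHom.comp_apply, hrm x hx, map_zero]
  · by_contra hcon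
    have hu : IsUnit ((p : 𝒪)) := by
      by_contra h
      exact hcon ((IsLocalRing.mem_maximalIdeal _).mpr h)
    have h1 : r (p : 𝒪) = 0 := by
      have : (p : 𝒪) = f (p : NumberField.RingOfIntegers K) := (map_natCast f p).symm
      rw [this, hrf, Ideal.Quotient.eq_zero_iff_mem]
      exact hp𝔭
    have h2 : IsUnit (r (p : 𝒪)) := hu.map r
    rw [h1] at h2
    exact not_isUnit_zero h2

/-- **S29 from S30.** -/
theorem s29_of_s30 (h30 : S30Statement) : S29Statement := by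
  intro N g hg p hp k _ _ φ
  rcases Nat.eq_zero_or_pos N with hN | hN
  · -- level `0`: both conditions are vacuous
    subst hN
    refine ⟨trivialResidualRep k, ?_, ?_⟩
    · intro ℓ _ hℓN
      exact absurd (dvd_zero ℓ) hℓN
    · intro ℓ _ hℓ
      rw [zero_mul] at hℓ
      exact absurd (dvd_zero ℓ) hℓ
  haveI : NeZero N := ⟨hN.ne'⟩
  haveI : Fact p.Prime := ⟨hp⟩
  let S : Finset ℕ := insert p N.primeFactors
  have hpS : p ∈ S := Finset.mem_insert_self p _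
  have hNS : ∀ q : ℕ, q.Prime → q ∣ N → q ∈ S := fun q hq hqN =>
    Finset.mem_insert_of_mem (Nat.mem_primeFactors.mpr ⟨hq, hqN, hN.ne'⟩)
  have hnotS : ∀ ℓ : ℕ, ℓ.Prime → ¬ ℓ ∣ N → ℓ ≠ p → ℓ ∉ (↑S : Set ℕ) := by
    intro ℓ _ hℓN hℓp hmem
    rcases Finset.mem_insert.mp (Finset.mem_coe.mp hmem) with h | h
    · exact hℓp h
    · exact hℓN (Nat.dvd_of_mem_primeFactors h)
  -- the maximal ideal cut out by `φ`
  let 𝔪 : Ideal Zbar := RingHom.ker φ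
  haveI h𝔪 : 𝔪.IsMaximal := ker_isMaximal hp φ
  have hp𝔪 : (p : Zbar) ∈ 𝔪 := by
    show φ (p : Zbar) = 0
    rw [map_natCast]; exact CharP.cast_eq_zero k p
  haveI : IsAlgClosed (Zbar ⧸ 𝔪) := isAlgClosed_quotient 𝔪
  -- the complete DVR
  obtain ⟨𝒪, i1, i2, i3, i4, i5, i6, χ, r, hrχ, hrm, hp𝒪⟩ :=
    exists_dvr_point hg (↑S : Set ℕ) hp 𝔪 hp𝔪
  -- apply S30
  obtain ⟨𝒪'', j1, j2, j3, j4, j5, j6, j7, j8, j9, -, ρ, hchar, hunr⟩ :=
    h30 p N S hpS hNS 𝒪 hp𝒪 χ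
  -- extend the reduction map
  obtain ⟨j₀, hj₀, hj₀m⟩ := exists_extension_of_isAlgClosed (A := 𝒪) (B := 𝒪'') r hrm
  let κ : Zbar ⧸ 𝔪 →+* k := RingHom.kerLift φ
  have hκ : Function.Injective κ := RingHom.kerLift_injective φ
  let j : 𝒪'' →+* k := κ.comp j₀
  have hjm : ∀ x ∈ IsLocalRing.maximalIdeal 𝒪'', j x = 0 := fun x hx => by
    rw [RingHom.comp_apply, hj₀m x hx, map_zero]
  have hj : IsLocalHom j := isLocalHom_of_maximalIdeal_le_ker j hjm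
  have hjχ : ∀ t, j (algebraMap 𝒪 𝒪'' (χ t)) = φ (eigenChar (↑S : Set ℕ) hg t) := by
    intro t
    rw [RingHom.comp_apply, hj₀, hrχ]
    exact RingHom.kerLift_mk φ _
  refine ⟨reduceAlong ρ j hj, ?_, ?_⟩
  · intro ℓ hℓ hℓN hℓk A hA σ hσ
    have hℓp : ℓ ≠ p := by
      rintro rfl
      exact hℓk (CharP.cast_eq_zero k ℓ)
    have hℓS := hnotS ℓ hℓ hℓN hℓp
    refine ⟨eigenChar (↑S : Set ℕ) hg (CuspForm.heckeAlgebra.T hℓ hℓN hℓS),
      coe_eigenChar_T (↑S : Set ℕ) hg hℓ hℓN hℓS, ?_⟩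
    rw [charpoly_reduceAlong, hchar ℓ hℓ hℓN hℓS A hA σ hσ]
    simp only [Polynomial.map_add, Polynomial.map_sub, Polynomial.map_mul, Polynomial.map_pow,
      Polynomial.map_X, Polynomial.map_C, hjχ, map_natCast, Polynomial.map_natCast]
  · intro ℓ hℓ hℓNp
    have hℓN : ¬ ℓ ∣ N := fun h => hℓNp (Dvd.dvd.mul_right h p)
    have hℓp : ℓ ≠ p := by
      rintro rfl
      exact hℓNp (Dvd.intro_left N rfl)
    exact isUnramifiedAt_reduceAlong ρ j hj (hunr ℓ hℓ hℓN hℓp)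

end Fermat.Agent.P3.helper68
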