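import Fermat.Prelude.Def_FreyPackage_EigenformResidualAttachment
import Fermat.Agent.P3.helper68_Wire29
import Fermat.Agent.S13.helper64_TorsionCount
import Fermat.Agent.S13.helper38_Assembly
import Fermat.Agent.S04.Wiring

/-!
# P3 / WIRE (helper68): S42 from the frozen S29 statement
-/

set_option autoImplicit false
set_option linter.style.haveILetI false

open Polynomial WeierstrassCurve WeierstrassCurve.Affine WeierstrassCurve.Affine.Point

namespace Fermat.Agent.P3.helper68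

/-- The frozen statement S42, verbatim. -/
def S42Statement : Prop :=
  ∀ (P : FreyPackage), ∀ M : ℕ, 0 < M → P.EigenformResidualAttachmentAt M

/-- `ℚ̄`. -/
local notation "Kbar" => AlgebraicClosure ℚ
/-- The absolute Galois group of `ℚ`. -/
local notation "GQ" => (AlgebraicClosure ℚ ≃ₐ[ℚ] AlgebraicClosure ℚ)

/-- The `p`-torsion representation of the Frey curve factors through a finite level. -/
theorem frey_factorsThroughFiniteLevel (P : FreyPackage) :
    GaloisFactorsThroughFiniteLevel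
      (galoisRepModuleEnd (S := ℚ) (K := AlgebraicClosure ℚ) P.freyCurve P.p) := by
  have hΔ : P.freyCurve.Δ ≠ 0 := by
    rw [← Fermat.Agent.S04.freyCurveInt_map, WeierstrassCurve.map_Δ]
    simpa using Fermat.Agent.S04.freyCurveInt_Δ_ne_zero P
  have hΔ' : (P.freyCurve.map (algebraMap ℚ Kbar)).Δ ≠ 0 := by
    rw [WeierstrassCurve.map_Δ]
    exact fun h => hΔ ((map_eq_zero_iff _ (algebraMap ℚ Kbar).injective).1 h)
  have hpF : ((P.p : ℕ) : Kbar) ≠ 0 := by
    have := P.hp0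
    exact_mod_cast this
  obtain ⟨-, hfin, -⟩ := Fermat.Agent.S13.helper64.torsionBy_small
    (P.freyCurve.map (algebraMap ℚ Kbar)) hΔ' P.hp_odd P.pp.one_lt hpF
  haveI : Finite (Fermat.Agent.S13.helper38.Tors P.freyCurve P.p) := hfin
  let Sset : Set Kbar :=
    ⋃ x : Fermat.Agent.S13.helper38.Tors P.freyCurve P.p,
      Fermat.Agent.S13.helper38.coords P.freyCurve x.1
  have hSfin : Sset.Finite :=
    Set.finite_iUnion (fun x => Fermat.Agent.S13.helper38.coords_finite P.freyCurve x.1)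
  haveI : Finite Sset := hSfin
  refine ⟨IntermediateField.adjoin ℚ Sset,
    IntermediateField.finiteDimensional_adjoin
      (fun x _ => Fermat.Agent.S13.helper38.isIntegral_Kbar x), fun σ hσ => ?_⟩
  refine LinearMap.ext fun x => ?_
  rw [galoisRepModuleEnd_apply, Module.End.one_apply]
  apply Subtype.ext
  show σ • (x : (P.freyCurve.toAffine⁄Kbar).Point) = x
  apply Fermat.Agent.S13.helper38.smul_eq_self_of_fix
  intro z hz
  exact hσ z (IntermediateField.subset_adjoin ℚ Sset (Set.mem_iUnion.mpr ⟨x, hz⟩))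

/-- `ℚ̄ / ℚ` is normal, for the instance found by instance resolution. -/
theorem normal_Kbar : Normal ℚ Kbar := by
  have h : (DivisionRing.toRatAlgebra : Algebra ℚ Kbar) = AlgebraicClosure.instAlgebra ℚ :=
    Subsingleton.elim _ _
  have h2 : @Normal ℚ Kbar _ _ (AlgebraicClosure.instAlgebra ℚ) := inferInstance
  rw [← h] at h2
  exact h2

/-- The trace of an endomorphism with characteristic polynomial `X ^ 2 - a X + d`. -/
theorem trace_of_charpoly {K V : Type*} [Field K] [AddCommGroup V] [Module K V]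
    [Module.Finite K V] (f : V →ₗ[K] V) (a d : K)
    (h : LinearMap.charpoly f = X ^ 2 - C a * X + C d) : LinearMap.trace K V f = a := by
  classical
  let b := Module.finBasis K V
  have hdeg : (X ^ 2 - C a * X + C d : K[X]).natDegree = 2 := by compute_degree!
  rw [LinearMap.trace_eq_matrix_trace K b, Matrix.trace_eq_neg_charpoly_nextCoeff,
    LinearMap.charpoly_toMatrix, h, Polynomial.nextCoeff, hdeg]
  simp [Polynomial.coeff_X, Polynomial.coeff_C]

attribute [local instance] Ideal.Quotient.field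

/-- **S42 from S29.** -/
theorem s42_of_s29 (h29 : S29Statement) : S42Statement := by
  intro P M _ g hg 𝔪 h𝔪 hp𝔪
  haveI := h𝔪
  have hp0 : ((P.p : ℕ) : Zbar ⧸ 𝔪) = 0 := by
    rw [← map_natCast (Ideal.Quotient.mk 𝔪)]
    exact Ideal.Quotient.eq_zero_iff_mem.mpr hp𝔪
  haveI : CharP (Zbar ⧸ 𝔪) P.p := (CharP.charP_iff_prime_eq_zero P.pp).mpr hp0
  obtain ⟨ρ, hatt, -⟩ := h29 hg P.pp (Ideal.Quotient.mk 𝔪)
  obtain ⟨L₁, hL₁fin, hL₁⟩ := ρ.factorsThroughFiniteLevel
  obtain ⟨L₂, hL₂fin, hL₂⟩ := frey_factorsThroughFiniteLevel P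
  haveI := hL₁fin
  haveI := hL₂fin
  haveI : FiniteDimensional ℚ (L₁ ⊔ L₂ : IntermediateField ℚ Kbar) :=
    IntermediateField.finiteDimensional_sup L₁ L₂
  haveI := normal_Kbar
  let F : IntermediateField ℚ Kbar := IntermediateField.normalClosure ℚ ↥(L₁ ⊔ L₂) Kbar
  haveI hFfin : FiniteDimensional ℚ F := normalClosure.is_finiteDimensional ℚ ↥(L₁ ⊔ L₂) Kbar
  haveI hFnormal : Normal ℚ F := normalClosure.normal ℚ ↥(L₁ ⊔ L₂) Kbar
  have hLF : L₁ ⊔ L₂ ≤ F := IntermediateField.le_normalClosure (L₁ ⊔ L₂)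
  haveI hFnf : NumberField F :=
    { to_charZero := inferInstance, to_finiteDimensional := inferInstance }
  haveI hFgal : IsGalois ℚ F := ⟨⟩
  have hfix : ∀ σ : GQ, σ ∈ (AlgEquiv.restrictNormalHom (F := ℚ) (K₁ := Kbar) F).ker →
      ∀ x ∈ F, σ x = x := by
    intro σ hσ x hx
    have h1 : AlgEquiv.restrictNormalHom (F := ℚ) (K₁ := Kbar) F σ = 1 := hσ
    have h2 := AlgEquiv.restrictNormal_commutes σ F ⟨x, hx⟩
    have h3 : σ.restrictNormal F = 1 := h1
    rw [h3] at h2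
    exact h2.symm
  have hℓK : ∀ ℓ : ℕ, ℓ.Prime → ℓ ≠ P.p → ((ℓ : ℕ) : Zbar ⧸ 𝔪) ≠ 0 := by
    intro ℓ hℓ hℓp h0
    have hdvd : P.p ∣ ℓ := (CharP.cast_eq_zero_iff (Zbar ⧸ 𝔪) P.p ℓ).mp h0
    exact hℓp ((Nat.prime_dvd_prime_iff_eq P.pp hℓ).mp hdvd).symm
  refine ⟨Zbar ⧸ 𝔪, inferInstance, ZMod.algebra (Zbar ⧸ 𝔪) P.p, ρ.V, inferInstance, inferInstance,
    ρ.ρ, Ideal.Quotient.mk 𝔪, F, inferInstance, hFnf, hFgal, inferInstance, inferInstance,
    ?_, ρ.finrank_eq, ?_, ?_, ?_⟩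
  · rw [Ideal.mk_ker]
  · intro σ hσ
    have hσF := hfix σ hσ
    refine Subgroup.mem_inf.mpr ⟨?_, ?_⟩
    · exact MonoidHom.mem_ker.mpr
        (hL₂ σ fun x hx => hσF x (hLF (le_sup_right (a := L₁) hx)))
    · exact MonoidHom.mem_ker.mpr
        (hL₁ σ fun x hx => hσF x (hLF (le_sup_left (b := L₂) hx)))
  · intro ℓ hℓ hℓM hℓp A hA τ hτ
    obtain ⟨a, ha, hchar⟩ := hatt ℓ hℓ hℓM (hℓK ℓ hℓ hℓp) A hA τ hτ
    exact ⟨a, ha, trace_of_charpoly (ρ.ρ τ) _ _ hchar⟩
  · intro ℓ hℓ hℓM hℓp A hA τ hτ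
    obtain ⟨a, -, hchar⟩ := hatt ℓ hℓ hℓM (hℓK ℓ hℓ hℓp) A hA τ hτ
    have h1 := LinearMap.det_eq_sign_charpoly_coeff (ρ.ρ τ)
    rw [h1, ρ.finrank_eq, hchar]
    simp [Polynomial.coeff_X, Polynomial.coeff_C]
    norm_num

end Fermat.Agent.P3.helper68
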